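import Fermat.Prelude.Def_FLTPrelim_Ramification
import Mathlib.RingTheory.Algebraic.Integral
import Mathlib.FieldTheory.Minpoly.Field
import Mathlib.NumberTheory.Padics.PadicVal.Basic
import Mathlib.Algebra.Algebra.Rat
import Mathlib.Tactic.Linarith
import Mathlib.Tactic.LinearCombination
import Mathlib.Tactic.FieldSimp

/-!
# The `ℚ`-valued order at a place over `q` of an algebraic extension of `ℚ`

`ord A q x` is normalised by `ord A q q = 1`; `Ge A q x r` means `r ≤ ord x` (true for `x = 0`),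
`Gt A q x r` is strict and `Is A q x r` means `x ≠ 0` of order exactly `r`.
-/

set_option autoImplicit false
set_option linter.unusedSectionVars false

open Polynomial

namespace Fermat.EC.Val

variable {L : Type*} [Field L] [CharZero L] (A : ValuationSubring L) (q : ℕ)

/-- A place over the prime `q`. -/
def IsPlace : Prop := q.Prime ∧ A.LiesOverPrime q

variable {A q}

/-- The prime `q` has valuation less than one. -/
lemma IsPlace.v_q_lt_one (h : IsPlace A q) : A.valuation (q : L) < 1 :=
  (ValuationSubring.mem_nonunits_iff _).mp h.2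

/-- The prime `q` has nonzero valuation. -/
lemma IsPlace.v_q_pos (h : IsPlace A q) : 0 < A.valuation (q : L) :=
  zero_lt_iff.mpr (by simp [h.1.ne_zero])

/-- An integer prime to `q` has valuation one. -/
lemma IsPlace.v_int_eq_one (h : IsPlace A q) {a : ℤ} (ha : ¬ (q : ℤ) ∣ a) :
    A.valuation (a : L) = 1 := by
  have hle : ∀ z : ℤ, A.valuation (z : L) ≤ 1 := fun z =>
    (A.valuation_le_one_iff _).mpr (intCast_mem A z)
  refine le_antisymm (hle a) (le_of_not_gt fun hlt => ?_)
  have hco : IsCoprime a (q : ℤ) :=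
    ((Int.prime_iff_natAbs_prime.mpr (by simpa using h.1)).coprime_iff_not_dvd.mpr ha).symm
  obtain ⟨u, w, e⟩ := hco
  have e' : ((u * a + w * (q : ℤ) : ℤ) : L) = 1 := by rw [e]; simp
  have : A.valuation ((u : L) * a + (w : L) * q) < 1 := by
    apply Valuation.map_add_lt
    · rw [map_mul]; exact (mul_le_of_le_one_left' (hle u)).trans_lt hlt
    · rw [map_mul]; exact (mul_le_of_le_one_left' (hle w)).trans_lt h.v_q_lt_one
  push_cast at e'
  rw [e', map_one] at this
  exact lt_irrefl _ this

/-- A nonzero integer has the valuation of its `q`-part. -/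
lemma IsPlace.v_int (h : IsPlace A q) {a : ℤ} (ha : a ≠ 0) :
    A.valuation (a : L) = A.valuation (q : L) ^ (padicValInt q a) := by
  have := Fact.mk h.1
  obtain ⟨b, hb, e⟩ : ∃ b : ℤ, ¬ (q : ℤ) ∣ b ∧ a = (q : ℤ) ^ padicValInt q a * b := by
    obtain ⟨b, hb⟩ := padicValInt_dvd (p := q) a
    refine ⟨b, fun hd => ?_, hb⟩
    obtain ⟨c, rfl⟩ := hd
    have : (q : ℤ) ^ (padicValInt q a + 1) ∣ a := ⟨c, by
      conv_lhs => rw [hb]
      ring⟩
    rw [padicValInt_dvd_iff] at this
    omega
  conv_lhs => rw [e]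
  push_cast
  rw [map_mul, map_pow, h.v_int_eq_one hb, mul_one]

/-- A nonzero rational has the valuation of its `q`-part. -/
lemma IsPlace.v_rat (h : IsPlace A q) {a : ℚ} (ha : a ≠ 0) :
    A.valuation (a : L) = A.valuation (q : L) ^ padicValRat q a := by
  have := Fact.mk h.1
  have hd : (a.den : ℤ) ≠ 0 := by exact_mod_cast a.den_nz
  have hnum : a.num ≠ 0 := Rat.num_ne_zero.mpr ha
  rw [show (a : L) = (a.num : L) / ((a.den : ℤ) : L) by rw [Rat.cast_def, Int.cast_natCast],
    map_div₀, h.v_int hnum, h.v_int hd, padicValRat, zpow_sub₀ h.v_q_pos.ne', zpow_natCast,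
    zpow_natCast, padicValInt, padicValInt]
  simp

variable [Algebra.IsAlgebraic ℚ L]

/-- The valuation of a nonzero element has a positive power equal to that of a power of `q`. -/
theorem exists_pow_eq (h : IsPlace A q) {x : L} (hx : x ≠ 0) :
    ∃ ef : ℕ × ℤ, 0 < ef.1 ∧ A.valuation x ^ ef.1 = A.valuation (q : L) ^ ef.2 := by
  classical
  have hint : IsIntegral ℚ x := (Algebra.IsAlgebraic.isAlgebraic x).isIntegral
  set P := minpoly ℚ x with hP
  have hP0 : P ≠ 0 := minpoly.ne_zero hint
  set t : ℕ → L := fun i => algebraMap ℚ L (P.coeff i) * x ^ i with ht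
  have hsum : ∑ i ∈ P.support, t i = 0 := by
    have := minpoly.aeval ℚ x
    rwa [← hP, aeval_def, eval₂_eq_sum] at this
  have htne : ∀ i ∈ P.support, A.valuation (t i) ≠ 0 := fun i hi => by
    simp [ht, mem_support_iff.mp hi, hx]
  obtain ⟨i, hi, hmax⟩ :=
    Finset.exists_max_image P.support (fun i => A.valuation (t i)) (support_nonempty.mpr hP0)
  have : ∃ j ∈ P.support, j ≠ i ∧ A.valuation (t j) = A.valuation (t i) := by
    by_contra hc
    push Not at hc
    have := Valuation.map_sum_eq_of_lt (v := A.valuation) hi (fun j hj => by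
      rw [Finset.mem_sdiff, Finset.mem_singleton] at hj
      exact lt_of_le_of_ne (hmax j hj.1) (hc j hj.1 hj.2))
    rw [hsum, map_zero] at this
    exact htne i hi this.symm
  -- two terms of the minimal relation share the largest valuation
  obtain ⟨j, hj, hne, heq⟩ := this
  set a := padicValRat q (P.coeff i)
  set b := padicValRat q (P.coeff j)
  have hcast : ∀ r : ℚ, algebraMap ℚ L r = (r : L) := fun r => eq_ratCast _ r
  simp only [ht, map_mul, map_pow, hcast, h.v_rat (mem_support_iff.mp hi),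
    h.v_rat (mem_support_iff.mp hj)] at heq
  have hv := h.v_q_pos.ne'
  have hvx : A.valuation x ≠ 0 := by simp [hx]
  have e : A.valuation x ^ ((j : ℤ) - i) = A.valuation (q : L) ^ (a - b) := by
    rw [zpow_sub₀ hvx, zpow_natCast, zpow_natCast, zpow_sub₀ hv,
      div_eq_div_iff (pow_ne_zero _ hvx) (zpow_ne_zero _ hv), mul_comm (A.valuation x ^ j),
      heq, mul_comm]
  rcases lt_or_gt_of_ne hne with hlt | hlt
  · refine ⟨(i - j, b - a), by simp; omega, ?_⟩
    rw [← zpow_natCast, show ((i - j : ℕ) : ℤ) = -((j : ℤ) - i) by omega, zpow_neg, e, ← zpow_neg]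
    congr 1; ring
  · refine ⟨(j - i, a - b), by simp; omega, ?_⟩
    rw [← zpow_natCast, show ((j - i : ℕ) : ℤ) = ((j : ℤ) - i) by omega, e]

open Classical in
/-- Order at the place `A`, normalised so that `ord q = 1`. Junk value `0` at `0`. -/
noncomputable def ord (A : ValuationSubring L) (q : ℕ) (x : L) : ℚ :=
  if h : IsPlace A q ∧ x ≠ 0 then
    ((exists_pow_eq h.1 h.2).choose.2 : ℚ) / ((exists_pow_eq h.1 h.2).choose.1 : ℚ) else 0

/-- If `v x ^ e = v q ^ f` with `e > 0` then `ord x = f / e`. -/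
lemma ord_of_pow_eq (h : IsPlace A q) {x : L} (hx : x ≠ 0) {e : ℕ} {f : ℤ} (he : 0 < e)
    (hef : A.valuation x ^ e = A.valuation (q : L) ^ f) : ord A q x = (f : ℚ) / e := by
  rw [ord, dif_pos ⟨h, hx⟩]
  obtain ⟨he', hef'⟩ := (exists_pow_eq h hx).choose_spec
  set e' := (exists_pow_eq h hx).choose.1
  set f' := (exists_pow_eq h hx).choose.2
  have : f' * e = f * e' := by
    apply zpow_right_injective₀ h.v_q_pos h.v_q_lt_one.ne
    simp only [zpow_mul, zpow_natCast]
    rw [← hef, ← hef', ← pow_mul, ← pow_mul, mul_comm]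
  rw [div_eq_div_iff (by positivity) (by positivity)]
  exact_mod_cast this

/-- The order of a nonzero element is `f / e` for some `v x ^ e = v q ^ f`. -/
lemma ord_spec (h : IsPlace A q) {x : L} (hx : x ≠ 0) : ∃ (e : ℕ) (f : ℤ), 0 < e ∧
    A.valuation x ^ e = A.valuation (q : L) ^ f ∧ ord A q x = (f : ℚ) / e := by
  obtain ⟨⟨e, f⟩, he, hef⟩ := exists_pow_eq h hx
  exact ⟨e, f, he, hef, ord_of_pow_eq h hx he hef⟩

/-- The order is additive on products. -/
lemma ord_mul (h : IsPlace A q) {x y : L} (hx : x ≠ 0) (hy : y ≠ 0) :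
    ord A q (x * y) = ord A q x + ord A q y := by
  obtain ⟨e, f, he, hef, hox⟩ := ord_spec h hx
  obtain ⟨e', f', he', hef', hoy⟩ := ord_spec h hy
  rw [hox, hoy, ord_of_pow_eq h (mul_ne_zero hx hy) (Nat.mul_pos he he')
    (f := f * e' + f' * e) ?_]
  · push_cast; field_simp
  · rw [map_mul, mul_pow, zpow_add₀ h.v_q_pos.ne', zpow_mul, zpow_mul, zpow_natCast, zpow_natCast,
      ← hef, ← hef', ← pow_mul, ← pow_mul, mul_comm e' e]

/-- `ord 1 = 0`. -/
@[simp] lemma ord_one (h : IsPlace A q) : ord A q (1 : L) = 0 := by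
  rw [ord_of_pow_eq h one_ne_zero one_pos (f := 0) (by simp)]; simp

/-- `ord q = 1`. -/
@[simp] lemma ord_q (h : IsPlace A q) : ord A q (q : L) = 1 := by
  rw [ord_of_pow_eq h (by simp [h.1.ne_zero]) one_pos (f := 1) (by simp)]; simp

/-- `ord (-x) = ord x`. -/
lemma ord_neg (h : IsPlace A q) (x : L) : ord A q (-x) = ord A q x := by
  rcases eq_or_ne x 0 with rfl | hx
  · simp
  obtain ⟨e, f, he, hef, hox⟩ := ord_spec h hx
  rw [hox, ord_of_pow_eq h (neg_ne_zero.mpr hx) he (by rwa [Valuation.map_neg])]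

/-- A larger valuation is a smaller order. -/
lemma v_le_iff (h : IsPlace A q) {x y : L} (hx : x ≠ 0) (hy : y ≠ 0) :
    A.valuation x ≤ A.valuation y ↔ ord A q y ≤ ord A q x := by
  obtain ⟨e, f, he, hef, hox⟩ := ord_spec h hx
  obtain ⟨e', f', he', hef', hoy⟩ := ord_spec h hy
  rw [hox, hoy, div_le_div_iff₀ (by positivity) (by positivity),
    ← pow_le_pow_iff_left₀ zero_le zero_le (mul_ne_zero he.ne' he'.ne'),
    pow_mul, hef, mul_comm e e', pow_mul, hef', ← zpow_natCast, ← zpow_natCast, ← zpow_mul,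
    ← zpow_mul, zpow_le_zpow_iff_right_of_lt_one₀ h.v_q_pos h.v_q_lt_one]
  constructor <;> intro hh <;> exact_mod_cast hh

/-- The integers at the place are the elements of nonnegative order. -/
lemma mem_iff_ord (h : IsPlace A q) {x : L} (hx : x ≠ 0) : x ∈ A ↔ 0 ≤ ord A q x := by
  rw [← A.valuation_le_one_iff, ← map_one A.valuation, v_le_iff h hx one_ne_zero, ord_one h]

/-- The non-units at the place are the elements of positive order. -/
lemma nonunit_iff_ord (h : IsPlace A q) {x : L} (hx : x ≠ 0) :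
    x ∈ A.nonunits ↔ 0 < ord A q x := by
  rw [A.mem_nonunits_iff, lt_iff_not_ge, ← map_one A.valuation, v_le_iff h one_ne_zero hx,
    ord_one h, not_le]

/-- `ord (x + y) ≥ min (ord x) (ord y)`. -/
lemma ord_add (h : IsPlace A q) {x y : L} (hx : x ≠ 0) (hy : y ≠ 0) (hxy : x + y ≠ 0) :
    min (ord A q x) (ord A q y) ≤ ord A q (x + y) := by
  have := A.valuation.map_add x y
  rcases le_max_iff.mp this with h' | h'
  · exact (min_le_left _ _).trans ((v_le_iff h hxy hx).mp h')
  · exact (min_le_right _ _).trans ((v_le_iff h hxy hy).mp h')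

/-- `ord x⁻¹ = -ord x`. -/
lemma ord_inv (h : IsPlace A q) (x : L) : ord A q x⁻¹ = -ord A q x := by
  rcases eq_or_ne x 0 with rfl | hx
  · simp [ord]
  · have := ord_mul h hx (inv_ne_zero hx)
    rw [mul_inv_cancel₀ hx, ord_one h] at this
    linarith

/-- `ord xⁿ = n ord x`. -/
lemma ord_pow (h : IsPlace A q) (x : L) (n : ℕ) : ord A q (x ^ n) = n * ord A q x := by
  rcases eq_or_ne x 0 with rfl | hx
  · rcases n with _ | n
    · simp [h]
    · simp [ord]
  induction n with
  | zero => simp [h]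
  | succ n ih => rw [pow_succ, ord_mul h (pow_ne_zero _ hx) hx, ih]; push_cast; ring

/-- `ord xⁿ = n ord x` for integral `n`. -/
lemma ord_zpow (h : IsPlace A q) (x : L) (n : ℤ) : ord A q (x ^ n) = n * ord A q x := by
  rcases n with n | n
  · simp [ord_pow h]
  · rw [zpow_negSucc, ord_inv h, ord_pow h, Int.cast_negSucc]; push_cast; ring

/-- The order of an integer is its `q`-adic valuation. -/
lemma ord_intCast (h : IsPlace A q) {a : ℤ} (ha : a ≠ 0) :
    ord A q (a : L) = padicValInt q a := by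
  rw [ord_of_pow_eq h (Int.cast_ne_zero.mpr ha) one_pos (f := padicValInt q a)
    (by rw [pow_one, h.v_int ha, zpow_natCast])]
  simp

/-- The order of a rational number is its `q`-adic valuation. -/
lemma ord_ratCast (h : IsPlace A q) {r : ℚ} (hr : r ≠ 0) :
    ord A q (r : L) = (padicValRat q r : ℚ) := by
  rw [ord_of_pow_eq h (Rat.cast_ne_zero.mpr hr) one_pos (f := padicValRat q r)
    (by rw [pow_one, h.v_rat hr])]
  simp

/-! ### order predicates -/

variable (A q) in
/-- `r ≤ ord x`, including `x = 0`. -/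
def Ge (x : L) (r : ℚ) : Prop := x = 0 ∨ r ≤ ord A q x

variable (A q) in
/-- `r < ord x`, including `x = 0`. -/
def Gt (x : L) (r : ℚ) : Prop := x = 0 ∨ r < ord A q x

variable (A q) in
/-- `ord x = r`, `x ≠ 0`. -/
def Is (x : L) (r : ℚ) : Prop := x ≠ 0 ∧ ord A q x = r

/-- Zero has order at least any bound. -/
lemma ge_zero {r : ℚ} : Ge A q (0 : L) r := Or.inl rfl
/-- Zero has order above any bound. -/
lemma gt_zero {r : ℚ} : Gt A q (0 : L) r := Or.inl rfl

/-- Integrality at the place is `Ge _ 0`. -/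
lemma mem_iff_ge (h : IsPlace A q) (x : L) : x ∈ A ↔ Ge A q x 0 := by
  rcases eq_or_ne x 0 with rfl | hx
  · simp [Ge, zero_mem]
  · simp [Ge, hx, mem_iff_ord h hx]

/-- Being a non-unit at the place is `Gt _ 0`. -/
lemma nonunit_iff_gt (h : IsPlace A q) (x : L) : x ∈ A.nonunits ↔ Gt A q x 0 := by
  rcases eq_or_ne x 0 with rfl | hx
  · simp [Gt, zero_mem]
  · simp [Gt, hx, nonunit_iff_ord h hx]

/-- A strict bound gives a bound. -/
lemma Gt.ge {x : L} {r : ℚ} (hx : Gt A q x r) : Ge A q x r := hx.imp id le_of_lt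
/-- An exact order gives a bound. -/
lemma Is.ge {x : L} {r : ℚ} (hx : Is A q x r) : Ge A q x r := Or.inr hx.2.ge
/-- A bound gives every smaller bound. -/
lemma Ge.mono {x : L} {r s : ℚ} (hx : Ge A q x r) (hs : s ≤ r) : Ge A q x s := hx.imp id hs.trans
/-- A strict bound gives every smaller strict bound. -/
lemma Gt.mono {x : L} {r s : ℚ} (hx : Gt A q x r) (hs : s ≤ r) : Gt A q x s :=
  hx.imp id hs.trans_lt
/-- A bound gives every smaller bound strictly. -/
lemma Ge.gt {x : L} {r s : ℚ} (hx : Ge A q x r) (hs : s < r) : Gt A q x s :=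
  hx.imp id hs.trans_le
/-- An exact order gives every smaller bound strictly. -/
lemma Is.gt {x : L} {r s : ℚ} (hx : Is A q x r) (hs : s < r) : Gt A q x s := hx.ge.gt hs
/-- An exact order is not exceeded. -/
lemma Is.not_gt {x : L} {r : ℚ} (hx : Is A q x r) : ¬ Gt A q x r := by
  rintro (h | h)
  · exact hx.1 h
  · exact h.ne' hx.2
/-- The exact order is unique. -/
lemma Is.unique {x : L} {r s : ℚ} (hx : Is A q x r) (hy : Is A q x s) : r = s :=
  hx.2.symm.trans hy.2
/-- A lower bound is at most the exact order. -/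
lemma Is.le_of_ge {x : L} {r s : ℚ} (hx : Is A q x r) (hy : Ge A q x s) : s ≤ r :=
  hx.2 ▸ hy.resolve_left hx.1
/-- A bound which is not strict is exact. -/
lemma Ge.is_of_not_gt {x : L} {r : ℚ} (hx : Ge A q x r) (hn : ¬ Gt A q x r) : Is A q x r := by
  rw [Gt, not_or, not_lt] at hn
  exact ⟨hn.1, le_antisymm hn.2 (hx.resolve_left hn.1)⟩
/-- A nonzero element has exact order its order. -/
lemma is_ord {x : L} (hx : x ≠ 0) : Is A q x (ord A q x) := ⟨hx, rfl⟩

/-- Negation preserves bounds. -/
lemma Ge.neg (h : IsPlace A q) {x : L} {r : ℚ} (hx : Ge A q x r) : Ge A q (-x) r := by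
  simpa [Ge, ord_neg h] using hx
/-- Negation preserves strict bounds. -/
lemma Gt.neg (h : IsPlace A q) {x : L} {r : ℚ} (hx : Gt A q x r) : Gt A q (-x) r := by
  simpa [Gt, ord_neg h] using hx
/-- Negation preserves exact orders. -/
lemma Is.neg (h : IsPlace A q) {x : L} {r : ℚ} (hx : Is A q x r) : Is A q (-x) r := by
  simpa [Is, ord_neg h] using hx

/-- Bounds are stable under addition. -/
lemma Ge.add (h : IsPlace A q) {x y : L} {r : ℚ} (hx : Ge A q x r) (hy : Ge A q y r) :
    Ge A q (x + y) r := by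
  by_cases hxy : x + y = 0
  · exact Or.inl hxy
  rcases hx with rfl | hx
  · simpa using hy
  rcases hy with rfl | hy
  · rw [add_zero]; exact Or.inr hx
  by_cases x0 : x = 0
  · subst x0; simpa [Ge] using Or.inr hy
  by_cases y0 : y = 0
  · subst y0; simpa [Ge] using Or.inr hx
  exact Or.inr ((le_min hx hy).trans (ord_add h x0 y0 hxy))

/-- Strict bounds are stable under addition. -/
lemma Gt.add (h : IsPlace A q) {x y : L} {r : ℚ} (hx : Gt A q x r) (hy : Gt A q y r) :
    Gt A q (x + y) r := by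
  by_cases hxy : x + y = 0
  · exact Or.inl hxy
  rcases hx with rfl | hx
  · simpa using hy
  rcases hy with rfl | hy
  · rw [add_zero]; exact Or.inr hx
  by_cases x0 : x = 0
  · subst x0; simpa [Gt] using Or.inr hy
  by_cases y0 : y = 0
  · subst y0; simpa [Gt] using Or.inr hx
  exact Or.inr ((lt_min hx hy).trans_le (ord_add h x0 y0 hxy))

/-- Bounds are stable under subtraction. -/
lemma Ge.sub (h : IsPlace A q) {x y : L} {r : ℚ} (hx : Ge A q x r) (hy : Ge A q y r) :
    Ge A q (x - y) r := sub_eq_add_neg x y ▸ hx.add h (hy.neg h)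

/-- Strict bounds are stable under subtraction. -/
lemma Gt.sub (h : IsPlace A q) {x y : L} {r : ℚ} (hx : Gt A q x r) (hy : Gt A q y r) :
    Gt A q (x - y) r := sub_eq_add_neg x y ▸ hx.add h (hy.neg h)

/-- A dominant term determines the order of a sum. -/
lemma Is.add (h : IsPlace A q) {x y : L} {r : ℚ} (hx : Is A q x r) (hy : Gt A q y r) :
    Is A q (x + y) r := by
  refine (hx.ge.add h hy.ge).is_of_not_gt fun hc => hx.not_gt ?_
  have := hc.sub h hy
  rwa [add_sub_cancel_right] at this

/-- A dominant term determines the order of a difference. -/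
lemma Is.sub (h : IsPlace A q) {x y : L} {r : ℚ} (hx : Is A q x r) (hy : Gt A q y r) :
    Is A q (x - y) r := sub_eq_add_neg x y ▸ hx.add h (hy.neg h)

/-- Bounds add on products. -/
lemma Ge.mul (h : IsPlace A q) {x y : L} {r s : ℚ} (hx : Ge A q x r) (hy : Ge A q y s) :
    Ge A q (x * y) (r + s) := by
  by_cases x0 : x = 0
  · exact Or.inl (by simp [x0])
  by_cases y0 : y = 0
  · exact Or.inl (by simp [y0])
  refine Or.inr ?_
  rw [ord_mul h x0 y0]
  exact add_le_add (hx.resolve_left x0) (hy.resolve_left y0)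

/-- A strict bound times a bound is a strict bound. -/
lemma Gt.mul_ge (h : IsPlace A q) {x y : L} {r s : ℚ} (hx : Gt A q x r) (hy : Ge A q y s) :
    Gt A q (x * y) (r + s) := by
  by_cases x0 : x = 0
  · exact Or.inl (by simp [x0])
  by_cases y0 : y = 0
  · exact Or.inl (by simp [y0])
  refine Or.inr ?_
  rw [ord_mul h x0 y0]
  exact add_lt_add_of_lt_of_le (hx.resolve_left x0) (hy.resolve_left y0)

/-- A bound times a strict bound is a strict bound. -/
lemma Ge.mul_gt (h : IsPlace A q) {x y : L} {r s : ℚ} (hx : Ge A q x r) (hy : Gt A q y s) :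
    Gt A q (x * y) (r + s) := by
  rw [mul_comm, add_comm]; exact hy.mul_ge h hx

/-- Exact orders add on products. -/
lemma Is.mul (h : IsPlace A q) {x y : L} {r s : ℚ} (hx : Is A q x r) (hy : Is A q y s) :
    Is A q (x * y) (r + s) :=
  ⟨mul_ne_zero hx.1 hy.1, by rw [ord_mul h hx.1 hy.1, hx.2, hy.2]⟩

/-- Bounds multiply on powers. -/
lemma Ge.pow (h : IsPlace A q) {x : L} {r : ℚ} (hx : Ge A q x r) (n : ℕ) :
    Ge A q (x ^ n) (n * r) := by
  induction n with
  | zero => exact Or.inr (by simp [h])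
  | succ n ih => rw [pow_succ]; push_cast; rw [add_mul, one_mul]; exact ih.mul h hx

/-- Exact orders multiply on powers. -/
lemma Is.pow (h : IsPlace A q) {x : L} {r : ℚ} (hx : Is A q x r) (n : ℕ) :
    Is A q (x ^ n) (n * r) := ⟨pow_ne_zero _ hx.1, by rw [ord_pow h, hx.2]⟩

/-- The exact order of an inverse. -/
lemma Is.inv (h : IsPlace A q) {x : L} {r : ℚ} (hx : Is A q x r) : Is A q x⁻¹ (-r) :=
  ⟨inv_ne_zero hx.1, by rw [ord_inv h, hx.2]⟩

/-- Exact orders subtract on quotients. -/
lemma Is.div (h : IsPlace A q) {x y : L} {r s : ℚ} (hx : Is A q x r) (hy : Is A q y s) :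
    Is A q (x / y) (r - s) := by
  rw [div_eq_mul_inv, sub_eq_add_neg]; exact hx.mul h (hy.inv h)

/-- A bound for a quotient by an element of exact order. -/
lemma Ge.div (h : IsPlace A q) {x y : L} {r s : ℚ} (hx : Ge A q x r) (hy : Is A q y s) :
    Ge A q (x / y) (r - s) := by
  rw [div_eq_mul_inv, sub_eq_add_neg]; exact hx.mul h (hy.inv h).ge

/-- A strict bound for a quotient by an element of exact order. -/
lemma Gt.div (h : IsPlace A q) {x y : L} {r s : ℚ} (hx : Gt A q x r) (hy : Is A q y s) :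
    Gt A q (x / y) (r - s) := by
  rw [div_eq_mul_inv, sub_eq_add_neg]; exact hx.mul_ge h (hy.inv h).ge

/-- Integers are integral at the place. -/
lemma ge_intCast (h : IsPlace A q) (a : ℤ) : Ge A q (a : L) 0 :=
  (mem_iff_ge h _).mp (intCast_mem A a)

/-- Natural numbers are integral at the place. -/
lemma ge_natCast (h : IsPlace A q) (a : ℕ) : Ge A q (a : L) 0 :=
  (mem_iff_ge h _).mp (natCast_mem A a)

/-- An integer divisible by `q ^ k` has order at least `k`. -/
lemma ge_intCast_of_dvd (h : IsPlace A q) {a : ℤ} {k : ℕ} (ha : (q : ℤ) ^ k ∣ a) :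
    Ge A q (a : L) k := by
  obtain ⟨c, rfl⟩ := ha
  push_cast
  have hq : Is A q (q : L) 1 := ⟨by simp [h.1.ne_zero], ord_q h⟩
  have := (hq.pow h k).ge.mul h (ge_intCast h c)
  simpa using this

/-- An integer prime to `q` has order `0`. -/
lemma is_intCast (h : IsPlace A q) {a : ℤ} (ha : ¬ (q : ℤ) ∣ a) : Is A q (a : L) 0 := by
  refine (ge_intCast h a).is_of_not_gt fun hc => ?_
  rw [← nonunit_iff_gt h, A.mem_nonunits_iff, h.v_int_eq_one ha] at hc
  exact lt_irrefl _ hc

/-- A natural number prime to `q` has order `0`. -/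
lemma is_natCast (h : IsPlace A q) {a : ℕ} (ha : ¬ q ∣ a) : Is A q (a : L) 0 := by
  have := is_intCast h (a := (a : ℤ)) (by rwa [Int.natCast_dvd_natCast])
  rwa [Int.cast_natCast] at this

end Fermat.EC.Val
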