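import Fermat.Agent.EC.Ord
import Mathlib.RingTheory.LocalRing.ResidueField.Basic
import Mathlib.Algebra.Polynomial.BigOperators

/-!
# Orders of roots: dominant terms and reduction of a product of linear factors

`ord_root_of_sparse` and `ord_nonintegral_roots`: how the orders of torsion abscissae are found from
division polynomials (`TorsionLine`).
-/

set_option autoImplicit false

open Polynomial

namespace Fermat.EC.Val

variable {L : Type*} [Field L] [CharZero L] [Algebra.IsAlgebraic ℚ L] {A : ValuationSubring L}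
  {q : ℕ}

/-- Strict bounds pass to sums. -/
lemma Gt.sum (h : IsPlace A q) {ι : Type*} {s : Finset ι} {f : ι → L} {r : ℚ}
    (hf : ∀ i ∈ s, Gt A q (f i) r) : Gt A q (∑ i ∈ s, f i) r :=
  Finset.sum_induction f (fun x => Gt A q x r) (fun _ _ ha hb => ha.add h hb) gt_zero hf

/-- Bounds pass to sums. -/
lemma Ge.sum (h : IsPlace A q) {ι : Type*} {s : Finset ι} {f : ι → L} {r : ℚ}
    (hf : ∀ i ∈ s, Ge A q (f i) r) : Ge A q (∑ i ∈ s, f i) r :=
  Finset.sum_induction f (fun x => Ge A q x r) (fun _ _ ha hb => ha.add h hb) ge_zero hf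

/-- A dominant term determines the order of a finite sum. -/
lemma is_sum_of_dominant (h : IsPlace A q) {ι : Type*} {s : Finset ι} {f : ι → L} {i : ι}
    (hi : i ∈ s) {r : ℚ} (hd : Is A q (f i) r) (ho : ∀ j ∈ s, j ≠ i → Gt A q (f j) r) :
    Is A q (∑ j ∈ s, f j) r := by
  classical
  rw [← Finset.add_sum_erase _ _ hi]
  exact hd.add h (Gt.sum h fun j hj =>
    ho j (Finset.mem_of_mem_erase hj) (Finset.ne_of_mem_erase hj))

/-- Exact orders add up under finite products. -/
lemma Is.prod (h : IsPlace A q) {ι : Type*} {s : Finset ι} {f : ι → L} {r : ι → ℚ}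
    (hf : ∀ i ∈ s, Is A q (f i) (r i)) : Is A q (∏ i ∈ s, f i) (∑ i ∈ s, r i) := by
  classical
  induction s using Finset.induction_on with
  | empty => exact ⟨by simp, by simp [h]⟩
  | insert a s ha ih =>
    rw [Finset.prod_insert ha, Finset.sum_insert ha]
    exact (hf a (Finset.mem_insert_self a s)).mul h
      (ih fun i hi => hf i (Finset.mem_insert_of_mem hi))

/-- The order of a nonzero root of a polynomial with small middle coefficients. -/
theorem ord_root_of_sparse (h : IsPlace A q) {g : L[X]} {d : ℕ} (hd : g.natDegree ≤ d)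
    (hd0 : 0 < d) {a b : ℚ} (h0 : Is A q (g.coeff 0) a) (hb : Is A q (g.coeff d) b)
    (hmid : ∀ i, 0 < i → i < d → Ge A q (g.coeff i) (max a b)) {x : L} (hx : x ≠ 0)
    (hroot : g.eval x = 0) : (d : ℚ) * ord A q x = a - b := by
  set v := ord A q x with hv
  have hxv : Is A q x v := is_ord hx
  rw [eval_eq_sum_range' (show g.natDegree < d + 1 by omega)] at hroot
  have hpow : ∀ i : ℕ, Is A q (x ^ i) (i * v) := fun i => hxv.pow h i
  have hterm0 : Is A q (g.coeff 0 * x ^ 0) a := by simpa using h0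
  have htermd : Is A q (g.coeff d * x ^ d) (b + d * v) := hb.mul h (hpow d)
  have hd' : (0 : ℚ) < d := by exact_mod_cast hd0
  -- unless the extreme terms tie, one of them dominates
  rcases lt_trichotomy (b + d * v) a with hlt | heq | hgt
  · exfalso
    have := is_sum_of_dominant h (f := fun i => g.coeff i * x ^ i)
      (Finset.self_mem_range_succ d) htermd ?_
    · rw [hroot] at this; exact this.1 rfl
    intro i hi hid
    rw [Finset.mem_range] at hi
    rcases Nat.eq_zero_or_pos i with rfl | hi0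
    · exact hterm0.gt hlt
    · refine ((hmid i hi0 (by omega)).mul h (hpow i).ge).gt ?_
      have h1 : (i : ℚ) + 1 ≤ d := by exact_mod_cast (show i + 1 ≤ d by omega)
      rcases lt_or_ge v 0 with hv0 | hv0
      · have h2 := le_max_right a b
        nlinarith
      · have h2 := le_max_left a b
        nlinarith
  · linarith
  · exfalso
    have := is_sum_of_dominant h (f := fun i => g.coeff i * x ^ i)
      (Finset.mem_range.mpr (Nat.succ_pos d)) hterm0 ?_
    · rw [hroot] at this; exact this.1 rfl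
    intro i hi hi0
    rw [Finset.mem_range] at hi
    rcases (show i ≤ d by omega).eq_or_lt with rfl | hid
    · exact htermd.gt hgt
    · refine ((hmid i (by omega) hid).mul h (hpow i).ge).gt ?_
      have h1 : (i : ℚ) + 1 ≤ d := by exact_mod_cast (show i + 1 ≤ d by omega)
      have h3 : (1 : ℚ) ≤ i := by exact_mod_cast (show 1 ≤ i by omega)
      rcases lt_or_ge 0 v with hv0 | hv0
      · have h2 := le_max_left a b
        nlinarith
      · have h2 := le_max_right a b
        nlinarith

/-- An integer reduces to zero iff `q` divides it. -/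
lemma residue_intCast_eq_zero_iff (h : IsPlace A q) (z : ℤ) :
    IsLocalRing.residue A (z : A) = 0 ↔ (q : ℤ) ∣ z := by
  rw [IsLocalRing.residue_eq_zero_iff, ← A.coe_mem_nonunits_iff]
  push_cast
  rw [nonunit_iff_gt h]
  constructor
  · intro hg
    by_contra hn
    exact (is_intCast h hn).not_gt hg
  · intro hd
    exact (ge_intCast_of_dvd h (k := 1) (by simpa using hd)).gt (by norm_num)

omit [CharZero L] [Algebra.IsAlgebraic ℚ L] in
/-- Nonzero roots can be normalised to constant term `1`, at the cost of the product of their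
negatives. -/
lemma prod_X_sub_C_eq_mul_prod_one_sub {S : Finset L} (hne : ∀ x ∈ S, x ≠ 0) :
    ∏ x ∈ S, (X - C x) = C (∏ x ∈ S, (-x)) * ∏ x ∈ S, (1 - C x⁻¹ * X) := by
  rw [map_prod, ← Finset.prod_mul_distrib]
  refine Finset.prod_congr rfl fun x hx => ?_
  rw [mul_sub, ← mul_assoc, ← C_mul, mul_one, neg_mul, mul_inv_cancel₀ (hne x hx)]
  simp only [map_neg, map_one]
  ring

/-- For `f = c₀ ∏ (X - x)` integral and nonzero modulo `q`, the orders of `c₀` and of the
non-integral roots add up to zero; if no root is integral, `q` divides the nonconstant coefficients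
of `f`. -/
theorem ord_nonintegral_roots (h : IsPlace A q) (f₀ : ℤ[X])
    (hbar : f₀.map (Int.castRingHom (ZMod q)) ≠ 0) (c₀ : L) (hc₀ : c₀ ≠ 0) (X₀ S : Finset L)
    (hS : ∀ x, x ∈ S ↔ x ∈ X₀ ∧ ¬ Ge A q x 0)
    (hf : f₀.map (Int.castRingHom L) = C c₀ * ∏ x ∈ X₀, (X - C x)) :
    ord A q c₀ + ∑ x ∈ S, ord A q x = 0 ∧
      ((∀ x ∈ X₀, x ∈ S) → ∀ i, 0 < i → (q : ℤ) ∣ f₀.coeff i) := by
  classical
  have hsub : S ⊆ X₀ := fun x hx => ((hS x).mp hx).1
  have hne : ∀ x ∈ S, x ≠ 0 := fun x hx e => ((hS x).mp hx).2 (Or.inl e)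
  have hinv : ∀ x : S, (x : L)⁻¹ ∈ A := by
    intro x
    have h1 := ((hS x.1).mp x.2).2
    rw [← mem_iff_ge h] at h1
    exact (A.mem_or_inv_mem x.1).resolve_left h1
  have hmem : ∀ x : (X₀ \ S : Finset L), (x : L) ∈ A := by
    intro x
    have hx := Finset.mem_sdiff.mp x.2
    rw [mem_iff_ge h]
    by_contra hn
    exact hx.2 ((hS x.1).mpr ⟨hx.1, hn⟩)
  set c := c₀ * ∏ x ∈ S, (-x) with hc
  have hcis : Is A q c (ord A q c₀ + ∑ x ∈ S, ord A q x) :=
    (is_ord hc₀).mul h (Is.prod h fun x hx => (is_ord (hne x hx)).neg h)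
  set G : A[X] := ∏ x : S, (1 - C (⟨_, hinv x⟩ : A) * X) with hG
  set H : A[X] := ∏ x : (X₀ \ S : Finset L), (X - C (⟨_, hmem x⟩ : A)) with hH
  have hfac : f₀.map (Int.castRingHom L) = C c * (G * H).map A.subtype := by
    rw [hf, hG, hH, Polynomial.map_mul, Polynomial.map_prod, Polynomial.map_prod]
    simp only [Polynomial.map_sub, Polynomial.map_one, Polynomial.map_mul, map_X, map_C]
    change C c₀ * ∏ x ∈ X₀, (X - C x) = C c * ((∏ x : S, (1 - C (x : L)⁻¹ * X)) *
      ∏ x : (X₀ \ S : Finset L), (X - C (x : L)))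
    rw [Finset.prod_coe_sort S fun x => (1 : L[X]) - C x⁻¹ * X,
      Finset.prod_coe_sort (X₀ \ S) fun x => X - C x, ← Finset.prod_sdiff hsub]
    rw [prod_X_sub_C_eq_mul_prod_one_sub hne, hc, C_mul]
    ring
  set res := IsLocalRing.residue A with hres
  have hGbar : G.map res = 1 := by
    rw [hG, Polynomial.map_prod]
    refine Finset.prod_eq_one fun x _ => ?_
    have : res (⟨_, hinv x⟩ : A) = 0 := by
      rw [hres, IsLocalRing.residue_eq_zero_iff, ← A.coe_mem_nonunits_iff, nonunit_iff_gt h]
      change Gt A q ((x : L)⁻¹) 0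
      by_contra hn
      have hk := (((mem_iff_ge h _).mp (hinv x)).is_of_not_gt hn).inv h
      rw [inv_inv, neg_zero] at hk
      exact ((hS x.1).mp x.2).2 hk.ge
    simp [this]
  have hHbar : (H.map res).Monic := by
    rw [hH, Polynomial.map_prod]
    exact monic_prod_of_monic _ _ fun x _ => by
      simpa using monic_X_sub_C (res (⟨_, hmem x⟩ : A))
  have hfA : (f₀.map (Int.castRingHom A)).map A.subtype = f₀.map (Int.castRingHom L) := by
    rw [Polynomial.map_map]
    exact congrArg (fun φ => f₀.map φ) (RingHom.ext_int _ _)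
  have hinj : Function.Injective (Polynomial.map (A.subtype : A →+* L)) :=
    Polynomial.map_injective _ Subtype.val_injective
  -- `f = c G H` with `G ≡ 1` and `H` monic, so `c` is a unit
  have hcA : c ∈ A := by
    by_contra hn
    have hcinv : c⁻¹ ∈ A := (A.mem_or_inv_mem c).resolve_left hn
    have e : C (⟨c⁻¹, hcinv⟩ : A) * f₀.map (Int.castRingHom A) = G * H := by
      apply hinj
      rw [Polynomial.map_mul, hfA, hfac, map_C, ← mul_assoc, ← C_mul]
      change C (c⁻¹ * c) * _ = _
      rw [inv_mul_cancel₀ hcis.1, C_1, one_mul]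
    have e' := congrArg (Polynomial.map res) e
    have hz : res (⟨c⁻¹, hcinv⟩ : A) = 0 := by
      rw [hres, IsLocalRing.residue_eq_zero_iff, ← A.coe_mem_nonunits_iff, nonunit_iff_gt h]
      change Gt A q c⁻¹ 0
      by_contra hg
      have h1 := (((mem_iff_ge h _).mp hcinv).is_of_not_gt hg).inv h
      rw [inv_inv, neg_zero] at h1
      exact hn ((mem_iff_ge h _).mpr h1.ge)
    rw [Polynomial.map_mul, Polynomial.map_mul, map_C, hz, C_0, zero_mul, hGbar, one_mul] at e'
    exact hHbar.ne_zero e'.symm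
  have e : f₀.map (Int.castRingHom A) = C (⟨c, hcA⟩ : A) * (G * H) := by
    apply hinj
    rw [hfA, hfac]
    simp only [Polynomial.map_mul, map_C]
    rfl
  have e' := congrArg (Polynomial.map res) e
  rw [Polynomial.map_mul, Polynomial.map_mul, map_C, hGbar, one_mul] at e'
  have hcoeff : ∀ i, ((f₀.map (Int.castRingHom A)).map res).coeff i = 0 ↔ (q : ℤ) ∣ f₀.coeff i := by
    intro i
    rw [coeff_map, coeff_map, eq_intCast, hres, residue_intCast_eq_zero_iff h]
  have hc0 : res (⟨c, hcA⟩ : A) ≠ 0 := by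
    intro hz
    apply hbar
    ext i
    rw [coeff_map, coeff_zero, eq_intCast, ZMod.intCast_zmod_eq_zero_iff_dvd, ← hcoeff i, e', hz,
      C_0, zero_mul, coeff_zero]
  refine ⟨?_, fun hall i hi => ?_⟩
  · rw [hres, Ne, IsLocalRing.residue_eq_zero_iff, ← A.coe_mem_nonunits_iff,
      nonunit_iff_gt h] at hc0
    exact hcis.unique (((mem_iff_ge h _).mp hcA).is_of_not_gt hc0)
  · rw [← hcoeff i, e']
    have hH1 : H = 1 := by
      rw [hH]
      exact Finset.prod_eq_one fun x _ =>
        absurd (hall _ (Finset.mem_sdiff.mp x.2).1) (Finset.mem_sdiff.mp x.2).2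
    rw [hH1, Polynomial.map_one, mul_one, coeff_C, if_neg hi.ne']

end Fermat.EC.Val
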