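import Fermat.Agent.EC.Dichotomy
import Fermat.Prelude.Def_FLTPrelim_CofixedLine

/-!
# A reducible semistable `E[p]` has a cofixed line or a rational point of order `p`

`hasCofixedLine_of_reducible`, from `Dichotomy`; for the Frey curve (no rational `p`-torsion,
`Frey2`) this is S13.
-/

set_option autoImplicit false

open WeierstrassCurve.Affine.Point Fermat.EC.Line

namespace Fermat.EC

local notation "ℚbar" => AlgebraicClosure ℚ

/-- A stable line gives a point all of whose conjugates are its multiples. -/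
theorem exists_stable_point (W : WeierstrassCurve ℤ) (hΔ : W.Δ ≠ 0) {p : ℕ} (hp : p.Prime)
    (hred : ¬ GaloisRepIsIrreducible (K := ℚbar) ℚ (W.map (Int.castRingHom ℚ)) p) :
    ∃ (N : Submodule (ZMod p) (Submodule.torsionBy ℤ (overQbar W).Point p))
      (P₀ : (overQbar W).Point), IsGaloisStable ℚ N ∧ N ≠ ⊥ ∧ N ≠ ⊤ ∧ p • P₀ = 0 ∧ P₀ ≠ 0 ∧
      (∀ x : Submodule.torsionBy ℤ (overQbar W).Point p,
        x ∈ N ↔ ∃ k : ℕ, (x : (overQbar W).Point) = k • P₀) ∧
      ∀ σ : ℚbar ≃ₐ[ℚ] ℚbar, ∃ k : ℕ, σ • P₀ = k • P₀ := by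
  have := Fact.mk hp
  have htor : ∀ x : Submodule.torsionBy ℤ (overQbar W).Point p,
      p • (x : (overQbar W).Point) = 0 := fun x => by
    have := x.2
    rwa [Submodule.mem_torsionBy_iff, natCast_zsmul] at this
  have hnt : Nontrivial (Submodule.torsionBy ℤ (overQbar W).Point p) := by
    have hc := card_torsionBy (Δ_overQbar_ne hΔ) (n := p) hp.one_le
    have : Finite (Submodule.torsionBy ℤ (overQbar W).Point (p : ℤ)) :=
      Nat.finite_of_card_ne_zero (by rw [hc]; exact pow_ne_zero _ hp.ne_zero)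
    rw [← Finite.one_lt_card_iff_nontrivial, hc]
    exact Nat.one_lt_pow two_ne_zero hp.one_lt
  simp only [GaloisRepIsIrreducible, not_and, not_forall, not_or] at hred
  obtain ⟨N, hN, hbot, htop⟩ := hred hnt
  obtain ⟨x₀, hx₀, hx0⟩ := (Submodule.ne_bot_iff N).mp hbot
  have hP0 : (x₀ : (overQbar W).Point) ≠ 0 := fun e => hx0 (Subtype.ext e)
  have hmul : ∀ k : ℕ, k • x₀ ∈ N := fun k => N.toAddSubmonoid.nsmul_mem hx₀ k
  -- a point of `N` off the line of `x₀` would make `N` everything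
  have hiff : ∀ x : Submodule.torsionBy ℤ (overQbar W).Point p,
      x ∈ N ↔ ∃ k : ℕ, (x : (overQbar W).Point) = k • (x₀ : (overQbar W).Point) := by
    intro x
    constructor
    · intro hx
      by_contra hc
      push Not at hc
      apply htop
      rw [Submodule.eq_top_iff']
      intro z
      obtain ⟨e, he⟩ := Dichotomy.exists_pair_equiv hΔ (p := p)
        (u := ⟨x₀, htor x₀⟩) (v := ⟨x, htor x⟩) (fun e => hP0 (congrArg Subtype.val e))
        fun a e => hc a.val (by
          have e' := congrArg Subtype.val e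
          rwa [Dichotomy.coe_smulT] at e')
      obtain ⟨⟨a, b⟩, hab⟩ := e.surjective ⟨z, htor z⟩
      rw [he] at hab
      have e' := congrArg Subtype.val hab
      rw [AddSubgroup.coe_add, Dichotomy.coe_smulT, Dichotomy.coe_smulT] at e'
      have ez : z = a.val • x + b.val • x₀ := Subtype.ext (by
        rw [Submodule.coe_add, Submodule.coe_smul_of_tower, Submodule.coe_smul_of_tower]
        exact e'.symm)
      rw [ez]
      exact N.add_mem (N.toAddSubmonoid.nsmul_mem hx _) (hmul _)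
    · rintro ⟨k, hk⟩
      have : x = k • x₀ := Subtype.ext (by rw [Submodule.coe_smul_of_tower]; exact hk)
      rw [this]; exact hmul k
  exact ⟨N, x₀, hN, hbot, htop, htor x₀, hP0, hiff, fun σ => (hiff (σ • x₀)).mp (hN σ x₀ hx₀)⟩

/-- For semistable `W` and `p ≥ 5` without rational `p`-torsion: reducible ⇒ cofixed line. -/
theorem hasCofixedLine_of_reducible (W : WeierstrassCurve ℤ) (hΔ : W.Δ ≠ 0) {p : ℕ} (hp : p.Prime)
    (hp5 : 5 ≤ p) (hss : ∀ q : ℕ, q.Prime → (q : ℤ) ∣ W.Δ → ¬ (q : ℤ) ∣ W.c₄)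
    (hno : ∀ P : (overQbar W).Point, p • P = 0 →
      (∀ σ : ℚbar ≃ₐ[ℚ] ℚbar, σ • P = P) → P = 0)
    (hred : ¬ GaloisRepIsIrreducible (K := ℚbar) ℚ (W.map (Int.castRingHom ℚ)) p) :
    HasGaloisStableCofixedLine (K := ℚbar) ℚ (W.map (Int.castRingHom ℚ)) p := by
  have := Fact.mk hp
  obtain ⟨N, P₀, hN, hbot, htop, hP, hP0, hiff, hstab⟩ := exists_stable_point W hΔ hp hred
  obtain ⟨ζ, hζ⟩ := Cyclo.exists_zeta hp
  refine ⟨N, hN, hbot, htop, fun σ x => ?_⟩
  rcases Dichotomy.dichotomy hΔ hp5 hss hζ hP hP0 hstab with ⟨-, h2⟩ | ⟨h1, -⟩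
  · refine (hiff _).mpr (h2 σ x ?_)
    have := x.2
    rwa [Submodule.mem_torsionBy_iff, natCast_zsmul] at this
  · exact absurd (hno P₀ hP h1) hP0

end Fermat.EC
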