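import Fermat.Agent.EC.Node

/-!
# The component of a torsion point reducing to a node

`component`: its index lies in `(m/p) ℤ`, which gives unramifiedness when `p ∣ m` in `Semistable`.
-/

set_option autoImplicit false

open WeierstrassCurve WeierstrassCurve.Affine Fermat.EC Fermat.EC.Val Fermat.EC.Red

namespace Fermat.EC.Node

variable {L : Type*} [Field L] [CharZero L] [Algebra.IsAlgebraic ℚ L] [DecidableEq L]
  {A : ValuationSubring L} {q : ℕ} {W : Affine L} {m M : ℚ}

variable (h : IsPlace A q) (hN : IsNodal A q W m M)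
include h hN

/-- `b₄` has order at least `M` in a nodal model. -/
lemma ge_b₄ : Ge A q W.b₄ M :=
  (((ge_two h).mul h hN.a₄).mono (zero_add M).ge).add h
    ((hN.int.a₁.mul h hN.a₃).mono (zero_add M).ge)

omit [DecidableEq L] in
/-- `b₆` has order at least `m` in a nodal model. -/
lemma ge_b₆ : Ge A q W.b₆ m :=
  ((hN.a₃.pow h 2).mono (by push_cast; linarith [hN.mpos, hN.mM])).add h
    (((by simpa using ge_natCast (A := A) h 4 : Ge A q (4 : L) 0).mul h hN.a₆.ge).mono
      (zero_add m).ge)

omit [DecidableEq L] in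
/-- `b₈` has order exactly `m` in a nodal model. -/
lemma is_b₈ : Is A q W.b₈ m := by
  have e : W.b₈ = W.b₂ * W.a₆ + (-(W.a₁ * W.a₃ * W.a₄) + W.a₂ * W.a₃ ^ 2 - W.a₄ ^ 2) := by
    simp only [b₂, b₈]; ring
  rw [e]
  have := hN.mpos; have := hN.mM
  have hI := hN.b₂.mul h hN.a₆
  rw [zero_add] at hI
  refine hI.add h ?_
  exact ((((hN.int.a₁.mul h hN.a₃).mul h hN.a₄).gt (by linarith)).neg h |>.add h
    ((hN.int.a₂.mul h (hN.a₃.pow h 2)).gt (by push_cast; linarith))).sub h
      ((hN.a₄.pow h 2).gt (by push_cast; linarith))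

/-- The product formula for `x(Q+P) x(Q-P)` in terms of orders. -/
lemma step_bound {x y xq yq : L} {xr xr' : L} {s a c c' : ℚ}
    (hP : LowPt A q m x y s) (hQ : LowPt A q m xq yq a) (hr : Is A q xr c) (hr' : Is A q xr' c')
    (hne : xq ≠ x) (hprod : xr * xr' * (xq - x) ^ 2 = prodNum W xq x) :
    (2 * (a + s) < m → c + c' + 2 * ord A q (xq - x) = 2 * (a + s)) ∧
    (m < 2 * (a + s) → c + c' + 2 * ord A q (xq - x) = m) ∧
    (m = 2 * (a + s) → m ≤ c + c' + 2 * ord A q (xq - x)) := by
  obtain ⟨hs0, -, hx, -⟩ := hP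
  obtain ⟨ha0, -, hxq, -⟩ := hQ
  have hM := hN.mM
  have hd : Is A q (xq - x) (ord A q (xq - x)) := is_ord (sub_ne_zero.mpr hne)
  have hLHS : Is A q (prodNum W xq x) (c + c' + ((2 : ℕ) : ℚ) * ord A q (xq - x)) :=
    hprod ▸ (hr.mul h hr').mul h (hd.pow h 2)
  push_cast at hLHS
  have hA : Is A q ((xq * x) ^ 2) ((2 : ℕ) * (a + s)) := (hxq.mul h hx).pow h 2
  push_cast at hA
  have hB : Is A q W.b₈ m := is_b₈ h hN
  have hC : Gt A q (W.b₄ * (xq * x) + W.b₆ * (xq + x)) m := by
    refine (((ge_b₄ h hN).mul h (hxq.mul h hx).ge).gt (by linarith)).add h ?_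
    rcases le_total a s with hle | hle
    · exact ((ge_b₆ h hN).mul h (hxq.ge.add h (hx.ge.mono hle))).gt (by linarith)
    · exact ((ge_b₆ h hN).mul h ((hxq.ge.mono hle).add h hx.ge)).gt (by linarith)
  -- three terms compete: `(xq x)²`, `-b₈` and terms of higher order
  have e : prodNum W xq x = (xq * x) ^ 2 + (-W.b₈ - (W.b₄ * (xq * x) + W.b₆ * (xq + x))) := by
    simp only [prodNum]; ring
  refine ⟨fun hlt => ?_, fun hlt => ?_, fun heq => ?_⟩
  · refine hLHS.unique (e ▸ hA.add h ((((hB.neg h).sub h hC)).gt (by linarith)))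
  · refine hLHS.unique ?_
    rw [e, add_comm]
    exact ((hB.neg h).sub h hC).add h (hA.gt (by linarith))
  · refine hLHS.le_of_ge ?_
    rw [e]
    exact (hA.ge.mono heq.le).add h (((hB.neg h).sub h hC).ge)

/-- The order of the `x`-coordinate of the double of a point near the node, in the three cases
around `m / 4`. -/
lemma doubling {x y x₂ : L} {s c : ℚ} (hP : LowPt A q m x y s)
    (hc : Is A q x₂ c) (hx₂ : x₂ * quadF W x = dblNum W x) :
    (4 * s < m → c = 2 * s) ∧ (m < 4 * s → c = m - 2 * s) ∧ (m = 4 * s → m - 2 * s ≤ c) := by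
  obtain ⟨hs0, hs, hx, -⟩ := hP
  have hM := hN.mM
  have hF : Is A q (quadF W x) ((2 : ℕ) * s) := by
    have hI := hN.b₂.mul h (hx.pow h 2)
    rw [zero_add] at hI
    have e : quadF W x = W.b₂ * x ^ 2 + (4 * x ^ 3 + (2 * W.b₄ * x + W.b₆)) := by
      simp only [quadF]; ring
    rw [e]
    refine hI.add h ?_
    exact (((by simpa using ge_natCast (A := A) h 4 : Ge A q (4 : L) 0).mul h (hx.ge.pow h 3)).gt
      (by push_cast; linarith)).add h
      (((((ge_two h).mul h (ge_b₄ h hN)).mul h hx.ge).gt (by push_cast; linarith)).add h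
        ((ge_b₆ h hN).gt (by push_cast; linarith)))
  have hL : Is A q (dblNum W x) (c + (2 : ℕ) * s) := hx₂ ▸ hc.mul h hF
  push_cast at hL
  have hA : Is A q (x ^ 4) ((4 : ℕ) * s) := hx.pow h 4
  push_cast at hA
  have hB : Is A q W.b₈ m := is_b₈ h hN
  have hC : Gt A q (W.b₄ * x ^ 2 + 2 * W.b₆ * x) m :=
    (((ge_b₄ h hN).mul h (hx.ge.pow h 2)).gt (by push_cast; linarith)).add h
      ((((ge_two h).mul h (ge_b₆ h hN)).mul h hx.ge).gt (by linarith))
  -- three terms compete: `x⁴`, `-b₈` and terms of higher order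
  have e : dblNum W x = x ^ 4 + (-W.b₈ - (W.b₄ * x ^ 2 + 2 * W.b₆ * x)) := by
    simp only [dblNum]; ring
  refine ⟨fun hlt => ?_, fun hlt => ?_, fun heq => ?_⟩
  · linarith [hL.unique (e ▸ hA.add h (((hB.neg h).sub h hC).gt (by linarith)))]
  · have : Is A q (dblNum W x) m := by
      rw [e, add_comm]
      exact ((hB.neg h).sub h hC).add h (hA.gt (by linarith))
    linarith [hL.unique this]
  · have : Ge A q (dblNum W x) m := by
      rw [e]
      exact (hA.ge.mono heq.le).add h (((hB.neg h).sub h hC).ge)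
    linarith [hL.le_of_ge this]

omit h hN in
/-- The distance and twice the minimum add up to the sum. -/
lemma abs_sub_add_two_mul_min (a b : ℚ) : |a - b| + 2 * min a b = a + b := by
  rcases le_total a b with hle | hle
  · rw [min_eq_left hle, abs_of_nonpos (show a - b ≤ 0 by linarith)]; ring
  · rw [min_eq_right hle, abs_of_nonneg (show 0 ≤ a - b by linarith)]; ring

omit h hN in
/-- The rule for the component index of the next multiple: from the indices `|u|` and `c'` of two
consecutive multiples the next index is `|u + s|` modulo `m`. -/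
lemma next_index {s m u c c' d : ℚ} (hs0 : 0 < s) (hsm : s < m / 2) (hu : |u| < m / 2)
    (hc0 : 0 < c) (hc : c < m / 2) (hc'0 : 0 < c') (hc'm : c' < m / 2)
    (hc' : c' = min |u - s| (m - |u - s|))
    (sb1 : 2 * (|u| + s) < m → c + c' + 2 * d = 2 * (|u| + s))
    (sb2 : m < 2 * (|u| + s) → c + c' + 2 * d = m)
    (sb3 : m = 2 * (|u| + s) → m ≤ c + c' + 2 * d)
    (hdge : min |u| s ≤ d) (hdeq : |u| ≠ s → d = min |u| s) :
    ∃ e : ℤ, c = |u + s - e * m| ∧ |u| = min |u - e * m| (m - |u - e * m|) := by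
  have hsum := abs_sub_add_two_mul_min |u| s
  -- cases on the sign of `u` and on the side of `m / 2` of `|u| + s`
  rcases le_or_gt 0 u with hu' | hu'
  · rw [abs_of_nonneg hu'] at *
    have hlt : |u - s| < m / 2 := by rw [abs_lt]; constructor <;> linarith
    rw [min_eq_left (by linarith)] at hc'
    have hus : u ≠ s := fun e => by rw [e, sub_self, abs_zero] at hc'; linarith
    rw [← hdeq hus] at hsum
    rcases lt_trichotomy (2 * (u + s)) m with h2 | h2 | h2
    · refine ⟨0, ?_, ?_⟩
      · rw [Int.cast_zero, zero_mul, sub_zero, abs_of_pos (show 0 < u + s by linarith)]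
        linarith [sb1 h2]
      · rw [Int.cast_zero, zero_mul, sub_zero, abs_of_nonneg hu', min_eq_left (by linarith)]
    · linarith [sb3 h2.symm]
    · refine ⟨1, ?_, ?_⟩
      · rw [Int.cast_one, one_mul, abs_of_neg (show u + s - m < 0 by linarith)]
        linarith [sb2 h2]
      · rw [Int.cast_one, one_mul, abs_of_neg (show u - m < 0 by linarith),
          min_eq_right (by linarith)]
        ring
  · rw [abs_of_neg hu'] at *
    rw [abs_of_neg (show u - s < 0 by linarith)] at hc'
    refine ⟨0, ?_, by rw [Int.cast_zero, zero_mul, sub_zero, abs_of_neg hu',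
      min_eq_left (by linarith)]⟩
    rcases lt_trichotomy (2 * (-u + s)) m with h2 | h2 | h2
    · rw [min_eq_left (by linarith)] at hc'
      have := sb1 h2
      rcases eq_or_ne (-u) s with hus | hus
      · rw [hus, min_self] at hdge; linarith
      rw [← hdeq hus] at hsum
      rw [Int.cast_zero, zero_mul, sub_zero, ← abs_neg, show -(u + s) = -u - s by ring]
      linarith
    · rw [min_eq_left (by linarith)] at hc'
      linarith
    · rw [min_eq_right (by linarith)] at hc'
      have := sb2 h2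
      rcases eq_or_ne (-u) s with hus | hus
      · rw [hus, min_self] at hdge; linarith
      rw [← hdeq hus] at hsum
      rw [Int.cast_zero, zero_mul, sub_zero, ← abs_neg, show -(u + s) = -u - s by ring]
      linarith

/-- The component index of twice a point. -/
lemma double_index {x y x₂ y₂ : L} {hns : W.Nonsingular x y} {hns₂ : W.Nonsingular x₂ y₂}
    {s c : ℚ} (hlow : LowPt A q m x y s) (hlow₂ : LowPt A q m x₂ y₂ c)
    (e2 : 2 • Point.some x y hns = Point.some x₂ y₂ hns₂) :
    ∃ j : ℤ, c = |2 * s - j * m| ∧ s = min |2 * s - j * m - s| (m - |2 * s - j * m - s|) := by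
  have hs0 := hlow.1
  have hsm := hlow.2.1
  obtain ⟨-, h2m, hx2, -⟩ := hlow₂
  rw [two_smul] at e2
  have hy : y ≠ W.negY x y := fun e => by
    rw [Point.add_self_of_Y_eq e] at e2
    exact Point.some_ne_zero _ e2.symm
  rw [Point.add_self_of_Y_ne hy] at e2
  obtain ⟨ex, -⟩ := Point.some.inj e2
  have hψ : psiY W x y ≠ 0 := by rw [psiY_eq_sub_negY]; exact sub_ne_zero.mpr hy
  have hd := addX_double hns.1 hψ
  rw [ex] at hd
  obtain ⟨d1, d2, d3⟩ := doubling h hN hlow hx2 hd
  -- apply the three cases of the doubling formula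
  rcases lt_trichotomy (4 * s) m with h4 | h4 | h4
  · refine ⟨0, ?_, ?_⟩
    · rw [d1 h4, Int.cast_zero, zero_mul, sub_zero, abs_of_pos (by linarith)]
    · rw [Int.cast_zero, zero_mul, sub_zero, show 2 * s - s = s by ring, abs_of_pos hs0,
        min_eq_left (by linarith)]
  · linarith [d3 h4.symm]
  · refine ⟨1, ?_, ?_⟩
    · rw [d2 h4, Int.cast_one, one_mul, abs_of_neg (by linarith)]; ring
    · rw [Int.cast_one, one_mul, show 2 * s - m - s = s - m by ring,
        abs_of_neg (by linarith), min_eq_right (by linarith)]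
      ring

/-- The order relations between the `x`-coordinates of three consecutive multiples. -/
lemma multiples_relation {x y xk yk xp yp xm ym : L} {hns : W.Nonsingular x y}
    {hnk : W.Nonsingular xk yk} {hnp : W.Nonsingular xp yp} {hnm : W.Nonsingular xm ym}
    {k : ℕ} (hk : 1 ≤ k) {s a c c' : ℚ} (hlow : LowPt A q m x y s) (lk : LowPt A q m xk yk a)
    (lp : LowPt A q m xp yp c) (lm : LowPt A q m xm ym c')
    (ek : k • Point.some x y hns = Point.some xk yk hnk)
    (ep : (k + 1) • Point.some x y hns = Point.some xp yp hnp)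
    (em : (k - 1) • Point.some x y hns = Point.some xm ym hnm) :
    ((2 * (a + s) < m → c + c' + 2 * ord A q (xk - x) = 2 * (a + s)) ∧
      (m < 2 * (a + s) → c + c' + 2 * ord A q (xk - x) = m) ∧
      (m = 2 * (a + s) → m ≤ c + c' + 2 * ord A q (xk - x))) ∧
      min a s ≤ ord A q (xk - x) ∧ (a ≠ s → ord A q (xk - x) = min a s) := by
  have hne : xk ≠ x := by
    intro e
    rcases (Point.X_eq_iff (h₁ := hnk) (h₂ := hns)).mp e with e' | e'
    · rw [← ek] at e'
      have hz : (k - 1) • Point.some x y hns = 0 := by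
        apply add_right_cancel (b := Point.some x y hns)
        rw [← succ_nsmul, show k - 1 + 1 = k by omega, e', zero_add]
      rw [em] at hz
      exact Point.some_ne_zero _ hz
    · rw [← ek] at e'
      have hz : (k + 1) • Point.some x y hns = 0 := by rw [succ_nsmul, e', neg_add_cancel]
      rw [ep] at hz
      exact Point.some_ne_zero _ hz
  have hp1 : xp = W.addX xk x (W.slope xk x yk y) := by
    rw [succ_nsmul, ek, Point.add_of_X_ne hne] at ep
    exact (Point.some.inj ep).1.symm
  have hm1 : xm = W.addX xk x (W.slope xk x yk (W.negY x y)) := by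
    have t : (k - 1) • Point.some x y hns = k • Point.some x y hns + -Point.some x y hns := by
      conv_rhs => rw [show k = (k - 1) + 1 by omega, succ_nsmul]
      abel
    rw [em, ek, Point.neg_some, Point.add_of_X_ne hne] at t
    exact (Point.some.inj t).1
  -- apply the product formula for `x(Q + P) x(Q - P)`
  have hprod := addX_prod hnk.1 hns.1 hne
  rw [← hp1, ← hm1] at hprod
  have hd : Is A q (xk - x) (ord A q (xk - x)) := is_ord (sub_ne_zero.mpr hne)
  refine ⟨step_bound h hN hlow lk lp.2.2.1 lm.2.2.1 hne hprod, hd.le_of_ge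
    ((lk.2.2.1.ge.mono (min_le_left _ _)).sub h (hlow.2.2.1.ge.mono (min_le_right _ _))),
    fun hne' => ?_⟩
  rcases lt_or_gt_of_ne hne' with hlt | hlt
  · rw [min_eq_left hlt.le]
    exact (lk.2.2.1.sub h (hlow.2.2.1.gt hlt)).2
  · rw [min_eq_right hlt.le]
    have := (hlow.2.2.1.sub h (lk.2.2.1.gt hlt)).neg h
    rw [neg_sub] at this
    exact this.2

/-- The component index of a `p`-torsion point lies in `(m/p)ℤ`. -/
theorem component {p : ℕ} (hp : p.Prime) (hp2 : p ≠ 2) {x y : L} {hns : W.Nonsingular x y} {s : ℚ}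
    (hP : p • Point.some x y hns = 0) (hlow : LowPt A q m x y s) :
    ∃ j : ℤ, (p : ℚ) * s = j * m := by
  have hp3 : 3 ≤ p := by have := hp.two_le; omega
  have hs0 := hlow.1
  have hnE0 : ¬ InE0 A q (Point.some x y hns) := fun e => e
    (singRed_of_gt h hN (hlow.2.2.1.gt hs0) (hlow.2.2.2.gt hs0))
  have hall : ∀ k : ℕ, 1 ≤ k → k ≤ p - 1 → ∃ xk yk hk rk,
      k • Point.some x y hns = Point.some xk yk hk ∧ LowPt A q m xk yk rk := by
    intro k h1 h2
    refine low_of_torsion h hN (hp.odd_of_ne_two hp2) ?_ fun e => hnE0 ?_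
    · rw [← mul_nsmul, mul_comm, mul_nsmul, hP, smul_zero]
    · refine inE0_of_nsmul h hN.int hP ?_ hp.pos e
      exact (Nat.Prime.coprime_iff_not_dvd hp).mpr (Nat.not_dvd_of_pos_of_lt (by omega) (by omega))
        |>.symm
  choose! X Y H R hE hL using hall
  have hR1 : R 1 = s := by
    obtain ⟨e, -⟩ := Point.some.inj ((one_smul ℕ _).symm.trans (hE 1 le_rfl (by omega)))
    have h1 := (hL 1 le_rfl (by omega)).2.2.1
    rw [← e] at h1
    exact h1.unique hlow.2.2.1
  -- the index of `k P` is the distance from `k s` to a multiple of `m`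
  have inv : ∀ k, 2 ≤ k → k ≤ p - 1 → ∃ j : ℤ, R k = |(k : ℚ) * s - j * m| ∧
      R (k - 1) = min |(k : ℚ) * s - j * m - s| (m - |(k : ℚ) * s - j * m - s|) := by
    intro k hk2
    induction k, hk2 using Nat.le_induction with
    | base =>
      intro hk
      obtain ⟨j, h1, h2⟩ :=
        double_index h hN hlow (hL 2 (by norm_num) hk) (hE 2 (by norm_num) hk)
      exact ⟨j, by exact_mod_cast h1, by rw [show (2 : ℕ) - 1 = 1 from rfl, hR1]; exact_mod_cast h2⟩
    | succ k hk ih =>
      intro hk1
      obtain ⟨j, hRk, hRk'⟩ := ih (by omega)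
      have lk := hL k (by omega) (by omega)
      have lp := hL (k + 1) (by omega) hk1
      have lm := hL (k - 1) (by omega) (by omega)
      obtain ⟨⟨sb1, sb2, sb3⟩, hdge, hdeq⟩ := multiples_relation h hN (by omega) hlow lk lp lm
        (hE k (by omega) (by omega)) (hE (k + 1) (by omega) hk1)
        (hE (k - 1) (by omega) (by omega))
      rw [hRk] at sb1 sb2 sb3 hdge hdeq
      obtain ⟨e, he1, he2⟩ := next_index hs0 hlow.2.1 (hRk ▸ lk.2.1) lp.1 lp.2.1 lm.1 lm.2.1
        hRk' sb1 sb2 sb3 hdge hdeq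
      refine ⟨j + e, ?_, ?_⟩
      · rw [he1]; push_cast; ring_nf
      · rw [show k + 1 - 1 = k by omega, hRk, he2]; push_cast; ring_nf
  -- `(p - 1) P = -P` has index `s`
  obtain ⟨j, hRu, hRu'⟩ := inv (p - 1) (by omega) le_rfl
  have hlast : R (p - 1) = s := by
    have e := hE (p - 1) (by omega) le_rfl
    have e' : (p - 1) • Point.some x y hns = -Point.some x y hns := by
      apply eq_neg_of_add_eq_zero_left
      rw [← succ_nsmul, show p - 1 + 1 = p by omega, hP]
    rw [e', Point.neg_some] at e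
    obtain ⟨ex, -⟩ := Point.some.inj e
    have h1 := (hL (p - 1) (by omega) le_rfl).2.2.1
    rw [← ex] at h1
    exact h1.unique hlow.2.2.1
  rw [hlast] at hRu
  have hpc : ((p - 1 : ℕ) : ℚ) = (p : ℚ) - 1 := by rw [Nat.cast_sub (by omega)]; norm_num
  rw [hpc] at hRu hRu'
  rcases abs_choice (((p : ℚ) - 1) * s - j * m) with e | e
  · exfalso
    have hpos := (hL (p - 1 - 1) (by omega) (by omega)).1
    rw [hRu', ← e, ← hRu] at hpos
    simp at hpos
  · exact ⟨j, by linarith⟩

end Fermat.EC.Node
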