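import Mathlib.NumberTheory.PythagoreanTriples
import Mathlib.RingTheory.Int.Basic
import Mathlib.Tactic.Ring
import Mathlib.Tactic.LinearCombination
import Mathlib.Tactic.Linarith
import Mathlib.Data.ZMod.Basic
import Mathlib.Tactic.IntervalCases
import Mathlib.Tactic.Positivity

/-!
# `x² + y²` and `x² + 16 y²` are not both squares unless `x y = 0`

Infinite descent on pairs of Pythagorean triangles.
-/

set_option autoImplicit false

namespace Fermat.EC.Concordant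

/-- `P R = a b` splits into four factors. -/
theorem four_factors {P R a b : ℤ} (hP : P ≠ 0) (h : P * R = a * b) :
    ∃ a₁ a₂ b₁ b₂ : ℤ, P = a₁ * b₁ ∧ R = a₂ * b₂ ∧ a = a₁ * a₂ ∧ b = b₁ * b₂ := by
  obtain ⟨a₁, b₁, ⟨a₂, ha⟩, ⟨b₂, hb⟩, hP'⟩ := exists_dvd_and_dvd_of_dvd_mul ⟨R, h.symm⟩
  refine ⟨a₁, a₂, b₁, b₂, hP', ?_, ha, hb⟩
  apply mul_left_cancel₀ hP
  rw [h, ha, hb, hP']; ring

/-- The key step: for coprime data the two squares `β²` and `γ²` are the values of the two forms. -/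
theorem step {α β γ δ : ℤ} (hαδ : IsCoprime α δ) (hβγ : IsCoprime β γ) (hα : α % 2 = 1)
    (hδ : δ % 2 = 0) (hγ2 : γ % 2 = 1)
    (h : β ^ 2 * (α ^ 2 + 16 * δ ^ 2) = γ ^ 2 * (α ^ 2 + δ ^ 2)) :
    α ^ 2 + δ ^ 2 = β ^ 2 ∧ α ^ 2 + 16 * δ ^ 2 = γ ^ 2 := by
  have hγ : γ ≠ 0 := by omega
  obtain ⟨k, hk⟩ : γ ^ 2 ∣ α ^ 2 + 16 * δ ^ 2 :=
    (hβγ.symm.pow (m := 2) (n := 2)).dvd_of_dvd_mul_left ⟨_, h⟩
  have hk' : α ^ 2 + δ ^ 2 = β ^ 2 * k := by
    apply mul_left_cancel₀ (pow_ne_zero 2 hγ)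
    rw [← h, hk]; ring
  obtain ⟨u, v, huv⟩ := (hαδ.pow (m := 2) (n := 2))
  -- the cofactor `k` divides `15`, is positive, prime to `3`, and is not `5`
  have h15 : k ∣ 15 := by
    refine ⟨u * (16 * β ^ 2 - γ ^ 2) + v * (γ ^ 2 - β ^ 2), ?_⟩
    linear_combination (-15) * huv + (16 * u - v) * hk' + (v - u) * hk
  have hpos : 0 < k := by
    have h1 : 0 < α ^ 2 + 16 * δ ^ 2 := by
      have : α ≠ 0 := by intro e; subst e; norm_num at hα
      positivity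
    rw [hk] at h1
    exact (pos_iff_pos_of_mul_pos h1).mp (by positivity)
  have h3 : ¬ (3 : ℤ) ∣ k := by
    intro h3
    have h0 : ((α ^ 2 + δ ^ 2 : ℤ) : ZMod 3) = 0 :=
      (ZMod.intCast_zmod_eq_zero_iff_dvd _ 3).mpr (by rw [hk']; exact dvd_mul_of_dvd_right h3 _)
    push_cast at h0
    have := (show ∀ a d : ZMod 3, a ^ 2 + d ^ 2 = 0 → a = 0 ∧ d = 0 by decide) _ _ h0
    have := hαδ.isUnit_of_dvd' ((ZMod.intCast_zmod_eq_zero_iff_dvd _ 3).mp this.1)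
      ((ZMod.intCast_zmod_eq_zero_iff_dvd _ 3).mp this.2)
    rw [Int.isUnit_iff] at this
    norm_num at this
  have hle : k ≤ 15 := Int.le_of_dvd (by norm_num) h15
  have hk1 : k = 1 := by
    interval_cases k <;> first | omega | skip
    exfalso
    obtain ⟨a, rfl⟩ : ∃ a, α = 2 * a + 1 := ⟨α / 2, by omega⟩
    obtain ⟨d, rfl⟩ : ∃ d, δ = 2 * d := ⟨δ / 2, by omega⟩
    obtain ⟨g, rfl⟩ : ∃ g, γ = 2 * g + 1 := ⟨γ / 2, by omega⟩
    have h8 := congrArg (Int.cast : ℤ → ZMod 8) hk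
    push_cast at h8
    generalize (a : ZMod 8) = a', (d : ZMod 8) = d', (g : ZMod 8) = g' at h8
    revert h8; revert a' d' g'; decide
  subst hk1
  exact ⟨by rw [hk', mul_one], by rw [hk, mul_one]⟩

/-- `p² - q² = r² - s²` with both pairs of mixed parity: `p` and `r` have the same parity. -/
private theorem emod_two_eq {p q r s : ℤ} (hpq : p % 2 = 0 ∧ q % 2 = 1 ∨ p % 2 = 1 ∧ q % 2 = 0)
    (hrs : r % 2 = 0 ∧ s % 2 = 1 ∨ r % 2 = 1 ∧ s % 2 = 0) (e : p ^ 2 - q ^ 2 = r ^ 2 - s ^ 2) :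
    p % 2 = r % 2 ∧ q % 2 = s % 2 := by
  have key : ∀ a b : ℤ, a % 2 = 0 → b % 2 = 1 → (a ^ 2 - b ^ 2) % 4 = 3 := by
    intro a b ha hb
    obtain ⟨u, rfl⟩ : ∃ u, a = 2 * u := ⟨a / 2, by omega⟩
    obtain ⟨v, rfl⟩ : ∃ v, b = 2 * v + 1 := ⟨b / 2, by omega⟩
    rw [show (2 * u) ^ 2 - (2 * v + 1) ^ 2 = 4 * (u ^ 2 - v ^ 2 - v) - 1 by ring]
    omega
  rcases hpq with ⟨hp, hq⟩ | ⟨hp, hq⟩ <;> rcases hrs with ⟨hr, hs⟩ | ⟨hr, hs⟩ <;>
    first | exact ⟨hp.trans hr.symm, hq.trans hs.symm⟩ | skip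
  · have := key p q hp hq; have := key s r hs hr; omega
  · have := key q p hq hp; have := key r s hr hs; omega

/-- The descent step in terms of the two parametrisations, odd first entries. -/
private theorem descent_of_param {p q r s : ℤ} (hpq : IsCoprime p q) (hrs : IsCoprime r s)
    (hp : p % 2 = 1) (hq : q % 2 = 0) (hr : r % 2 = 1) (hy4 : r * s = 4 * (p * q))
    (he : p ^ 2 - q ^ 2 = r ^ 2 - s ^ 2) (hpq0 : p * q ≠ 0) :
    ∃ x' y' c' d' : ℤ, IsCoprime x' y' ∧ x' % 2 = 1 ∧ y' ≠ 0 ∧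
      y'.natAbs * x'.natAbs < (2 * p * q).natAbs ∧
      x' ^ 2 + y' ^ 2 = c' ^ 2 ∧ x' ^ 2 + 16 * y' ^ 2 = d' ^ 2 := by
  obtain ⟨s', rfl⟩ : (4 : ℤ) ∣ s := by
    have h4r : IsCoprime (4 : ℤ) r := by
      rw [show (4 : ℤ) = 2 * 2 by norm_num]
      have : IsCoprime (2 : ℤ) r := ⟨-(r / 2), 1, by omega⟩
      exact this.mul_left this
    exact h4r.dvd_of_dvd_mul_left ⟨_, hy4⟩
  have e4 : p * q = r * s' := by linarith
  obtain ⟨α, γ, β, δ, hp', hq', hr', hs'⟩ := four_factors (left_ne_zero_of_mul hpq0) e4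
  subst hp' hq' hr' hs'
  -- p = α β, q = γ δ, r = α γ, s' = β δ
  have hne := mul_ne_zero_iff.mp hpq0
  obtain ⟨hα0, hβ0⟩ := mul_ne_zero_iff.mp hne.1
  obtain ⟨hγ0, hδ0⟩ := mul_ne_zero_iff.mp hne.2
  have hαδ : IsCoprime α δ := (hrs.of_mul_left_left.of_mul_right_right).of_mul_right_right
  have hodd : α % 2 = 1 ∧ γ % 2 = 1 := by
    rw [Int.mul_emod] at hr
    rcases Int.emod_two_eq_zero_or_one α with u | u <;>
      rcases Int.emod_two_eq_zero_or_one γ with v | v <;> simp [u, v] at hr ⊢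
  have hδe : δ % 2 = 0 := by
    rw [Int.mul_emod, hodd.2] at hq; omega
  have heq : β ^ 2 * (α ^ 2 + 16 * δ ^ 2) = γ ^ 2 * (α ^ 2 + δ ^ 2) := by
    linear_combination he
  have := step hαδ (hpq.of_mul_left_right.of_mul_right_left) hodd.1 hδe hodd.2 heq
  refine ⟨α, δ, β, γ, hαδ, hodd.1, hδ0, ?_, this.1, this.2⟩
  simp only [Int.natAbs_mul]
  have h1 := Nat.one_le_iff_ne_zero.mpr (mul_ne_zero (Int.natAbs_ne_zero.mpr hβ0)
    (Int.natAbs_ne_zero.mpr hγ0))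
  have h2 : 0 < α.natAbs * δ.natAbs :=
    Nat.pos_of_ne_zero (mul_ne_zero (Int.natAbs_ne_zero.mpr hα0) (Int.natAbs_ne_zero.mpr hδ0))
  norm_num
  nlinarith

/-- One descent step from an odd `x`. -/
theorem descent {x y c d : ℤ} (hco : IsCoprime x y) (hx : x % 2 = 1) (hy : y ≠ 0)
    (h1 : x ^ 2 + y ^ 2 = c ^ 2) (h2 : x ^ 2 + 16 * y ^ 2 = d ^ 2) :
    ∃ x' y' c' d' : ℤ, IsCoprime x' y' ∧ x' % 2 = 1 ∧ y' ≠ 0 ∧ y'.natAbs * x'.natAbs < y.natAbs ∧
      x' ^ 2 + y' ^ 2 = c' ^ 2 ∧ x' ^ 2 + 16 * y' ^ 2 = d' ^ 2 := by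
  have hpos : ∀ {z k : ℤ}, 0 < k → x ^ 2 + k * y ^ 2 = z ^ 2 → 0 < |z| :=
    fun {z k} hk h => abs_pos.mpr fun e => by
      subst e
      have : k * y ^ 2 = 0 := by nlinarith [sq_nonneg x, sq_nonneg y]
      exact hy (sq_eq_zero_iff.mp ((mul_eq_zero.mp this).resolve_left hk.ne'))
  obtain ⟨p, q, hxp, hyp, -, hpq, hpar, -⟩ :=
    PythagoreanTriple.coprime_classification' (x := x) (y := y) (z := |c|)
      (show x * x + y * y = |c| * |c| by rw [abs_mul_abs_self]; linear_combination h1)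
      (Int.isCoprime_iff_gcd_eq_one.mp hco) hx (hpos one_pos (by rwa [one_mul]))
  have hco4 : IsCoprime x (4 * y) := by
    refine IsCoprime.mul_right ?_ hco
    rw [show (4 : ℤ) = 2 * 2 by norm_num]
    have h2x : IsCoprime x 2 := ⟨1, -(x / 2), by omega⟩
    exact h2x.mul_right h2x
  obtain ⟨r, s, hxr, hyr, -, hrs, hpar', -⟩ :=
    PythagoreanTriple.coprime_classification' (x := x) (y := 4 * y) (z := |d|)
      (show x * x + 4 * y * (4 * y) = |d| * |d| by rw [abs_mul_abs_self]; linear_combination h2)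
      (Int.isCoprime_iff_gcd_eq_one.mp hco4) hx (hpos (by norm_num) h2)
  have hpq' := Int.isCoprime_iff_gcd_eq_one.mpr hpq
  have hrs' := Int.isCoprime_iff_gcd_eq_one.mpr hrs
  have he : p ^ 2 - q ^ 2 = r ^ 2 - s ^ 2 := hxp.symm.trans hxr
  -- compare the two parametrisations of the triples
  obtain ⟨hpr, hqs⟩ := emod_two_eq hpar hpar' he
  have hy4 : r * s = 4 * (p * q) := by
    have := hyr; rw [hyp] at this; linarith
  have hpq0 : p * q ≠ 0 := fun e => hy (by rw [hyp]; linear_combination 2 * e)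
  rcases hpar with ⟨hp, hq⟩ | ⟨hp, hq⟩
  · -- exchange the entries of both parametrisations
    rw [show y = 2 * q * p by rw [hyp]; ring]
    exact descent_of_param hpq'.symm hrs'.symm hq hp (by omega) (by linear_combination hy4)
      (by linear_combination -he) (by rwa [mul_comm])
  · rw [hyp]
    exact descent_of_param hpq' hrs' hp hq (by omega) hy4 he hpq0

/-- By descent, a primitive solution with odd `x` has `y = 0`. -/
theorem no_odd_solution : ∀ (n : ℕ) (x y c d : ℤ), y.natAbs = n → IsCoprime x y → x % 2 = 1 →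
    x ^ 2 + y ^ 2 = c ^ 2 → x ^ 2 + 16 * y ^ 2 = d ^ 2 → y = 0 := by
  intro n
  induction n using Nat.strong_induction_on with
  | _ n ih =>
    intro x y c d hn hco hx h1 h2
    by_contra hy
    obtain ⟨x', y', c', d', hco', hx', hy', hlt, h1', h2'⟩ := descent hco hx hy h1 h2
    have : 1 ≤ x'.natAbs := by omega
    exact hy' (ih y'.natAbs (by nlinarith) x' y' c' d' rfl hco' hx' h1' h2')

/-- `x² + y² = □` and `x² + 16 y² = □` imply `x y = 0`. -/
theorem mul_eq_zero_of_concordant {x y c d : ℤ} (h1 : x ^ 2 + y ^ 2 = c ^ 2)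
    (h2 : x ^ 2 + 16 * y ^ 2 = d ^ 2) : x * y = 0 := by
  by_contra hxy
  obtain ⟨hx, hy⟩ := mul_ne_zero_iff.mp hxy
  -- divide by the common divisor
  obtain ⟨g, x', y', hg, hco, rfl, rfl⟩ := Int.exists_gcd_one' (m := x) (n := y)
    (Int.gcd_pos_of_ne_zero_left _ hx)
  have hg2 : (g : ℤ) ^ 2 ≠ 0 := by positivity
  obtain ⟨c', rfl⟩ : (g : ℤ) ∣ c :=
    (Int.pow_dvd_pow_iff two_ne_zero).mp ⟨x' ^ 2 + y' ^ 2, by linear_combination -h1⟩
  obtain ⟨d', rfl⟩ : (g : ℤ) ∣ d :=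
    (Int.pow_dvd_pow_iff two_ne_zero).mp ⟨x' ^ 2 + 16 * y' ^ 2, by linear_combination -h2⟩
  have k1 : x' ^ 2 + y' ^ 2 = c' ^ 2 := mul_left_cancel₀ hg2 (by linear_combination h1)
  have k2 : x' ^ 2 + 16 * y' ^ 2 = d' ^ 2 := mul_left_cancel₀ hg2 (by linear_combination h2)
  have hx0 := left_ne_zero_of_mul hx
  have hy0 := left_ne_zero_of_mul hy
  rcases Int.emod_two_eq_zero_or_one x' with hx2 | hx2
  · -- then `4 ∣ x'`, and `(y', x'/4)` is a solution with odd first entry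
    have hco' := Int.isCoprime_iff_gcd_eq_one.mpr hco
    have hy2 : y' % 2 = 1 := by
      rcases Int.emod_two_eq_zero_or_one y' with e | e
      · exfalso
        have := hco'.isUnit_of_dvd' (Int.dvd_of_emod_eq_zero hx2) (Int.dvd_of_emod_eq_zero e)
        rw [Int.isUnit_iff] at this; norm_num at this
      · exact e
    obtain ⟨u, rfl⟩ := Int.dvd_of_emod_eq_zero hx2
    obtain ⟨e, rfl⟩ : (2 : ℤ) ∣ d' := Int.prime_two.dvd_of_dvd_pow
      (show (2 : ℤ) ∣ d' ^ 2 from ⟨2 * u ^ 2 + 8 * y' ^ 2, by linear_combination -k2⟩)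
    have k3 : u ^ 2 + 4 * y' ^ 2 = e ^ 2 := by linarith
    have hu2 : u % 2 = 0 := by
      by_contra hu
      have h8 := congrArg (Int.cast : ℤ → ZMod 8) k3
      obtain ⟨a, rfl⟩ : ∃ a, u = 2 * a + 1 := ⟨u / 2, by omega⟩
      obtain ⟨b, rfl⟩ : ∃ b, y' = 2 * b + 1 := ⟨y' / 2, by omega⟩
      push_cast at h8
      generalize (a : ZMod 8) = a', (b : ZMod 8) = b', (e : ZMod 8) = e' at h8
      revert h8; revert a' b' e'; decide
    obtain ⟨v, rfl⟩ := Int.dvd_of_emod_eq_zero hu2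
    obtain ⟨f, rfl⟩ : (2 : ℤ) ∣ e := Int.prime_two.dvd_of_dvd_pow
      (show (2 : ℤ) ∣ e ^ 2 from ⟨2 * v ^ 2 + 2 * y' ^ 2, by linear_combination -k3⟩)
    have := no_odd_solution _ y' v f c' rfl
      ((hco'.of_mul_left_right).of_mul_left_right).symm hy2 (by linarith)
      (by linear_combination k1)
    exact hx0 (by rw [this]; ring)
  -- `x'` odd: `no_odd_solution` directly
  · exact hy0 (no_odd_solution _ x' y' c' d' rfl (Int.isCoprime_iff_gcd_eq_one.mpr hco) hx2 k1 k2)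

end Fermat.EC.Concordant
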