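import Fermat.Agent.EC.TorsionLine
import Mathlib.Data.Nat.Choose.Dvd
import Mathlib.RingTheory.RootsOfUnity.PrimitiveRoots
import Mathlib.RingTheory.RootsOfUnity.AlgebraicallyClosed

/-!
# The cyclotomic character and the kernel line

`smul_eq_cyclo`: inertia at `p` acts on the line of `TorsionLine` by the cyclotomic character; the
local input of `Dichotomy` at `p`.
-/

set_option autoImplicit false

open Polynomial WeierstrassCurve.Affine Fermat.EC.Val Fermat.EC.Red Fermat.EC.Line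
open scoped WeierstrassCurve.Affine

namespace Fermat.EC.Cyclo

local notation "ℚbar" => AlgebraicClosure ℚ

/-- `ℚbar` has primitive `p`-th roots of unity. -/
lemma exists_zeta {p : ℕ} (hp : p.Prime) : ∃ ζ : ℚbar, IsPrimitiveRoot ζ p := by
  have : NeZero (p : ℚbar) := ⟨Nat.cast_ne_zero.mpr hp.ne_zero⟩
  exact HasEnoughRootsOfUnity.exists_primitiveRoot ℚbar p

variable {A : ValuationSubring ℚbar} {q : ℕ}

/-- Powers of a `1`-unit are `1`-units. -/
lemma gt_pow_sub_one (h : IsPlace A q) {u : ℚbar} (hu : Ge A q u 0) (hd : Gt A q (u - 1) 0) :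
    ∀ i : ℕ, Gt A q (u ^ i - 1) 0 := by
  intro i
  induction i with
  | zero => simp [gt_zero]
  | succ i ih =>
    rw [show u ^ (i + 1) - 1 = u * (u ^ i - 1) + (u - 1) by ring]
    exact ((hu.mul_gt h ih).mono (by simp)).add h hd

/-- Roots of unity have order `0`. -/
lemma is_zeta (h : IsPlace A q) {p : ℕ} (hp : p.Prime) {ζ : ℚbar} (hζ : IsPrimitiveRoot ζ p) :
    Is A q ζ 0 := by
  refine ⟨hζ.ne_zero hp.ne_zero, ?_⟩
  have := ord_pow h ζ p
  rw [hζ.pow_eq_one, ord_one h, eq_comm, mul_eq_zero] at this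
  exact this.resolve_left (Nat.cast_ne_zero.mpr hp.ne_zero)

/-- Inertia away from `p` fixes the `p`-th roots of unity. -/
lemma apply_zeta_eq (h : IsPlace A q) {p : ℕ} (hp : p.Prime) (hqp : q ≠ p) {ζ : ℚbar}
    (hζ : IsPrimitiveRoot ζ p) {σ : ℚbar ≃ₐ[ℚ] ℚbar} (hσ : IsInert A σ) : σ ζ = ζ := by
  have hz := is_zeta h hp hζ
  by_contra hne
  set u := σ ζ / ζ with hu
  have hu1 : u ^ p = 1 := by rw [hu, div_pow, ← map_pow, hζ.pow_eq_one, map_one, div_one]
  have hu_ne : u ≠ 1 := fun e => hne ((div_eq_one_iff_eq hz.1).mp e)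
  have hu0 : Ge A q u 0 := by simpa using (hσ.is_apply h hz).ge.div h hz
  have hd : Gt A q (u - 1) 0 := by
    have : u - 1 = (σ ζ - ζ) / ζ := by rw [hu, sub_div, div_self hz.1]
    rw [this]; simpa using (hσ.gt_sub h hz.ge).div h hz
  have hsum : ∑ i ∈ Finset.range p, u ^ i = 0 := by
    have := geom_sum_mul u p
    rw [hu1, sub_self, mul_eq_zero] at this
    exact this.resolve_right (sub_ne_zero.mpr hu_ne)
  have hp0 : Gt A q (p : ℚbar) 0 := by
    have e : (p : ℚbar) = -∑ i ∈ Finset.range p, (u ^ i - 1) := by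
      rw [Finset.sum_sub_distrib, hsum]; simp
    rw [e]
    exact (Gt.sum h fun i _ => gt_pow_sub_one h hu0 hd i).neg h
  exact (is_natCast (A := A) h fun e => hqp ((Nat.prime_dvd_prime_iff_eq h.1 hp).mp e)).not_gt hp0

/-- `ord (ζ - 1) = 1/(p-1)` over `p`. -/
lemma is_zeta_sub_one {p : ℕ} (h : IsPlace A p) {ζ : ℚbar} (hζ : IsPrimitiveRoot ζ p) :
    Is A p (ζ - 1) (1 / ((p : ℚ) - 1)) := by
  have hp := h.1
  have := Fact.mk hp
  have hne : ζ - 1 ≠ 0 := sub_ne_zero.mpr (hζ.ne_one hp.one_lt)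
  refine ⟨hne, ?_⟩
  set g : ℚbar[X] := ∑ i ∈ Finset.range p, (X + 1) ^ i with hg
  have hcoeff : ∀ k, g.coeff k = (p.choose (k + 1) : ℚbar) := by
    intro k
    have e : g * X = (X + 1) ^ p - 1 := by
      have := geom_sum_mul (X + 1 : ℚbar[X]) p
      rw [add_sub_cancel_right] at this
      rw [hg]
      exact this
    have := congrArg (fun r => r.coeff (k + 1)) e
    rw [coeff_mul_X, coeff_sub, coeff_X_add_one_pow, coeff_one, if_neg (Nat.succ_ne_zero k),
      sub_zero] at this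
    exact this
  have hdeg : g.natDegree ≤ p - 1 := natDegree_le_iff_coeff_eq_zero.mpr fun k hk => by
    rw [hcoeff, Nat.choose_eq_zero_of_lt (by omega), Nat.cast_zero]
  have hroot : g.eval (ζ - 1) = 0 := by
    rw [hg, eval_finsetSum]
    simpa using hζ.geom_sum_eq_zero hp.one_lt
  -- `g` is Eisenstein
  have := ord_root_of_sparse h hdeg (by have := hp.two_le; omega) (a := 1) (b := 0)
    (by rw [hcoeff, zero_add, Nat.choose_one_right];
          exact ⟨Nat.cast_ne_zero.mpr hp.ne_zero, ord_q h⟩)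
    (by rw [hcoeff, Nat.sub_add_cancel hp.one_le, Nat.choose_self, Nat.cast_one]
        exact ⟨one_ne_zero, ord_one h⟩)
    (fun i hi hi' => by
      rw [hcoeff, max_eq_left (zero_le_one' ℚ), ← Int.cast_natCast]
      exact_mod_cast ge_intCast_of_dvd h (k := 1) (by
        rw [pow_one]; exact_mod_cast Nat.Prime.dvd_choose_self hp (by omega) (by omega)))
    hne hroot
  rw [Nat.cast_sub hp.one_le, Nat.cast_one, sub_zero] at this
  have h2 : (2 : ℚ) ≤ p := by exact_mod_cast hp.two_le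
  rw [eq_div_iff (by linarith)]
  linarith

variable {W : WeierstrassCurve ℤ}

/-- Inertia preserves the kernel of reduction. -/
lemma inE1_smul (h : IsPlace A q) {σ : ℚbar ≃ₐ[ℚ] ℚbar} (hσ : IsInert A σ) :
    ∀ {P : (overQbar W).Point}, InE1 A q P → InE1 A q (σ • P)
  | .zero, _ => trivial
  | .some x y hns, hP => fun hg => hP (by simpa [Ge, hσ.ord_apply h x] using hg)

/-- The parameter at infinity commutes with Galois. -/
lemma tpar_smul (σ : ℚbar ≃ₐ[ℚ] ℚbar) :
    ∀ P : (overQbar W).Point, tpar (σ • P) = σ (tpar P)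
  | .zero => (map_zero σ).symm
  | .some x y hns => by
    change -(σ x) / σ y = σ (-x / y)
    rw [map_div₀, map_neg]

/-- Multiples of a `p`-torsion point only depend on the residue modulo `p`. -/
lemma natCast_val_nsmul {p : ℕ} {P : (overQbar W).Point} (hP : p • P = 0)
    (k : ℕ) : (k : ZMod p).val • P = k • P := by
  rw [ZMod.val_natCast]
  conv_rhs => rw [← Nat.mod_add_div k p]
  rw [add_nsmul, mul_comm, mul_nsmul', hP, nsmul_zero, add_zero]

/-- Inertia at `p` acts on the kernel line through the cyclotomic character. -/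
theorem smul_eq_cyclo (hΔ : W.Δ ≠ 0) {p : ℕ} [NeZero p] (hp5 : 5 ≤ p) (h : IsPlace A p)
    (hss : (p : ℤ) ∣ W.Δ → ¬ (p : ℤ) ∣ W.c₄)
    {ζ : ℚbar} (hζ : IsPrimitiveRoot ζ p)
    {P₀ : (overQbar W).Point} (hP : p • P₀ = 0) (hP0 : P₀ ≠ 0)
    (hstab : ∀ σ : ℚbar ≃ₐ[ℚ] ℚbar, ∃ k : ℕ, σ • P₀ = k • P₀)
    {σ : ℚbar ≃ₐ[ℚ] ℚbar} (hσ : IsInert A σ)
    {P : (overQbar W).Point} (hPp : p • P = 0) (hPE : InE1 A p P) :
    σ • P = (hζ.autToPow ℚ σ : ZMod p).val • P := by
  have hp := h.1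
  have := Fact.mk hp
  obtain ⟨P₁, hP₁, hP₁0, hP₁E, hgen, ht⟩ := exists_line hΔ hp hp5 h hss hP hP0 hstab
  obtain ⟨a, rfl⟩ := hgen P hPp hPE
  suffices hkey : σ • P₁ = (hζ.autToPow ℚ σ : ZMod p).val • P₁ by
    rw [gal_smul_nsmul, hkey, ← mul_nsmul', ← mul_nsmul', mul_comm]
  have hW := integralAt_overQbar W h
  obtain ⟨k, hk⟩ := hgen (σ • P₁) (by rw [← gal_smul_nsmul, hP₁, gal_smul_zero])
    (inE1_smul h hσ hP₁E)
  set j : ℕ := (hζ.autToPow ℚ σ : ZMod p).val with hj
  suffices hkj : (k : ZMod p) = (j : ZMod p) by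
    rw [hk, ← natCast_val_nsmul hP₁ k, hkj, natCast_val_nsmul hP₁ j]
  set w : ℚ := 1 / ((p : ℚ) - 1) with hw
  have hwpos : 0 < w := by
    have : (5 : ℚ) ≤ p := by exact_mod_cast hp5
    rw [hw]; exact div_pos one_pos (by linarith)
  set t := tpar P₁
  set π := ζ - 1
  have hπ : Is A p π w := is_zeta_sub_one h hζ
  have h1 : Gt A p (σ t - (k : ℚbar) * t) w := by
    have := (tpar_nsmul h hW hP₁E hwpos ht.ge k).2
    rwa [← hk, tpar_smul] at this
  have h2 : Gt A p (σ π - (j : ℚbar) * π) w := by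
    have e : σ π - (j : ℚbar) * π = π * ∑ i ∈ Finset.range j, (ζ ^ i - 1) := by
      rw [show σ π = ζ ^ j - 1 by rw [map_sub, map_one, hj, hζ.autToPow_spec ℚ σ],
        ← geom_sum_mul ζ j, Finset.sum_sub_distrib]
      simp; ring
    rw [e]
    have := hπ.ge.mul_gt h (Gt.sum h (s := Finset.range j) (f := fun i => ζ ^ i - 1) fun i _ =>
      gt_pow_sub_one h (is_zeta h hp hζ).ge (hπ.gt hwpos) i)
    rwa [add_zero] at this
  have h3 : Gt A p (σ t * π - t * σ π) (w + w) := by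
    have hu : Ge A p (t / π) 0 := by simpa using ht.ge.div h hπ
    have hσπ := hσ.is_apply h hπ
    have := (hσ.gt_sub h hu).mul_ge h ((hπ.mul h hσπ).ge)
    rw [zero_add] at this
    convert this using 1
    rw [map_div₀]
    field_simp [hπ.1, hσπ.1]
  -- compare `σ t ≡ k t`, `σ π ≡ j π` and `σ (t / π) ≡ t / π` modulo higher order
  by_contra hne
  have h4 : Gt A p (((k : ℚbar) - j) * t * π) (w + w) := by
    have e : ((k : ℚbar) - j) * t * π = (σ t * π - t * σ π) - (σ t - (k : ℚbar) * t) * π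
        + t * (σ π - (j : ℚbar) * π) := by ring
    rw [e]
    exact (h3.sub h (h1.mul_ge h hπ.ge)).add h (ht.ge.mul_gt h h2)
  have hd : ¬ (p : ℤ) ∣ ((k : ℤ) - j) := fun hd => hne (by
    have := (ZMod.intCast_zmod_eq_zero_iff_dvd _ p).mpr hd
    push_cast at this
    exact sub_eq_zero.mp this)
  have h5 := (((is_intCast (A := A) h hd)).mul h ht).mul h hπ
  rw [zero_add] at h5
  push_cast at h5
  exact h5.not_gt h4

end Fermat.EC.Cyclo
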