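import Fermat.Agent.EC.Concordant
import Mathlib.Data.Rat.Lemmas
import Mathlib.Algebra.Order.Field.Rat
import Mathlib.Tactic.FieldSimp

/-!
# Rational points on `y² = (h² + h - 1)(h² - 11 h - 1)`, a model of `X₀(15)`

Only `h = 0`, `h = -2`, `h = 1/2`.
-/

set_option autoImplicit false

namespace Fermat.EC.Descent15

/-- `3` does not divide `a² + ab - b²` for coprime `a`, `b`. -/
lemma not_three_dvd_of_coprime {a b : ℤ} (h : IsCoprime a b) :
    ¬ (3 : ℤ) ∣ a ^ 2 + a * b - b ^ 2 := fun h3 => by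
  have h0 := (ZMod.intCast_zmod_eq_zero_iff_dvd _ 3).mpr h3
  push_cast at h0
  have key := (show ∀ a b : ZMod 3, a ^ 2 + a * b - b ^ 2 = 0 → a = 0 ∧ b = 0 by decide) _ _ h0
  have := h.isUnit_of_dvd' ((ZMod.intCast_zmod_eq_zero_iff_dvd _ 3).mp key.1)
    ((ZMod.intCast_zmod_eq_zero_iff_dvd _ 3).mp key.2)
  rw [Int.isUnit_iff] at this
  norm_num at this

/-- Both quadratic factors are odd at coprime arguments. -/
lemma emod_two_quad {a b : ℤ} (h : IsCoprime a b) :
    (a ^ 2 + a * b - b ^ 2) % 2 = 1 ∧ (a ^ 2 - 11 * a * b - b ^ 2) % 2 = 1 := by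
  have key : ∀ z : ℤ, (z : ZMod 2) = 1 → z % 2 = 1 := fun z hz => by
    have := (ZMod.intCast_zmod_eq_zero_iff_dvd (z - 1) 2).mp (by push_cast; rw [hz, sub_self])
    omega
  have hab : ¬ ((a : ZMod 2) = 0 ∧ (b : ZMod 2) = 0) := fun e => by
    have := h.isUnit_of_dvd' ((ZMod.intCast_zmod_eq_zero_iff_dvd _ 2).mp e.1)
      ((ZMod.intCast_zmod_eq_zero_iff_dvd _ 2).mp e.2)
    rw [Int.isUnit_iff] at this
    norm_num at this
  constructor <;> refine key _ ?_ <;> push_cast <;>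
    generalize (a : ZMod 2) = u, (b : ZMod 2) = v at hab <;> revert hab <;> revert u v <;> decide

/-- The core after splitting `c ± d`. -/
theorem core {a b P R : ℤ} (hab : IsCoprime a b) (hPR : IsCoprime (3 * P) R) (h : P * R = a * b)
    (he : a ^ 2 + a * b - b ^ 2 = (3 * P + R) ^ 2) : a * b = 0 ∨ a = -2 * b := by
  by_cases h0 : a * b = 0
  · exact Or.inl h0
  have hP : P ≠ 0 := fun e => h0 (by rw [← h, e, zero_mul])
  obtain ⟨a₁, a₂, b₁, b₂, rfl, rfl, rfl, rfl⟩ := Concordant.four_factors hP h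
  have hb2 : b₂ ≠ 0 := right_ne_zero_of_mul (right_ne_zero_of_mul h0)
  have hxy : IsCoprime a₂ b₁ := hab.of_mul_left_right.of_mul_right_left
  have h3a : ¬ (3 : ℤ) ∣ a₂ := fun e => by
    have := hPR.isUnit_of_dvd' (dvd_mul_right 3 _) (dvd_mul_of_dvd_left e b₂)
    rw [Int.isUnit_iff] at this
    norm_num at this
  -- the quadratic in `a₁ / b₂`
  have hquad : a₁ ^ 2 * (a₂ ^ 2 - 9 * b₁ ^ 2) - 5 * a₁ * a₂ * b₁ * b₂
      - b₂ ^ 2 * (a₂ ^ 2 + b₁ ^ 2) = 0 := by linear_combination he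
  set AA := a₂ ^ 2 - 4 * b₁ ^ 2 with hAA
  set BB := 4 * a₂ ^ 2 + 9 * b₁ ^ 2 with hBB
  obtain ⟨z, hz⟩ : b₂ ∣ 2 * (a₂ ^ 2 - 9 * b₁ ^ 2) * a₁ - 5 * a₂ * b₁ * b₂ :=
    (Int.pow_dvd_pow_iff two_ne_zero).mp ⟨BB * AA, by
      rw [hAA, hBB]; linear_combination 4 * (a₂ ^ 2 - 9 * b₁ ^ 2) * hquad⟩
  have hprod : BB * AA = z ^ 2 := by
    apply mul_left_cancel₀ (pow_ne_zero 2 hb2)
    rw [← mul_pow, ← hz, hAA, hBB]
    linear_combination -(4 * (a₂ ^ 2 - 9 * b₁ ^ 2)) * hquad
  have hx0 : a₂ ≠ 0 := fun e => h3a (e ▸ dvd_zero 3)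
  have hBpos : 0 < BB := by rw [hBB]; positivity
  obtain ⟨g, B', A', hg, hco, eB, eA⟩ := Int.exists_gcd_one' (m := BB) (n := AA)
    (Int.gcd_pos_of_ne_zero_left _ hBpos.ne')
  have hg' : (g : ℤ) ≠ 0 := by exact_mod_cast hg.ne'
  obtain ⟨z', rfl⟩ : (g : ℤ) ∣ z := (Int.pow_dvd_pow_iff two_ne_zero).mp
    ⟨B' * A', by rw [← hprod, eA, eB]; ring⟩
  have hprod' : B' * A' = z' ^ 2 :=
    mul_left_cancel₀ (pow_ne_zero 2 hg') (by rw [eA, eB] at hprod; linear_combination hprod)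
  have hB'pos : 0 < B' := by
    rw [eB] at hBpos
    exact pos_of_mul_pos_left hBpos (by positivity)
  obtain ⟨n, hn | hn⟩ := Int.sq_of_gcd_eq_one hco hprod'
  swap
  · nlinarith [sq_nonneg n]
  have hA'0 : 0 ≤ A' := by nlinarith [sq_nonneg z']
  obtain ⟨m, hm⟩ : ∃ m, A' = m ^ 2 := by
    obtain ⟨m, hm | hm⟩ := Int.sq_of_gcd_eq_one (a := A') (b := B') (by rwa [Int.gcd_comm])
      (by rw [mul_comm]; exact hprod')
    · exact ⟨m, hm⟩
    · exact ⟨0, by nlinarith [sq_nonneg m]⟩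
  obtain ⟨u, v, huv⟩ := hxy.pow (m := 2) (n := 2)
  have hg25 : g ∣ 25 := by
    have : (g : ℤ) ∣ 25 := by
      refine ⟨u * (4 * B' + 9 * A') + v * (B' - 4 * A'), ?_⟩
      have e1 : 4 * BB + 9 * AA = 25 * a₂ ^ 2 := by rw [hAA, hBB]; ring
      have e2 : BB - 4 * AA = 25 * b₁ ^ 2 := by rw [hAA, hBB]; ring
      rw [eA, eB] at e1 e2
      linear_combination (-25) * huv - u * e1 - v * e2
    exact_mod_cast this
  obtain ⟨r, hgr⟩ : ∃ r : ℕ, g = r ^ 2 := by
    obtain ⟨i, hi, rfl⟩ := (Nat.dvd_prime_pow Nat.prime_five).mp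
      (show g ∣ 5 ^ 2 by norm_num; exact hg25)
    interval_cases i
    · exact ⟨1, rfl⟩
    · exfalso
      have h0 := congrArg (Int.cast : ℤ → ZMod 3) eB
      rw [hBB, hn] at h0
      push_cast at h0
      apply h3a
      refine (ZMod.intCast_zmod_eq_zero_iff_dvd _ 3).mp ?_
      generalize (a₂ : ZMod 3) = x, (b₁ : ZMod 3) = y, (n : ZMod 3) = w at h0 ⊢
      revert h0; revert x y w; decide
    · exact ⟨5, rfl⟩
  have eB' : BB = ((r : ℤ) * n) ^ 2 := by rw [eB, hn, hgr]; push_cast; ring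
  have eA' : AA = ((r : ℤ) * m) ^ 2 := by rw [eA, hm, hgr]; push_cast; ring
  set N := (r : ℤ) * n
  set M := (r : ℤ) * m
  -- `BB` and `AA` are squares, which gives a concordant pair
  have hconc := Concordant.mul_eq_zero_of_concordant (x := 2 * a₂ * M) (y := N * b₁)
    (c := 2 * a₂ ^ 2 - 3 * b₁ ^ 2) (d := 2 * (a₂ ^ 2 + 6 * b₁ ^ 2))
    (by simp only [mul_pow]; rw [← eA', ← eB', hAA, hBB]; ring)
    (by simp only [mul_pow]; rw [← eA', ← eB', hAA, hBB]; ring)
  have hN : N ≠ 0 := fun e => hBpos.ne' (by rw [eB', e]; ring)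
  have hb1 : b₁ ≠ 0 := left_ne_zero_of_mul (right_ne_zero_of_mul h0)
  have hM : M = 0 := by
    rcases mul_eq_zero.mp hconc with e | e
    · exact (mul_eq_zero.mp e).resolve_left (mul_ne_zero two_ne_zero hx0)
    · exact absurd e (mul_ne_zero hN hb1)
  have hx2 : (a₂ - 2 * b₁) * (a₂ + 2 * b₁) = 0 := by
    have : AA = 0 := by rw [eA', hM]; ring
    rw [hAA] at this; linear_combination this
  right
  have h5b : (5 : ℤ) * b₁ ^ 2 ≠ 0 := by positivity
  rcases mul_eq_zero.mp hx2 with e | e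
  · obtain rfl : a₂ = 2 * b₁ := by linarith
    have : (a₁ + b₂) ^ 2 = 0 :=
      mul_left_cancel₀ h5b (by rw [mul_zero]; linear_combination -hquad)
    linear_combination 2 * b₁ * sq_eq_zero_iff.mp this
  · obtain rfl : a₂ = -2 * b₁ := by linarith
    have : (a₁ - b₂) ^ 2 = 0 :=
      mul_left_cancel₀ h5b (by rw [mul_zero]; linear_combination -hquad)
    linear_combination (-2) * b₁ * sq_eq_zero_iff.mp this

/-- If both coprime quadratic factors are squares then `a b = 0` or `a = -2 b`. -/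
theorem both_squares {a b c d : ℤ} (hab : IsCoprime a b) (h1 : a ^ 2 + a * b - b ^ 2 = c ^ 2)
    (h2 : a ^ 2 - 11 * a * b - b ^ 2 = d ^ 2) (hcd : IsCoprime c d) :
    a * b = 0 ∨ a = -2 * b := by
  obtain ⟨o1, o2⟩ := emod_two_quad hab
  have hc : c % 2 = 1 := by
    rw [h1, sq, Int.mul_emod] at o1
    rcases Int.emod_two_eq_zero_or_one c with e | e <;> simp [e] at o1 ⊢
  have hd : d % 2 = 1 := by
    rw [h2, sq, Int.mul_emod] at o2
    rcases Int.emod_two_eq_zero_or_one d with e | e <;> simp [e] at o2 ⊢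
  obtain ⟨P, hP⟩ : (2 : ℤ) ∣ c - d := by omega
  obtain ⟨R, hR⟩ : (2 : ℤ) ∣ c + d := by omega
  have ec : c = P + R := by linarith
  have ed : d = R - P := by linarith
  subst ec ed
  have hPR : P * R = 3 * (a * b) :=
    mul_left_cancel₀ (show (4 : ℤ) ≠ 0 by norm_num) (by linear_combination h2 - h1)
  have hco : IsCoprime P R := by
    obtain ⟨u, v, e⟩ := hcd
    exact ⟨u - v, u + v, by linear_combination e⟩
  rcases Int.prime_three.dvd_or_dvd ⟨a * b, hPR⟩ with ⟨Q, rfl⟩ | ⟨Q, rfl⟩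
  · exact core hab hco (mul_left_cancel₀ (show (3 : ℤ) ≠ 0 by norm_num)
      (by linear_combination hPR)) h1
  · refine core hab hco.symm (mul_left_cancel₀ (show (3 : ℤ) ≠ 0 by norm_num)
      (by linear_combination hPR)) ?_
    rw [h1, add_comm]

/-- The coprime integral solutions of the quartic model of `X₀(15)` are the obvious ones. -/
theorem int_solutions {a b z : ℤ} (hab : IsCoprime a b)
    (h : (a ^ 2 + a * b - b ^ 2) * (a ^ 2 - 11 * a * b - b ^ 2) = z ^ 2) :
    a * b = 0 ∨ a = -2 * b ∨ b = 2 * a := by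
  obtain ⟨o1, o2⟩ := emod_two_quad hab
  set F := a ^ 2 + a * b - b ^ 2 with hF
  set G := a ^ 2 - 11 * a * b - b ^ 2 with hG
  -- the two quadratic factors are coprime
  have hco : IsCoprime F G := by
    have h2 : IsCoprime F 2 := ⟨1, -(F / 2), by omega⟩
    have h3 : IsCoprime F 3 :=
      ((Int.prime_three.coprime_iff_not_dvd).mpr (hF ▸ not_three_dvd_of_coprime hab)).symm
    have hFa : IsCoprime F a := by
      obtain ⟨u, v, e⟩ := hab.pow (m := 1) (n := 2)
      exact ⟨-v, u + v * (a + b), by rw [hF, pow_one] at *; linear_combination e⟩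
    have hFb : IsCoprime F b := by
      obtain ⟨u, v, e⟩ := hab.pow (m := 2) (n := 1)
      exact ⟨u, v - u * (a - b), by rw [hF, pow_one] at *; linear_combination e⟩
    have h12 : IsCoprime F (12 * (a * b)) := by
      rw [show (12 : ℤ) = 2 * 2 * 3 by norm_num]
      exact ((h2.mul_right h2).mul_right h3).mul_right (hFa.mul_right hFb)
    rw [show G = -(12 * (a * b)) + F * 1 by linarith]
    exact h12.neg_right.add_mul_left_right 1
  have hF0 : F ≠ 0 := fun e => by rw [e] at o1; norm_num at o1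
  have hG0 : G ≠ 0 := fun e => by rw [e] at o2; norm_num at o2
  obtain ⟨c, hc⟩ := Int.sq_of_isCoprime hco h
  obtain ⟨d, hd⟩ := Int.sq_of_isCoprime hco.symm (by rw [mul_comm]; exact h)
  have hc0 : c ≠ 0 := fun e => hF0 (by rcases hc with hc | hc <;> rw [hc, e] <;> ring)
  have hd0 : d ≠ 0 := fun e => hG0 (by rcases hd with hd | hd <;> rw [hd, e] <;> ring)
  have hpos : 0 < c ^ 2 * d ^ 2 := by positivity
  -- hence squares up to a common sign
  rcases hc with hc | hc <;> rcases hd with hd | hd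
  · rw [hc, hd] at hco
    rcases both_squares hab hc hd ((IsCoprime.pow_iff two_pos two_pos).mp hco) with e | e
    · exact Or.inl e
    · exact Or.inr (Or.inl e)
  · exfalso; rw [hc, hd] at h; nlinarith [sq_nonneg z]
  · exfalso; rw [hc, hd] at h; nlinarith [sq_nonneg z]
  · rw [hc, hd] at hco
    have hco' := (IsCoprime.pow_iff (m := 2) (n := 2) two_pos two_pos).mp
      (by simpa using hco.neg_left.neg_right)
    rcases both_squares (a := b) (b := -a) hab.symm.neg_right (c := c) (d := d)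
      (by rw [hF] at hc; linear_combination -hc) (by rw [hG] at hd; linear_combination -hd)
      hco' with e | e
    · exact Or.inl (by linear_combination -e)
    · exact Or.inr (Or.inr (by linear_combination e))

/-- **Rational points.** The only rational points of this quartic have `h = 0`, `-2` or `1/2`. -/
theorem rat_solutions {h y : ℚ} (hy : (h ^ 2 + h - 1) * (h ^ 2 - 11 * h - 1) = y ^ 2) :
    h = 0 ∨ h = -2 ∨ h = 1 / 2 := by
  obtain ⟨a, b, hb, hab, rfl⟩ : ∃ a b : ℤ, b ≠ 0 ∧ IsCoprime a b ∧ h = (a : ℚ) / (b : ℚ) :=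
    ⟨h.num, h.den, by exact_mod_cast h.den_nz, Int.isCoprime_iff_gcd_eq_one.mpr h.reduced,
      by rw [Int.cast_natCast, Rat.num_div_den]⟩
  have hb' : (b : ℚ) ≠ 0 := Int.cast_ne_zero.mpr hb
  have hsq : IsSquare ((((a ^ 2 + a * b - b ^ 2) * (a ^ 2 - 11 * a * b - b ^ 2) : ℤ)) : ℚ) := by
    refine ⟨y * (b : ℚ) ^ 2, ?_⟩
    push_cast
    field_simp at hy
    linear_combination hy
  obtain ⟨z, hz⟩ := Rat.isSquare_intCast_iff.mp hsq
  rcases int_solutions hab (z := z) (by rw [hz, sq]) with e | e | e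
  · left
    rw [(mul_eq_zero.mp e).resolve_right hb]
    simp
  · right; left
    rw [div_eq_iff hb']
    exact_mod_cast e
  · right; right
    rw [div_eq_div_iff hb' two_ne_zero]
    have : a * 2 = 1 * b := by linarith
    exact_mod_cast this

end Fermat.EC.Descent15
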