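import Fermat.Agent.CFT.Density.InertiaLift
import Fermat.Agent.GR.RatInstances
import Mathlib.NumberTheory.NumberField.ExistsRamified
import Mathlib.NumberTheory.RamificationInertia.Galois

/-!
# No nontrivial everywhere unramified character of `Γℚ`

`eq_one_of_forall_inertia`, from Minkowski's theorem and `CFT/Density/InertiaLift`.
-/

set_option autoImplicit false

open scoped NumberField
open NumberField Fermat.CFT

noncomputable section

namespace Fermat.EC.Galois

local notation "ℚbar" => AlgebraicClosure ℚ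
local notation "Γℚ" => (AlgebraicClosure ℚ ≃ₐ[ℚ] AlgebraicClosure ℚ)

variable (L : IntermediateField ℚ ℚbar) [FiniteDimensional ℚ L] [Normal ℚ L]

omit [FiniteDimensional ℚ ↥L] [Normal ℚ ↥L] in
/-- The fixing group of `L` acts on the integers of `ℚ̄` linearly over those of `L`. -/
lemma smulCommClass_fixing : SMulCommClass L.fixingSubgroup (𝓞 L) (𝓞 ℚbar) := by
  refine ⟨fun g a b => ?_⟩
  apply RingOfIntegers.ext
  change (g : Γℚ) (((algebraMap (𝓞 L) (𝓞 ℚbar) a * b : 𝓞 ℚbar)) : ℚbar) =
    ((algebraMap (𝓞 L) (𝓞 ℚbar) a * (g : Γℚ) • b : 𝓞 ℚbar) : ℚbar)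
  simp only [map_mul, coe_smul_integer]
  congr 1
  exact (IntermediateField.mem_fixingSubgroup_iff L g.1).mp g.2 _ (a : L).2

omit [FiniteDimensional ℚ ↥L] [Normal ℚ ↥L] in
/-- The integers fixed by the fixing group of `L` are those of `L`. -/
lemma isInvariant_fixing : Algebra.IsInvariant (𝓞 L) (𝓞 ℚbar) L.fixingSubgroup := by
  refine ⟨fun b hb => ?_⟩
  have hmem : (b : ℚbar) ∈ L := by
    rw [← InfiniteGalois.fixedField_fixingSubgroup L, IntermediateField.mem_fixedField_iff]
    intro g hg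
    exact congrArg (fun z : 𝓞 ℚbar => (z : ℚbar)) (hb ⟨g, hg⟩)
  have hint : IsIntegral ℤ (⟨b, hmem⟩ : L) :=
    (isIntegral_algebraMap_iff (FaithfulSMul.algebraMap_injective L ℚbar)).mp b.isIntegral_coe
  exact ⟨⟨⟨b, hmem⟩, hint⟩, RingOfIntegers.ext rfl⟩

variable {L}

/-- **Minkowski**: a homomorphism with open kernel that is unramified at one place over each
prime is trivial. -/
theorem eq_one_of_forall_inertia {M : Type*} [Group M] (ρ : Γℚ →* M)
    (hρ : IsOpen (ρ.ker : Set Γℚ))
    (h : ∀ ℓ : ℕ, ℓ.Prime → ∃ A : ValuationSubring ℚbar, A.LiesOverPrime ℓ ∧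
      ∀ σ ∈ A.inertiaSubgroupIn ℚ, ρ σ = 1) (σ : Γℚ) : ρ σ = 1 := by
  classical
  let U : ClosedSubgroup Γℚ := ⟨ρ.ker, Subgroup.isClosed_of_isOpen _ hρ⟩
  set E : IntermediateField ℚ ℚbar := IntermediateField.fixedField ρ.ker with hE
  have hfix : E.fixingSubgroup = ρ.ker := InfiniteGalois.fixingSubgroup_fixedField U
  have : FiniteDimensional ℚ E := (InfiniteGalois.isOpen_iff_finite E).mp (by
    change IsOpen (E.fixingSubgroup : Set Γℚ)
    rw [hfix]; exact hρ)
  have : IsGalois ℚ E := (InfiniteGalois.normal_iff_isGalois E).mp (by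
    rw [hfix]; infer_instance)
  have : NumberField E := @NumberField.mk _ _ inferInstance inferInstance
  by_contra hne
  have hrank : 1 < Module.finrank ℚ E := by
    by_contra hle
    have h1 : Module.finrank ℚ E = 1 := by
      have : 0 < Module.finrank ℚ E := Module.finrank_pos
      omega
    rw [IntermediateField.finrank_eq_one_iff] at h1
    apply hne
    have : σ ∈ E.fixingSubgroup := by
      rw [h1, IntermediateField.fixingSubgroup_bot]; trivial
    rwa [hfix, MonoidHom.mem_ker] at this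
  obtain ⟨p, hp, hram⟩ := NumberField.exists_not_isUnramifiedAt_int_of_isGalois (𝒪 := 𝓞 E) hrank
  obtain ⟨A, hA, htriv⟩ := h p hp
  set P := primeBelow E A with hP
  have : P.IsPrime := primeBelow_isPrime E A
  have hpP : (p : 𝓞 E) ∈ P := natCast_mem_primeBelow E hA
  have hunder : P.under ℤ = Ideal.span {(p : ℤ)} := under_int_eq_span hp inferInstance hpP
  have : P.LiesOver (Ideal.span {(p : ℤ)}) := ⟨hunder.symm⟩
  have hmax : (Ideal.span {(p : ℤ)}).IsMaximal :=
    PrincipalIdealRing.isMaximal_of_irreducible (Nat.prime_iff_prime_int.mp hp).irreducible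
  have : PerfectField (Ideal.span {(p : ℤ)}).ResidueField := by
    have : Finite (ℤ ⧸ Ideal.span {(p : ℤ)}) := by
      have : NeZero p := ⟨hp.ne_zero⟩
      exact Finite.of_equiv _ (Int.quotientSpanNatEquivZMod p).symm.toEquiv
    have : Finite (Ideal.span {(p : ℤ)}).ResidueField :=
      Finite.of_surjective _ (Ideal.bijective_algebraMap_quotient_residueField _).2
    infer_instance
  -- some prime ramifies in the fixed field, but its inertia group is trivial
  apply hram P inferInstance hpP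
  rw [← Ideal.ramificationIdx_eq_one_iff]
  have := IsGaloisGroup.of_isFractionRing (E ≃ₐ[ℚ] E) ℤ (𝓞 E) ℚ E
  rw [← Ideal.ramificationIdxIn_eq_ramificationIdx (Ideal.span {(p : ℤ)}) P (E ≃ₐ[ℚ] E),
    ← Ideal.card_inertia_eq_ramificationIdxIn (G := E ≃ₐ[ℚ] E) (Ideal.span {(p : ℤ)}) P]
  rw [Nat.card_eq_one_iff_unique]
  refine ⟨⟨fun a b => ?_⟩, ⟨1⟩⟩
  have key : ∀ g : E ≃ₐ[ℚ] E, g ∈ P.inertia (E ≃ₐ[ℚ] E) → g = 1 := by
    intro g hg
    obtain ⟨τ, hτ, hτg⟩ := exists_mem_inertia_restrict hp hA (g := g) hg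
    rw [← hτg, restrict_eq_one_iff, hfix, MonoidHom.mem_ker]
    exact htriv τ hτ
  exact Subtype.ext ((key _ a.2).trans (key _ b.2).symm)

end Fermat.EC.Galois
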