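import Fermat.Agent.EC.Cyclo
import Fermat.Agent.EC.Unramified
import Fermat.Agent.CFT.Density.Places
import Mathlib.LinearAlgebra.Prod
import Mathlib.FieldTheory.KrullTopology

/-!
# The two characters of a reducible semistable `E[p]`, `p ≥ 5`

They are `{1, χ}` (`dichotomy`): unramified away from `p` by `Semistable`, cyclotomic or trivial
at `p` by `Cyclo`, so known globally by `Unramified`.
-/

set_option autoImplicit false

open WeierstrassCurve.Affine Fermat.EC.Val Fermat.EC.Red Fermat.EC.Line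
open scoped WeierstrassCurve.Affine

namespace Fermat.EC.Dichotomy

local notation "ℚbar" => AlgebraicClosure ℚ
local notation "Γℚ" => (AlgebraicClosure ℚ ≃ₐ[ℚ] AlgebraicClosure ℚ)

variable {W : WeierstrassCurve ℤ} {p : ℕ}

/-- The `p`-torsion is a vector space over `ZMod p`. -/
noncomputable instance torsModule : Module (ZMod p) (tors W p) :=
  AddCommGroup.zmodModule fun x => Subtype.ext (by
    rw [AddSubmonoidClass.coe_nsmul]; exact x.2)

/-- Galois acting linearly on `E[p]`. -/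
noncomputable def galT (σ : Γℚ) : tors W p →ₗ[ZMod p] tors W p :=
  AddMonoidHom.toZModLinearMap p (M := tors W p) (M₁ := tors W p)
    (AddMonoidHom.mk' (fun v => (⟨σ • (v : (overQbar W).Point), by
      rw [mem_tors, ← gal_smul_nsmul, v.2, gal_smul_zero]⟩ : tors W p))
      (fun a b => Subtype.ext (map_add (Point.map σ.toAlgHom) (a : (overQbar W).Point) b)))

/-- The underlying point of the action. -/
@[simp] lemma coe_galT (σ : Γℚ) (v : tors W p) :
    ((galT σ v : tors W p) : (overQbar W).Point) = σ • (v : (overQbar W).Point) := rfl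

/-- Scalar multiplication in `E[p]` is multiplication by the representative. -/
lemma coe_smulT [NeZero p] (a : ZMod p) (v : tors W p) :
    ((a • v : tors W p) : (overQbar W).Point) = a.val • (v : (overQbar W).Point) := by
  conv_lhs => rw [← ZMod.natCast_zmod_val a]
  rw [Nat.cast_smul_eq_nsmul, AddSubmonoidClass.coe_nsmul]

/-- The action respects composition. -/
lemma galT_mul (σ τ : Γℚ) (v : tors W p) : galT (σ * τ) v = galT σ (galT τ v) :=
  Subtype.ext (mul_smul σ τ _)

/-- The identity acts trivially. -/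
lemma galT_one (v : tors W p) : galT (1 : Γℚ) v = v := Subtype.ext (one_smul _ _)

/-- The kernel of reduction is stable under multiples. -/
lemma inE1_nsmul {A : ValuationSubring ℚbar} {q : ℕ} (h : IsPlace A q)
    (hW : IntegralAt A q (overQbar W)) {P : (overQbar W).Point} (hP : InE1 A q P) :
    ∀ n : ℕ, InE1 A q (n • P)
  | 0 => by rw [zero_nsmul]; trivial
  | n + 1 => by rw [succ_nsmul]; exact (inE1_nsmul h hW hP n).add h hW hP

variable [Fact p.Prime]

/-- Two independent points give a basis of the `p`-torsion. -/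
lemma exists_pair_equiv (hΔ : W.Δ ≠ 0) {u v : tors W p} (hu : u ≠ 0)
    (hv : ∀ a : ZMod p, v ≠ a • u) :
    ∃ e : (ZMod p × ZMod p) ≃ₗ[ZMod p] tors W p, ∀ a b, e (a, b) = a • v + b • u := by
  have hp : p.Prime := Fact.out
  set f := (LinearMap.toSpanSingleton (ZMod p) (tors W p) v).coprod
    (LinearMap.toSpanSingleton (ZMod p) (tors W p) u) with hf
  have hinj : Function.Injective f := by
    rw [injective_iff_map_eq_zero]
    rintro ⟨a, b⟩ hab
    simp only [hf, LinearMap.coprod_apply, LinearMap.toSpanSingleton_apply] at hab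
    by_cases ha : a = 0
    · subst ha
      rw [zero_smul, zero_add, smul_eq_zero] at hab
      rw [hab.resolve_right hu]; rfl
    · exfalso
      apply hv (-a⁻¹ * b)
      have := congrArg (a⁻¹ • ·) hab
      simp only [smul_add, smul_smul, inv_mul_cancel₀ ha, one_smul, smul_zero] at this
      rw [neg_mul, neg_smul]
      exact eq_neg_of_add_eq_zero_left this
  have : Finite (tors W p) :=
    Nat.finite_of_card_ne_zero (by rw [natCard_tors hΔ hp.one_le]; exact pow_ne_zero _ hp.ne_zero)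
  have hbij : Function.Bijective f :=
    hinj.bijective_of_nat_card_le (by
      rw [natCard_tors hΔ hp.one_le, Nat.card_prod, Nat.card_zmod, sq])
  exact ⟨LinearEquiv.ofBijective f hbij, fun a b => rfl⟩

/-- `χ σ`, as an element of `ZMod p`. -/
noncomputable def chi {ζ : ℚbar} (hζ : IsPrimitiveRoot ζ p) (σ : Γℚ) : ZMod p :=
  (hζ.autToPow ℚ σ : (ZMod p)ˣ)

section kernel

variable (hΔ : W.Δ ≠ 0) (hp5 : 5 ≤ p) {A : ValuationSubring ℚbar} (h : IsPlace A p)
  (hss : (p : ℤ) ∣ W.Δ → ¬ (p : ℤ) ∣ W.c₄)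
include hΔ hp5 h hss

/-- Inertia at `p` moves the torsion into the kernel of reduction, if that is not everything. -/
lemma smul_sub_mem_kernel {σ : Γℚ} (hσ : IsInert A σ) {P : (overQbar W).Point} (hPp : p • P = 0) :
    InE1 A p (σ • P - P) := by
  classical
  by_cases hP0' : InE0 A p P
  · exact smul_sub_inE1 W h hσ hP0'
  have hR := smul_sub_inE0 W h hσ hΔ hss h.1 (by omega) hPp
  by_contra hR1
  obtain ⟨hsum, -⟩ := sum_nonint hΔ h.1 hp5 h hss
  obtain ⟨x, hx⟩ : ∃ x, x ∈ ((nzTors hΔ h.1).image (xco W)).filter (fun x => ¬ Ge A p x 0) := by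
    by_contra hc
    push Not at hc
    rw [Finset.eq_empty_of_forall_notMem hc, Finset.sum_empty] at hsum
    norm_num at hsum
  rw [Finset.mem_filter, Finset.mem_image] at hx
  obtain ⟨⟨P₁, hP₁', rfl⟩, hx1⟩ := hx
  obtain ⟨hP₁, hP₁0⟩ := (mem_nzTors hΔ h.1).mp hP₁'
  have hP₁E : InE1 A p P₁ := by
    rcases P₁ with _ | ⟨x, y, hns⟩
    · exact absurd rfl hP₁0
    · exact hx1
  have hW := integralAt_overQbar W h
  -- `P₁` and `σ P - P` would span `E[p]` inside the non-singular locus
  obtain ⟨e, he⟩ := exists_pair_equiv hΔ (u := ⟨P₁, hP₁⟩)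
    (v := ⟨σ • P - P, nsmul_gal_sub W hPp⟩) (fun e => hP₁0 (congrArg Subtype.val e)) fun a e => by
      apply hR1
      have e' := congrArg Subtype.val e
      rw [coe_smulT] at e'
      simp only at e'
      rw [e']
      exact inE1_nsmul h hW hP₁E _
  obtain ⟨⟨a, b⟩, hab⟩ := e.surjective ⟨P, hPp⟩
  rw [he] at hab
  apply hP0'
  have e' := congrArg Subtype.val hab
  rw [AddSubgroup.coe_add, coe_smulT, coe_smulT] at e'
  simp only at e'
  rw [← e']
  exact (hR.nsmul h hW _).add h hW ((InE1.inE0 hP₁E).nsmul h hW _)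

end kernel

section local_

variable (hΔ : W.Δ ≠ 0) (hp5 : 5 ≤ p) {A : ValuationSubring ℚbar} (h : IsPlace A p)
  (hss : (p : ℤ) ∣ W.Δ → ¬ (p : ℤ) ∣ W.c₄)
  {P₀ : (overQbar W).Point} (hP : p • P₀ = 0) (hP0 : P₀ ≠ 0)
  (hstab : ∀ σ : Γℚ, ∃ k : ℕ, σ • P₀ = k • P₀)
include hΔ hp5 h hss hP hP0 hstab

/-- Inertia at `p` acts on the kernel of reduction in `E[p]` by the cyclotomic character. -/
lemma galT_eq_chi_smul {ζ : ℚbar} (hζ : IsPrimitiveRoot ζ p) {σ : Γℚ} (hσ : IsInert A σ)
    {v : tors W p} (hv : InE1 A p (v : (overQbar W).Point)) :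
    galT σ v = chi hζ σ • v := Subtype.ext (by
  rw [coe_galT, coe_smulT]
  exact Cyclo.smul_eq_cyclo hΔ hp5 h hss hζ hP hP0 hstab hσ v.2 hv)

end local_

/-- A point of `ℚ̄`-coordinates is fixed by an open subgroup. -/
lemma exists_open_fix (P : (overQbar W).Point) :
    ∃ U : Subgroup Γℚ, IsOpen (U : Set Γℚ) ∧ ∀ σ ∈ U, σ • P = P := by
  rcases P with _ | ⟨x, y, hns⟩
  · exact ⟨⊤, isOpen_univ, fun σ _ => gal_smul_zero W σ⟩
  set E := IntermediateField.adjoin ℚ ({x, y} : Set ℚbar)
  have : FiniteDimensional ℚ E :=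
    IntermediateField.finiteDimensional_adjoin fun z _ =>
      (Algebra.IsAlgebraic.isAlgebraic z).isIntegral
  refine ⟨E.fixingSubgroup, E.fixingSubgroup_isOpen, fun σ hσ => ?_⟩
  obtain ⟨hns', e⟩ := smul_some W σ hns
  rw [e]
  have hx := (IntermediateField.mem_fixingSubgroup_iff E σ).mp hσ x
    (IntermediateField.subset_adjoin ℚ _ (Set.mem_insert _ _))
  have hy := (IntermediateField.mem_fixingSubgroup_iff E σ).mp hσ y
    (IntermediateField.subset_adjoin ℚ _ (Set.mem_insert_of_mem _ rfl))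
  simp only [hx, hy]

/-- `χ` is `1` on automorphisms fixing the root of unity. -/
lemma chi_eq_one_of_fix {ζ : ℚbar} (hζ : IsPrimitiveRoot ζ p) {σ : Γℚ} (hfix : σ ζ = ζ) :
    chi hζ σ = 1 := by
  have hp : p.Prime := Fact.out
  have e := hζ.autToPow_spec ℚ σ
  rw [hfix] at e
  have h1 : (chi hζ σ).val = 1 :=
    hζ.pow_inj (ZMod.val_lt _) hp.one_lt (by rw [pow_one]; exact e)
  rw [← ZMod.natCast_zmod_val (chi hζ σ), h1, Nat.cast_one]

/-- Coordinates `v = α v • e1 + β v • e0` in a basis of `E[p]` whose second vector `e0` spans a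
Galois stable line. -/
structure Coords (e0 e1 : tors W p) (α β : tors W p →ₗ[ZMod p] ZMod p) : Prop where
  /-- Every vector is the combination of the basis given by its coordinates. -/
  dec : ∀ v, v = α v • e1 + β v • e0
  /-- The coordinates of a combination of the basis. -/
  coord : ∀ a b, α (a • e1 + b • e0) = a ∧ β (a • e1 + b • e0) = b
  /-- The line of `e0` is stable. -/
  stable : ∀ σ, galT σ e0 = β (galT σ e0) • e0

/-- A Galois stable line is the second axis of a coordinate system. -/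
lemma exists_coords (hΔ : W.Δ ≠ 0) {P₀ : (overQbar W).Point} (hP : p • P₀ = 0) (hP0 : P₀ ≠ 0)
    (hstab : ∀ σ : Γℚ, ∃ k : ℕ, σ • P₀ = k • P₀) :
    ∃ (e1 : tors W p) (α β : tors W p →ₗ[ZMod p] ZMod p), Coords ⟨P₀, hP⟩ e1 α β := by
  have hp : p.Prime := Fact.out
  set e0 : tors W p := ⟨P₀, hP⟩ with he0
  have he00 : e0 ≠ 0 := fun e => hP0 (congrArg Subtype.val e)
  obtain ⟨e1, he1⟩ : ∃ v : tors W p, ∀ a : ZMod p, v ≠ a • e0 := by
    by_contra hc
    push Not at hc
    have hle : Nat.card (tors W p) ≤ Nat.card (ZMod p) :=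
      Nat.card_le_card_of_surjective (fun a : ZMod p => a • e0) fun v => by
        obtain ⟨a, ha⟩ := hc v; exact ⟨a, ha.symm⟩
    rw [natCard_tors hΔ hp.one_le, Nat.card_zmod, sq] at hle
    have := hp.two_le
    nlinarith
  obtain ⟨e, he⟩ := exists_pair_equiv hΔ he00 he1
  set α : tors W p →ₗ[ZMod p] ZMod p := (LinearMap.fst _ _ _).comp e.symm.toLinearMap with hα
  set β : tors W p →ₗ[ZMod p] ZMod p := (LinearMap.snd _ _ _).comp e.symm.toLinearMap with hβ
  have hdec : ∀ v, v = α v • e1 + β v • e0 := fun v => by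
    rw [← he]; exact (e.apply_symm_apply v).symm
  have hαβ : ∀ a b, α (a • e1 + b • e0) = a ∧ β (a • e1 + b • e0) = b := fun a b => by
    rw [← he]; simp [hα, hβ]
  refine ⟨e1, α, β, hdec, hαβ, fun σ => ?_⟩
  obtain ⟨k, hk⟩ := hstab σ
  have hb : galT σ e0 = (k : ZMod p) • e0 := Subtype.ext (by
    rw [coe_galT, coe_smulT, Cyclo.natCast_val_nsmul hP, hk])
  rw [hb, show β ((k : ZMod p) • e0) = k by simpa using (hαβ 0 k).2]

namespace Coords

variable {e0 e1 : tors W p} {α β : tors W p →ₗ[ZMod p] ZMod p} (c : Coords e0 e1 α β)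
include c

/-- The coordinates of a point of the stable line. -/
lemma line (b : ZMod p) : α (b • e0) = 0 ∧ β (b • e0) = b := by simpa using c.coord 0 b

/-- The first coordinate of `e1` is one. -/
lemma first : α e1 = 1 := by simpa using (c.coord 1 0).1

/-- The character by which Galois acts on the stable line. -/
noncomputable def subChar : Γℚ →* (ZMod p)ˣ :=
  MonoidHom.toHomUnits
    { toFun := fun σ => β (galT σ e0)
      map_one' := by rw [galT_one]; simpa using (c.line 1).2
      map_mul' := fun σ τ => by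
        rw [galT_mul, c.stable τ, map_smul, c.stable σ, smul_smul, (c.line _).2, mul_comm,
          (c.line _).2, (c.line _).2] }

/-- The character by which Galois acts on the quotient by the stable line. -/
noncomputable def quotChar : Γℚ →* (ZMod p)ˣ :=
  MonoidHom.toHomUnits
    { toFun := fun σ => α (galT σ e1)
      map_one' := by rw [galT_one, c.first]
      map_mul' := fun σ τ => by
        rw [galT_mul]
        conv_lhs => rw [c.dec (galT τ e1)]
        rw [map_add, map_smul, map_smul, c.stable σ, smul_smul, map_add, map_smul, (c.line _).1,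
          smul_eq_mul, add_zero, mul_comm] }

/-- Galois acts on the point of the stable line by `subChar`. -/
lemma smul_line (σ : Γℚ) :
    σ • (e0 : (overQbar W).Point) = (c.subChar σ : ZMod p).val • (e0 : (overQbar W).Point) := by
  rw [← coe_galT, ← coe_smulT]
  exact congrArg Subtype.val (c.stable σ)

/-- The point spanning the stable line is not zero. -/
lemma point_ne_zero : (e0 : (overQbar W).Point) ≠ 0 := fun e => by
  simpa [show e0 = 0 from Subtype.ext e] using c.line 1

/-- Galois acts by `quotChar` modulo the stable line. -/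
lemma exists_smul_sub_line (σ : Γℚ) {P : (overQbar W).Point} (hPp : p • P = 0) {x : ZMod p}
    (hx : (c.quotChar σ : ZMod p) = x) :
    ∃ k : ℕ, σ • P - x.val • P = k • (e0 : (overQbar W).Point) := by
  set v : tors W p := ⟨P, hPp⟩
  have hg := c.dec (galT σ e1)
  rw [show α (galT σ e1) = x from hx] at hg
  have e' : galT σ v - x • v =
      (α v * β (galT σ e1) + β v * β (galT σ e0) - x * β v) • e0 := by
    generalize β (galT σ e1) = b at hg ⊢
    conv_lhs => rw [c.dec v]
    rw [map_add, map_smul, map_smul, c.stable σ, hg]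
    simp only [(c.line _).2, sub_smul, add_smul, mul_smul, smul_add]
    rw [smul_comm (α v) x e1]
    abel
  refine ⟨(α v * β (galT σ e1) + β v * β (galT σ e0) - x * β v).val, ?_⟩
  have e'' := congrArg Subtype.val e'
  rwa [AddSubgroup.coe_sub, coe_galT, coe_smulT, coe_smulT] at e''

/-- `subChar` has open kernel. -/
lemma isOpen_subChar_ker : IsOpen (c.subChar.ker : Set Γℚ) := by
  obtain ⟨U, hU, hU'⟩ := exists_open_fix (e0 : (overQbar W).Point)
  refine Subgroup.isOpen_mono (fun σ hσ => Units.ext ?_) hU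
  change β (galT σ e0) = 1
  rw [show galT σ e0 = (1 : ZMod p) • e0 by rw [one_smul]; exact Subtype.ext (hU' σ hσ)]
  exact (c.line 1).2

/-- `quotChar` has open kernel. -/
lemma isOpen_quotChar_ker : IsOpen (c.quotChar.ker : Set Γℚ) := by
  obtain ⟨U, hU, hU'⟩ := exists_open_fix (e1 : (overQbar W).Point)
  refine Subgroup.isOpen_mono (fun σ hσ => Units.ext ?_) hU
  change α (galT σ e1) = 1
  rw [show galT σ e1 = e1 from Subtype.ext (hU' σ hσ), c.first]

/-- Away from `p` both characters are unramified, inertia acting unipotently. -/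
lemma chars_eq_one_of_ne (hΔ : W.Δ ≠ 0) (hp5 : 5 ≤ p) {q : ℕ} {A : ValuationSubring ℚbar}
    (hA : IsPlace A q) (hss : (q : ℤ) ∣ W.Δ → ¬ (q : ℤ) ∣ W.c₄) (hqp : q ≠ p) {σ : Γℚ}
    (hσ : IsInert A σ) : c.subChar σ = 1 ∧ c.quotChar σ = 1 := by
  have hp : p.Prime := Fact.out
  have hu : ∀ v : tors W p, galT σ (galT σ v - v) = galT σ v - v := fun v => Subtype.ext (by
    rw [coe_galT, AddSubgroup.coe_sub, coe_galT]
    exact smul_sub_smul_sub W hA hσ hΔ hss hp (by omega) hqp v.2)
  have hsq : ∀ x : ZMod p, x * (x - 1) = x - 1 → x = 1 := fun x hx => by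
    have : (x - 1) ^ 2 = 0 := by linear_combination hx
    exact sub_eq_zero.mp (sq_eq_zero_iff.mp this)
  refine ⟨Units.ext (hsq _ ?_), Units.ext (hsq _ ?_)⟩
  · change β (galT σ e0) * (β (galT σ e0) - 1) = β (galT σ e0) - 1
    have h1 := congrArg β (hu e0)
    rw [show galT σ e0 - e0 = (β (galT σ e0) - 1) • e0 by rw [sub_smul, one_smul, ← c.stable σ],
      map_smul, c.stable σ, smul_smul, (c.line _).2, (c.line _).2, (c.line _).2] at h1
    rw [mul_comm]; exact h1
  · change α (galT σ e1) * (α (galT σ e1) - 1) = α (galT σ e1) - 1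
    have h1 := congrArg α (hu e1)
    rw [map_sub α, c.first] at h1
    have h2 : galT σ e1 - e1 = (α (galT σ e1) - 1) • e1 + β (galT σ e1) • e0 := by
      nth_rewrite 1 [c.dec (galT σ e1)]
      rw [sub_smul, one_smul]; abel
    rw [h2, map_add (galT σ), map_smul, map_smul, c.stable σ, smul_smul, map_add, map_smul,
      (c.line _).1, add_zero, smul_eq_mul] at h1
    rw [mul_comm]; exact h1

variable (hΔ : W.Δ ≠ 0) (hp5 : 5 ≤ p) {A : ValuationSubring ℚbar} (hA : IsPlace A p)
  (hss : (p : ℤ) ∣ W.Δ → ¬ (p : ℤ) ∣ W.c₄) {ζ : ℚbar} (hζ : IsPrimitiveRoot ζ p) {σ : Γℚ}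
  (hσ : IsInert A σ)
include hΔ hp5 hA hss hσ

/-- If the stable line reduces to zero at `p`, inertia there acts by `χ` on it and trivially on the
quotient. -/
lemma chars_of_mem_kernel (h0 : InE1 A p (e0 : (overQbar W).Point)) :
    c.subChar σ = hζ.autToPow ℚ σ ∧ c.quotChar σ = 1 := by
  have hp : p.Prime := Fact.out
  have hstab : ∀ τ : Γℚ, ∃ k : ℕ, τ • (e0 : (overQbar W).Point) = k • (e0 : (overQbar W).Point) :=
    fun τ => ⟨_, c.smul_line τ⟩
  obtain ⟨P₁, hP₁, -, -, hgen, -⟩ := exists_line hΔ hp hp5 hA hss e0.2 c.point_ne_zero hstab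
  refine ⟨Units.ext ?_, Units.ext ?_⟩
  · change β (galT σ e0) = chi hζ σ
    rw [galT_eq_chi_smul hΔ hp5 hA hss e0.2 c.point_ne_zero hstab hζ hσ h0, (c.line _).2]
  · change α (galT σ e1) = 1
    obtain ⟨k, hk⟩ := hgen _ (nsmul_gal_sub W e1.2)
      (smul_sub_mem_kernel hΔ hp5 hA hss hσ e1.2)
    obtain ⟨a, ha⟩ := hgen _ e0.2 h0
    have hane : (a : ZMod p) ≠ 0 := by
      rw [Ne, ZMod.natCast_eq_zero_iff]
      rintro ⟨b, rfl⟩
      exact c.point_ne_zero (ha.trans (by rw [mul_comm, mul_nsmul', hP₁, nsmul_zero]))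
    have ea : e0 = (a : ZMod p) • (⟨P₁, hP₁⟩ : tors W p) := Subtype.ext (by
      rw [coe_smulT, Cyclo.natCast_val_nsmul hP₁]; exact ha)
    have ek : galT σ e1 - e1 = ((k : ZMod p) * (a : ZMod p)⁻¹) • e0 := by
      rw [ea, smul_smul, mul_assoc, inv_mul_cancel₀ hane, mul_one]
      refine Subtype.ext ?_
      rw [coe_smulT, Cyclo.natCast_val_nsmul hP₁, AddSubgroup.coe_sub, coe_galT]
      exact hk
    have := congrArg α ek
    rwa [map_sub, c.first, (c.line _).1, sub_eq_zero] at this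

/-- If the stable line does not reduce to zero at `p`, inertia there acts trivially on it and by `χ`
on the quotient. -/
lemma chars_of_notMem_kernel (h0 : ¬ InE1 A p (e0 : (overQbar W).Point)) :
    c.subChar σ = 1 ∧ c.quotChar σ = hζ.autToPow ℚ σ := by
  have hp : p.Prime := Fact.out
  have hW := integralAt_overQbar W hA
  have hstab : ∀ τ : Γℚ, ∃ k : ℕ, τ • (e0 : (overQbar W).Point) = k • (e0 : (overQbar W).Point) :=
    fun τ => ⟨_, c.smul_line τ⟩
  obtain ⟨P₁, hP₁, hP₁0, hP₁E, -, -⟩ := exists_line hΔ hp hp5 hA hss e0.2 c.point_ne_zero hstab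
  -- `σ - 1` lands in the kernel of reduction, which misses the stable line
  refine ⟨Units.ext ?_, Units.ext ?_⟩
  · change β (galT σ e0) = 1
    by_contra hne
    apply h0
    have hR := smul_sub_mem_kernel hΔ hp5 hA hss hσ e0.2
    have e : e0 = (β (galT σ e0) - 1)⁻¹ • (galT σ e0 - e0) := by
      rw [show galT σ e0 - e0 = (β (galT σ e0) - 1) • e0 by rw [sub_smul, one_smul, ← c.stable σ],
        smul_smul, inv_mul_cancel₀ (sub_ne_zero.mpr hne), one_smul]
    rw [congrArg Subtype.val e, coe_smulT, AddSubgroup.coe_sub, coe_galT]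
    exact inE1_nsmul hA hW hR _
  · change α (galT σ e1) = chi hζ σ
    set v1 : tors W p := ⟨P₁, hP₁⟩
    have hane : α v1 ≠ 0 := by
      intro ha
      apply h0
      have hb : v1 = β v1 • e0 := by simpa [ha] using c.dec v1
      have hbne : β v1 ≠ 0 := fun e => hP₁0 (congrArg Subtype.val
        (show v1 = 0 by rw [hb, e, zero_smul]))
      have e : e0 = (β v1)⁻¹ • v1 := by
        nth_rewrite 2 [hb]
        rw [smul_smul, inv_mul_cancel₀ hbne, one_smul]
      rw [e, coe_smulT]
      exact inE1_nsmul hA hW hP₁E _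
    have h1 := congrArg α
      (galT_eq_chi_smul hΔ hp5 hA hss e0.2 c.point_ne_zero hstab hζ hσ (v := v1) hP₁E)
    nth_rewrite 1 [c.dec v1] at h1
    rw [map_add (galT σ), map_smul, map_smul, c.stable σ, smul_smul, map_add, map_smul,
      (c.line _).1, add_zero, map_smul α, smul_eq_mul, smul_eq_mul, mul_comm] at h1
    exact mul_right_cancel₀ hane h1

end Coords

/-- The cyclotomic character has open kernel. -/
lemma isOpen_ker_autToPow {ζ : ℚbar} (hζ : IsPrimitiveRoot ζ p) :
    IsOpen ((hζ.autToPow ℚ).ker : Set Γℚ) := by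
  have : FiniteDimensional ℚ (IntermediateField.adjoin ℚ ({ζ} : Set ℚbar)) :=
    IntermediateField.finiteDimensional_adjoin fun z _ =>
      (Algebra.IsAlgebraic.isAlgebraic z).isIntegral
  refine Subgroup.isOpen_mono (fun σ hσ => Units.ext (chi_eq_one_of_fix hζ ?_))
    (IntermediateField.adjoin ℚ ({ζ} : Set ℚbar)).fixingSubgroup_isOpen
  exact (IntermediateField.mem_fixingSubgroup_iff _ σ).mp hσ ζ
    (IntermediateField.subset_adjoin ℚ _ rfl)

/-- A quotient of two characters with open kernels has open kernel. -/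
lemma isOpen_ker_div {f g : Γℚ →* (ZMod p)ˣ} (hf : IsOpen (f.ker : Set Γℚ))
    (hg : IsOpen (g.ker : Set Γℚ)) : IsOpen ((f / g).ker : Set Γℚ) :=
  Subgroup.isOpen_mono (H₁ := f.ker ⊓ g.ker)
    (fun σ hσ => by rw [MonoidHom.mem_ker, MonoidHom.div_apply, hσ.1, hσ.2, div_one]) (hf.inter hg)

/-- A character with open kernel that is trivial on one inertia group at `p` and on all inertia
groups away from `p` is trivial. -/
lemma char_eq_one {A : ValuationSubring ℚbar} (hA : IsPlace A p) (ρ : Γℚ →* (ZMod p)ˣ)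
    (hopen : IsOpen (ρ.ker : Set Γℚ)) (h2 : ∀ σ : Γℚ, IsInert A σ → ρ σ = 1)
    (h3 : ∀ {q : ℕ} {B : ValuationSubring ℚbar}, IsPlace B q → q ≠ p →
      ∀ σ : Γℚ, IsInert B σ → ρ σ = 1) (σ : Γℚ) : ρ σ = 1 := by
  refine Galois.eq_one_of_forall_inertia ρ hopen (fun ℓ hℓ => ?_) σ
  by_cases hℓp : ℓ = p
  · subst hℓp; exact ⟨A, hA.2, fun σ hσ => h2 σ (isInert_of_mem_inertia hσ)⟩
  · obtain ⟨B, hB⟩ := Fermat.CFT.exists_place hℓ
    exact ⟨B, hB, fun σ hσ => h3 ⟨hℓ, hB⟩ hℓp σ (isInert_of_mem_inertia hσ)⟩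

/-- **The dichotomy.** For a stable line of `p`-torsion (`p ≥ 5`, semistable curve) either the line
is `μ_p` and the quotient constant, or the line is constant and the quotient `μ_p`. -/
theorem dichotomy (hΔ : W.Δ ≠ 0) (hp5 : 5 ≤ p)
    (hss : ∀ q : ℕ, q.Prime → (q : ℤ) ∣ W.Δ → ¬ (q : ℤ) ∣ W.c₄)
    {ζ : ℚbar} (hζ : IsPrimitiveRoot ζ p)
    {P₀ : (overQbar W).Point} (hP : p • P₀ = 0) (hP0 : P₀ ≠ 0)
    (hstab : ∀ σ : Γℚ, ∃ k : ℕ, σ • P₀ = k • P₀) :
    ((∀ σ : Γℚ, σ • P₀ = (chi hζ σ).val • P₀) ∧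
      ∀ (σ : Γℚ) (P : (overQbar W).Point), p • P = 0 → ∃ k : ℕ, σ • P - P = k • P₀) ∨
    ((∀ σ : Γℚ, σ • P₀ = P₀) ∧
      ∀ (σ : Γℚ) (P : (overQbar W).Point), p • P = 0 →
        ∃ k : ℕ, σ • P - (chi hζ σ).val • P = k • P₀) := by
  have hp : p.Prime := Fact.out
  obtain ⟨e1, α, β, c⟩ := exists_coords hΔ hP hP0 hstab
  obtain ⟨A, hA⟩ := Fermat.CFT.exists_place hp
  have hA' : IsPlace A p := ⟨hp, hA⟩
  have haway : ∀ {q : ℕ} {B : ValuationSubring ℚbar}, IsPlace B q → q ≠ p →
      ∀ σ : Γℚ, IsInert B σ → c.subChar σ = 1 ∧ c.quotChar σ = 1 ∧ hζ.autToPow ℚ σ = 1 :=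
    fun {q} _ hB hqp σ hσ =>
      ⟨(c.chars_eq_one_of_ne hΔ hp5 hB (hss q hB.1) hqp hσ).1,
        (c.chars_eq_one_of_ne hΔ hp5 hB (hss q hB.1) hqp hσ).2,
        Units.ext (chi_eq_one_of_fix hζ (Cyclo.apply_zeta_eq hB hp hqp hζ hσ))⟩
  -- either way the twisted characters are unramified everywhere, so trivial
  by_cases h0 : InE1 A p P₀
  · have hat := fun σ (hσ : IsInert A σ) => c.chars_of_mem_kernel hΔ hp5 hA' (hss p hp) hζ hσ h0
    have hsub : ∀ σ, (c.subChar / hζ.autToPow ℚ) σ = 1 := char_eq_one hA' _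
      (isOpen_ker_div c.isOpen_subChar_ker (isOpen_ker_autToPow hζ))
      (fun τ hτ => by rw [MonoidHom.div_apply, (hat τ hτ).1, div_self'])
      fun hB hne τ hτ => by
        obtain ⟨a, -, b⟩ := haway hB hne τ hτ
        rw [MonoidHom.div_apply, a, b, div_one]
    have hquot : ∀ σ, c.quotChar σ = 1 := char_eq_one hA' _ c.isOpen_quotChar_ker
      (fun τ hτ => (hat τ hτ).2) fun hB hne τ hτ => (haway hB hne τ hτ).2.1
    refine Or.inl ⟨fun σ => ?_, fun σ P hPp => ?_⟩
    · rw [c.smul_line σ]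
      have := hsub σ
      rw [MonoidHom.div_apply, div_eq_one] at this
      rw [this]; rfl
    · obtain ⟨k, hk⟩ := c.exists_smul_sub_line σ hPp (x := 1) (by rw [hquot σ, Units.val_one])
      exact ⟨k, by rwa [ZMod.val_one, one_nsmul] at hk⟩
  · have hat := fun σ (hσ : IsInert A σ) => c.chars_of_notMem_kernel hΔ hp5 hA' (hss p hp) hζ hσ h0
    have hsub : ∀ σ, c.subChar σ = 1 := char_eq_one hA' _ c.isOpen_subChar_ker
      (fun τ hτ => (hat τ hτ).1) fun hB hne τ hτ => (haway hB hne τ hτ).1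
    have hquot : ∀ σ, (c.quotChar / hζ.autToPow ℚ) σ = 1 := char_eq_one hA' _
      (isOpen_ker_div c.isOpen_quotChar_ker (isOpen_ker_autToPow hζ))
      (fun τ hτ => by rw [MonoidHom.div_apply, (hat τ hτ).2, div_self'])
      fun hB hne τ hτ => by
        obtain ⟨-, a, b⟩ := haway hB hne τ hτ
        rw [MonoidHom.div_apply, a, b, div_one]
    refine Or.inr ⟨fun σ => ?_, fun σ P hPp => c.exists_smul_sub_line σ hPp ?_⟩
    · rw [c.smul_line σ, hsub σ, Units.val_one, ZMod.val_one, one_nsmul]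
    · have := hquot σ
      rw [MonoidHom.div_apply, div_eq_one] at this
      rw [this]; rfl

end Fermat.EC.Dichotomy
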