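import Fermat.Agent.EC.TwoPoint
import Mathlib.AlgebraicGeometry.EllipticCurve.DivisionPolynomial.Degree

/-!
# Multiples of a point and values of division polynomials

`wv W x y n` is the value of the `n`-th division polynomial at `(x, y)`.
-/

set_option autoImplicit false
set_option linter.unusedSectionVars false

open Polynomial WeierstrassCurve WeierstrassCurve.Affine

namespace Fermat.EC

variable {K : Type*} [Field K] (W : Affine K)

/-- Value of `ψₙ` at the point `(x, y)`. -/
noncomputable def wv (x y : K) (n : ℤ) : K :=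
  (WeierstrassCurve.preΨ W n).eval x * if Even n then psiY W x y else 1

variable {W}

/-- `ψ₀ = 0`. -/
lemma wv_zero (x y : K) : wv W x y 0 = 0 := by simp [wv]
/-- `ψ₁ = 1`. -/
lemma wv_one (x y : K) : wv W x y 1 = 1 := by simp [wv]
/-- `ψ₂ = 2y + a₁x + a₃`. -/
lemma wv_two (x y : K) : wv W x y 2 = psiY W x y := by simp [wv]
/-- The value of `ψ₃`. -/
lemma wv_three (x y : K) : wv W x y 3 = (WeierstrassCurve.Ψ₃ W).eval x := by
  simp [wv, show ¬ Even (3 : ℤ) by decide]
/-- The value of `ψ₄`. -/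
lemma wv_four (x y : K) :
    wv W x y 4 = (WeierstrassCurve.preΨ₄ W).eval x * psiY W x y := by
  simp [wv, show Even (4 : ℤ) by decide]

/-- The recursion for odd index, on the curve. -/
lemma wv_odd {x y : K} (h : W.Equation x y) (m : ℤ) :
    wv W x y (2 * m + 1) = wv W x y (m + 2) * wv W x y m ^ 3
      - wv W x y (m - 1) * wv W x y (m + 1) ^ 3 := by
  have hF : (WeierstrassCurve.Ψ₂Sq W).eval x = psiY W x y ^ 2 :=
    ((psiY_sq W h).trans (quadF_eq_eval W x)).symm
  simp only [wv, preΨ_odd, Int.even_add, Int.even_sub, even_two, Int.not_even_one,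
    even_two_mul, iff_true, iff_false, not_true_eq_false, if_false, mul_one,
    eval_sub, eval_mul, eval_pow]
  by_cases hm : Even m
  · simp only [hm, if_true, not_true_eq_false, if_false, eval_one, eval_pow, hF]
    ring
  · simp only [hm, if_false, not_false_eq_true, if_true, eval_one, eval_pow, hF]
    ring

/-- The recursion for even index. -/
lemma wv_even (x y : K) (m : ℤ) :
    wv W x y (2 * m) * psiY W x y = wv W x y (m - 1) ^ 2 * wv W x y m * wv W x y (m + 2)
      - wv W x y (m - 2) * wv W x y m * wv W x y (m + 1) ^ 2 := by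
  simp only [wv, preΨ_even, Int.even_add, Int.even_sub, even_two, Int.not_even_one,
    even_two_mul, iff_true, iff_false, if_true, eval_sub, eval_mul, eval_pow]
  by_cases hm : Even m
  · simp only [hm, if_true, not_true_eq_false, if_false]
    ring
  · simp only [hm, if_false, not_false_eq_true, if_true]
    ring

variable [DecidableEq K] [CharZero K]

/-- The multiple `k • P` is affine with x-coordinate `x - ψ_{k+1}ψ_{k-1}/ψ_k²`. -/
def MulFormula {x y : K} (h : W.Nonsingular x y) (k : ℕ) : Prop :=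
  ∃ xk yk hk, k • Point.some x y h = Point.some xk yk hk ∧
    (x - xk) * wv W x y k ^ 2 = wv W x y ((k : ℤ) + 1) * wv W x y ((k : ℤ) - 1)

/-- All `ψ_k`, `1 ≤ k ≤ n` are nonzero at `(x, y)`. -/
def GoodUpTo (W : Affine K) (x y : K) (n : ℕ) : Prop :=
  ∀ k : ℕ, 1 ≤ k → k ≤ n → wv W x y k ≠ 0

/-- `GoodUpTo` passes to a lower bound. -/
lemma GoodUpTo.mono {x y : K} {n m : ℕ} (h : GoodUpTo W x y n) (hm : m ≤ n) :
    GoodUpTo W x y m := fun k h1 h2 => h k h1 (h2.trans hm)

/-- `ψ(mP) ψ_m⁴ = ψ_{2m}` given the formula for the neighbouring multiples. -/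
lemma psiY_mul {x y : K} (h : W.Nonsingular x y) {n : ℕ} (hg : GoodUpTo W x y n)
    (IH : ∀ k, 1 ≤ k → k ≤ n → MulFormula h k) {m : ℕ} (hm : 1 ≤ m) (hmn : m + 1 ≤ n)
    {xm ym : K} {hk : W.Nonsingular xm ym} (e : m • Point.some x y h = Point.some xm ym hk) :
    psiY W xm ym * wv W x y m ^ 4 = wv W x y (2 * (m : ℤ)) := by
  rcases Nat.lt_or_ge m 2 with h2 | h2
  · obtain rfl : m = 1 := by omega
    rw [one_smul] at e
    obtain ⟨rfl, rfl⟩ := Point.some.inj e
    simp [wv_one, wv_two]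
  · obtain ⟨xm', ym', hk', em, Dm⟩ := IH m hm (by omega)
    rw [e] at em
    obtain ⟨rfl, rfl⟩ := Point.some.inj em
    obtain ⟨xp, yp, hp, ep, Dp⟩ := IH (m + 1) (by omega) hmn
    obtain ⟨xq, yq, hq, eq_, Dq⟩ := IH (m - 1) (by omega) (by omega)
    have wp := hg (m + 1) (by omega) hmn
    have wq := hg (m - 1) (by omega) (by omega)
    have c1 : ((m - 1 : ℕ) : ℤ) = (m : ℤ) - 1 := by omega
    have c2 : ((m + 1 : ℕ) : ℤ) = (m : ℤ) + 1 := by omega
    rw [c1] at Dq wq; rw [c2] at Dp wp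
    have hx : xm ≠ x := by
      intro e'
      rw [e', sub_self, zero_mul] at Dm
      rcases mul_eq_zero.mp Dm.symm with h0 | h0
      · exact wp h0
      · exact wq h0
    have hxp : xp = W.addX xm x (W.slope xm x ym y) := by
      rw [succ_nsmul, e, Point.add_of_X_ne hx] at ep
      exact ((Point.some.inj ep).1).symm
    have hxq : xq = W.addX xm x (W.slope xm x ym (W.negY x y)) := by
      have : (m - 1) • Point.some x y h = m • Point.some x y h + - Point.some x y h := by
        conv_rhs => rw [show m = (m - 1) + 1 by omega, succ_nsmul]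
        abel
      rw [eq_, e, Point.neg_some, Point.add_of_X_ne hx] at this
      exact (Point.some.inj this).1
    -- the difference of `x(mP - P)` and `x(mP + P)` recovers `ψ₂(mP)`
    have hdiff := addX_negY_sub_addX (W := W) ym y hx
    rw [← hxp, ← hxq] at hdiff
    have h2ne : psiY W x y ≠ 0 := by
      have := hg 2 (by omega) (by omega)
      rwa [Nat.cast_ofNat, wv_two] at this
    have hev := wv_even (W := W) x y (m : ℤ)
    rw [show (m : ℤ) + 1 + 1 = m + 2 by ring, show (m : ℤ) + 1 - 1 = m by ring] at Dp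
    rw [show (m : ℤ) - 1 + 1 = m by ring, show (m : ℤ) - 1 - 1 = m - 2 by ring] at Dq
    generalize wv W x y (2 * (m : ℤ)) = w2m at *
    generalize wv W x y ((m : ℤ) + 2) = u2 at *
    generalize wv W x y ((m : ℤ) + 1) = u1 at *
    generalize wv W x y ((m : ℤ) - 2) = v2 at *
    generalize wv W x y ((m : ℤ) - 1) = v1 at *
    generalize wv W x y (m : ℤ) = w0 at *
    generalize psiY W x y = t at *
    generalize psiY W xm ym = s at *
    apply mul_right_cancel₀ (b := t * u1 ^ 2 * v1 ^ 2)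
      (mul_ne_zero (mul_ne_zero h2ne (pow_ne_zero _ wp)) (pow_ne_zero _ wq))
    linear_combination (-(w0 ^ 4 * u1 ^ 2 * v1 ^ 2)) * hdiff
      + (xq - xp) * u1 ^ 2 * v1 ^ 2 * ((x - xm) * w0 ^ 2 + u1 * v1) * Dm
      + u1 ^ 2 * v1 ^ 2 * v1 ^ 2 * Dp - u1 ^ 2 * v1 ^ 2 * u1 ^ 2 * Dq - u1 ^ 2 * v1 ^ 2 * hev

/-- The multiplication formula for `2`. -/
private lemma mulFormula_two {x y : K} (h : W.Nonsingular x y) (h2ne : psiY W x y ≠ 0) :
    MulFormula h 2 := by
  have hne : y ≠ W.negY x y := fun e =>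
    h2ne (by rw [psiY_eq_sub_negY]; exact sub_eq_zero.mpr e)
  refine ⟨_, _, nonsingular_add h h fun hxy => hne hxy.2, ?_, ?_⟩
  · rw [two_smul, Point.add_self_of_Y_ne hne]
  · have hd := addX_double h.1 h2ne
    generalize W.addX x x (W.slope x x y y) = C at hd ⊢
    norm_num only [Nat.cast_ofNat]
    rw [wv_two, wv_three, wv_one, psiY_sq W h.1, mul_one, sub_mul, hd]
    simp [quadF, dblNum, WeierstrassCurve.Ψ₃]
    ring

/-- The polynomial identity behind the doubling step. -/
private lemma double_step_identity {x xm xp xq C N F s w0 u1 u2 v1 v2 w2m wo1 wo2 : K}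
    (hC : C * F = N) (key : x * F - N = (xm - xp) * (xq - xm) * (x - xm) ^ 2)
    (Dm : (x - xm) * w0 ^ 2 = u1 * v1) (Dp : (x - xp) * u1 ^ 2 = u2 * w0)
    (Dq : (x - xq) * v1 ^ 2 = w0 * v2) (hpsi : s * w0 ^ 4 = w2m) (hsq : s ^ 2 = F)
    (o1 : wo1 = u2 * w0 ^ 3 - v1 * u1 ^ 3) (o2 : wo2 = u1 * v1 ^ 3 - v2 * w0 ^ 3) :
    (x - C) * w2m ^ 2 = wo1 * wo2 := by
  have l1 : (xm - xp) * (w0 ^ 2 * u1 ^ 2) = wo1 := by
    rw [o1]; linear_combination w0 ^ 2 * Dp - u1 ^ 2 * Dm
  have l2 : (xq - xm) * (w0 ^ 2 * v1 ^ 2) = wo2 := by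
    rw [o2]; linear_combination v1 ^ 2 * Dm - w0 ^ 2 * Dq
  calc (x - C) * w2m ^ 2
      = (x - C) * F * w0 ^ 8 := by rw [← hpsi, ← hsq]; ring
    _ = (x * F - N) * w0 ^ 8 := by rw [sub_mul x C F, hC]
    _ = (xm - xp) * (xq - xm) * ((x - xm) * w0 ^ 2) ^ 2 * w0 ^ 4 := by rw [key]; ring
    _ = (xm - xp) * (w0 ^ 2 * u1 ^ 2) * ((xq - xm) * (w0 ^ 2 * v1 ^ 2)) := by rw [Dm]; ring
    _ = wo1 * wo2 := by rw [l1, l2]

/-- The multiplication formula for `2m`, `m ≥ 2`, from the smaller ones. -/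
private lemma mulFormula_even {x y : K} (h : W.Nonsingular x y) {m : ℕ} (hm : 2 ≤ m)
    (hg : GoodUpTo W x y (2 * m)) (IH : ∀ k, 1 ≤ k → k < 2 * m → MulFormula h k) :
    MulFormula h (2 * m) := by
  obtain ⟨xm, ym, hm', em, Dm⟩ := IH m (by omega) (by omega)
  obtain ⟨xp, yp, hp, ep, Dp⟩ := IH (m + 1) (by omega) (by omega)
  obtain ⟨xq, yq, hq, eq_, Dq⟩ := IH (m - 1) (by omega) (by omega)
  have hpsi := psiY_mul h (hg.mono (show m + 1 ≤ 2 * m by omega))
    (fun k h1 h2 => IH k h1 (by omega)) (show 1 ≤ m by omega) le_rfl em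
  have wp := hg (m + 1) (by omega) (by omega)
  have wq := hg (m - 1) (by omega) (by omega)
  have w2 := hg (2 * m) (by omega) le_rfl
  have c1 : ((m - 1 : ℕ) : ℤ) = (m : ℤ) - 1 := by omega
  have c2 : ((m + 1 : ℕ) : ℤ) = (m : ℤ) + 1 := by omega
  have c3 : ((2 * m : ℕ) : ℤ) = 2 * (m : ℤ) := by omega
  rw [c1] at Dq wq; rw [c2] at Dp wp; rw [c3] at w2
  have hx : x ≠ xm := by
    intro e'
    rw [e', sub_self, zero_mul] at Dm
    rcases mul_eq_zero.mp Dm.symm with h0 | h0
    · exact wp (e' ▸ h0)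
    · exact wq (e' ▸ h0)
  have hsne : psiY W xm ym ≠ 0 := by
    intro e; apply w2; rw [← hpsi, e, zero_mul]
  have hne : ym ≠ W.negY xm ym := fun e =>
    hsne (by rw [psiY_eq_sub_negY]; exact sub_eq_zero.mpr e)
  refine ⟨_, _, nonsingular_add hm' hm' fun hxy => hne hxy.2, ?_, ?_⟩
  · rw [two_mul, add_smul, em, Point.add_self_of_Y_ne hne]
  · have hxp : xp = W.addX x xm (W.slope x xm y ym) := by
      rw [add_comm m 1, add_smul, one_smul, em, Point.add_of_X_ne hx] at ep
      exact ((Point.some.inj ep).1).symm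
    have hxq : xq = W.addX x xm (W.slope x xm y (W.negY xm ym)) := by
      have : -((m - 1) • Point.some x y h) =
          Point.some x y h + - (m • Point.some x y h) := by
        conv_rhs => rw [show m = (m - 1) + 1 by omega, succ_nsmul]
        abel
      rw [eq_, em, Point.neg_some, Point.neg_some, Point.add_of_X_ne hx] at this
      exact (Point.some.inj this).1
    -- apply the duplication identity to `m P` and its neighbours
    have key := sub_addX_double h.1 hm'.1 hx
    rw [← hxp, ← hxq] at key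
    have o2 := wv_odd h.1 ((m : ℤ) - 1)
    rw [show 2 * ((m : ℤ) - 1) + 1 = 2 * m - 1 by ring,
      show (m : ℤ) - 1 + 2 = m + 1 by ring,
      show (m : ℤ) - 1 - 1 = m - 2 by ring, show (m : ℤ) - 1 + 1 = m by ring] at o2
    rw [show (m : ℤ) + 1 + 1 = m + 2 by ring, show (m : ℤ) + 1 - 1 = m by ring] at Dp
    rw [show (m : ℤ) - 1 + 1 = m by ring, show (m : ℤ) - 1 - 1 = m - 2 by ring] at Dq
    rw [c3]
    exact double_step_identity (addX_double hm'.1 hsne) key Dm Dp Dq hpsi (psiY_sq W hm'.1)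
      (wv_odd h.1 (m : ℤ)) o2

/-- The sum of the consecutive multiples `m • P` and `(m + 1) • P`. -/
private lemma add_consecutive {x y : K} (h : W.Nonsingular x y) {m : ℕ} {xm ym xp yp : K}
    {hm' : W.Nonsingular xm ym} {hp : W.Nonsingular xp yp}
    (em : m • Point.some x y h = Point.some xm ym hm')
    (ep : (m + 1) • Point.some x y h = Point.some xp yp hp) (hx : xm ≠ xp) :
    ∃ A yA hA, (2 * m + 1) • Point.some x y h = Point.some A yA hA ∧
      (A + x) * (xm - xp) ^ 2 = sumNum W xm xp ∧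
      (x - A) * (xm - xp) ^ 2 = psiY W xm ym * psiY W xp yp := by
  have hB : x = W.addX xm xp (W.slope xm xp ym (W.negY xp yp)) := by
    have : -Point.some x y h = m • Point.some x y h + -((m + 1) • Point.some x y h) := by
      rw [succ_nsmul]; abel
    rw [em, ep, Point.neg_some, Point.neg_some, Point.add_of_X_ne hx] at this
    exact (Point.some.inj this).1
  refine ⟨_, _, nonsingular_add hm' hp fun hxy => hx hxy.1, ?_, ?_, ?_⟩
  · rw [show 2 * m + 1 = m + (m + 1) by omega, add_smul, em, ep, Point.add_of_X_ne hx]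
  · have hsum := addX_sum hm'.1 hp.1 hx
    rwa [← hB] at hsum
  · have hdiff := addX_negY_sub_addX (W := W) ym yp hx
    rwa [← hB] at hdiff

/-- The multiplication formula for `3`. -/
private lemma mulFormula_three {x y : K} (h : W.Nonsingular x y) (h3 : wv W x y 3 ≠ 0)
    (H2 : MulFormula h 2) : MulFormula h 3 := by
  obtain ⟨xp, yp, hp, ep, Dp⟩ := H2
  norm_num only [Nat.cast_ofNat] at Dp
  rw [wv_two, wv_three, wv_one, mul_one] at Dp
  have hx : x ≠ xp := fun e => h3 (by rw [wv_three, ← Dp, e, sub_self, zero_mul])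
  obtain ⟨A, yA, hA, eA, hsum, -⟩ := add_consecutive h (one_smul ℕ _) ep hx
  refine ⟨A, yA, hA, eA, ?_⟩
  norm_num only [Nat.cast_ofNat]
  rw [wv_two, wv_three, wv_four]
  have hsq := psiY_sq W h.1
  generalize psiY W x y = t at *
  -- both sides are explicit polynomials in `x` and `ψ₂ ^ 2`
  have key : 2 * x * ((WeierstrassCurve.Ψ₃ W).eval x) ^ 2
      - (2 * (x * dblNum W x) * (x * quadF W x + dblNum W x)
        + W.b₂ * (x * dblNum W x) * quadF W x
        + W.b₄ * (x * quadF W x + dblNum W x) * quadF W x + W.b₆ * quadF W x ^ 2)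
      = (WeierstrassCurve.preΨ₄ W).eval x * quadF W x := by
    simp [quadF, dblNum, WeierstrassCurve.Ψ₃, WeierstrassCurve.preΨ₄, b₂, b₄, b₆, b₈]
    ring
  have hN : xp * t ^ 2 = dblNum W x := by
    have : x * t ^ 2 - dblNum W x = (WeierstrassCurve.Ψ₃ W).eval x := by
      rw [hsq]
      simp [quadF, dblNum, WeierstrassCurve.Ψ₃]
      ring
    linear_combination this - Dp
  rw [← hsq, ← hN] at key
  simp only [sumNum] at hsum
  generalize (WeierstrassCurve.Ψ₃ W).eval x = u3 at *
  generalize (WeierstrassCurve.preΨ₄ W).eval x = u4 at *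
  linear_combination key + (-(t ^ 4)) * hsum + (A + x) * (u3 + (x - xp) * t ^ 2) * Dp

/-- The multiplication formula for `2m + 1`, `m ≥ 2`, from the smaller ones. -/
private lemma mulFormula_odd {x y : K} (h : W.Nonsingular x y) {m : ℕ} (hm : 2 ≤ m)
    (hg : GoodUpTo W x y (2 * m + 1)) (IH : ∀ k, 1 ≤ k → k < 2 * m + 1 → MulFormula h k) :
    MulFormula h (2 * m + 1) := by
  obtain ⟨xm, ym, hm', em, Dm⟩ := IH m (by omega) (by omega)
  obtain ⟨xp, yp, hp, ep, Dp⟩ := IH (m + 1) (by omega) (by omega)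
  have hpsi := psiY_mul h (hg.mono (show m + 1 ≤ 2 * m + 1 by omega))
    (fun k h1 h2 => IH k h1 (by omega)) (show 1 ≤ m by omega) le_rfl em
  have hpsi' := psiY_mul h (hg.mono (show m + 2 ≤ 2 * m + 1 by omega))
    (fun k h1 h2 => IH k h1 (by omega)) (show 1 ≤ m + 1 by omega) le_rfl ep
  have w1 := hg (2 * m + 1) (by omega) le_rfl
  have c2 : ((m + 1 : ℕ) : ℤ) = (m : ℤ) + 1 := by omega
  have c3 : ((2 * m + 1 : ℕ) : ℤ) = 2 * (m : ℤ) + 1 := by omega
  rw [c2] at Dp hpsi'; rw [c3] at w1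
  rw [show (m : ℤ) + 1 + 1 = m + 2 by ring, show (m : ℤ) + 1 - 1 = m by ring] at Dp
  have o1 := wv_odd h.1 (m : ℤ)
  have hd : (xm - xp) * (wv W x y m ^ 2 * wv W x y ((m : ℤ) + 1) ^ 2)
      = wv W x y (2 * (m : ℤ) + 1) := by
    rw [o1]
    linear_combination wv W x y m ^ 2 * Dp - wv W x y ((m : ℤ) + 1) ^ 2 * Dm
  have hx : xm ≠ xp := fun e => w1 (by rw [← hd, e, sub_self, zero_mul])
  obtain ⟨A, yA, hA, eA, -, hdiff⟩ := add_consecutive h em ep hx
  refine ⟨A, yA, hA, eA, ?_⟩
  rw [c3, show 2 * (m : ℤ) + 1 + 1 = 2 * ((m : ℤ) + 1) by ring,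
    show 2 * (m : ℤ) + 1 - 1 = 2 * m by ring, ← hd, ← hpsi, ← hpsi']
  linear_combination (wv W x y m * wv W x y ((m : ℤ) + 1)) ^ 4 * hdiff

/-- The x-coordinate formula holds as long as no division value vanishes. -/
theorem mulFormula_of_good {x y : K} (h : W.Nonsingular x y) :
    ∀ n : ℕ, 1 ≤ n → GoodUpTo W x y n → MulFormula h n := by
  intro n
  induction n using Nat.strong_induction_on with
  | _ n ih =>
    intro hn hg
    have IH : ∀ k, 1 ≤ k → k < n → MulFormula h k :=
      fun k h1 h2 => ih k h2 h1 (hg.mono h2.le)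
    rcases Nat.lt_or_ge n 2 with hn1 | hn1
    · obtain rfl : n = 1 := by omega
      exact ⟨x, y, h, one_smul ℕ _, by simp [wv_zero]⟩
    have h2ne : psiY W x y ≠ 0 := by
      have := hg 2 (by omega) hn1
      rwa [Nat.cast_ofNat, wv_two] at this
    rcases Nat.even_or_odd' n with ⟨m, rfl | rfl⟩
    · rcases Nat.lt_or_ge m 2 with hm | hm
      · obtain rfl : m = 1 := by omega
        exact mulFormula_two h h2ne
      · exact mulFormula_even h hm hg IH
    · rcases Nat.lt_or_ge m 2 with hm | hm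
      · obtain rfl : m = 1 := by omega
        exact mulFormula_three h (by simpa using hg 3 (by omega) le_rfl) (mulFormula_two h h2ne)
      · exact mulFormula_odd h hm hg IH

/-- If `ψ_n` is the first one to vanish at `P` then `n • P = 0`. -/
theorem smul_eq_zero_of_first_zero {x y : K} (h : W.Nonsingular x y) {n : ℕ} (hn : 2 ≤ n)
    (hg : GoodUpTo W x y (n - 1)) (h0 : wv W x y n = 0) : n • Point.some x y h = 0 := by
  have IH : ∀ k, 1 ≤ k → k ≤ n - 1 → MulFormula h k :=
    fun k h1 h2 => mulFormula_of_good h k h1 (hg.mono h2)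
  -- if `n = 2 m` then `m P` has order two, else `m P = -(m + 1) P`
  rcases Nat.even_or_odd' n with ⟨m, rfl | rfl⟩
  · rcases Nat.lt_or_ge m 2 with hm | hm
    · obtain rfl : m = 1 := by omega
      norm_num only [Nat.cast_mul, Nat.cast_ofNat, Nat.cast_one, mul_one] at h0
      rw [wv_two, psiY_eq_sub_negY, sub_eq_zero] at h0
      rw [two_mul, add_smul, one_smul, Point.add_self_of_Y_eq h0]
    · obtain ⟨xm, ym, hm', em, -⟩ := IH m (by omega) (by omega)
      have hpsi := psiY_mul h hg IH (show 1 ≤ m by omega) (by omega) em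
      push_cast at h0
      rw [h0] at hpsi
      have : psiY W xm ym = 0 :=
        (mul_eq_zero.mp hpsi).resolve_right (pow_ne_zero _ (hg m (by omega) (by omega)))
      rw [psiY_eq_sub_negY, sub_eq_zero] at this
      rw [two_mul, add_smul, em, Point.add_self_of_Y_eq this]
  · obtain ⟨xm, ym, hm', em, Dm⟩ := IH m (by omega) (by omega)
    obtain ⟨xp, yp, hp, ep, Dp⟩ := IH (m + 1) (by omega) (by omega)
    push_cast at h0 Dp
    rw [show (m : ℤ) + 1 + 1 = m + 2 by ring, show (m : ℤ) + 1 - 1 = m by ring] at Dp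
    have o1 := wv_odd h.1 (m : ℤ)
    have hd : (xm - xp) * (wv W x y m ^ 2 * wv W x y ((m : ℤ) + 1) ^ 2) = 0 := by
      linear_combination wv W x y m ^ 2 * Dp - wv W x y ((m : ℤ) + 1) ^ 2 * Dm + h0 - o1
    have wm := hg m (by omega) (by omega)
    have wp := hg (m + 1) (by omega) (by omega)
    push_cast at wp
    have hx : xm = xp := sub_eq_zero.mp ((mul_eq_zero.mp hd).resolve_right
      (mul_ne_zero (pow_ne_zero _ wm) (pow_ne_zero _ wp)))
    rcases Point.X_eq_iff.mp hx with e | e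
    · exfalso
      rw [← em, ← ep, succ_nsmul, left_eq_add] at e
      exact Point.some_ne_zero h e
    · rw [show 2 * m + 1 = m + (m + 1) by omega, add_smul, em, ep, e, neg_add_cancel]

/-- `ψ_k(P) ≠ 0` for all `1 ≤ k ≤ n` iff `k • P ≠ 0` for all `1 ≤ k ≤ n`. -/
theorem goodUpTo_iff {x y : K} (h : W.Nonsingular x y) (n : ℕ) :
    GoodUpTo W x y n ↔ ∀ k : ℕ, 1 ≤ k → k ≤ n → k • Point.some x y h ≠ 0 := by
  constructor
  · intro hg k h1 h2
    obtain ⟨xk, yk, hk, e, -⟩ := mulFormula_of_good h k h1 (hg.mono h2)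
    rw [e]; exact Point.some_ne_zero hk
  · intro hz
    induction n with
    | zero => intro k h1 h2; omega
    | succ n ih =>
      have hg := ih fun k h1 h2 => hz k h1 (by omega)
      intro k h1 h2
      rcases Nat.lt_or_ge k (n + 1) with h3 | h3
      · exact hg k h1 (by omega)
      · obtain rfl : k = n + 1 := by omega
        rcases Nat.eq_zero_or_pos n with rfl | hn
        · simp [wv_one]
        · intro h0
          exact hz (n + 1) h1 le_rfl (smul_eq_zero_of_first_zero h (by omega) hg h0)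

/-- `ψ_n` vanishes at a point of exact order `n`. -/
theorem wv_eq_zero_of_order {x y : K} (h : W.Nonsingular x y) {n : ℕ} (hn : 1 ≤ n)
    (hz : ∀ k : ℕ, 1 ≤ k → k < n → k • Point.some x y h ≠ 0)
    (h0 : n • Point.some x y h = 0) : wv W x y n = 0 := by
  by_contra hne
  have hg : GoodUpTo W x y n := by
    intro k h1 h2
    rcases Nat.lt_or_ge k n with h3 | h3
    · exact (goodUpTo_iff h (n - 1)).mpr (fun j a b => hz j a (by omega)) k h1 (by omega)
    · obtain rfl : k = n := by omega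
      exact hne
  exact (goodUpTo_iff h n).mp hg n hn le_rfl h0

end Fermat.EC
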