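import Fermat.Agent.EC.EDSPattern
import Mathlib.AlgebraicGeometry.EllipticCurve.DivisionPolynomial.Degree
import Mathlib.FieldTheory.IsAlgClosed.AlgebraicClosure
import Mathlib.Algebra.Polynomial.Splits
import Mathlib.Algebra.Field.ZMod

/-!
# The `p`-th division polynomial modulo `p`

For `p ≥ 5` and a curve with semistable reduction at `p`, `ψ_p mod p` is not the zero polynomial:
it does not vanish at a suitable root of `ψ₃`.
-/

set_option autoImplicit false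

open Polynomial WeierstrassCurve

namespace Fermat.EC.ModP

variable {R : Type*} [CommRing R] (V : WeierstrassCurve R)

/-- At a root of `ψ₃`, `ψ₄ / ψ₂ = -ψ₂⁴`. -/
lemma preΨ₄_eval_of_Ψ₃ {x : R} (h3 : V.Ψ₃.eval x = 0) :
    V.preΨ₄.eval x = -(V.Ψ₂Sq.eval x) ^ 2 := by
  simp only [WeierstrassCurve.Ψ₃, WeierstrassCurve.preΨ₄, WeierstrassCurve.Ψ₂Sq, eval_add,
    eval_mul, eval_pow, eval_ofNat, eval_X, eval_C, b₂, b₄, b₆, b₈] at h3 ⊢
  linear_combination
    (6 * x ^ 2 + (V.a₁ ^ 2 + 4 * V.a₂) * x + (2 * V.a₄ + V.a₁ * V.a₃)) * h3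

/-- `16 ψ₃` in terms of `ψ₂²` and its derivatives. -/
lemma sixteen_Ψ₃ (x : R) :
    16 * V.Ψ₃.eval x = 2 * V.Ψ₂Sq.eval x * (24 * x + 2 * V.b₂) -
      (12 * x ^ 2 + 2 * V.b₂ * x + 2 * V.b₄) ^ 2 := by
  simp only [WeierstrassCurve.Ψ₃, WeierstrassCurve.Ψ₂Sq, eval_add, eval_mul, eval_pow,
    eval_ofNat, eval_X, eval_C]
  linear_combination 4 * V.b_relation

variable {K : Type*} [Field K] [IsAlgClosed K] (U : WeierstrassCurve K)

/-- Some root of `Ψ₃` is not a `2`-torsion abscissa, unless the curve is cuspidal. -/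
theorem exists_root_Ψ₃ (h2 : (2 : K) ≠ 0) (h3 : (3 : K) ≠ 0) (h : U.c₄ ≠ 0 ∨ U.Δ ≠ 0) :
    ∃ x, U.Ψ₃.eval x = 0 ∧ U.Ψ₂Sq.eval x ≠ 0 := by
  by_contra hcon
  push Not at hcon
  have hD : ∀ x, U.Ψ₃.eval x = 0 →
      U.Ψ₂Sq.eval x = 0 ∧ 12 * x ^ 2 + 2 * U.b₂ * x + 2 * U.b₄ = 0 := by
    intro x hx
    refine ⟨hcon x hx, ?_⟩
    have := sixteen_Ψ₃ U x
    rw [hx, hcon x hx] at this
    simpa using this.symm
  have hdeg : U.Ψ₃.natDegree = 4 := U.natDegree_Ψ₃ h3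
  have hlc : U.Ψ₃.leadingCoeff = 3 := U.leadingCoeff_Ψ₃ h3
  have hsplit := IsAlgClosed.splits U.Ψ₃
  have hcard : Multiset.card U.Ψ₃.roots = 4 := by rw [← hsplit.natDegree_eq_card_roots, hdeg]
  obtain ⟨r, hr⟩ : ∃ r, r ∈ U.Ψ₃.roots := Multiset.card_pos_iff_exists_mem.mp (by omega)
  have hroot : ∀ s ∈ U.Ψ₃.roots, U.Ψ₃.eval s = 0 := fun s hs =>
    IsRoot.def.mp (mem_roots'.mp hs).2
  have huniq : ∀ s ∈ U.Ψ₃.roots, s = r := by
    intro s hs
    by_contra hne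
    obtain ⟨hFs, hGs⟩ := hD s (hroot s hs)
    obtain ⟨hFr, hGr⟩ := hD r (hroot r hr)
    simp only [WeierstrassCurve.Ψ₂Sq, eval_add, eval_mul, eval_pow, eval_X,
      eval_C] at hFs hFr
    have hrs : r - s ≠ 0 := sub_ne_zero.mpr fun e => hne e.symm
    have e1 : 6 * (r + s) + U.b₂ = 0 :=
      mul_left_cancel₀ (mul_ne_zero h2 hrs) (by rw [mul_zero]; linear_combination hGr - hGs)
    have e2 : U.b₄ - 6 * r * s = 0 :=
      mul_left_cancel₀ h2 (by rw [mul_zero]; linear_combination hGr - 2 * r * e1)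
    have e3 : 4 * (r ^ 2 + r * s + s ^ 2) + U.b₂ * (r + s) + 2 * U.b₄ = 0 :=
      mul_left_cancel₀ hrs (by rw [mul_zero]; linear_combination hFr - hFs)
    have e4 : (r - s) ^ 2 * 2 = 0 := by linear_combination -e3 + (r + s) * e1 + 2 * e2
    exact mul_ne_zero (pow_ne_zero 2 hrs) h2 e4
  -- all four roots equal `r`; compare coefficients
  have hrep : U.Ψ₃.roots = Multiset.replicate 4 r := Multiset.eq_replicate.mpr ⟨hcard, huniq⟩
  have heq := hsplit.eq_prod_roots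
  rw [hlc, hrep] at heq
  simp only [Multiset.map_replicate, Multiset.prod_replicate] at heq
  have ev : ∀ x, U.Ψ₃.eval x = 3 * (x - r) ^ 4 := fun x => by
    conv_lhs => rw [heq]
    simp
  have hv := ev 0
  have hp1 := ev 1
  have hm1 := ev (-1)
  have hp2 := ev 2
  simp only [WeierstrassCurve.Ψ₃, eval_add, eval_mul, eval_pow, eval_ofNat, eval_X,
    eval_C] at hv hp1 hm1 hp2
  have e8 : U.b₈ = 3 * r ^ 4 := by linear_combination hv
  have e4 : U.b₄ = 6 * r ^ 2 :=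
    mul_left_cancel₀ (mul_ne_zero h2 h3) (by linear_combination hp1 + hm1 - 2 * hv)
  have e26 : U.b₂ + 3 * U.b₆ = -12 * r - 12 * r ^ 3 := by
    refine mul_left_cancel₀ h2 ?_
    linear_combination hp1 - hm1
  have e2 : U.b₂ = -12 * r := by
    refine mul_left_cancel₀ (mul_ne_zero h2 h3) ?_
    linear_combination hp2 - hv - 12 * e4 - 2 * e26
  have e6 : U.b₆ = -4 * r ^ 3 := by
    refine mul_left_cancel₀ h3 ?_
    linear_combination e26 - e2
  rcases h with h | h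
  · exact h (by rw [c₄, e2, e4]; ring)
  · exact h (by rw [Δ, e2, e4, e6, e8]; ring)

/-- `ψ_p mod p ≠ 0`. -/
theorem preΨ'_map_ne_zero (W : WeierstrassCurve ℤ) {p : ℕ} (hp : p.Prime) (hp5 : 5 ≤ p)
    (hss : (p : ℤ) ∣ W.Δ → ¬ (p : ℤ) ∣ W.c₄) :
    (W.preΨ' p).map (Int.castRingHom (ZMod p)) ≠ 0 := by
  have := Fact.mk hp
  set φ : ℤ →+* AlgebraicClosure (ZMod p) :=
    (algebraMap (ZMod p) (AlgebraicClosure (ZMod p))).comp (Int.castRingHom (ZMod p)) with hφ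
  have hker : ∀ z : ℤ, φ z = 0 → (p : ℤ) ∣ z := fun z hz => by
    rw [hφ, RingHom.comp_apply, map_eq_zero_iff _ (RingHom.injective _), eq_intCast,
      ZMod.intCast_zmod_eq_zero_iff_dvd] at hz
    exact hz
  have hsmall : ∀ n : ℕ, 0 < n → n < p → ((n : ℕ) : AlgebraicClosure (ZMod p)) ≠ 0 := by
    intro n h0 hlt e
    have := hker n (by rw [map_natCast]; exact e)
    rw [Int.natCast_dvd_natCast] at this
    exact absurd (Nat.le_of_dvd h0 this) (not_le.mpr hlt)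
  obtain ⟨x, h3, hF⟩ := exists_root_Ψ₃ (W.map φ)
    (by exact_mod_cast hsmall 2 (by norm_num) (by omega))
    (by exact_mod_cast hsmall 3 (by norm_num) (by omega)) (by
      by_cases hd : (p : ℤ) ∣ W.Δ
      · exact Or.inl fun e => hss hd (hker _ (by rwa [map_c₄] at e))
      · exact Or.inr fun e => hd (hker _ (by rwa [map_Δ] at e)))
  intro h0
  have h1 : (W.map φ).preΨ' p = 0 := by
    rw [map_preΨ', hφ, ← Polynomial.map_map, h0, Polynomial.map_zero]
  have h2 := congrArg (eval x) h1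
  rw [eval_zero, WeierstrassCurve.preΨ', ← coe_evalRingHom, map_preNormEDS'] at h2
  simp only [coe_evalRingHom, eval_pow] at h2
  have hb : ((W.map φ).Ψ₂Sq.eval x) ^ 2 ≠ 0 := pow_ne_zero _ hF
  -- at that root the sequence vanishes only at multiples of `3`
  rw [h3, preΨ₄_eval_of_Ψ₃ _ h3,
    preNormEDS'_eq_zero_iff_of_c_eq_zero hb (neg_ne_zero.mpr hb)] at h2
  have := (Nat.prime_dvd_prime_iff_eq Nat.prime_three hp).mp h2
  omega

end Fermat.EC.ModP
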