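import Mathlib.NumberTheory.EllipticDivisibilitySequence
import Mathlib.Tactic.IntervalCases

/-!
# Zero patterns of normalised elliptic divisibility sequences

The zeros are found in `preNormEDS'_eq_zero_iff_of_c_eq_zero` and
`preNormEDS'_ne_zero_of_odd_of_b_eq_zero`.
-/

set_option autoImplicit false

namespace Fermat.EC

variable {F : Type*} [CommRing F] [IsDomain F]

/-- With `c = 0` and `b, d` nonzero the sequence vanishes exactly at the multiples of three. -/
lemma preNormEDS'_eq_zero_iff_of_c_eq_zero {b d : F} (hb : b ≠ 0) (hd : d ≠ 0) :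
    ∀ n : ℕ, preNormEDS' b 0 d n = 0 ↔ 3 ∣ n := by
  intro n
  induction n using Nat.strong_induction_on with
  | _ n ih =>
    have hz : ∀ k, k < n → 3 ∣ k → preNormEDS' b 0 d k = 0 := fun k hk h => (ih k hk).mpr h
    have hn : ∀ k, k < n → ¬ 3 ∣ k → preNormEDS' b 0 d k ≠ 0 :=
      fun k hk h e => h ((ih k hk).mp e)
    by_cases h5 : n < 5
    · interval_cases n <;> simp [hd]
    -- the two doubling recursions, by `m` modulo `3`
    rcases Nat.even_or_odd' n with ⟨j, rfl | rfl⟩
    · obtain ⟨m, rfl⟩ : ∃ m, j = m + 3 := ⟨j - 3, by omega⟩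
      rw [preNormEDS'_even]
      rcases (show m % 3 = 0 ∨ m % 3 = 1 ∨ m % 3 = 2 by omega) with h | h | h
      · rw [hz (m + 3) (by omega) (by omega)]
        simpa using (show 3 ∣ 2 * (m + 3) by omega)
      · rw [hz (m + 2) (by omega) (by omega)]
        have h1 := hn (m + 1) (by omega) (by omega)
        have h2 := hn (m + 3) (by omega) (by omega)
        have h3 := hn (m + 4) (by omega) (by omega)
        simp only [zero_pow two_ne_zero, zero_mul, zero_sub, neg_eq_zero, mul_eq_zero, h1, h2,
          pow_eq_zero_iff two_ne_zero, h3, or_self, false_iff]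
        omega
      · rw [hz (m + 1) (by omega) (by omega)]
        have h1 := hn (m + 2) (by omega) (by omega)
        have h2 := hn (m + 3) (by omega) (by omega)
        have h3 := hn (m + 5) (by omega) (by omega)
        simp only [zero_mul, sub_zero, mul_eq_zero, h1, h2, pow_eq_zero_iff two_ne_zero, h3,
          or_self, false_iff]
        omega
    · obtain ⟨m, rfl⟩ : ∃ m, j = m + 2 := ⟨j - 2, by omega⟩
      rw [preNormEDS'_odd]
      have hε : ∀ p : Prop, [Decidable p] → (if p then b else 1) ≠ 0 := by
        intro p _; split_ifs <;> simp [hb]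
      have hε' : (if Even m then (1 : F) else b) ≠ 0 := by split_ifs <;> simp [hb]
      rcases (show m % 3 = 0 ∨ m % 3 = 1 ∨ m % 3 = 2 by omega) with h | h | h
      · rw [hz (m + 3) (by omega) (by omega)]
        have h1 := hn (m + 4) (by omega) (by omega)
        have h2 := hn (m + 2) (by omega) (by omega)
        simp only [zero_pow three_ne_zero, mul_zero, zero_mul, sub_zero, mul_eq_zero, h1,
          pow_eq_zero_iff three_ne_zero, h2, hε (Even m), or_self, false_iff]
        omega
      · rw [hz (m + 2) (by omega) (by omega)]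
        have h1 := hn (m + 1) (by omega) (by omega)
        have h2 := hn (m + 3) (by omega) (by omega)
        simp only [zero_pow three_ne_zero, mul_zero, zero_mul, zero_sub, neg_eq_zero, mul_eq_zero,
          h1, pow_eq_zero_iff three_ne_zero, h2, hε', or_self, false_iff]
        omega
      · rw [hz (m + 4) (by omega) (by omega), hz (m + 1) (by omega) (by omega)]
        simpa using (show 3 ∣ 2 * (m + 2) + 1 by omega)

/-- With `b = 0` and `c` nonzero the terms of odd index do not vanish. -/
lemma preNormEDS'_ne_zero_of_odd_of_b_eq_zero {c : F} (d : F) (hc : c ≠ 0) :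
    ∀ n : ℕ, Odd n → preNormEDS' 0 c d n ≠ 0 := by
  intro n
  induction n using Nat.strong_induction_on with
  | _ n ih =>
    rintro ⟨j, rfl⟩
    rcases Nat.lt_or_ge j 2 with hj | hj
    · interval_cases j <;> simp [hc]
    obtain ⟨m, rfl⟩ : ∃ m, j = m + 2 := ⟨j - 2, by omega⟩
    rw [preNormEDS'_odd]
    by_cases hm : Even m
    · have h1 := ih (m + 1) (by omega) hm.add_one
      have h2 := ih (m + 3) (by omega) (hm.add_odd (by decide))
      simp [hm, h1, h2]
    · have hm' := Nat.not_even_iff_odd.mp hm
      have h1 := ih (m + 4) (by omega) (hm'.add_even (by decide))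
      have h2 := ih (m + 2) (by omega) (hm'.add_even (by decide))
      simp [hm, h1, h2]

end Fermat.EC
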