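import Fermat.Prelude.Def_FLTPrelim_FreyPackage
import Mathlib.Data.ZMod.Basic
import Mathlib.NumberTheory.Padics.PadicVal.Basic
import Mathlib.Tactic.LinearCombination
import Mathlib.Tactic.FieldSimp

/-!
# Invariants of the Frey curve

`semistable` and `dvd_padicValInt_Δ`, the two facts behind S05 and all local properties of the Frey
curve used later.
-/

set_option autoImplicit false

open WeierstrassCurve

namespace Fermat.EC.Frey

variable (P : FreyPackage)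

/-- `b` is even. -/
lemma two_dvd_b : (2 : ℤ) ∣ P.b := (ZMod.intCast_zmod_eq_zero_iff_dvd P.b 2).1 P.hb2

/-- `32` divides `b ^ p`. -/
lemma thirtytwo_dvd_bp : (32 : ℤ) ∣ P.b ^ P.p := by
  calc (32 : ℤ) = 2 ^ 5 := by norm_num
    _ ∣ P.b ^ 5 := pow_dvd_pow_of_dvd (two_dvd_b P) 5
    _ ∣ P.b ^ P.p := pow_dvd_pow _ P.hp5

/-- `4` divides `b ^ p - 1 - a ^ p`, so `a₂` of the integral model is an integer. -/
lemma four_dvd : (4 : ℤ) ∣ P.b ^ P.p - 1 - P.a ^ P.p := by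
  have h : ((P.b ^ P.p - 1 - P.a ^ P.p : ℤ) : ZMod 4) = 0 := by
    have hb : ((P.b ^ P.p : ℤ) : ZMod 4) = 0 :=
      (ZMod.intCast_zmod_eq_zero_iff_dvd _ 4).2 ((show (4 : ℤ) ∣ 32 by norm_num).trans
        (thirtytwo_dvd_bp P))
    push_cast at hb ⊢
    obtain ⟨k, hk⟩ := P.hp_odd
    rw [hb, P.ha4, hk, pow_succ, pow_mul]
    rw [show (3 : ZMod 4) ^ 2 = 1 from rfl, one_pow]
    rfl
  exact_mod_cast (ZMod.intCast_zmod_eq_zero_iff_dvd _ 4).1 h

/-- `16` divides `a ^ p b ^ p`, so `a₄` of the integral model is an integer. -/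
lemma sixteen_dvd : (16 : ℤ) ∣ -(P.a ^ P.p) * P.b ^ P.p :=
  dvd_mul_of_dvd_right ((show (16 : ℤ) ∣ 32 by norm_num).trans (thirtytwo_dvd_bp P)) _

/-- The integral model gives the Frey curve over `ℚ`. -/
theorem map_freyCurveInt : P.freyCurveInt.map (Int.castRingHom ℚ) = P.freyCurve := by
  ext <;> simp only [FreyPackage.freyCurveInt, FreyPackage.freyCurve, map_a₁, map_a₂, map_a₃,
    map_a₄, map_a₆, eq_intCast, Int.cast_one, Int.cast_zero]
  · rw [Int.cast_div (four_dvd P) (by norm_num)]; push_cast; rfl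
  · rw [Int.cast_div (sixteen_dvd P) (by norm_num)]; push_cast; rfl

/-- `256` times the discriminant of the Frey curve is `(a b c) ^ (2 p)`. -/
theorem Δ_mul : 256 * P.freyCurveInt.Δ = ((P.a * P.b * P.c) ^ 2) ^ P.p := by
  obtain ⟨u, hu⟩ := four_dvd P
  obtain ⟨v, hv⟩ := sixteen_dvd P
  have h2 : P.freyCurveInt.a₂ = u := by
    change (P.b ^ P.p - 1 - P.a ^ P.p) / 4 = u
    rw [hu]; simp
  have h4 : P.freyCurveInt.a₄ = v := by
    change -(P.a ^ P.p) * (P.b ^ P.p) / 16 = v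
    rw [hv]; simp
  have e : ((P.a * P.b * P.c) ^ 2) ^ P.p = (P.a ^ P.p * P.b ^ P.p) ^ 2 * (P.c ^ P.p) ^ 2 := by ring
  have hs : (P.b ^ P.p + P.a ^ P.p) ^ 2 = (4 * u + 1) ^ 2 - 4 * (16 * v) := by
    rw [← hv, ← hu]; ring
  rw [e, ← P.hFLT, show (P.a ^ P.p * P.b ^ P.p) = -(16 * v) by rw [← hv]; ring,
    add_comm (P.a ^ P.p), hs]
  simp only [Δ, b₂, b₄, b₆, b₈, h2, h4]
  simp only [FreyPackage.freyCurveInt]
  ring

/-- The invariant `c₄` of the Frey curve is `a^(2p) + a^p b^p + b^(2p)`. -/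
theorem c₄_eq : P.freyCurveInt.c₄ =
    (P.a ^ P.p) ^ 2 + P.a ^ P.p * P.b ^ P.p + (P.b ^ P.p) ^ 2 := by
  obtain ⟨u, hu⟩ := four_dvd P
  obtain ⟨v, hv⟩ := sixteen_dvd P
  have h2 : P.freyCurveInt.a₂ = u := by
    change (P.b ^ P.p - 1 - P.a ^ P.p) / 4 = u
    rw [hu]; simp
  have h4 : P.freyCurveInt.a₄ = v := by
    change -(P.a ^ P.p) * (P.b ^ P.p) / 16 = v
    rw [hv]; simp
  simp only [c₄, b₂, b₄, h2, h4]
  simp only [FreyPackage.freyCurveInt]
  linear_combination (-(4 * u + 1) - (P.b ^ P.p - P.a ^ P.p)) * hu + 3 * hv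

/-- The discriminant of the Frey curve is not zero. -/
theorem Δ_ne_zero : P.freyCurveInt.Δ ≠ 0 := by
  intro h
  have := Δ_mul P
  rw [h, mul_zero] at this
  exact pow_ne_zero _ (pow_ne_zero _ P.habc0) this.symm

/-- A prime dividing the discriminant divides `a b c`. -/
theorem dvd_abc_of_dvd_Δ {q : ℕ} (hq : q.Prime) (h : (q : ℤ) ∣ P.freyCurveInt.Δ) :
    (q : ℤ) ∣ P.a * P.b * P.c :=
  Int.Prime.dvd_pow' hq (Int.Prime.dvd_pow' hq (Δ_mul P ▸ dvd_mul_of_dvd_right h 256))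

/-- A prime dividing `a` does not divide `b`. -/
theorem not_dvd_b_of_dvd {q : ℕ} (hq : q.Prime) (ha : (q : ℤ) ∣ P.a) : ¬ (q : ℤ) ∣ P.b :=
    fun hb => by
  have := dvd_gcd ha hb
  rw [P.hgcdab] at this
  exact hq.one_lt.ne' (by exact_mod_cast Int.eq_one_of_dvd_one (by positivity) this)

/-- The Frey curve is semistable at every prime of its discriminant. -/
theorem semistable {q : ℕ} (hq : q.Prime) (h : (q : ℤ) ∣ P.freyCurveInt.Δ) :
    ¬ (q : ℤ) ∣ P.freyCurveInt.c₄ := by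
  intro hc
  rw [c₄_eq] at hc
  have hp := P.hp0
  have hne : ∀ x : ℤ, (q : ℤ) ∣ (x ^ P.p) ^ 2 → (q : ℤ) ∣ x := fun x hx =>
    Int.Prime.dvd_pow' hq (Int.Prime.dvd_pow' hq hx)
  rcases (Nat.prime_iff_prime_int.mp hq).dvd_or_dvd (dvd_abc_of_dvd_Δ P hq h) with hab | hcc
  · rcases (Nat.prime_iff_prime_int.mp hq).dvd_or_dvd hab with ha | hb
    · refine not_dvd_b_of_dvd P hq ha (hne _ ?_)
      have d : (q : ℤ) ∣ P.a ^ P.p := dvd_pow ha hp
      exact (dvd_add_right (dvd_add (dvd_pow d two_ne_zero) (dvd_mul_of_dvd_left d _))).mp hc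
    · refine not_dvd_b_of_dvd P hq (hne _ ?_) hb
      have d : (q : ℤ) ∣ P.b ^ P.p := dvd_pow hb hp
      have := dvd_sub (dvd_sub hc (dvd_pow d two_ne_zero)) (dvd_mul_of_dvd_right d (P.a ^ P.p))
      simpa using this
  · have d : (q : ℤ) ∣ P.c ^ P.p := dvd_pow hcc hp
    rw [← P.hFLT] at d
    have hab : (q : ℤ) ∣ P.a ^ P.p * P.b ^ P.p := by
      have := dvd_sub (dvd_mul_of_dvd_left d (P.a ^ P.p + P.b ^ P.p)) hc
      ring_nf at this ⊢
      exact this
    rcases (Nat.prime_iff_prime_int.mp hq).dvd_or_dvd hab with x | x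
    · exact not_dvd_b_of_dvd P hq (Int.Prime.dvd_pow' hq x)
        (Int.Prime.dvd_pow' hq ((dvd_add_right x).mp d))
    · exact not_dvd_b_of_dvd P hq (Int.Prime.dvd_pow' hq ((dvd_add_left x).mp d))
        (Int.Prime.dvd_pow' hq x)

/-- The exponent of a prime in `256 Δ` is `2 p` times its exponent in `a b c`. -/
theorem padicValInt_Δ {q : ℕ} (hq : q.Prime) :
    padicValInt q 256 + padicValInt q P.freyCurveInt.Δ =
      P.p * (2 * padicValInt q (P.a * P.b * P.c)) := by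
  have := Fact.mk hq
  have pw : ∀ (x : ℤ) (n : ℕ), x ≠ 0 → padicValInt q (x ^ n) = n * padicValInt q x := by
    intro x n hx
    induction n with
    | zero => simp [padicValInt]
    | succ n ih => rw [pow_succ, padicValInt.mul (pow_ne_zero _ hx) hx, ih]; ring
  rw [← padicValInt.mul (by norm_num) (Δ_ne_zero P), Δ_mul, pw _ _ (pow_ne_zero _ P.habc0),
    pw _ _ P.habc0]

/-- The discriminant exponent at `2` is prime to `p`; in particular `2` divides the
discriminant. -/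
theorem not_dvd_padicValInt_Δ_two :
    (2 : ℤ) ∣ P.freyCurveInt.Δ ∧ ¬ P.p ∣ padicValInt 2 P.freyCurveInt.Δ := by
  have := Fact.mk Nat.prime_two
  have h := padicValInt_Δ P Nat.prime_two
  have h8 : padicValInt 2 256 = 8 := by
    change padicValNat 2 256 = 8
    rw [show (256 : ℕ) = 2 ^ 8 by norm_num, padicValNat.prime_pow]
  rw [h8] at h
  have h5 := P.hp5
  have hnd : ¬ P.p ∣ padicValInt 2 P.freyCurveInt.Δ := fun hd => by
    have h9 : P.p ∣ 2 ^ 3 := by
      change P.p ∣ 8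
      exact (Nat.dvd_add_left hd).mp (h ▸ dvd_mul_right _ _)
    have := Nat.le_of_dvd two_pos (P.pp.dvd_of_dvd_pow h9)
    omega
  refine ⟨?_, hnd⟩
  by_contra hd
  refine hnd ?_
  rw [padicValInt.eq_zero_of_not_dvd (by exact_mod_cast hd)]
  exact dvd_zero _

/-- Away from `2` every discriminant exponent is divisible by `p`. -/
theorem dvd_padicValInt_Δ {q : ℕ} (hq : q.Prime) (hq2 : q ≠ 2) :
    P.p ∣ padicValInt q P.freyCurveInt.Δ := by
  have h := padicValInt_Δ P hq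
  have h0 : padicValInt q 256 = 0 := by
    rw [padicValInt, padicValNat.eq_zero_of_not_dvd]
    intro hd
    exact hq2 ((Nat.prime_dvd_prime_iff_eq hq Nat.prime_two).mp
      (hq.dvd_of_dvd_pow (show q ∣ 2 ^ 8 by simpa using hd)))
  rw [h0, zero_add] at h
  exact ⟨_, h⟩

end Fermat.EC.Frey
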