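import Fermat.Agent.EC.Semistable
import Fermat.Agent.EC.Frey
import Fermat.Agent.CFT.Density.Places

/-!
# No rational point of order `p` on a Frey curve, seen at `2`

`no_rational_torsion` is stated for integral models with the parity of the Frey model;
`frey_no_rational_torsion` applies it to the Frey curve.
-/

set_option autoImplicit false

open WeierstrassCurve WeierstrassCurve.Affine Fermat.EC.Val Fermat.EC.Red Fermat.EC.Node
open scoped WeierstrassCurve.Affine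

namespace Fermat.EC.AtTwo

local notation "ℚbar" => AlgebraicClosure ℚ

variable {A : ValuationSubring ℚbar}

/-- An even integer reduces to zero at `2`. -/
lemma gt_intCast_of_even (h : IsPlace A 2) {n : ℤ} (hn : (2 : ℤ) ∣ n) : Gt A 2 (n : ℚbar) 0 :=
  (ge_intCast_of_dvd h (k := 1) (by simpa using hn)).gt (by norm_num)

/-- An even over an odd integer reduces to `0` at `2`. -/
lemma gt_intCast_div (h : IsPlace A 2) {n d : ℤ} (hn : (2 : ℤ) ∣ n) (hd : ¬ (2 : ℤ) ∣ d) :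
    Gt A 2 ((n : ℚbar) / (d : ℚbar)) 0 := by
  have := (gt_intCast_of_even h hn).div h (is_intCast h hd)
  rwa [sub_zero] at this

/-- `2`-integral rationals are `0` or `1` modulo `2`. -/
lemma parity (h : IsPlace A 2) {r : ℚ} (hr : Ge A 2 (r : ℚbar) 0) :
    Gt A 2 (r : ℚbar) 0 ∨ Gt A 2 ((r : ℚbar) - 1) 0 := by
  obtain ⟨n, d, hn, e, hd⟩ : ∃ n d : ℤ, d ≠ 0 ∧ (r : ℚbar) = (n : ℚbar) / (d : ℚbar) ∧
      ¬ ((2 : ℤ) ∣ n ∧ (2 : ℤ) ∣ d) := by
    refine ⟨r.num, r.den, by exact_mod_cast r.den_nz, ?_, fun hh => ?_⟩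
    · rw [Rat.cast_def, Int.cast_natCast]
    · have := Nat.dvd_gcd (Int.ofNat_dvd_left.mp hh.1) (Int.natCast_dvd_natCast.mp hh.2)
      rw [Nat.Coprime.gcd_eq_one r.reduced] at this
      exact absurd (Nat.le_of_dvd one_pos this) (by norm_num)
  rw [e] at hr ⊢
  clear e
  have hdK : (d : ℚbar) ≠ 0 := Int.cast_ne_zero.mpr hn
  have hdodd : ¬ (2 : ℤ) ∣ d := by
    intro h2
    have h1 : Gt A 2 (n : ℚbar) 0 := by
      have := (hr.mul h (ge_intCast_of_dvd h (k := 1) (by simpa using h2))).gt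
        (show (0 : ℚ) < 0 + ((1 : ℕ) : ℚ) by norm_num)
      rwa [div_mul_cancel₀ _ hdK] at this
    exact (is_intCast h fun h3 => hd ⟨h3, h2⟩).not_gt h1
  by_cases h2 : (2 : ℤ) ∣ n
  · exact Or.inl (gt_intCast_div h h2 hdodd)
  · right
    have h3 : (2 : ℤ) ∣ n - d := by omega
    have e2 : (n : ℚbar) / (d : ℚbar) - 1 = ((n - d : ℤ) : ℚbar) / (d : ℚbar) := by
      rw [Int.cast_sub, sub_div, div_self hdK]
    exact e2 ▸ gt_intCast_div h h3 hdodd

/-- The coordinates of a point fixed by Galois are rational. -/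
lemma exists_rat_coords {W : WeierstrassCurve ℤ} {x y : ℚbar}
    {hns : (overQbar W).Nonsingular x y}
    (hfix : ∀ σ : ℚbar ≃ₐ[ℚ] ℚbar, σ • Point.some x y hns = Point.some x y hns) :
    (∃ r : ℚ, (r : ℚbar) = x) ∧ ∃ r : ℚ, (r : ℚbar) = y := by
  have : ∀ σ : ℚbar ≃ₐ[ℚ] ℚbar, σ x = x ∧ σ y = y := fun σ => by
    obtain ⟨hns', e⟩ := smul_some W σ hns
    exact Point.some.inj ((e.symm.trans (hfix σ)))
  exact ⟨exists_rat_of_fixed fun σ => (this σ).1, exists_rat_of_fixed fun σ => (this σ).2⟩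

/-- `2` reduces to zero at `2`. -/
lemma gt_two (h : IsPlace A 2) : Gt A 2 (2 : ℚbar) 0 := by
  simpa using gt_intCast_of_even h (dvd_refl (2 : ℤ))

/-- A rational point of order `p ∤ ord₂ Δ` lies on the identity component at `2`. -/
lemma inE0_of_fixed_torsion {W : WeierstrassCurve ℤ} (h : IsPlace A 2) (hΔ : W.Δ ≠ 0)
    (hss : (2 : ℤ) ∣ W.Δ → ¬ (2 : ℤ) ∣ W.c₄) {p : ℕ} (hp : p.Prime) (hp5 : 5 ≤ p)
    (hm : ¬ p ∣ padicValInt 2 W.Δ) {P : (overQbar W).Point} (hP : p • P = 0) (hP0 : P ≠ 0)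
    (hfix : ∀ σ : ℚbar ≃ₐ[ℚ] ℚbar, σ • P = P) : InE0 A 2 P := by
  by_contra hn
  have hbad : (2 : ℤ) ∣ W.Δ := by
    by_contra hg
    exact hn (inE0_of_good W h (by exact_mod_cast hg) P)
  obtain ⟨C, r, t, rfl, hN⟩ := exists_nodal W h hΔ (by exact_mod_cast hbad)
    (by exact_mod_cast hss hbad)
  set C : VariableChange ℚbar := ⟨1, (r : ℚbar), 0, (t : ℚbar)⟩ with hC
  have hφP : p • pointHom C _ P = 0 := by rw [← map_nsmul, hP, map_zero]
  have hφn : ¬ InE0 A 2 (pointHom C _ P) := fun e => hn ((inE0_pointHom W h P).mp e)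
  obtain ⟨x₁, y₁, hns₁, s, e₁, hlow⟩ :=
    low_of_torsion h hN (hp.odd_of_ne_two (by omega)) hφP hφn
  rw [e₁] at hφP
  obtain ⟨j, hj⟩ := component h hN hp (by omega) hφP hlow
  rcases P with _ | ⟨x, y, hns⟩
  · exact hP0 rfl
  obtain ⟨⟨u, hu⟩, -⟩ := exists_rat_coords hfix
  rw [pointHom_some] at e₁
  obtain ⟨ex, -⟩ := Point.some.inj e₁
  -- `x - r` is rational, so its order is an integer
  obtain ⟨z, hz⟩ : ∃ z : ℤ, s = z := by
    refine ⟨padicValRat 2 (u - r), ?_⟩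
    have hx1 : ((u - r : ℚ) : ℚbar) = x₁ := by rw [← ex, ← hu]; simp [newX, hC]
    have hne : u - r ≠ 0 := fun e0 => hlow.2.2.1.1 (by rw [← hx1, e0, Rat.cast_zero])
    rw [← ord_ratCast (A := A) h hne, hx1, hlow.2.2.1.2]
  set m := padicValInt 2 W.Δ
  have hj' : (p : ℤ) * z = j * (m : ℤ) := by rw [hz] at hj; exact_mod_cast hj
  have hzpos : 0 < z := by
    have := hlow.1; rw [hz] at this; exact_mod_cast this
  have hzlt : 2 * z < (m : ℤ) := by
    have := hlow.2.1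
    rw [hz] at this
    have : (2 : ℚ) * z < m := by linarith
    exact_mod_cast this
  have hpm : ¬ (p : ℤ) ∣ (m : ℤ) := by exact_mod_cast hm
  obtain ⟨i, rfl⟩ : (p : ℤ) ∣ j := ((Nat.prime_iff_prime_int.mp hp).dvd_or_dvd
    ⟨z, hj'.symm⟩).resolve_right hpm
  rw [mul_assoc] at hj'
  have hz' := mul_left_cancel₀ (by exact_mod_cast hp.ne_zero) hj'
  rcases le_or_gt i 0 with hi | hi <;> nlinarith

/-- With `a₃, a₄, a₆` even a point with integral coordinates and `x ≡ 0` reduces to the singular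
point. -/
lemma singRed_of_gt_x {W : WeierstrassCurve ℤ} (h : IsPlace A 2) (h3 : (2 : ℤ) ∣ W.a₃)
    (h4 : (2 : ℤ) ∣ W.a₄) (h6 : (2 : ℤ) ∣ W.a₆) {x y : ℚbar}
    (he : (overQbar W).Equation x y) (hx : Ge A 2 x 0) (hy : Ge A 2 y 0) (g : Gt A 2 x 0) :
    SingRed A 2 (overQbar W) x y := by
  have hW := integralAt_overQbar W h
  have a3 : Gt A 2 ((overQbar W).a₃) 0 := by rw [overQbar_a₃]; exact gt_intCast_of_even h h3
  have a4 : Gt A 2 ((overQbar W).a₄) 0 := by rw [overQbar_a₄]; exact gt_intCast_of_even h h4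
  have a6 : Gt A 2 ((overQbar W).a₆) 0 := by rw [overQbar_a₆]; exact gt_intCast_of_even h h6
  have gy : Gt A 2 y 0 := by
    by_contra hc
    have hy2 := (hy.is_of_not_gt hc).pow h 2
    rw [mul_zero] at hy2
    refine hy2.not_gt ?_
    rw [equation_iff] at he
    have e : y ^ 2 = x * (x ^ 2 + (overQbar W).a₂ * x + (overQbar W).a₄
        - (overQbar W).a₁ * y) + ((overQbar W).a₆ - (overQbar W).a₃ * y) := by
      linear_combination he
    rw [e]
    have c : Ge A 2 (x ^ 2 + (overQbar W).a₂ * x + (overQbar W).a₄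
        - (overQbar W).a₁ * y) 0 :=
      ((((hx.pow h 2).mono (by simp)).add h ((hW.a₂.mul h hx).mono (by simp))).add h hW.a₄).sub h
        ((hW.a₁.mul h hy).mono (by simp))
    exact ((g.mul_ge h c).mono (by simp)).add h (a6.sub h ((a3.mul_ge h hy).mono (by simp)))
  -- so both partial derivatives vanish modulo `2`
  refine ⟨hx, ?_, ?_⟩
  · have e : dX (overQbar W) x y = (overQbar W).a₁ * y
        - ((3 * x + 2 * (overQbar W).a₂) * x + (overQbar W).a₄) := by simp only [dX]; ring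
    rw [e]
    have c1 : Ge A 2 (3 * x) 0 := by simpa using (ge_three h).mul h hx
    have c2 : Ge A 2 (2 * (overQbar W).a₂) 0 := by simpa using (ge_two h).mul h hW.a₂
    have c3 : Gt A 2 ((3 * x + 2 * (overQbar W).a₂) * x) 0 := by
      simpa using (c1.add h c2).mul_gt h g
    exact ((hW.a₁.mul_gt h gy).mono (by simp)).sub h (c3.add h a4)
  · simp only [dY]
    exact ((((ge_two h).mul_gt h gy).mono (by simp)).add h
      ((hW.a₁.mul_gt h g).mono (by simp))).add h a3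

/-- A nonzero rational `p`-torsion point on the identity component has `x ≡ 1` and `y ≡ 0, 1`
modulo `2`. -/
lemma residue_coords {W : WeierstrassCurve ℤ} (h : IsPlace A 2) (h3 : (2 : ℤ) ∣ W.a₃)
    (h4 : (2 : ℤ) ∣ W.a₄) (h6 : (2 : ℤ) ∣ W.a₆) {p : ℕ} (h2p : ¬ 2 ∣ p)
    {Q : (overQbar W).Point} (hQ : Q ≠ 0) (hQp : p • Q = 0) (hQ0 : InE0 A 2 Q)
    (hQf : ∀ σ : ℚbar ≃ₐ[ℚ] ℚbar, σ • Q = Q) :
    ∃ x y hns, Q = Point.some x y hns ∧
      Ge A 2 x 0 ∧ Gt A 2 (x - 1) 0 ∧ (Gt A 2 y 0 ∨ Gt A 2 (y - 1) 0) := by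
  have hW := integralAt_overQbar W h
  rcases Q with _ | ⟨x, y, hns⟩
  · exact absurd rfl hQ
  obtain ⟨⟨u, hu⟩, ⟨v, hv⟩⟩ := exists_rat_coords hQf
  have hx : Ge A 2 x 0 := by
    by_contra hx
    exact hQ (eq_zero_of_nsmul_eq_zero h hW (P := Point.some x y hns) hx h2p hQp)
  have hy := ge_y h hW hns.1 hx
  refine ⟨x, y, hns, rfl, hx, ?_, by rw [← hv]; exact parity h (hv ▸ hy)⟩
  rcases parity h (hu ▸ hx) with g | g
  · exact absurd (singRed_of_gt_x h h3 h4 h6 hns.1 hx hy (hu ▸ g)) hQ0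
  · rwa [hu] at g

/-- With `a₁` odd and `a₃` even negation shifts the residue of `y` by `1`. -/
lemma gt_negY_sub {W : WeierstrassCurve ℤ} (h : IsPlace A 2) (h1 : ¬ (2 : ℤ) ∣ W.a₁)
    (h3 : (2 : ℤ) ∣ W.a₃) {u v : ℚbar} (hu : Ge A 2 u 0) (hv : Ge A 2 v 0)
    (gu : Gt A 2 (u - 1) 0) : Gt A 2 ((overQbar W).negY u v - (v + 1)) 0 := by
  have a3 : Gt A 2 ((overQbar W).a₃) 0 := by rw [overQbar_a₃]; exact gt_intCast_of_even h h3
  have a1 : Gt A 2 ((overQbar W).a₁ - 1) 0 := by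
    rw [overQbar_a₁]
    simpa using gt_intCast_of_even (A := A) h (show (2 : ℤ) ∣ W.a₁ - 1 by omega)
  have e : (overQbar W).negY u v - (v + 1) = -((v + 1) * 2) - ((overQbar W).a₁ - 1) * u
      - (u - 1) - (overQbar W).a₃ := by simp only [negY]; ring
  rw [e]
  have one : Ge A 2 (1 : ℚbar) 0 := by simpa using ge_natCast (A := A) h 1
  exact ((((((hv.add h one).mul_gt h (gt_two h)).mono
    (by simp)).neg h).sub h ((a1.mul_ge h hu).mono (by simp))).sub h gu).sub h a3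

/-- With `a₁` odd, `a₃, a₄, a₆` even and `p ∤ ord₂ Δ`, there is no rational point of order `p`. -/
theorem no_rational_torsion (W : WeierstrassCurve ℤ) (hΔ : W.Δ ≠ 0)
    (hss : (2 : ℤ) ∣ W.Δ → ¬ (2 : ℤ) ∣ W.c₄)
    (h1 : ¬ (2 : ℤ) ∣ W.a₁) (h3 : (2 : ℤ) ∣ W.a₃) (h4 : (2 : ℤ) ∣ W.a₄) (h6 : (2 : ℤ) ∣ W.a₆)
    {p : ℕ} (hp : p.Prime) (hp5 : 5 ≤ p) (hm : ¬ p ∣ padicValInt 2 W.Δ)
    {P : (overQbar W).Point} (hP : p • P = 0)
    (hfix : ∀ σ : ℚbar ≃ₐ[ℚ] ℚbar, σ • P = P) : P = 0 := by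
  obtain ⟨A, hA⟩ := Fermat.CFT.exists_place Nat.prime_two
  have h : IsPlace A 2 := ⟨Nat.prime_two, hA⟩
  have hW := integralAt_overQbar W h
  by_contra hP0
  have h2p : ¬ 2 ∣ p := fun e => by
    have := (Nat.prime_dvd_prime_iff_eq Nat.prime_two hp).mp e; omega
  have hnz : ∀ k : ℕ, ¬ p ∣ k → k • P ≠ 0 := fun k hk e => by
    have a := addOrderOf_dvd_of_nsmul_eq_zero hP
    have b := addOrderOf_dvd_of_nsmul_eq_zero e
    rcases (Nat.dvd_prime hp).mp a with c | c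
    · exact hP0 (AddMonoid.addOrderOf_eq_one_iff.mp c)
    · exact hk (c ▸ b)
  have hE0 := inE0_of_fixed_torsion h hΔ hss hp hp5 hm hP hP0 hfix
  have hdesc : ∀ k : ℕ, ¬ p ∣ k → ∃ x y hns, k • P = Point.some x y hns ∧
      Ge A 2 x 0 ∧ Gt A 2 (x - 1) 0 ∧ (Gt A 2 y 0 ∨ Gt A 2 (y - 1) 0) := fun k hk =>
    residue_coords h h3 h4 h6 h2p (hnz k hk)
      (by rw [← mul_nsmul, mul_nsmul', hP, nsmul_zero]) (hE0.nsmul h hW k)
      fun σ => by rw [gal_smul_nsmul, hfix σ]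
  obtain ⟨x, y, hns, e1, hx, gx, gy⟩ :=
    hdesc 1 (fun e => by have := Nat.le_of_dvd one_pos e; omega)
  obtain ⟨x', y', hns', e2, hx', gx', gy'⟩ :=
    hdesc 2 (fun e => by have := Nat.le_of_dvd two_pos e; omega)
  rw [one_nsmul] at e1
  have hxn : Gt A 2 (x - x') 0 := by
    have := gx.sub h gx'
    rwa [sub_sub_sub_cancel_right] at this
  have hy' := ge_y h hW hns'.1 hx'
  have hns0 : ¬ SingRed A 2 (overQbar W) x y := by
    have := hE0; rwa [e1] at this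
  -- the points `±P`, `±2P` share one of two residues
  by_cases hc : Gt A 2 (y - y') 0
  · -- `P` and `-2P` are opposite modulo `2`
    have hE1 := inE1_add_of_opposite h hW hns ((nonsingular_neg x' y').mpr hns') hx hx' hxn
      (by rwa [negY_negY]) hns0
    rw [← Point.neg_some hns', ← e2, ← e1, two_nsmul, neg_add_rev, ← add_assoc,
      add_neg_cancel, zero_add] at hE1
    exact hP0 (neg_eq_zero.mp (eq_zero_of_nsmul_eq_zero h hW hE1 h2p
      (by rw [neg_nsmul, hP, neg_zero])))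
  · have hyy : Gt A 2 (y - (y' + 1)) 0 := by
      rcases gy with a | a <;> rcases gy' with b | b
      · exact absurd (a.sub h b) hc
      · have := (a.sub h b).sub h (gt_two h)
        convert this using 1; ring
      · have := a.sub h b
        convert this using 1; ring
      · exact absurd (by simpa using a.sub h b) hc
    have hE1 := inE1_add_of_opposite h hW hns hns' hx hx' hxn
      (by
        have := hyy.sub h (gt_negY_sub h h1 h3 hx' hy' gx')
        rwa [sub_sub_sub_cancel_right] at this) hns0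
    rw [← e2, ← e1] at hE1
    nth_rewrite 1 [← one_nsmul P] at hE1
    rw [← add_nsmul] at hE1
    exact hnz 3 (fun e => by have := Nat.le_of_dvd (by norm_num) e; omega)
      (eq_zero_of_nsmul_eq_zero h hW hE1 h2p (by rw [← mul_nsmul, mul_nsmul', hP, nsmul_zero]))

/-- The Frey curve has no rational point of order `p`. -/
theorem frey_no_rational_torsion (P : FreyPackage) {Q : (overQbar P.freyCurveInt).Point}
    (hQ : P.p • Q = 0) (hfix : ∀ σ : ℚbar ≃ₐ[ℚ] ℚbar, σ • Q = Q) : Q = 0 := by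
  refine no_rational_torsion P.freyCurveInt (Frey.Δ_ne_zero P)
    (by exact_mod_cast Frey.semistable P Nat.prime_two) ?_ ?_ ?_ ?_ P.pp P.hp5
    (Frey.not_dvd_padicValInt_Δ_two P).2 hQ hfix
  · change ¬ (2 : ℤ) ∣ 1
    norm_num
  · exact dvd_zero 2
  · change (2 : ℤ) ∣ -(P.a ^ P.p) * (P.b ^ P.p) / 16
    obtain ⟨c, hc⟩ := Frey.thirtytwo_dvd_bp P
    rw [hc, show -(P.a ^ P.p) * (32 * c) = 16 * (2 * (-(P.a ^ P.p) * c)) by ring,
      Int.mul_ediv_cancel_left _ (by norm_num : (16 : ℤ) ≠ 0)]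
    exact dvd_mul_right 2 _
  · exact dvd_zero 2

end Fermat.EC.AtTwo
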