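import Fermat.Agent.EC.Ord

/-!
# Inertia and the order at a place

`IsInert` automorphisms preserve the bounds of `Ord` and fix leading terms; used in `Cyclo`,
`Semistable` and `FLAT`.
-/

set_option autoImplicit false

open scoped Pointwise

namespace Fermat.EC.Val

variable {K L : Type*} [Field K] [Field L] [Algebra K L] {A : ValuationSubring L}

/-- `σ` fixes `A` and acts trivially on its residue field. -/
def IsInert (A : ValuationSubring L) (σ : L ≃ₐ[K] L) : Prop :=
  (∀ x : L, σ x ∈ A ↔ x ∈ A) ∧ ∀ x : L, x ∈ A → σ x - x ∈ A.nonunits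

/-- Members of the inertia subgroup are inert. -/
lemma isInert_of_mem_inertia {σ : L ≃ₐ[K] L} (h : σ ∈ A.inertiaSubgroupIn K) : IsInert A σ := by
  obtain ⟨τ, hτ, rfl⟩ := h
  have hτA : (τ : L ≃ₐ[K] L) • A = A := τ.2
  have hmem : ∀ x : L, (τ : L ≃ₐ[K] L) x ∈ A ↔ x ∈ A := by
    intro x
    have := ValuationSubring.smul_mem_pointwise_smul_iff (g := (τ : L ≃ₐ[K] L)) (S := A) (x := x)
    rw [hτA] at this
    exact this
  refine ⟨hmem, fun x hx => ?_⟩
  have h1 := DFunLike.congr_fun (MonoidHom.mem_ker.mp hτ) (IsLocalRing.residue A ⟨x, hx⟩)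
  have h2 : IsLocalRing.residue A (τ • (⟨x, hx⟩ : A)) = IsLocalRing.residue A ⟨x, hx⟩ := h1
  have h2' : τ • (⟨x, hx⟩ : A) - ⟨x, hx⟩ ∈ IsLocalRing.maximalIdeal A :=
    Ideal.Quotient.eq.mp h2
  have h3 := A.coe_mem_nonunits_iff.mpr h2'
  exact h3

variable [CharZero L] {q : ℕ} [Algebra.IsAlgebraic ℚ L]

/-- An element of inertia preserves orders. -/
lemma IsInert.ord_apply (h : IsPlace A q) {σ : L ≃ₐ[K] L} (hσ : IsInert A σ) (x : L) :
    ord A q (σ x) = ord A q x := by
  rcases eq_or_ne x 0 with rfl | hx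
  · simp
  obtain ⟨e, f, he, hef, hox⟩ := ord_spec h hx
  rw [hox]
  apply ord_of_pow_eq h (by simpa using hx) he
  have h1 : x ^ e / (q : L) ^ f ∈ A := by
    rw [← A.valuation_le_one_iff, map_div₀, map_pow, map_zpow₀, hef,
      div_self (zpow_ne_zero _ h.v_q_pos.ne')]
  have h2 : (q : L) ^ f / x ^ e ∈ A := by
    rw [← A.valuation_le_one_iff, map_div₀, map_pow, map_zpow₀, hef,
      div_self (zpow_ne_zero _ h.v_q_pos.ne')]
  rw [← hσ.1, map_div₀, map_zpow₀, map_pow, map_natCast, ← A.valuation_le_one_iff, map_div₀,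
    map_pow, map_zpow₀] at h1 h2
  have h2' := (div_le_one₀ (pow_pos (zero_lt_iff.mpr (by simpa using hx)) e)).mp h2
  exact le_antisymm ((div_le_one₀ (zpow_pos h.v_q_pos f)).mp h1) h2'

/-- Inertia preserves exact orders. -/
lemma IsInert.is_apply (h : IsPlace A q) {σ : L ≃ₐ[K] L} (hσ : IsInert A σ) {x : L} {r : ℚ}
    (hx : Is A q x r) : Is A q (σ x) r :=
  ⟨by simpa using hx.1, (hσ.ord_apply h x).trans hx.2⟩

/-- Inertia preserves lower bounds on orders. -/
lemma IsInert.ge_apply (h : IsPlace A q) {σ : L ≃ₐ[K] L} (hσ : IsInert A σ) {x : L} {r : ℚ}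
    (hx : Ge A q x r) : Ge A q (σ x) r := by
  simpa [Ge, hσ.ord_apply h x] using hx

/-- Inertia preserves strict bounds on orders. -/
lemma IsInert.gt_apply (h : IsPlace A q) {σ : L ≃ₐ[K] L} (hσ : IsInert A σ) {x : L} {r : ℚ}
    (hx : Gt A q x r) : Gt A q (σ x) r := by
  simpa [Gt, hσ.ord_apply h x] using hx

/-- Inertia moves integral elements within the maximal ideal. -/
lemma IsInert.gt_sub (h : IsPlace A q) {σ : L ≃ₐ[K] L} (hσ : IsInert A σ) {x : L}
    (hx : Ge A q x 0) : Gt A q (σ x - x) 0 :=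
  (nonunit_iff_gt h _).mp (hσ.2 x ((mem_iff_ge h _).mpr hx))

/-- An element of integral order does not move, to leading order, under inertia. -/
lemma IsInert.gt_sub_of_int (h : IsPlace A q) {σ : L ≃ₐ[K] L} (hσ : IsInert A σ) {x : L} {k : ℤ}
    (hx : Ge A q x k) : Gt A q (σ x - x) k := by
  have hq : Is A q (q : L) 1 := ⟨by simp [h.1.ne_zero], ord_q h⟩
  have hqk : Is A q ((q : L) ^ k) k := ⟨zpow_ne_zero _ hq.1, by rw [ord_zpow h, hq.2, mul_one]⟩
  have h1 : Ge A q (x / (q : L) ^ k) 0 := by simpa using hx.div h hqk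
  have h2 := (hσ.gt_sub h h1).mul_ge h hqk.ge
  rw [map_div₀, map_zpow₀, map_natCast, zero_add] at h2
  have e : σ x - x = (σ x / (q : L) ^ k - x / (q : L) ^ k) * (q : L) ^ k := by
    field_simp [hqk.1]
  rwa [e]

end Fermat.EC.Val
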