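import Fermat.Agent.EC.Cofixed
import Fermat.Prelude.Def_FLTPrelim_ModularRep

/-!
# Rational parameters of Galois stable lines of order `3` and `5`

`exists_t` and `exists_s`; `X015` shows that the two parameters cannot coexist for a semistable
model, whence S51.
-/

set_option autoImplicit false

open Polynomial WeierstrassCurve WeierstrassCurve.Affine Fermat.EC.Line
open scoped WeierstrassCurve.Affine

namespace Fermat.EC.Level

local notation "ℚbar" => AlgebraicClosure ℚ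

section algebra

variable {K : Type*} [Field K] (W : Affine K)

/-- `b₂` after moving the origin to abscissa `x`. -/
def B₂ (x : K) : K := W.b₂ + 12 * x
/-- `b₄` after moving the origin to abscissa `x`. -/
def B₄ (x : K) : K := 6 * x ^ 2 + W.b₂ * x + W.b₄

/-- Identities between `c₄`, `Δ`, the division polynomials and the invariants shifted to `x`. -/
lemma shift_facts (x : K) :
    B₂ W x * quadF W x - B₄ W x ^ 2 = 4 * (WeierstrassCurve.Ψ₃ W).eval x ∧
    W.c₄ = B₂ W x ^ 2 - 24 * B₄ W x ∧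
    W.Δ = -(B₂ W x ^ 2) * (WeierstrassCurve.Ψ₃ W).eval x - 8 * B₄ W x ^ 3
      - 27 * quadF W x ^ 2 + 9 * B₂ W x * B₄ W x * quadF W x ∧
    (WeierstrassCurve.preΨ₄ W).eval x =
      B₄ W x * (WeierstrassCurve.Ψ₃ W).eval x - quadF W x ^ 2 ∧
    (∀ d : K, quadF W (x + d) = 4 * d ^ 3 + B₂ W x * d ^ 2 + 2 * B₄ W x * d + quadF W x ∧
      (WeierstrassCurve.Ψ₃ W).eval (x + d) = 3 * d ^ 4 + B₂ W x * d ^ 3 + 3 * B₄ W x * d ^ 2
        + 3 * quadF W x * d + (WeierstrassCurve.Ψ₃ W).eval x) := by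
  have hb := W.b_relation
  simp only [B₂, B₄, quadF, WeierstrassCurve.Ψ₃, WeierstrassCurve.preΨ₄, eval_add, eval_mul,
    eval_pow, eval_ofNat, eval_X, eval_C]
  refine ⟨by linear_combination -hb, by rw [c₄]; ring, ?_, ?_, fun d => ⟨by ring, by ring⟩⟩
  · rw [WeierstrassCurve.Δ]
    linear_combination (6 * W.b₂ * x + 36 * x ^ 2) * hb
  · linear_combination x ^ 2 * hb

/-- A root of `ψ₃`: `27 (t+1) (t+9)³ Δ = t³ c₄³`. -/
theorem three (x : K) (h3 : (WeierstrassCurve.Ψ₃ W).eval x = 0)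
    (hΔ : W.Δ ≠ 0) :
    let t := 27 * quadF W x ^ 2 / W.Δ
    27 * (t + 1) * (t + 9) ^ 3 * W.Δ = t ^ 3 * W.c₄ ^ 3 := by
  obtain ⟨e1, ec, ed, -, -⟩ := shift_facts W x
  intro t
  have ht : t * W.Δ = 27 * quadF W x ^ 2 := div_mul_cancel₀ _ hΔ
  clear_value t
  rw [h3, mul_zero] at e1
  rw [h3, mul_zero, zero_sub] at ed
  set F := quadF W x
  set G := B₄ W x
  have hG : B₂ W x * F = G ^ 2 := sub_eq_zero.mp e1
  have ed' : W.Δ = G ^ 3 - 27 * F ^ 2 := by linear_combination ed + 9 * G * hG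
  have ec' : W.c₄ * F ^ 2 = G * (G ^ 3 - 24 * F ^ 2) := by
    linear_combination F ^ 2 * ec + (B₂ W x * F + G ^ 2) * hG
  have h1 : (t + 1) * W.Δ = G ^ 3 := by linear_combination ht + ed'
  have h9 : (t + 9) * W.Δ = 9 * (G ^ 3 - 24 * F ^ 2) := by linear_combination ht + 9 * ed'
  apply mul_left_cancel₀ (pow_ne_zero 3 hΔ)
  calc W.Δ ^ 3 * (27 * (t + 1) * (t + 9) ^ 3 * W.Δ)
      = 27 * ((t + 1) * W.Δ) * ((t + 9) * W.Δ) ^ 3 := by ring
    _ = 27 ^ 3 * (W.c₄ * F ^ 2) ^ 3 := by rw [h1, h9, ec']; ring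
    _ = (t * W.Δ) ^ 3 * W.c₄ ^ 3 := by rw [ht]; ring
    _ = W.Δ ^ 3 * (t ^ 3 * W.c₄ ^ 3) := by ring

/-- The function `b` of the Tate normal form. -/
noncomputable def bfun (x : K) : K :=
  (-(WeierstrassCurve.Ψ₃ W).eval x / quadF W x) ^ 3 / quadF W x

/-- A root of `ψ₅`: the parameter `b`, and its behaviour under doubling. -/
theorem five (x : K) (h5 : (WeierstrassCurve.preΨ₄ W).eval x * quadF W x ^ 2
      - (WeierstrassCurve.Ψ₃ W).eval x ^ 3 = 0) (hF : quadF W x ≠ 0) :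
    bfun W x ≠ 0 ∧
    bfun W (x + -(WeierstrassCurve.Ψ₃ W).eval x / quadF W x) = -1 / bfun W x ∧
    W.Δ = quadF W x ^ 2 * bfun W x ^ 2 * (bfun W x - (bfun W x)⁻¹ - 11) ∧
    W.c₄ ^ 3 * (bfun W x - (bfun W x)⁻¹ - 11) = W.Δ *
      ((bfun W x - (bfun W x)⁻¹ - 11) ^ 2 + 10 * (bfun W x - (bfun W x)⁻¹ - 11) + 5) ^ 3 := by
  obtain ⟨e1, ec, ed, e4, esh⟩ := shift_facts W x
  obtain ⟨hFd, h3d⟩ := esh (-(WeierstrassCurve.Ψ₃ W).eval x / quadF W x)
  rw [e4] at h5
  set F := quadF W x with hFdef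
  set T := (WeierstrassCurve.Ψ₃ W).eval x
  set G := B₄ W x
  set B := B₂ W x
  set d := -T / F with hd
  have hT : T = -(d * F) := by rw [hd, div_mul_cancel₀ _ hF, neg_neg]
  clear_value d
  have hd0 : d ≠ 0 := by
    intro e
    apply hF
    rw [e, zero_mul, neg_zero] at hT
    rw [hT] at h5
    exact pow_eq_zero_iff (two_ne_zero) |>.mp
      (pow_eq_zero_iff two_ne_zero |>.mp (by linear_combination -h5 : (F ^ 2) ^ 2 = 0))
  have hGd : G * d = d ^ 3 - F := by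
    apply mul_left_cancel₀ (pow_ne_zero 3 hF)
    rw [hT] at h5
    linear_combination -h5
  have hB : B * F = G ^ 2 - 4 * d * F := by rw [hT] at e1; linear_combination e1
  have hb : bfun W x = d ^ 3 / F := by
    rw [bfun, ← hFdef, show -(WeierstrassCurve.Ψ₃ W).eval x / F = d by
      rw [show (WeierstrassCurve.Ψ₃ W).eval x = T from rfl, hT, neg_neg,
        mul_div_cancel_right₀ _ hF]]
  have hF2 : quadF W (x + d) = d ^ 6 / F := by
    rw [hFd, eq_div_iff hF]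
    linear_combination d ^ 2 * hB + (G * d + d ^ 3 + F) * hGd
  have hT2 : (WeierstrassCurve.Ψ₃ W).eval (x + d) = d ^ 7 / F := by
    rw [h3d, eq_div_iff hF, hT]
    linear_combination d ^ 3 * hB + d * (G * d + d ^ 3 + 2 * F) * hGd
  -- express everything in `d` and `F`
  have ec' : W.c₄ * (d ^ 4 * F ^ 2) =
      d ^ 12 - 12 * d ^ 9 * F + 14 * d ^ 6 * F ^ 2 + 12 * d ^ 3 * F ^ 3 + F ^ 4 := by
    rw [ec]
    linear_combination d ^ 4 * (B * F + G ^ 2 - 4 * d * F) * hB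
      + ((G * d + d ^ 3 - F) * ((G * d) ^ 2 + (d ^ 3 - F) ^ 2)
        - 8 * d ^ 3 * F * (G * d + d ^ 3 - F) - 24 * d ^ 3 * F ^ 2) * hGd
  have ed' : W.Δ * F = d ^ 3 * (d ^ 6 - 11 * d ^ 3 * F - F ^ 2) := by
    have : W.Δ * F * d ^ 3 = d ^ 6 * (d ^ 6 - 11 * d ^ 3 * F - F ^ 2) := by
      rw [ed, hT]
      linear_combination (d ^ 4 * (B * F + G ^ 2 - 4 * d * F) + 9 * d ^ 3 * G * F) * hB
        + ((G * d + d ^ 3 - F) * ((G * d) ^ 2 + (d ^ 3 - F) ^ 2)
          - 8 * d ^ 3 * F * (G * d + d ^ 3 - F)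
          + F * ((G * d) ^ 2 + (G * d) * (d ^ 3 - F) + (d ^ 3 - F) ^ 2)
          - 36 * d ^ 3 * F ^ 2) * hGd
    exact mul_right_cancel₀ (pow_ne_zero 3 hd0) (this.trans (by ring))
  refine ⟨by rw [hb]; exact div_ne_zero (pow_ne_zero 3 hd0) hF, ?_, ?_, ?_⟩
  · rw [hb, bfun, hF2, hT2]
    field_simp
  · rw [hb]
    field_simp
    linear_combination ed'
  · rw [hb]
    have ec3 : W.c₄ ^ 3 * (d ^ 4 * F ^ 2) ^ 3 =
        (d ^ 12 - 12 * d ^ 9 * F + 14 * d ^ 6 * F ^ 2 + 12 * d ^ 3 * F ^ 3 + F ^ 4) ^ 3 := by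
      rw [← mul_pow, ec']
    field_simp
    apply mul_left_cancel₀ hF
    linear_combination (d ^ 3 * (d ^ 6 - 11 * d ^ 3 * F - F ^ 2)) * ec3
      - (d ^ 12 - 12 * d ^ 9 * F + 14 * d ^ 6 * F ^ 2 + 12 * d ^ 3 * F ^ 3 + F ^ 4) ^ 3 * ed'

end algebra

/-- The elements of `ZMod 5`. -/
lemma zmod_five_cases : ∀ u : ZMod 5, u = 0 ∨ u = 1 ∨ u = 2 ∨ u = 3 ∨ u = 4 := by decide

/-- Galois commutes with `ψ₃` and `ψ₂²`. -/
lemma smul_eval₃ (W : WeierstrassCurve ℤ) (σ : ℚbar ≃ₐ[ℚ] ℚbar) (x : ℚbar) :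
    σ ((WeierstrassCurve.Ψ₃ (overQbar W)).eval x) =
      (WeierstrassCurve.Ψ₃ (overQbar W)).eval (σ x) ∧
    σ (quadF (overQbar W) x) = quadF (overQbar W) (σ x) := by
  constructor <;>
    simp [WeierstrassCurve.Ψ₃, quadF, overQbar, WeierstrassCurve.baseChange, map_b₂, map_b₄,
      map_b₆, map_b₈, map_add, map_mul, map_pow, map_ofNat]

/-- A stable line of order `3` gives a rational root of `Ψ₃`, as `σ P = ±P`. -/
theorem exists_rat_root_Ψ₃ (W : WeierstrassCurve ℤ) (hΔ : W.Δ ≠ 0)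
    (hred : ¬ W.ModRepIsIrreducible 3) :
    ∃ r : ℚ, (WeierstrassCurve.Ψ₃ (overQbar W)).IsRoot (r : ℚbar) := by
  obtain ⟨-, P₀, -, -, -, hP, hP0, -, hstab⟩ := exists_stable_point W hΔ Nat.prime_three hred
  rcases P₀ with _ | ⟨x, y, hns⟩
  · exact absurd rfl hP0
  have hr := root_of_torsion (W := W) Nat.prime_three (by norm_num) hP hP0
  rw [← preΨ'_overQbar, preΨ'_three] at hr
  have hfix : ∀ σ : ℚbar ≃ₐ[ℚ] ℚbar, σ x = x := by
    intro σ
    obtain ⟨k, hk⟩ := hstab σ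
    rw [← Cyclo.natCast_val_nsmul hP k] at hk
    obtain ⟨hns', e⟩ := smul_some W σ hns
    rw [e] at hk
    have : (k : ZMod 3) = 0 ∨ (k : ZMod 3) = 1 ∨ (k : ZMod 3) = 2 := by
      exact (by decide : ∀ u : ZMod 3, u = 0 ∨ u = 1 ∨ u = 2) _
    rcases this with h | h | h <;> rw [h] at hk
    · rw [ZMod.val_zero, zero_nsmul] at hk
      exact absurd hk (Point.some_ne_zero hns')
    · rw [ZMod.val_one, one_nsmul] at hk
      exact (Point.some.inj hk).1
    · rw [show (2 : ZMod 3).val = 2 from rfl,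
        eq_neg_of_add_eq_zero_left (show 2 • Point.some x y hns + Point.some x y hns = 0 by
          rw [← succ_nsmul]; exact hP), Point.neg_some] at hk
      exact (Point.some.inj hk).1
  obtain ⟨r, hr'⟩ := exists_rat_of_fixed hfix
  exact ⟨r, by rw [hr']; exact hr⟩

/-- A stable line of order `3` gives a rational parameter `t`. -/
theorem exists_t (W : WeierstrassCurve ℤ) (hΔ : W.Δ ≠ 0)
    (hred : ¬ W.ModRepIsIrreducible 3) :
    ∃ t : ℚ, t ≠ 0 ∧ 27 * (t + 1) * (t + 9) ^ 3 * (W.Δ : ℚ) = t ^ 3 * (W.c₄ : ℚ) ^ 3 := by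
  obtain ⟨r, hr⟩ := exists_rat_root_Ψ₃ W hΔ hred
  set x : ℚbar := (r : ℚbar) with hx
  have hF : quadF (overQbar W) x ≠ 0 := by
    intro hF
    have := Ψ₃_ne_zero_of_Ψ₂Sq_eq_zero (W := overQbar W) (Δ_overQbar_ne hΔ) (x := x)
      (by rw [← quadF_eq_eval]; exact hF)
    exact this hr
  -- the parameter is fixed by Galois as `x` is
  have h := three (overQbar W) x hr (Δ_overQbar_ne hΔ)
  have et : ∀ σ : ℚbar ≃ₐ[ℚ] ℚbar,
      σ (27 * quadF (overQbar W) x ^ 2 / (overQbar W).Δ) =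
        27 * quadF (overQbar W) x ^ 2 / (overQbar W).Δ := fun σ => by
    rw [map_div₀, map_mul, map_pow, (smul_eval₃ W σ x).2, hx, map_ratCast, map_ofNat, overQbar_Δ,
      map_intCast]
  obtain ⟨t, ht⟩ := exists_rat_of_fixed et
  simp only [← ht] at h
  refine ⟨t, fun e => ?_, ?_⟩
  · rw [e, Rat.cast_zero, eq_comm, div_eq_zero_iff] at ht
    exact ht.elim (mul_ne_zero (by norm_num) (pow_ne_zero 2 hF)) (Δ_overQbar_ne hΔ)
  · apply Rat.cast_injective (α := ℚbar)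
    push_cast
    have e4 : (overQbar W).c₄ = (W.c₄ : ℚbar) := by
      simp [overQbar, WeierstrassCurve.baseChange, map_c₄]
    rw [overQbar_Δ, e4] at h
    exact h

/-- A stable line of order `5` gives a rational parameter `s`. -/
theorem exists_s (W : WeierstrassCurve ℤ) (hΔ : W.Δ ≠ 0)
    (hred : ¬ W.ModRepIsIrreducible 5) :
    ∃ s : ℚ, s ≠ 0 ∧ (W.c₄ : ℚ) ^ 3 * s = (W.Δ : ℚ) * (s ^ 2 + 10 * s + 5) ^ 3 := by
  have := Fact.mk Nat.prime_five
  obtain ⟨-, P₀, -, -, -, hP, hP0, -, hstab⟩ := exists_stable_point W hΔ Nat.prime_five hred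
  rcases P₀ with _ | ⟨x, y, hns⟩
  · exact absurd rfl hP0
  have hr := root_of_torsion (W := W) Nat.prime_five (by norm_num) hP hP0
  rw [← preΨ'_overQbar, IsRoot.def] at hr
  have h5 : (WeierstrassCurve.preΨ₄ (overQbar W)).eval x * quadF (overQbar W) x ^ 2
      - (WeierstrassCurve.Ψ₃ (overQbar W)).eval x ^ 3 = 0 := by
    have e : (overQbar W).preΨ' 5 = (overQbar W).preΨ₄ * (overQbar W).Ψ₂Sq ^ 2
        - (overQbar W).Ψ₃ ^ 3 := by
      have := (overQbar W).preΨ'_odd 0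
      simpa using this
    rw [quadF_eq_eval]
    change (WeierstrassCurve.preΨ₄ (overQbar W)).eval x * _ - _ = 0
    have hr' : ((overQbar W).preΨ' 5).eval x = 0 := hr
    rw [e, eval_sub, eval_mul, eval_pow, eval_pow] at hr'
    exact hr'
  have hy : psiY (overQbar W) x y ≠ 0 := by
    intro e
    rw [psiY_eq_sub_negY, sub_eq_zero] at e
    exact nsmul_ne_zero_of_lt Nat.prime_five hP hP0 two_pos (by norm_num) (by
      rw [two_nsmul, Point.add_self_of_Y_eq e])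
  have hF : quadF (overQbar W) x ≠ 0 := by
    rw [← psiY_sq _ hns.1]; exact pow_ne_zero 2 hy
  obtain ⟨hb0, hb2, hΔe, hj⟩ := five (overQbar W) x h5 hF
  set d := -(WeierstrassCurve.Ψ₃ (overQbar W)).eval x / quadF (overQbar W) x with hd
  have hxd : x + d = (overQbar W).addX x x ((overQbar W).slope x x y y) := by
    have h1 := addX_double (W := overQbar W) hns.1 hy
    have h2 : dblNum (overQbar W) x = x * quadF (overQbar W) x -
        (WeierstrassCurve.Ψ₃ (overQbar W)).eval x := by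
      simp only [dblNum, quadF, WeierstrassCurve.Ψ₃, eval_add, eval_mul, eval_pow, eval_ofNat,
        eval_X, eval_C]
      ring
    apply mul_right_cancel₀ hF
    rw [h1, h2, hd, add_mul, div_mul_cancel₀ _ hF]
    ring
  obtain ⟨y2, hns2, h2P⟩ : ∃ y2 hns2, 2 • Point.some x y hns =
      Point.some (x + d) y2 hns2 := by
    have hne : y ≠ (overQbar W).negY x y := fun e => hy (by rw [psiY_eq_sub_negY, ← e, sub_self])
    rw [two_nsmul, Point.add_self_of_Y_ne hne, hxd]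
    exact ⟨_, _, rfl⟩
  set u := bfun (overQbar W) x - (bfun (overQbar W) x)⁻¹ - 11 with hu
  have hbσ : ∀ σ : ℚbar ≃ₐ[ℚ] ℚbar,
      σ (bfun (overQbar W) x) = bfun (overQbar W) (σ x) := fun σ => by
    rw [bfun, bfun, map_div₀, map_pow, map_div₀, map_neg, (smul_eval₃ W σ x).1,
      (smul_eval₃ W σ x).2]
  -- conjugation sends `x` to `x` or to `x(2P)`, which fixes `b - 1/b`
  have hfix : ∀ σ : ℚbar ≃ₐ[ℚ] ℚbar, σ u = u := by
    intro σ
    rw [hu, map_sub, map_sub, map_inv₀, map_ofNat, hbσ]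
    obtain ⟨k, hk⟩ := hstab σ
    rw [← Cyclo.natCast_val_nsmul hP k] at hk
    obtain ⟨hns', e⟩ := smul_some W σ hns
    rw [e] at hk
    have h5P : ∀ a b : ℕ, a + b = 5 → a • Point.some x y hns = -(b • Point.some x y hns) :=
      fun a b hab => eq_neg_of_add_eq_zero_left (by rw [← add_nsmul, hab]; exact hP)
    have : σ x = x ∨ σ x = x + d := by
      rcases zmod_five_cases (k : ZMod 5) with h | h | h | h | h <;> rw [h] at hk
      · rw [ZMod.val_zero, zero_nsmul] at hk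
        exact absurd hk (Point.some_ne_zero hns')
      · rw [ZMod.val_one, one_nsmul] at hk
        exact Or.inl (Point.some.inj hk).1
      · rw [show (2 : ZMod 5).val = 2 from rfl, h2P] at hk
        exact Or.inr (Point.some.inj hk).1
      · rw [show (3 : ZMod 5).val = 3 from rfl, h5P 3 2 rfl, h2P, Point.neg_some] at hk
        exact Or.inr (Point.some.inj hk).1
      · rw [show (4 : ZMod 5).val = 4 from rfl, h5P 4 1 rfl, one_nsmul, Point.neg_some] at hk
        exact Or.inl (Point.some.inj hk).1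
    rcases this with h | h
    · rw [h]
    · rw [h, hb2, inv_div, div_neg, div_one, neg_div, one_div]
      ring
  obtain ⟨r, hr⟩ := exists_rat_of_fixed hfix
  refine ⟨r, fun e => ?_, ?_⟩
  · rw [e, Rat.cast_zero] at hr
    rw [← hr, mul_zero] at hΔe
    exact Δ_overQbar_ne hΔ hΔe
  · apply Rat.cast_injective (α := ℚbar)
    push_cast
    have e4 : (overQbar W).c₄ = (W.c₄ : ℚbar) := by
      simp [overQbar, WeierstrassCurve.baseChange, map_c₄]
    rw [← hr, overQbar_Δ, e4] at hj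
    exact hj

end Fermat.EC.Level
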