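import Mathlib.AlgebraicGeometry.EllipticCurve.Affine.Point
import Mathlib.AlgebraicGeometry.EllipticCurve.DivisionPolynomial.Basic
import Mathlib.Tactic.LinearCombination
import Mathlib.Tactic.FieldSimp

/-!
# Two-point identities for the x-coordinates on a Weierstrass curve

They are `sub_addX_double` and `addX_negY_sub_addX`.
-/

set_option autoImplicit false

open WeierstrassCurve WeierstrassCurve.Affine

namespace Fermat.EC

variable {K : Type*} [Field K] (W : Affine K)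

/-- `ψ₂` at a point: `2y + a₁x + a₃`. -/
def psiY (x y : K) : K := 2 * y + W.a₁ * x + W.a₃

/-- `4x³ + b₂x² + 2b₄x + b₆`. -/
def quadF (x : K) : K := 4 * x ^ 3 + W.b₂ * x ^ 2 + 2 * W.b₄ * x + W.b₆

/-- Numerator of `x(P+Q) + x(P-Q)`. -/
def sumNum (u v : K) : K := 2 * (u * v) * (u + v) + W.b₂ * (u * v) + W.b₄ * (u + v) + W.b₆

/-- Numerator of `x(P+Q) x(P-Q)`. -/
def prodNum (u v : K) : K := (u * v) ^ 2 - W.b₄ * (u * v) - W.b₆ * (u + v) - W.b₈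

/-- Numerator of `x(2P)`. -/
def dblNum (x : K) : K := x ^ 4 - W.b₄ * x ^ 2 - 2 * W.b₆ * x - W.b₈

/-- `ψ₂ = y - (-y - a₁x - a₃)`. -/
lemma psiY_eq_sub_negY (x y : K) : psiY W x y = y - W.negY x y := by
  simp only [psiY, negY]; ring

/-- `ψ₂² = quadF` on the curve. -/
lemma psiY_sq {x y : K} (h : W.Equation x y) : psiY W x y ^ 2 = quadF W x := by
  rw [equation_iff] at h
  simp only [psiY, quadF, b₂, b₄, b₆]
  linear_combination 4 * h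

/-- `quadF` is the polynomial `Ψ₂Sq`. -/
lemma quadF_eq_eval (x : K) : quadF W x = (WeierstrassCurve.Ψ₂Sq W).eval x := by
  simp [quadF, WeierstrassCurve.Ψ₂Sq]

variable {W} [DecidableEq K]

/-- The sum of the `x`-coordinates of the sum and the difference of two points. -/
lemma addX_sum {x₁ x₂ y₁ y₂ : K} (h₁ : W.Equation x₁ y₁) (h₂ : W.Equation x₂ y₂)
    (hx : x₁ ≠ x₂) :
    (W.addX x₁ x₂ (W.slope x₁ x₂ y₁ y₂) + W.addX x₁ x₂ (W.slope x₁ x₂ y₁ (W.negY x₂ y₂)))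
      * (x₁ - x₂) ^ 2 = sumNum W x₁ x₂ := by
  rw [slope_of_X_ne hx, slope_of_X_ne hx]
  have hd : x₁ - x₂ ≠ 0 := sub_ne_zero.mpr hx
  rw [equation_iff] at h₁ h₂
  simp only [addX, negY, sumNum, b₂, b₄, b₆]
  field_simp
  linear_combination 2 * h₁ + 2 * h₂

/-- The product of the `x`-coordinates of the sum and the difference of two points. -/
lemma addX_prod [CharZero K] {x₁ x₂ y₁ y₂ : K} (h₁ : W.Equation x₁ y₁) (h₂ : W.Equation x₂ y₂)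
    (hx : x₁ ≠ x₂) :
    W.addX x₁ x₂ (W.slope x₁ x₂ y₁ y₂) * W.addX x₁ x₂ (W.slope x₁ x₂ y₁ (W.negY x₂ y₂))
      * (x₁ - x₂) ^ 2 = prodNum W x₁ x₂ := by
  set A := W.addX x₁ x₂ (W.slope x₁ x₂ y₁ y₂) with hA
  set B := W.addX x₁ x₂ (W.slope x₁ x₂ y₁ (W.negY x₂ y₂)) with hB
  have hd : x₁ - x₂ ≠ 0 := sub_ne_zero.mpr hx
  have e1 : 4 * A * (x₁ - x₂) ^ 2 = (psiY W x₁ y₁ - psiY W x₂ y₂) ^ 2
      - (x₁ - x₂) ^ 2 * (W.b₂ + 4 * x₁ + 4 * x₂) := by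
    rw [hA, slope_of_X_ne hx]
    simp only [addX, psiY, b₂]
    field_simp
    ring
  have e2 : 4 * B * (x₁ - x₂) ^ 2 = (psiY W x₁ y₁ + psiY W x₂ y₂) ^ 2
      - (x₁ - x₂) ^ 2 * (W.b₂ + 4 * x₁ + 4 * x₂) := by
    rw [hB, slope_of_X_ne hx]
    simp only [addX, negY, psiY, b₂]
    field_simp
    ring
  have f1 := psiY_sq W h₁
  have f2 := psiY_sq W h₂
  -- multiply `4 A` and `4 B`: only `ψ(P)²` and `ψ(Q)²` remain
  have key : (4 * A * (x₁ - x₂) ^ 2) * (4 * B * (x₁ - x₂) ^ 2)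
      = (quadF W x₁ + quadF W x₂ - (x₁ - x₂) ^ 2 * (W.b₂ + 4 * x₁ + 4 * x₂)) ^ 2
        - 4 * quadF W x₁ * quadF W x₂ := by
    rw [e1, e2, ← f1, ← f2]; ring
  have key2 : (quadF W x₁ + quadF W x₂ - (x₁ - x₂) ^ 2 * (W.b₂ + 4 * x₁ + 4 * x₂)) ^ 2
        - 4 * quadF W x₁ * quadF W x₂ = 16 * (x₁ - x₂) ^ 2 * prodNum W x₁ x₂ := by
    simp only [quadF, prodNum, b₂, b₄, b₆, b₈]
    ring
  have h16 : (16 : K) * (x₁ - x₂) ^ 2 ≠ 0 := mul_ne_zero (by norm_num) (pow_ne_zero _ hd)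
  apply mul_left_cancel₀ h16
  linear_combination key + key2

/-- The duplication formula for the abscissa. -/
lemma addX_double {x y : K} (h : W.Equation x y) (hy : psiY W x y ≠ 0) :
    W.addX x x (W.slope x x y y) * quadF W x = dblNum W x := by
  have hne : y ≠ W.negY x y := fun e => hy (by rw [psiY_eq_sub_negY]; exact sub_eq_zero.mpr e)
  rw [slope_of_Y_ne rfl hne, ← psiY_eq_sub_negY, ← psiY_sq W h]
  rw [equation_iff] at h
  simp only [addX, dblNum]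
  generalize hu : psiY W x y = u at hy ⊢
  field_simp
  rw [← hu]
  simp only [psiY, b₄, b₆, b₈]
  linear_combination (-(8 * x + 4 * W.a₂ + W.a₁ ^ 2)) * h

/-- `(x_P - x(2Q)) ψ(Q)² = (x_Q - x(P+Q)) (x(P-Q) - x_Q) (x_P - x_Q)²`. -/
lemma sub_addX_double [CharZero K] {x₁ x₂ y₁ y₂ : K} (h₁ : W.Equation x₁ y₁) (h₂ : W.Equation x₂ y₂)
    (hx : x₁ ≠ x₂) :
    x₁ * quadF W x₂ - dblNum W x₂ =
      (x₂ - W.addX x₁ x₂ (W.slope x₁ x₂ y₁ y₂)) *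
        (W.addX x₁ x₂ (W.slope x₁ x₂ y₁ (W.negY x₂ y₂)) - x₂) * (x₁ - x₂) ^ 2 := by
  have hs := addX_sum h₁ h₂ hx
  have hp := addX_prod h₁ h₂ hx
  generalize W.addX x₁ x₂ (W.slope x₁ x₂ y₁ y₂) = A at hs hp ⊢
  generalize W.addX x₁ x₂ (W.slope x₁ x₂ y₁ (W.negY x₂ y₂)) = B at hs hp ⊢
  have : (x₂ - A) * (B - x₂) * (x₁ - x₂) ^ 2
      = -(x₂ ^ 2 * (x₁ - x₂) ^ 2) + x₂ * sumNum W x₁ x₂ - prodNum W x₁ x₂ := by
    rw [← hs, ← hp]; ring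
  rw [this]
  simp only [quadF, dblNum, sumNum, prodNum]
  ring

/-- `x(P-Q) - x(P+Q) = ψ(P)ψ(Q)/(x_Q - x_P)²`. -/
lemma addX_negY_sub_addX {x₁ x₂ : K} (y₁ y₂ : K) (hx : x₁ ≠ x₂) :
    (W.addX x₁ x₂ (W.slope x₁ x₂ y₁ (W.negY x₂ y₂)) - W.addX x₁ x₂ (W.slope x₁ x₂ y₁ y₂))
      * (x₁ - x₂) ^ 2 = psiY W x₁ y₁ * psiY W x₂ y₂ := by
  have hd : x₁ - x₂ ≠ 0 := sub_ne_zero.mpr hx
  rw [slope_of_X_ne hx, slope_of_X_ne hx]
  simp only [addX, negY, psiY]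
  field_simp
  ring

end Fermat.EC
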