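import Fermat.Agent.EC.Reduction
import Fermat.Agent.EC.Inertia
import Fermat.Agent.EC.TwoPoint

/-!
# Points reducing to a node

The model has its node at `(0, 0)`: `a₃, a₄` very small, `b₂` a unit, `ord a₆ = m = ord Δ`.
For an odd torsion point reducing to the node `0 < ord x < m/2`, and `ord x` is the folded
component index.
-/

set_option autoImplicit false

open WeierstrassCurve WeierstrassCurve.Affine Fermat.EC.Val Fermat.EC.Red

namespace Fermat.EC.Node

variable {L : Type*} [Field L] [CharZero L] [Algebra.IsAlgebraic ℚ L] [DecidableEq L]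
  {A : ValuationSubring L} {q : ℕ} {W : Affine L} {m M : ℚ}

variable (A q W m M) in
/-- Normalised nodal model. -/
structure IsNodal : Prop where
  /-- All coefficients are integral. -/
  int : IntegralAt A q W
  /-- The component parameter `m = ord a₆` is positive. -/
  mpos : 0 < m
  /-- The bound `M` on the small coefficients exceeds `m`. -/
  mM : m < M
  /-- `a₃` has order at least `M`. -/
  a₃ : Ge A q W.a₃ M
  /-- `a₄` has order at least `M`. -/
  a₄ : Ge A q W.a₄ M
  /-- `a₆` has order exactly `m`. -/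
  a₆ : Is A q W.a₆ m
  /-- `b₂` is a unit: the singular point is a node. -/
  b₂ : Is A q W.b₂ 0

variable (A q) in
/-- `0 < ord x < m/2`, `ord y ≥ ord x`. -/
def LowPt (m : ℚ) (x y : L) (r : ℚ) : Prop := 0 < r ∧ r < m / 2 ∧ Is A q x r ∧ Ge A q y r

/-- The quadratic form of the tangent cone. -/
def cone (W : Affine L) (x y : L) : L := y ^ 2 + W.a₁ * x * y - W.a₂ * x ^ 2

variable (h : IsPlace A q) (hN : IsNodal A q W m M)
include h hN

/-- A point reducing to the node has both coordinates of positive order. -/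
lemma gt_of_singRed {x y : L} (he : W.Equation x y) (hs : SingRed A q W x y) :
    Gt A q x 0 ∧ Gt A q y 0 := by
  obtain ⟨hx, hdx, hdy⟩ := hs
  have hy := ge_y h hN.int he hx
  rw [equation_iff] at he
  have g3 : Gt A q W.a₃ 0 := hN.a₃.gt (hN.mpos.trans hN.mM)
  have g4 : Gt A q W.a₄ 0 := hN.a₄.gt (hN.mpos.trans hN.mM)
  have g6 : Gt A q W.a₆ 0 := hN.a₆.gt hN.mpos
  have two : Ge A q (2 : L) 0 := ge_two h
  -- the equation and both partials give `ord x³ > 0`
  have gx3 : Gt A q (x ^ 3) 0 := by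
    have e : x ^ 3 = -(y * dY W x y + x * dX W x y) + (-(y * W.a₃) + x * W.a₄ + 2 * W.a₆) := by
      simp only [dX, dY]
      linear_combination 2 * he
    rw [e]
    exact ((((hy.mul_gt h hdy).mono (by simp)).add h
      ((hx.mul_gt h hdx).mono (by simp))).neg h).add h
      (((((hy.mul_gt h g3).mono (by simp)).neg h).add h ((hx.mul_gt h g4).mono (by simp))).add h
        ((two.mul_gt h g6).mono (by simp)))
  have gx : Gt A q x 0 := by
    by_contra hc
    have := (hx.is_of_not_gt hc).pow h 3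
    simp only [mul_zero] at this
    exact this.not_gt gx3
  refine ⟨gx, ?_⟩
  have e : y ^ 2 = x * (x ^ 2 + W.a₂ * x + W.a₄ - W.a₁ * y) + (W.a₆ - W.a₃ * y) := by
    linear_combination he
  have c : Ge A q (x ^ 2 + W.a₂ * x + W.a₄ - W.a₁ * y) 0 :=
    ((((hx.pow h 2).mono (by simp)).add h ((hN.int.a₂.mul h hx).mono (by simp))).add h
      hN.int.a₄).sub h ((hN.int.a₁.mul h hy).mono (by simp))
  have gy2 : Gt A q (y ^ 2) 0 := by
    rw [e]
    exact ((gx.mul_ge h c).mono (by simp)).add h (g6.sub h ((g3.mul_ge h hy).mono (by simp)))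
  by_contra hc
  have := (hy.is_of_not_gt hc).pow h 2
  simp only [mul_zero] at this
  exact this.not_gt gy2

/-- A point with both coordinates of positive order reduces to the node. -/
lemma singRed_of_gt {x y : L} (hx : Gt A q x 0) (hy : Gt A q y 0) : SingRed A q W x y := by
  have g3 : Gt A q W.a₃ 0 := hN.a₃.gt (hN.mpos.trans hN.mM)
  have g4 : Gt A q W.a₄ 0 := hN.a₄.gt (hN.mpos.trans hN.mM)
  have two : Ge A q (2 : L) 0 := ge_two h
  refine ⟨hx.ge, ?_, ?_⟩
  · exact ((hN.int.a₁.mul_gt h hy).mono (by simp)).sub h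
      (((((ge_three h).mul_gt h (by rw [sq]; exact hx.mul_ge h hx.ge :
        Gt A q (x ^ 2) (0 + 0))).mono (by simp)).add h
        (((two.mul h hN.int.a₂).mul_gt h hx).mono (by simp))).add h g4)
  · exact (((two.mul_gt h hy).mono (by simp)).add h
      ((hN.int.a₁.mul_gt h hx).mono (by simp))).add h g3

omit h hN in
omit [CharZero L] [Algebra.IsAlgebraic ℚ L] [DecidableEq L] in
/-- The tangent cone form on the curve. -/
lemma cone_eq {x y : L} (he : W.Equation x y) :
    cone W x y = x ^ 3 + (W.a₆ + (W.a₄ * x - W.a₃ * y)) := by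
  rw [equation_iff] at he
  simp only [cone]
  linear_combination he

omit [DecidableEq L] in
/-- Trichotomy at the node: either low or middle. -/
lemma low_or_mid {x y : L} (he : W.Equation x y) (hx : Gt A q x 0) (hy : Gt A q y 0) :
    (∃ r, LowPt A q m x y r) ∨ (Ge A q x (m / 2) ∧ Ge A q y (m / 2)) := by
  by_cases hmid : Ge A q x (m / 2) ∧ Ge A q y (m / 2)
  · exact Or.inr hmid
  left
  have hM : m < M := hN.mM
  -- `r` is the order of the lower of the two coordinates
  obtain ⟨r, hr0, hrm, gx, gy, hIs⟩ : ∃ r, 0 < r ∧ r < m / 2 ∧ Ge A q x r ∧ Ge A q y r ∧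
      (Is A q x r ∨ Is A q y r) := by
    by_cases hy' : Ge A q y (m / 2)
    · have hx' : ¬ Ge A q x (m / 2) := fun e => hmid ⟨e, hy'⟩
      rw [Ge, not_or, not_le] at hx'
      refine ⟨ord A q x, hx.resolve_left hx'.1, hx'.2, Or.inr le_rfl, hy'.mono hx'.2.le,
        Or.inl ⟨hx'.1, rfl⟩⟩
    · rw [Ge, not_or, not_le] at hy'
      by_cases hxy : Ge A q x (ord A q y)
      · exact ⟨ord A q y, hy.resolve_left hy'.1, hy'.2, hxy, Or.inr le_rfl, Or.inr ⟨hy'.1, rfl⟩⟩
      · rw [Ge, not_or, not_le] at hxy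
        exact ⟨ord A q x, hx.resolve_left hxy.1, hxy.2.trans hy'.2, Or.inr le_rfl,
          Or.inr hxy.2.le, Or.inl ⟨hxy.1, rfl⟩⟩
  refine ⟨r, hr0, hrm, ?_, gy⟩
  rcases hIs with hi | hi
  · exact hi
  refine gx.is_of_not_gt fun gxr => ?_
  have hL : Is A q (cone W x y) ((2 : ℕ) * r) := by
    have t1 : Gt A q (W.a₁ * x * y - W.a₂ * x ^ 2) ((2 : ℕ) * r) := by
      refine (((hN.int.a₁.mul_gt h gxr).mul_ge h gy).mono (by push_cast; linarith)).sub h ?_
      have := (hN.int.a₂.mul_gt h (gxr.mul_ge h gx))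
      rw [← sq] at this
      exact this.mono (by push_cast; linarith)
    have := (hi.pow h 2).add h t1
    rwa [show y ^ 2 + (W.a₁ * x * y - W.a₂ * x ^ 2) = cone W x y by simp only [cone]; ring] at this
  apply hL.not_gt
  rw [cone_eq he]
  exact ((gx.pow h 3).gt (by push_cast; linarith)).add h
    ((hN.a₆.gt (by push_cast; linarith)).add h
      (((hN.a₄.mul h gx).gt (by push_cast; linarith)).sub h
        ((hN.a₃.mul h gy).gt (by push_cast; linarith))))

/-- Twice a middle point has nonsingular reduction. -/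
lemma inE0_double_of_mid {x y : L} (hns : W.Nonsingular x y)
    (hx : Ge A q x (m / 2)) (hy : Ge A q y (m / 2)) :
    InE0 A q (Point.some x y hns + Point.some x y hns) := by
  have hm := hN.mpos
  have hM := hN.mM
  by_cases hz : Point.some x y hns + Point.some x y hns = 0
  · rw [hz]; trivial
  obtain ⟨l, ν, x₃, y₃, h₃, hc, esum, -, el₂⟩ := exists_collinear3 hns hns hz
  rw [esum]
  suffices H : InE0 A q (Point.some x₃ y₃ h₃) from InE0.neg h hN.int H
  intro hs
  have hx0 : Gt A q x 0 := hx.gt (by linarith)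
  by_cases hl : Ge A q l 0
  swap
  · exact not_ge_third h hN.int hc.e₁ hl hx0.ge hx0.ge hs.1
  set D := l ^ 2 + W.a₁ * l - W.a₂ with hD
  have gD : Ge A q D 0 :=
    (((hl.pow h 2).mono (by simp)).add h ((hN.int.a₁.mul h hl).mono (by simp))).sub h hN.int.a₂
  set ψ := y - W.negY x y with hψ
  set N := x ^ 2 + x * x + x ^ 2 + W.a₂ * (x + x) + W.a₄ - W.a₁ * y with hNdef
  have two : Ge A q (2 : L) 0 := ge_two h
  set N₀ := 2 * W.a₂ * x - W.a₁ * y with hN₀
  set ψ₀ := 2 * y + W.a₁ * x with hψ₀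
  have gN₀ : Ge A q N₀ (m / 2) :=
    (((two.mul h hN.int.a₂).mul h hx).mono (by linarith)).sub h
      ((hN.int.a₁.mul h hy).mono (by linarith))
  have gψ₀ : Ge A q ψ₀ (m / 2) :=
    ((two.mul h hy).mono (by linarith)).add h ((hN.int.a₁.mul h hx).mono (by linarith))
  have dN : Gt A q (N - N₀) (m / 2) := by
    rw [show N - N₀ = 3 * x ^ 2 + W.a₄ by simp only [hNdef, hN₀]; ring]
    exact ((((ge_three h).mul h (hx.pow h 2))).gt (by push_cast; linarith)).add h
      (hN.a₄.gt (by linarith))
  have dψ : Gt A q (ψ - ψ₀) (m / 2) := by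
    rw [show ψ - ψ₀ = W.a₃ by simp only [hψ, hψ₀, negY]; ring]
    exact hN.a₃.gt (by linarith)
  have gψ : Ge A q ψ (m / 2) := by simpa using dψ.ge.add h gψ₀
  have gN : Ge A q N (m / 2) := by simpa using dN.ge.add h gN₀
  -- `D ψ²` has order exactly `m`, so `D` is a unit and `x₃` is not near the node
  have hmain : Is A q (D * ψ ^ 2) m := by
    have e : D * ψ ^ 2 = -(W.b₂ * cone W x y)
        + ((N - N₀) * (N + N₀ + W.a₁ * ψ) + (ψ - ψ₀) * (W.a₁ * N₀ - W.a₂ * (ψ + ψ₀))) := by
      have hlψ : l * ψ = N := el₂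
      simp only [hD, cone, b₂, ← hlψ, hN₀, hψ₀]
      ring
    rw [e]
    have hcone : Is A q (cone W x y) m := by
      rw [cone_eq hns.1, add_comm]
      exact (hN.a₆.add h (((hN.a₄.mul h hx).gt (by linarith)).sub h
        ((hN.a₃.mul h hy).gt (by linarith)))).add h ((hx.pow h 3).gt (by push_cast; linarith))
    have hI := (hN.b₂.mul h hcone).neg h
    rw [zero_add] at hI
    refine hI.add h ?_
    exact ((dN.mul_ge h ((gN.add h gN₀).add h ((hN.int.a₁.mul h gψ).mono (zero_add _).ge))).mono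
      (by linarith)).add h ((dψ.mul_ge h (((hN.int.a₁.mul h gN₀).mono (zero_add _).ge).sub h
        ((hN.int.a₂.mul h (gψ.add h gψ₀)).mono (zero_add _).ge))).mono (by linarith))
  have hDI : Is A q D 0 := by
    refine gD.is_of_not_gt fun g => hmain.not_gt ?_
    have := g.mul_ge h (gψ.pow h 2)
    exact this.mono (by push_cast; linarith)
  have hx₃ : Gt A q x₃ 0 := (gt_of_singRed h hN h₃.1 hs).1
  apply hDI.not_gt
  rw [hD, ← hc.e₁]
  exact (hx0.add h hx0).add h hx₃

/-- An odd-order point outside `E₀` is low. -/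
lemma low_of_torsion {n : ℕ} (hn : Odd n) {P : W.Point} (hP : n • P = 0)
    (hP0 : ¬ InE0 A q P) :
    ∃ x y hns r, P = Point.some x y hns ∧ LowPt A q m x y r := by
  rcases P with _ | ⟨x, y, hns⟩
  · exact absurd trivial hP0
  have hs : SingRed A q W x y := not_not.mp hP0
  obtain ⟨gx, gy⟩ := gt_of_singRed h hN hns.1 hs
  rcases low_or_mid h hN hns.1 gx gy with ⟨r, hr⟩ | ⟨hmx, hmy⟩
  · exact ⟨x, y, hns, r, rfl, hr⟩
  · exfalso
    apply hP0
    refine inE0_of_nsmul h hN.int hP ?_ hn.pos (m := 2) ?_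
    · exact Nat.coprime_two_left.mpr hn
    · rw [two_smul]; exact inE0_double_of_mid h hN hns hmx hmy

/-- The difference of two low points with congruent tangent directions. -/
lemma sub_low {x y x' y' : L} (h₁ : W.Nonsingular x' y') (h₂ : W.Nonsingular x y) {r : ℚ}
    (hP : LowPt A q m x y r) (hP' : Is A q x' r) (hz : Gt A q (y' / x' - y / x) 0) :
    InE0 A q (Point.some x' y' h₁ - Point.some x y h₂) ∧
      (Gt A q (x' - x) r → InE1 A q (Point.some x' y' h₁ - Point.some x y h₂)) := by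
  obtain ⟨hr0, hrm, hx, hy⟩ := hP
  have hM := hN.mM
  rw [sub_eq_add_neg, Point.neg_some]
  by_cases hz0 : Point.some x' y' h₁ + Point.some x (W.negY x y) ((nonsingular_neg ..).mpr h₂) = 0
  · rw [hz0]; exact ⟨trivial, fun _ => trivial⟩
  obtain ⟨l, ν, x₃, y₃, h₃, hc, esum, el₁, -⟩ := exists_collinear3 h₁ _ hz0
  rw [esum]
  have gx0 : Gt A q x 0 := hx.gt hr0
  have gx0' : Gt A q x' 0 := hP'.gt hr0
  by_cases hl : Ge A q l 0
  swap
  · have hne := not_ge_third h hN.int hc.e₁ hl gx0'.ge gx0.ge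
    exact ⟨InE0.neg h hN.int (fun hs => hne hs.1),
      fun _ => InE1.neg (P := Point.some x₃ y₃ h₃) hne⟩
  set D := l ^ 2 + W.a₁ * l - W.a₂ with hD
  have gD : Ge A q D 0 :=
    (((hl.pow h 2).mono (by simp)).add h ((hN.int.a₁.mul h hl).mono (by simp))).sub h hN.int.a₂
  set z := y / x with hzdef
  have gz : Ge A q z 0 := by simpa using hy.div h hx
  set d := x' - x with hd
  set n := y' - W.negY x y with hn
  set n₀ := z * x' + (z + W.a₁) * x with hn₀
  have dn : Gt A q (n - n₀) r := by
    have e : n - n₀ = (y' / x' - z) * x' + W.a₃ := by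
      have hx0 := hx.1
      have hx0' := hP'.1
      simp only [hn, hn₀, negY, hzdef]
      field_simp
      ring
    rw [e]
    exact ((hz.mul_ge h hP'.ge).mono (zero_add r).ge).add h (hN.a₃.gt (by linarith))
  have gn₀ : Ge A q n₀ r :=
    ((gz.mul h hP'.ge).mono (zero_add r).ge).add h
      (((gz.add h hN.int.a₁).mul h hx.ge).mono (zero_add r).ge)
  have gn : Ge A q n r := by simpa using dn.ge.add h gn₀
  have gd : Ge A q d r := hP'.ge.sub h hx.ge
  -- `D d²` has order exactly `2r`
  have hmain : Is A q (D * d ^ 2) ((2 : ℕ) * r) := by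
    have e : D * d ^ 2 = W.b₂ * (x * x') + ((z ^ 2 + W.a₁ * z - W.a₂) * (x' + x) ^ 2
        + (n - n₀) * (n + n₀ + W.a₁ * d)) := by
      have hld : l * d = n := el₁
      simp only [hD, ← hld, hn₀, hd, b₂]
      ring
    rw [e]
    have hI : Is A q (W.b₂ * (x * x')) ((2 : ℕ) * r) := by
      have := hN.b₂.mul h (hx.mul h hP')
      convert this using 1; push_cast; ring
    refine hI.add h (Gt.add h ?_ ?_)
    · have e2 : z ^ 2 + W.a₁ * z - W.a₂ = cone W x y / x ^ 2 := by
        have hx0 := hx.1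
        simp only [hzdef, cone]
        field_simp
      have gc : Gt A q (cone W x y) ((2 : ℕ) * r) := by
        rw [cone_eq h₂.1]
        exact ((hx.ge.pow h 3).gt (by push_cast; linarith)).add h
          ((hN.a₆.gt (by push_cast; linarith)).add h
            (((hN.a₄.mul h hx.ge).gt (by push_cast; linarith)).sub h
              ((hN.a₃.mul h hy).gt (by push_cast; linarith))))
      rw [e2]
      exact ((gc.div h (hx.pow h 2)).mul_ge h ((hP'.ge.add h hx.ge).pow h 2)).mono
        (by push_cast; linarith)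
    · exact (dn.mul_ge h ((gn.add h gn₀).add h ((hN.int.a₁.mul h gd).mono (zero_add r).ge))).mono
        (by push_cast; linarith)
  refine ⟨InE0.neg h hN.int fun hs => ?_, fun hdgt => ?_⟩
  · have hDI : Is A q D 0 := by
      refine gD.is_of_not_gt fun g => hmain.not_gt ?_
      exact (g.mul_ge h (gd.pow h 2)).mono (zero_add _).ge
    apply hDI.not_gt
    rw [hD, ← hc.e₁]
    exact (gx0'.add h gx0).add h (gt_of_singRed h hN h₃.1 hs).1
  · exfalso
    apply hmain.not_gt
    have := gD.mul_gt h (hdgt.mul_ge h gd)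
    rw [← sq] at this
    exact this.mono (by push_cast; linarith)

end Fermat.EC.Node
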