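import Mathlib.AlgebraicGeometry.EllipticCurve.VariableChange
import Mathlib.Algebra.Field.ZMod
import Mathlib.Data.ZMod.Basic
import Mathlib.RingTheory.Int.Basic
import Mathlib.RingTheory.Coprime.Lemmas
import Mathlib.NumberTheory.Padics.PadicVal.Basic
import Mathlib.Tactic.LinearCombination
import Mathlib.Tactic.FieldSimp

/-!
# An integral model with the node at the origin to high `q`-adic accuracy

`exists_node_int` and `padicValInt_a₆_eq`, the normal form assumed by `Node`.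
-/

set_option autoImplicit false

open WeierstrassCurve

namespace Fermat.EC

/-- Over a field of characteristic `≠ 2` a curve with `Δ = 0`, `c₄ ≠ 0` has a singular point. -/
lemma exists_node_of_two_ne_zero {F : Type*} [Field F] (W : WeierstrassCurve F) (h2 : (2 : F) ≠ 0)
    (hΔ : W.Δ = 0) (hc : W.c₄ ≠ 0) :
    ∃ x y : F, y ^ 2 + W.a₁ * x * y + W.a₃ * y = x ^ 3 + W.a₂ * x ^ 2 + W.a₄ * x + W.a₆ ∧
      W.a₁ * y = 3 * x ^ 2 + 2 * W.a₂ * x + W.a₄ ∧ 2 * y + W.a₁ * x + W.a₃ = 0 := by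
  set x := (18 * W.b₆ - W.b₂ * W.b₄) / W.c₄ with hx
  have h4 : (4 : F) ≠ 0 := by
    rw [show (4 : F) = 2 * 2 by norm_num]; exact mul_ne_zero h2 h2
  have eF : 4 * x ^ 3 + W.b₂ * x ^ 2 + 2 * W.b₄ * x + W.b₆ = 0 := by
    apply mul_left_cancel₀ (pow_ne_zero 3 hc)
    rw [mul_zero, hx]
    field_simp
    simp only [Δ, b₂, b₄, b₆, b₈, c₄] at hΔ ⊢
    linear_combination
      (-4 * (W.a₁ ^ 2 + 4 * W.a₂) ^ 3 + 144 * (W.a₁ ^ 2 + 4 * W.a₂) * (2 * W.a₄ + W.a₁ * W.a₃)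
        - 864 * (W.a₃ ^ 2 + 4 * W.a₆)) * hΔ
  have eF' : 12 * x ^ 2 + 2 * W.b₂ * x + 2 * W.b₄ = 0 := by
    apply mul_left_cancel₀ (pow_ne_zero 2 hc)
    rw [mul_zero, hx]
    field_simp
    simp only [Δ, b₂, b₄, b₆, b₈, c₄] at hΔ ⊢
    linear_combination (-144 : F) * hΔ
  simp only [b₂, b₄, b₆] at eF eF'
  set y := (-W.a₁ * x - W.a₃) / 2 with hy
  have ey : 2 * y = -W.a₁ * x - W.a₃ := by rw [hy]; field_simp
  refine ⟨x, y, ?_, ?_, by linear_combination ey⟩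
  · apply mul_left_cancel₀ h4
    linear_combination (2 * y + W.a₁ * x + W.a₃) * ey - eF
  · apply mul_left_cancel₀ h4
    linear_combination 2 * W.a₁ * ey - eF'

/-- The same over `𝔽₂`. -/
lemma exists_node_two : ∀ a₁ a₂ a₃ a₄ a₆ : ZMod 2,
    (WeierstrassCurve.mk a₁ a₂ a₃ a₄ a₆).Δ = 0 → (WeierstrassCurve.mk a₁ a₂ a₃ a₄ a₆).c₄ ≠ 0 →
    ∃ x y : ZMod 2, y ^ 2 + a₁ * x * y + a₃ * y = x ^ 3 + a₂ * x ^ 2 + a₄ * x + a₆ ∧
      a₁ * y = 3 * x ^ 2 + 2 * a₂ * x + a₄ ∧ 2 * y + a₁ * x + a₃ = 0 := by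
  decide

/-- A nodal curve over `ZMod q` has a rational singular point. -/
lemma exists_node_zmod (q : ℕ) [Fact q.Prime] (W : WeierstrassCurve (ZMod q)) (hΔ : W.Δ = 0)
    (hc : W.c₄ ≠ 0) :
    ∃ x y : ZMod q, y ^ 2 + W.a₁ * x * y + W.a₃ * y = x ^ 3 + W.a₂ * x ^ 2 + W.a₄ * x + W.a₆ ∧
      W.a₁ * y = 3 * x ^ 2 + 2 * W.a₂ * x + W.a₄ ∧ 2 * y + W.a₁ * x + W.a₃ = 0 := by
  by_cases hq : q = 2
  · subst hq
    exact exists_node_two W.a₁ W.a₂ W.a₃ W.a₄ W.a₆ hΔ hc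
  · refine exists_node_of_two_ne_zero W ?_ hΔ hc
    intro h
    have := (ZMod.natCast_eq_zero_iff 2 q).mp (by exact_mod_cast h)
    exact hq ((Nat.prime_dvd_prime_iff_eq Fact.out Nat.prime_two).mp this)

/-- Translation by `(r, t)` over `ℤ`. -/
def trans (r t : ℤ) : VariableChange ℤ := ⟨1, r, 0, t⟩

/-- `a₃` after translation. -/
lemma trans_a₃ (W : WeierstrassCurve ℤ) (r t : ℤ) :
    (trans r t • W).a₃ = W.a₃ + r * W.a₁ + 2 * t := by
  simp [variableChange_a₃, trans]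
/-- `a₄` after translation. -/
lemma trans_a₄ (W : WeierstrassCurve ℤ) (r t : ℤ) :
    (trans r t • W).a₄ = W.a₄ + 2 * r * W.a₂ - t * W.a₁ + 3 * r ^ 2 := by
  simp [variableChange_a₄, trans]
/-- `a₆` after translation. -/
lemma trans_a₆ (W : WeierstrassCurve ℤ) (r t : ℤ) :
    (trans r t • W).a₆ = W.a₆ + r * W.a₄ + r ^ 2 * W.a₂ + r ^ 3 - t * W.a₃ - t ^ 2
      - r * t * W.a₁ := by
  simp [variableChange_a₆, trans]
/-- `b₂` after translation. -/
lemma trans_b₂ (W : WeierstrassCurve ℤ) (r t : ℤ) : (trans r t • W).b₂ = W.b₂ + 12 * r := by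
  simp [variableChange_b₂, trans]
/-- Translation keeps the discriminant. -/
lemma trans_Δ (W : WeierstrassCurve ℤ) (r t : ℤ) : (trans r t • W).Δ = W.Δ := by
  simp [variableChange_Δ, trans]
/-- Translation keeps `c₄`. -/
lemma trans_c₄ (W : WeierstrassCurve ℤ) (r t : ℤ) : (trans r t • W).c₄ = W.c₄ := by
  simp [variableChange_c₄, trans]
/-- Translations compose additively. -/
lemma trans_trans (W : WeierstrassCurve ℤ) (r t r' t' : ℤ) :
    trans r t • trans r' t' • W = trans (r' + r) (t' + t) • W := by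
  rw [← mul_smul]
  congr 1
  simp only [trans, VariableChange.mul_def]
  ext <;> simp [add_comm]

/-- A model with multiplicative reduction at `q` has an integral translate with the node at the
origin to any `q`-adic accuracy. -/
theorem exists_node_int (W : WeierstrassCurve ℤ) {q : ℕ} (hq : q.Prime) (hΔ : (q : ℤ) ∣ W.Δ)
    (hc : ¬ (q : ℤ) ∣ W.c₄) (M : ℕ) :
    ∃ r t : ℤ, (q : ℤ) ^ M ∣ (trans r t • W).a₃ ∧ (q : ℤ) ^ M ∣ (trans r t • W).a₄ ∧
      (q : ℤ) ∣ (trans r t • W).a₆ ∧ ¬ (q : ℤ) ∣ (trans r t • W).b₂ := by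
  have key : ∀ k : ℕ, ∃ r t : ℤ, (q : ℤ) ^ (k + 1) ∣ (trans r t • W).a₃ ∧
      (q : ℤ) ^ (k + 1) ∣ (trans r t • W).a₄ ∧
      (q : ℤ) ∣ (trans r t • W).a₆ ∧ ¬ (q : ℤ) ∣ (trans r t • W).b₂ := by
    intro k
    induction k with
    | zero =>
      have := Fact.mk hq
      set f := Int.castRingHom (ZMod q)
      have hd : (W.map f).Δ = 0 := by
        rw [map_Δ]; exact (ZMod.intCast_zmod_eq_zero_iff_dvd _ _).mpr hΔ
      have hc' : (W.map f).c₄ ≠ 0 := by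
        rw [map_c₄]; exact fun e => hc ((ZMod.intCast_zmod_eq_zero_iff_dvd _ _).mp e)
      obtain ⟨x, y, e, ex, ey⟩ := exists_node_zmod q (W.map f) hd hc'
      obtain ⟨r, rfl⟩ := ZMod.intCast_surjective x
      obtain ⟨t, rfl⟩ := ZMod.intCast_surjective y
      simp only [map_a₁, map_a₂, map_a₃, map_a₄, map_a₆, f, eq_intCast] at e ex ey
      have d3 : (q : ℤ) ∣ (trans r t • W).a₃ := by
        rw [trans_a₃, ← ZMod.intCast_zmod_eq_zero_iff_dvd]
        push_cast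
        linear_combination ey
      have d4 : (q : ℤ) ∣ (trans r t • W).a₄ := by
        rw [trans_a₄, ← ZMod.intCast_zmod_eq_zero_iff_dvd]
        push_cast
        linear_combination -ex
      refine ⟨r, t, by simpa using d3, by simpa using d4, ?_, fun hb => ?_⟩
      · rw [trans_a₆, ← ZMod.intCast_zmod_eq_zero_iff_dvd]
        push_cast
        linear_combination -e
      · apply hc
        rw [← trans_c₄ W r t]
        generalize trans r t • W = V at d3 d4 hb ⊢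
        have hb4 : (q : ℤ) ∣ V.b₄ := by
          simp only [b₄]; exact dvd_add (dvd_mul_of_dvd_right d4 _) (dvd_mul_of_dvd_right d3 _)
        rw [c₄]
        exact dvd_sub (dvd_pow hb two_ne_zero) (dvd_mul_of_dvd_right hb4 _)
    | succ k ih =>
      obtain ⟨r, t, ⟨A, hA⟩, ⟨B, hB⟩, h6, hb⟩ := ih
      set V := trans r t • W with hV
      obtain ⟨β, γ, hβ⟩ := (Nat.prime_iff_prime_int.mp hq).coprime_iff_not_dvd.mpr hb |>.symm
      set Q := (q : ℤ) ^ (k + 1) with hQ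
      have hqQ : (q : ℤ) ∣ Q := dvd_pow_self _ (Nat.succ_ne_zero k)
      -- Newton step: invert the derivative matrix, whose determinant is `-b₂`
      set r' := Q * ((-V.a₁ * A - 2 * B) * β) with hr'
      set t' := Q * ((-2 * V.a₂ * A + V.a₁ * B) * β) with ht'
      have hb2 : V.b₂ = V.a₁ ^ 2 + 4 * V.a₂ := rfl
      refine ⟨r + r', t + t', ?_⟩
      rw [← trans_trans W r' t' r t, ← hV]
      refine ⟨⟨γ * A, ?_⟩, ?_, ?_, ?_⟩
      · rw [trans_a₃, pow_succ, hA, hr', ht']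
        linear_combination (-(Q * A)) * hβ + Q * A * β * hb2
      · obtain ⟨c, hc'⟩ := hqQ
        refine ⟨γ * B + 3 * c * ((-V.a₁ * A - 2 * B) * β) ^ 2, ?_⟩
        rw [trans_a₄, pow_succ, hB, hr', ht']
        linear_combination (-(Q * B)) * hβ + Q * B * β * hb2
          + 3 * Q * ((-V.a₁ * A - 2 * B) * β) ^ 2 * hc'
      · rw [trans_a₆]
        have d3 : (q : ℤ) ∣ r' := dvd_mul_of_dvd_left hqQ _
        have d4 : (q : ℤ) ∣ t' := dvd_mul_of_dvd_left hqQ _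
        exact dvd_sub (dvd_sub (dvd_sub (dvd_add (dvd_add (dvd_add h6 (dvd_mul_of_dvd_left d3 _))
          (dvd_mul_of_dvd_left (dvd_pow d3 two_ne_zero) _)) (dvd_pow d3 three_ne_zero))
          (dvd_mul_of_dvd_left d4 _)) (dvd_pow d4 two_ne_zero))
          (dvd_mul_of_dvd_left (dvd_mul_of_dvd_left d3 _) _)
      · rw [trans_b₂]
        intro hd
        apply hb
        have : (q : ℤ) ∣ 12 * r' := dvd_mul_of_dvd_right (dvd_mul_of_dvd_left hqQ _) _
        simpa using dvd_sub hd this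
  obtain ⟨r, t, h3, h4, h6, hb⟩ := key M
  exact ⟨r, t, (pow_dvd_pow _ (Nat.le_succ M)).trans h3, (pow_dvd_pow _ (Nat.le_succ M)).trans h4,
    h6, hb⟩

/-- With the node at the origin, `ord a₆ = ord Δ`. -/
theorem padicValInt_a₆_eq (V : WeierstrassCurve ℤ) {q : ℕ} (hq : q.Prime) {M : ℕ}
    (h3 : (q : ℤ) ^ M ∣ V.a₃) (h4 : (q : ℤ) ^ M ∣ V.a₄) (h6 : (q : ℤ) ∣ V.a₆)
    (hb : ¬ (q : ℤ) ∣ V.b₂) (hΔ : V.Δ ≠ 0) (hM : padicValInt q V.Δ < M) :
    padicValInt q V.a₆ = padicValInt q V.Δ ∧ V.a₆ ≠ 0 := by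
  have := Fact.mk hq
  set m := padicValInt q V.Δ with hm
  have hX : (q : ℤ) ^ M ∣ V.Δ - V.a₆ * (-(V.b₂ ^ 3) - 432 * V.a₆) := by
    rw [show ((q : ℤ) ^ M) = ((q ^ M : ℕ) : ℤ) by push_cast; rfl] at h3 h4 ⊢
    rw [← ZMod.intCast_zmod_eq_zero_iff_dvd] at h3 h4 ⊢
    simp only [Δ, b₂, b₄, b₆, b₈]
    push_cast
    rw [h3, h4]
    ring
  set u := -(V.b₂ ^ 3) - 432 * V.a₆ with hu
  have hu' : ¬ (q : ℤ) ∣ u := by
    intro hd
    apply hb
    refine Int.Prime.dvd_pow' hq (k := 3) ?_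
    have := dvd_neg.mpr (dvd_add hd (dvd_mul_of_dvd_right h6 432))
    simpa [hu] using this
  have hco : ∀ k : ℕ, IsCoprime ((q : ℤ) ^ k) u := fun k =>
    ((Nat.prime_iff_prime_int.mp hq).coprime_iff_not_dvd.mpr hu').pow_left
  -- `Δ ≡ a₆ u` modulo `q ^ M` with `u` a unit
  have d1 : (q : ℤ) ^ m ∣ V.a₆ := by
    apply (hco m).dvd_of_dvd_mul_right
    have := dvd_sub (padicValInt_dvd (p := q) V.Δ) ((pow_dvd_pow _ hM.le).trans hX)
    simpa using this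
  have d2 : ¬ (q : ℤ) ^ (m + 1) ∣ V.a₆ := by
    intro hd
    have := dvd_add ((pow_dvd_pow (q : ℤ) (Nat.succ_le_of_lt hM)).trans hX)
      (dvd_mul_of_dvd_left hd u)
    rw [sub_add_cancel, padicValInt_dvd_iff] at this
    omega
  have h0 : V.a₆ ≠ 0 := fun e => d2 (e ▸ dvd_zero _)
  refine ⟨le_antisymm ?_ ?_, h0⟩
  · rw [padicValInt_dvd_iff] at d2
    push Not at d2
    omega
  · rw [padicValInt_dvd_iff] at d1
    exact d1.resolve_left h0

end Fermat.EC
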