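import Mathlib.AlgebraicGeometry.EllipticCurve.Affine.Point
import Mathlib.AlgebraicGeometry.EllipticCurve.VariableChange
import Mathlib.Tactic.LinearCombination
import Mathlib.Tactic.FieldSimp

/-!
# The isomorphism of point groups given by an admissible change of variables

`pointHom` is injective, so each local argument may pass to a model of its own.
-/

set_option autoImplicit false

open WeierstrassCurve WeierstrassCurve.Affine

namespace Fermat.EC

variable {K : Type*} [Field K]

/-- `x'` in terms of `x`. -/
def newX (C : VariableChange K) (x : K) : K := (x - C.r) / (C.u : K) ^ 2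

/-- `y'` in terms of `(x, y)`. -/
def newY (C : VariableChange K) (x y : K) : K := (y - C.t - C.s * (x - C.r)) / (C.u : K) ^ 3

variable (C : VariableChange K) (W : Affine K)

/-- The transformed curve. -/
abbrev changed : Affine K := (C • (W : WeierstrassCurve K) : WeierstrassCurve K)

/-- The new coordinates satisfy the new equation iff the old satisfy the old. -/
lemma equation_new (x y : K) :
    (changed C W).Equation (newX C x) (newY C x y) ↔ W.Equation x y := by
  have hu : (C.u : K) ≠ 0 := C.u.ne_zero
  rw [equation_iff', equation_iff']
  have e : ((newY C x y) ^ 2 + (changed C W).a₁ * newX C x * newY C x y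
      + (changed C W).a₃ * newY C x y - (newX C x ^ 3 + (changed C W).a₂ * newX C x ^ 2
      + (changed C W).a₄ * newX C x + (changed C W).a₆)) * (C.u : K) ^ 6
      = y ^ 2 + W.a₁ * x * y + W.a₃ * y - (x ^ 3 + W.a₂ * x ^ 2 + W.a₄ * x + W.a₆) := by
    simp only [changed, variableChange_a₁, variableChange_a₂, variableChange_a₃,
      variableChange_a₄, variableChange_a₆, newX, newY, Units.val_inv_eq_inv_val]
    field_simp
    ring
  rw [← e, mul_eq_zero]
  simp [hu]

/-- The `Y`-partial after the change. -/
lemma dY_new (x y : K) :
    (2 * newY C x y + (changed C W).a₁ * newX C x + (changed C W).a₃) * (C.u : K) ^ 3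
      = 2 * y + W.a₁ * x + W.a₃ := by
  have hu : (C.u : K) ≠ 0 := C.u.ne_zero
  simp only [changed, variableChange_a₁, variableChange_a₃, newX, newY,
    Units.val_inv_eq_inv_val]
  field_simp
  ring

/-- The `X`-partial after the change. -/
lemma dX_new (x y : K) :
    ((changed C W).a₁ * newY C x y
      - (3 * newX C x ^ 2 + 2 * (changed C W).a₂ * newX C x + (changed C W).a₄)) * (C.u : K) ^ 4
      = (W.a₁ * y - (3 * x ^ 2 + 2 * W.a₂ * x + W.a₄)) + C.s * (2 * y + W.a₁ * x + W.a₃) := by
  have hu : (C.u : K) ≠ 0 := C.u.ne_zero
  simp only [changed, variableChange_a₁, variableChange_a₂, variableChange_a₄, newX, newY,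
    Units.val_inv_eq_inv_val]
  field_simp
  ring

/-- The change preserves non-singular points. -/
lemma nonsingular_new {x y : K} (h : W.Nonsingular x y) :
    (changed C W).Nonsingular (newX C x) (newY C x y) := by
  rw [nonsingular_iff'] at h ⊢
  refine ⟨(equation_new C W x y).mpr h.1, ?_⟩
  by_contra hc
  rw [not_or, not_not, not_not] at hc
  have e2 := dY_new C W x y
  rw [hc.2, zero_mul] at e2
  have e1 := dX_new C W x y
  rw [hc.1, zero_mul, ← e2, mul_zero, add_zero] at e1
  rcases h.2 with hh | hh
  · exact hh e1.symm
  · exact hh e2.symm

variable [DecidableEq K]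

/-- The change-of-variables homomorphism on points. -/
noncomputable def pointHom : W.Point →+ (changed C W).Point where
  toFun P := match P with
    | .zero => 0
    | .some x y h => .some _ _ (nonsingular_new C W h)
  map_zero' := rfl
  map_add' := by
    have hu : (C.u : K) ≠ 0 := C.u.ne_zero
    rintro (_ | ⟨x₁, y₁, h₁⟩) (_ | ⟨x₂, y₂, h₂⟩)
    any_goals rfl
    have hnegY : ∀ x y : K, (changed C W).negY (newX C x) (newY C x y) =
        newY C x (W.negY x y) := by
      intro x y
      simp only [negY, changed, variableChange_a₁, variableChange_a₃, newX, newY,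
        Units.val_inv_eq_inv_val]
      field_simp
      ring
    have injX : ∀ a b : K, newX C a = newX C b → a = b := by
      intro a b e
      simpa [newX, div_left_inj' (pow_ne_zero 2 hu)] using e
    by_cases hxy : x₁ = x₂ ∧ y₁ = W.negY x₂ y₂
    · rw [Point.add_of_Y_eq hxy.1 hxy.2,
        Point.add_of_Y_eq (congrArg _ hxy.1) (by rw [hnegY, hxy.1, hxy.2])]
    · have hxy' : ¬(newX C x₁ = newX C x₂ ∧
          newY C x₁ y₁ = (changed C W).negY (newX C x₂) (newY C x₂ y₂)) := by
        rintro ⟨ex, ey⟩
        have ex' := injX _ _ ex
        refine hxy ⟨ex', ?_⟩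
        rw [hnegY, ex'] at ey
        simpa [newY, div_left_inj' (pow_ne_zero 3 hu)] using ey
      -- the slope transforms affinely
      have hl : (changed C W).slope (newX C x₁) (newX C x₂) (newY C x₁ y₁) (newY C x₂ y₂) =
          (W.slope x₁ x₂ y₁ y₂ - C.s) / (C.u : K) := by
        by_cases hx : x₁ = x₂
        · subst hx
          have hy : y₁ ≠ W.negY x₁ y₂ := fun e => hxy ⟨rfl, e⟩
          have hy' := fun e => hxy' ⟨rfl, e⟩
          have eyy := Y_eq_of_Y_ne h₁.1 h₂.1 rfl hy
          subst eyy
          rw [slope_of_Y_ne rfl hy, slope_of_Y_ne rfl hy']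
          have d1 := sub_ne_zero.mpr hy
          have d2 := sub_ne_zero.mpr hy'
          rw [div_sub' d1, div_div, div_eq_div_iff d2 (mul_ne_zero d1 hu)]
          simp only [negY, changed, variableChange_a₁, variableChange_a₂, variableChange_a₃,
            variableChange_a₄, newX, newY, Units.val_inv_eq_inv_val]
          field_simp
          ring
        · rw [slope_of_X_ne hx, slope_of_X_ne fun e => hx (injX _ _ e)]
          have d1 := sub_ne_zero.mpr hx
          rw [show newX C x₁ - newX C x₂ = (x₁ - x₂) / (C.u : K) ^ 2 by
              simp only [newX]; ring]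
          simp only [newY]
          field_simp
          ring
      rw [Point.add_some hxy, Point.add_some hxy']
      simp only [Point.some.injEq]
      rw [hl]
      constructor <;>
        simp only [addY, negAddY, addX, negY, changed, variableChange_a₁, variableChange_a₂,
          variableChange_a₃, newX, newY, Units.val_inv_eq_inv_val] <;>
        field_simp <;> ring

/-- The homomorphism on affine points. -/
lemma pointHom_some {x y : K} (h : W.Nonsingular x y) :
    pointHom C W (.some x y h) = .some _ _ (nonsingular_new C W h) := rfl

/-- The homomorphism is injective. -/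
lemma pointHom_injective : Function.Injective (pointHom C W) := by
  rw [injective_iff_map_eq_zero]
  rintro (_ | ⟨x, y, h⟩) e
  · rfl
  · exact absurd e (Point.some_ne_zero _)

/-- Transport of points along an equality of curves. -/
def castHom {K : Type*} [Field K] [DecidableEq K] {V V' : Affine K} (h : V = V') :
    V.Point →+ V'.Point := h ▸ AddMonoidHom.id _

/-- `castHom` does not change the coordinates. -/
lemma castHom_some {K : Type*} [Field K] [DecidableEq K] {V V' : Affine K} (h : V = V') {x y : K}
    (hxy : V.Nonsingular x y) : castHom h (.some x y hxy) = .some x y (h ▸ hxy) := by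
  subst h; rfl

/-- `castHom` is injective. -/
lemma castHom_injective {K : Type*} [Field K] [DecidableEq K] {V V' : Affine K} (h : V = V') :
    Function.Injective (castHom h) := by
  subst h; exact fun _ _ e => e

end Fermat.EC
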