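import Mathlib.AlgebraicGeometry.EllipticCurve.Affine.Point
import Mathlib.Tactic.LinearCombination

/-!
# A line meeting a Weierstrass cubic in three points

`Collinear3` records that `(x₁, y₁), (x₂, y₂), (x₃, y₃)` are the three intersection points, with
multiplicity, of `y = l x + ν` with the curve.
-/

set_option autoImplicit false

open WeierstrassCurve WeierstrassCurve.Affine

namespace Fermat.EC

variable {K : Type*} [Field K] {W : Affine K}

/-- The line `y = l x + ν` meets the curve exactly at `x₁, x₂, x₃`. -/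
structure Collinear3 (W : Affine K) (l ν x₁ y₁ x₂ y₂ x₃ y₃ : K) : Prop where
  /-- The first point lies on the line. -/
  line₁ : y₁ = l * x₁ + ν
  /-- The second point lies on the line. -/
  line₂ : y₂ = l * x₂ + ν
  /-- The third point lies on the line. -/
  line₃ : y₃ = l * x₃ + ν
  /-- Vieta's formula for the sum of the abscissae. -/
  e₁ : x₁ + x₂ + x₃ = l ^ 2 + W.a₁ * l - W.a₂
  /-- Vieta's formula for their pairwise products. -/
  e₂ : x₁ * x₂ + x₁ * x₃ + x₂ * x₃ = W.a₄ - W.a₁ * ν - 2 * l * ν - W.a₃ * l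
  /-- Vieta's formula for their product. -/
  e₃ : x₁ * x₂ * x₃ = ν ^ 2 + W.a₃ * ν - W.a₆

namespace Collinear3

variable {l ν x₁ y₁ x₂ y₂ x₃ y₃ : K}

/-- Exchange the first two points. -/
lemma swap₁₂ (h : Collinear3 W l ν x₁ y₁ x₂ y₂ x₃ y₃) : Collinear3 W l ν x₂ y₂ x₁ y₁ x₃ y₃ :=
  ⟨h.line₂, h.line₁, h.line₃, by linear_combination h.e₁, by linear_combination h.e₂,
    by linear_combination h.e₃⟩

/-- Exchange the last two points. -/
lemma swap₂₃ (h : Collinear3 W l ν x₁ y₁ x₂ y₂ x₃ y₃) : Collinear3 W l ν x₁ y₁ x₃ y₃ x₂ y₂ :=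
  ⟨h.line₁, h.line₃, h.line₂, by linear_combination h.e₁, by linear_combination h.e₂,
    by linear_combination h.e₃⟩

/-- The product of differences from the first point, in the partial derivatives there. -/
lemma prod_sub (h : Collinear3 W l ν x₁ y₁ x₂ y₂ x₃ y₃) :
    (x₁ - x₂) * (x₁ - x₃) = -(W.a₁ * y₁ - (3 * x₁ ^ 2 + 2 * W.a₂ * x₁ + W.a₄))
      - l * (2 * y₁ + W.a₁ * x₁ + W.a₃) := by
  linear_combination (W.a₁ + 2 * l) * h.line₁ - 2 * x₁ * h.e₁ + h.e₂

end Collinear3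

variable [DecidableEq K]

/-- The line through two points that do not add up to zero. -/
lemma exists_collinear3 {x₁ x₂ y₁ y₂ : K} (h₁ : W.Nonsingular x₁ y₁) (h₂ : W.Nonsingular x₂ y₂)
    (hne : Point.some x₁ y₁ h₁ + Point.some x₂ y₂ h₂ ≠ 0) :
    ∃ l ν x₃ y₃, ∃ h₃ : W.Nonsingular x₃ y₃,
      Collinear3 W l ν x₁ y₁ x₂ y₂ x₃ y₃ ∧
      Point.some x₁ y₁ h₁ + Point.some x₂ y₂ h₂ = -Point.some x₃ y₃ h₃ ∧
      l * (x₁ - x₂) = y₁ - y₂ ∧
      l * (y₁ - W.negY x₂ y₂) = x₁ ^ 2 + x₁ * x₂ + x₂ ^ 2 + W.a₂ * (x₁ + x₂) +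
        W.a₄ - W.a₁ * y₁ := by
  have hxy : ¬(x₁ = x₂ ∧ y₁ = W.negY x₂ y₂) := fun h => hne (Point.add_of_Y_eq h.1 h.2)
  set l := W.slope x₁ x₂ y₁ y₂ with hl
  have e := addPolynomial_slope h₁.1 h₂.1 hxy
  rw [addPolynomial_eq, neg_inj, Cubic.prod_X_sub_C_eq, Cubic.toPoly_injective] at e
  rw [← hl] at e
  have ec := congrArg Cubic.c e
  have ed := congrArg Cubic.d e
  simp only at ec ed
  have hsum : x₁ + x₂ + W.addX x₁ x₂ l = l ^ 2 + W.a₁ * l - W.a₂ := by simp only [addX]; ring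
  -- the two defining equations of the slope, secant or tangent
  have key : l * (x₁ - x₂) = y₁ - y₂ ∧
      l * (y₁ - W.negY x₂ y₂) =
        x₁ ^ 2 + x₁ * x₂ + x₂ ^ 2 + W.a₂ * (x₁ + x₂) + W.a₄ - W.a₁ * y₁ := by
    have q₁ := (equation_iff ..).mp h₁.1
    have q₂ := (equation_iff ..).mp h₂.1
    by_cases hx : x₁ = x₂
    · have hy : y₁ ≠ W.negY x₂ y₂ := fun h => hxy ⟨hx, h⟩
      have hyy := Y_eq_of_Y_ne h₁.1 h₂.1 hx hy
      subst hx hyy
      refine ⟨by ring, ?_⟩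
      rw [hl, slope_of_Y_ne rfl hy, div_mul_cancel₀ _ (sub_ne_zero.mpr hy)]
      ring
    · have hd := sub_ne_zero.mpr hx
      have e1 : l * (x₁ - x₂) = y₁ - y₂ := by
        rw [hl, slope_of_X_ne hx, div_mul_cancel₀ _ hd]
      refine ⟨e1, ?_⟩
      apply mul_right_cancel₀ hd
      simp only [negY]
      linear_combination (y₁ + y₂ + W.a₁ * x₂ + W.a₃) * e1 + q₁ - q₂
  refine ⟨l, y₁ - l * x₁, W.addX x₁ x₂ l, W.negAddY x₁ x₂ y₁ l, nonsingular_negAdd h₁ h₂ hxy,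
    ⟨by ring, by linear_combination key.1, by simp only [negAddY]; ring, hsum, ?_, ?_⟩, ?_, key⟩
  · linear_combination -ec
  · linear_combination ed
  · rw [Point.add_some hxy, Point.neg_some]
    rfl

end Fermat.EC
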