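import Fermat.Agent.EC.Ord
import Fermat.Agent.EC.Vieta

/-!
# Reduction of an integral Weierstrass curve at a place: `E₀`, `E₁`, the formal parameter

`InE0.add` and `eq_zero_of_nsmul_eq_zero` (no torsion prime to the residue characteristic in `E₁`),
for `Node` and the reduction map of `FR/Reduce`.
-/

set_option autoImplicit false
set_option linter.unusedSectionVars false

open WeierstrassCurve WeierstrassCurve.Affine Fermat.EC.Val

namespace Fermat.EC.Red

variable {L : Type*} [Field L] [CharZero L] [Algebra.IsAlgebraic ℚ L] [DecidableEq L]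
  {A : ValuationSubring L} {q : ℕ} {W : Affine L}

variable (A q W) in
/-- The coefficients are integral at `A`. -/
structure IntegralAt : Prop where
  /-- `a₁` is integral. -/
  a₁ : Ge A q W.a₁ 0
  /-- `a₂` is integral. -/
  a₂ : Ge A q W.a₂ 0
  /-- `a₃` is integral. -/
  a₃ : Ge A q W.a₃ 0
  /-- `a₄` is integral. -/
  a₄ : Ge A q W.a₄ 0
  /-- `a₆` is integral. -/
  a₆ : Ge A q W.a₆ 0

/-- `∂W/∂X`. -/
def dX (W : Affine L) (x y : L) : L := W.a₁ * y - (3 * x ^ 2 + 2 * W.a₂ * x + W.a₄)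

/-- `∂W/∂Y`. -/
def dY (W : Affine L) (x y : L) : L := 2 * y + W.a₁ * x + W.a₃

variable (A q) in
/-- Integral coordinates with singular reduction. -/
def SingRed (W : Affine L) (x y : L) : Prop :=
  Ge A q x 0 ∧ Gt A q (dX W x y) 0 ∧ Gt A q (dY W x y) 0

variable (A q) in
/-- The kernel of reduction. -/
def InE1 : W.Point → Prop
  | .zero => True
  | .some x _ _ => ¬ Ge A q x 0

variable (A q) in
/-- The points with nonsingular reduction. -/
def InE0 : W.Point → Prop
  | .zero => True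
  | .some x y _ => ¬ SingRed A q W x y

/-- The kernel of reduction has non-singular reduction. -/
lemma InE1.inE0 : ∀ {P : W.Point}, InE1 A q P → InE0 A q P
  | .zero, _ => trivial
  | .some _ _ _, h => fun hs => h hs.1

/-- `0` is in the kernel. -/
lemma inE1_zero : InE1 A q (0 : W.Point) := trivial

variable (h : IsPlace A q) (hW : IntegralAt A q W)
include h

/-- `2` is integral. -/
lemma ge_two : Ge A q (2 : L) 0 := by simpa using ge_natCast (A := A) h 2
/-- `3` is integral. -/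
lemma ge_three : Ge A q (3 : L) 0 := by simpa using ge_natCast (A := A) h 3

include hW

/-- On an integral curve `y` is integral if `x` is. -/
lemma ge_y {x y : L} (he : W.Equation x y) (hx : Ge A q x 0) : Ge A q y 0 := by
  by_contra hy
  rw [Ge, not_or, not_le] at hy
  rw [equation_iff] at he
  set r := ord A q y
  have hy' : Is A q y r := ⟨hy.1, rfl⟩
  have h2 := hy'.pow h 2
  have t : Gt A q (W.a₁ * x * y + W.a₃ * y - (x ^ 3 + W.a₂ * x ^ 2 + W.a₄ * x + W.a₆))
      ((2 : ℕ) * r) := by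
    have hr : r + r < r := by linarith [hy.2]
    have hr' : r + r < 0 := by linarith [hy.2]
    have a : Gt A q (W.a₁ * x * y) (r + r) :=
      (((hW.a₁.mul h hx).mul h hy'.ge).mono (s := r) (by linarith)).gt hr
    have b : Gt A q (W.a₃ * y) (r + r) :=
      ((hW.a₃.mul h hy'.ge).mono (s := r) (by linarith)).gt hr
    have c : Gt A q (x ^ 3 + W.a₂ * x ^ 2 + W.a₄ * x + W.a₆) (r + r) := by
      refine (((((hx.pow h 3).mono ?_).add h ((hW.a₂.mul h (hx.pow h 2)).mono ?_)).add h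
        ((hW.a₄.mul h hx).mono ?_)).add h hW.a₆).gt hr' <;> simp
    have := (a.add h b).sub h c
    push_cast; rw [two_mul]; exact this
  have := h2.add h t
  rw [show y ^ 2 + (W.a₁ * x * y + W.a₃ * y - (x ^ 3 + W.a₂ * x ^ 2 + W.a₄ * x + W.a₆)) = 0 by
    linear_combination he] at this
  exact this.1 rfl

/-- A non-integral point has `ord x = -2w`, `ord y = -3w` with `w > 0`. -/
lemma exists_of_not_ge {x y : L} (he : W.Equation x y) (hx : ¬ Ge A q x 0) :
    ∃ w : ℚ, 0 < w ∧ Is A q x (-2 * w) ∧ Is A q y (-3 * w) := by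
  rw [Ge, not_or, not_le] at hx
  rw [equation_iff] at he
  set X := ord A q x with hX
  have hx' : Is A q x X := ⟨hx.1, rfl⟩
  -- `x ^ 3` dominates the right-hand side
  have hrhs : Is A q (x ^ 3 + W.a₂ * x ^ 2 + W.a₄ * x + W.a₆) (3 * X) := by
    have := (((hx'.pow h 3).add h ((hW.a₂.mul h (hx'.ge.pow h 2)).gt
      (by push_cast; linarith))).add h
      ((hW.a₄.mul h hx'.ge).gt (by push_cast; linarith))).add h (hW.a₆.gt (by push_cast; linarith))
    simpa using this
  refine ⟨-X / 2, by linarith, ?_, ?_⟩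
  · convert hx' using 1; ring
  by_contra hy
  rcases eq_or_ne y 0 with rfl | hy0
  · apply hrhs.1
    linear_combination -he
  set Y := ord A q y with hY
  have hy' : Is A q y Y := ⟨hy0, rfl⟩
  have hne : Y ≠ 3 * X / 2 := fun e => hy ⟨hy0, by rw [← hY, e]; ring⟩
  -- otherwise the two sides have different orders
  rcases lt_or_gt_of_ne hne with hlt | hlt
  · have := ((hy'.pow h 2).add h (((hW.a₁.mul h hx'.ge).mul h hy'.ge).gt
      (by push_cast; linarith))).add h ((hW.a₃.mul h hy'.ge).gt (by push_cast; linarith))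
    rw [he] at this
    have := this.unique hrhs
    push_cast at this; linarith
  · apply hrhs.not_gt
    rw [← he]
    exact ((((hy'.pow h 2).gt (by push_cast; linarith)).add h
      (((hW.a₁.mul h hx'.ge).mul h hy'.ge).gt (by linarith)))).add h
      ((hW.a₃.mul h hy'.ge).gt (by linarith))

/-- The `X`-partial vanishes at points congruent to a point where it does. -/
lemma gt_dX_of_near {x y x' y' : L} (hx : Ge A q x 0) (hx' : Ge A q x' 0)
    (dx : Gt A q (x - x') 0) (dy : Gt A q (y - y') 0) (hd : Gt A q (dX W x' y') 0) :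
    Gt A q (dX W x y) 0 := by
  have e : dX W x y = dX W x' y' +
      (W.a₁ * (y - y') - (3 * (x + x') + 2 * W.a₂) * (x - x')) := by simp only [dX]; ring
  rw [e]
  have c : Ge A q (3 * (x + x') + 2 * W.a₂) 0 :=
    (((ge_three h).mul h (hx.add h hx')).mono (by simp)).add h
      (((ge_two h).mul h hW.a₂).mono (by simp))
  exact hd.add h (((hW.a₁.mul_gt h dy).mono (by simp)).sub h ((c.mul_gt h dx).mono (by simp)))

/-- The `Y`-partial vanishes at points congruent to a point where it does. -/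
lemma gt_dY_of_near {x y x' y' : L} (dx : Gt A q (x - x') 0) (dy : Gt A q (y - y') 0)
    (hd : Gt A q (dY W x' y') 0) : Gt A q (dY W x y) 0 := by
  have e : dY W x y = dY W x' y' + (2 * (y - y') + W.a₁ * (x - x')) := by simp only [dY]; ring
  rw [e]
  exact hd.add h ((((ge_two h).mul_gt h dy).mono (by simp)).add h
    ((hW.a₁.mul_gt h dx).mono (by simp)))

/-- Singular reduction only depends on the reduction. -/
lemma singRed_of_near {x y x' y' : L} (hx : Ge A q x 0) (dx : Gt A q (x - x') 0)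
    (dy : Gt A q (y - y') 0) (hs : SingRed A q W x' y') : SingRed A q W x y :=
  ⟨hx, gt_dX_of_near h hW hx hs.1 dx dy hs.2.1, gt_dY_of_near h hW dx dy hs.2.2⟩

omit h hW in
/-- Negative order is not integral. -/
lemma not_ge_of_neg {x : L} {r : ℚ} (hx : Is A q x r) (hr : r < 0) : ¬ Ge A q x 0 :=
  fun hg => by linarith [hx.le_of_ge hg]

omit hW in
/-- `1` has order `0`. -/
lemma is_one : Is A q (1 : L) 0 := ⟨one_ne_zero, ord_one h⟩

/-- A non-integral slope, two integral x-coordinates: the third is not integral. -/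
lemma not_ge_third {l x₁ x₂ x₃ : L} (e₁ : x₁ + x₂ + x₃ = l ^ 2 + W.a₁ * l - W.a₂)
    (hl : ¬ Ge A q l 0) (hx₁ : Ge A q x₁ 0) (hx₂ : Ge A q x₂ 0) : ¬ Ge A q x₃ 0 := by
  rw [Ge, not_or, not_le] at hl
  set r := ord A q l
  have hl' : Is A q l r := ⟨hl.1, rfl⟩
  have hr : ((2 : ℕ) : ℚ) * r < 0 := by push_cast; linarith [hl.2]
  have := (((hl'.pow h 2).add h ((hW.a₁.mul h hl'.ge).gt (by push_cast; linarith [hl.2]))).sub h
    (hW.a₂.gt hr)).sub h ((hx₁.add h hx₂).gt hr)
  rw [← e₁, add_sub_cancel_left] at this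
  exact not_ge_of_neg this hr

/-- Two integral points with opposite nonsingular reductions add up into the kernel. -/
theorem inE1_add_of_opposite {x₁ y₁ x₂ y₂ : L} (h₁ : W.Nonsingular x₁ y₁)
    (h₂ : W.Nonsingular x₂ y₂) (hx₁ : Ge A q x₁ 0) (hx₂ : Ge A q x₂ 0)
    (dx : Gt A q (x₁ - x₂) 0) (dy : Gt A q (y₁ - W.negY x₂ y₂) 0)
    (hns : ¬ SingRed A q W x₁ y₁) :
    InE1 A q (Point.some x₁ y₁ h₁ + Point.some x₂ y₂ h₂) := by
  by_cases hz : Point.some x₁ y₁ h₁ + Point.some x₂ y₂ h₂ = 0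
  · rw [hz]; trivial
  obtain ⟨l, ν, x₃, y₃, h₃, hc, esum, el₁, el₂⟩ := exists_collinear3 h₁ h₂ hz
  rw [esum, Point.neg_some]
  refine not_ge_third h hW hc.e₁ (fun hl => hns ⟨hx₁, ?_, ?_⟩) hx₁ hx₂
  · have t : Gt A q (x₁ ^ 2 + x₁ * x₂ + x₂ ^ 2 + W.a₂ * (x₁ + x₂) + W.a₄ - W.a₁ * y₁) 0 := by
      rw [← el₂]
      exact (hl.mul_gt h dy).mono (by simp)
    have e : dX W x₁ y₁ = -(x₁ ^ 2 + x₁ * x₂ + x₂ ^ 2 + W.a₂ * (x₁ + x₂) + W.a₄ - W.a₁ * y₁)
        + (-(2 * x₁) - x₂ - W.a₂) * (x₁ - x₂) := by simp only [dX]; ring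
    rw [e]
    have c : Ge A q (-(2 * x₁) - x₂ - W.a₂) 0 :=
      (((((ge_two h).mul h hx₁).mono (by simp)).neg h).sub h hx₂).sub h hW.a₂
    exact (t.neg h).add h ((c.mul_gt h dx).mono (by simp))
  · have e : dY W x₁ y₁ = l * (x₁ - x₂) + (y₁ - W.negY x₂ y₂) + W.a₁ * (x₁ - x₂) := by
      rw [el₁]; simp only [dY, negY]; ring
    rw [e]
    exact (((hl.mul_gt h dx).mono (by simp)).add h dy).add h ((hW.a₁.mul_gt h dx).mono (by simp))

/-- Negation preserves singular reduction. -/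
lemma singRed_neg {x y : L} (hs : SingRed A q W x y) : SingRed A q W x (W.negY x y) := by
  have ex : dX W x (W.negY x y) = dX W x y - W.a₁ * dY W x y := by
    simp only [dX, dY, negY]; ring
  have ey : dY W x (W.negY x y) = -dY W x y := by simp only [dY, negY]; ring
  exact ⟨hs.1, ex ▸ hs.2.1.sub h ((hW.a₁.mul_gt h hs.2.2).mono (by simp)), ey ▸ hs.2.2.neg h⟩

/-- `E₀` is closed under negation. -/
lemma InE0.neg : ∀ {P : W.Point}, InE0 A q P → InE0 A q (-P)
  | .zero, _ => trivial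
  | .some x y _, hP => fun hs => hP (by
      have := singRed_neg h hW hs
      rwa [negY_negY] at this)

omit h hW in
/-- `E₁` is closed under negation. -/
lemma InE1.neg : ∀ {P : W.Point}, InE1 A q P → InE1 A q (-P)
  | .zero, _ => trivial
  | .some _ _ _, hP => hP

/-! ### the formal parameter -/

omit h hW [CharZero L] [Algebra.IsAlgebraic ℚ L] in
/-- `t = -x/y`. -/
def tpar : W.Point → L
  | .zero => 0
  | .some x y _ => -x / y

omit h hW in
/-- The parameter of `0` is `0`. -/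
lemma tpar_zero : tpar (0 : W.Point) = (0 : L) := rfl

/-- A point of the kernel of reduction and its negative have parameters cancelling beyond their
order. -/
lemma gt_neg_add {x y : L} {v w : ℚ} (hw : 0 < w) (hv : w ≤ v)
    (hx : Is A q x (-2 * v)) (hy : Is A q y (-3 * v)) :
    Gt A q (-x / y + -x / W.negY x y) w := by
  have hy' : Is A q (W.negY x y) (-3 * v) := by
    have := (hy.neg h).sub h ((hW.a₁.mul h hx.ge).gt (show -3 * v < 0 + -2 * v by linarith))
    have := this.sub h (hW.a₃.gt (show -3 * v < 0 by linarith))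
    exact this
  have hy0 := hy.1
  have hy0' := hy'.1
  have e : -x / y + -x / W.negY x y = (x * (W.a₁ * x + W.a₃)) / (y * W.negY x y) := by
    rw [div_add_div _ _ hy0 hy0']
    congr 1
    simp only [negY]; ring
  rw [e]
  have hb : Ge A q (W.a₁ * x + W.a₃) (-2 * v) :=
    ((hW.a₁.mul h hx.ge).mono (by simp)).add h (hW.a₃.mono (by linarith))
  exact ((hx.ge.mul h hb).div h (hy.mul h hy')).gt (by linarith)

omit hW in
/-- The parameter of a point with `ord x = -2v` has order `v`. -/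
lemma ge_tpar_of {x y : L} {v : ℚ} (hx : Is A q x (-2 * v)) (hy : Is A q y (-3 * v)) :
    Is A q (-x / y) v := by
  have := (hx.neg h).div h hy
  convert this using 1; ring

/-- Third intersection of a line through two points of the kernel of reduction. -/
lemma third_in_kernel {l ν x₁ y₁ x₂ y₂ x₃ y₃ : L} (hc : Collinear3 W l ν x₁ y₁ x₂ y₂ x₃ y₃)
    (he₃ : W.Equation x₃ y₃) {μ ν' : L} (hμν : ν' * l = μ) (hν : ν' * ν = -1)
    {v₁ v₂ w : ℚ} (hw : 0 < w) (hv₁ : w ≤ v₁) (hv₂ : w ≤ v₂) (hwmin : w = v₁ ∨ w = v₂)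
    (hx₁ : Is A q x₁ (-2 * v₁)) (hy₁ : Is A q y₁ (-3 * v₁))
    (hx₂ : Is A q x₂ (-2 * v₂)) (hy₂ : Is A q y₂ (-3 * v₂)) (hμ : Ge A q μ (2 * w)) :
    ∃ v₃, w ≤ v₃ ∧ Is A q x₃ (-2 * v₃) ∧ Is A q y₃ (-3 * v₃) ∧
      Gt A q (-x₁ / y₁ + -x₂ / y₂ + -x₃ / y₃) w := by
  have hν0 : ν ≠ 0 := fun e => by simp [e] at hν
  have hν'0 : ν' ≠ 0 := fun e => by simp [e] at hν
  have hl : l = -μ * ν := by
    apply mul_left_cancel₀ hν'0
    linear_combination hμν + μ * hν
  have hν'ge : Ge A q ν' (2 * w + v₂) := by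
    have e : ν' = -1 / y₂ - μ * (-x₂ / y₂) := by
      field_simp [hy₂.1]
      linear_combination ν' * hc.line₂ + x₂ * hμν + hν
    rw [e]
    have h1 : Is A q (-1 / y₂) (3 * v₂) := by
      have := ((is_one h).neg h).div h hy₂
      convert this using 1; ring
    exact (h1.ge.mono (by linarith)).sub h (hμ.mul h (ge_tpar_of h hx₂ hy₂).ge)
  have hνle : ord A q ν ≤ -(2 * w + v₂) := by
    have h1 := ord_mul h hν'0 hν0
    rw [hν, ord_neg h, ord_one h] at h1
    have := hν'ge.resolve_left hν'0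
    linarith
  set D := 1 + W.a₂ * μ + W.a₄ * μ ^ 2 + W.a₆ * μ ^ 3 with hD
  -- substitute the line into the equation: Vieta for `y₁ y₂ y₃`
  have hDy : y₁ * y₂ * y₃ = D * ν ^ 3 := by
    rw [hc.line₁, hc.line₂, hc.line₃, hD]
    linear_combination (ν ^ 2 * l) * hc.e₁ + (ν * l ^ 2) * hc.e₂ + l ^ 3 * hc.e₃
      + (ν ^ 2 * W.a₂ * -1 + ν * W.a₄ * (l - μ * ν) - W.a₆ *
        (l ^ 2 - l * μ * ν + μ ^ 2 * ν ^ 2)) * hl
  have hDunit : Is A q D 0 := by
    have h0 : Is A q (1 : L) 0 := is_one h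
    refine ((h0.add h ((hW.a₂.mul h hμ).gt (by linarith))).add h
      ((hW.a₄.mul h (hμ.pow h 2)).gt (by push_cast; linarith))).add h
      ((hW.a₆.mul h (hμ.pow h 3)).gt (by push_cast; linarith))
  have hy₃0 : y₃ ≠ 0 := fun e => by
    rw [e, mul_zero] at hDy
    exact (mul_ne_zero hDunit.1 (pow_ne_zero 3 hν0)) hDy.symm
  have hy₃le : ord A q y₃ ≤ -3 * w := by
    have h1 := congrArg (ord A q) hDy
    rw [ord_mul h (mul_ne_zero hy₁.1 hy₂.1) hy₃0, ord_mul h hy₁.1 hy₂.1, hy₁.2, hy₂.2,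
      ord_mul h hDunit.1 (pow_ne_zero 3 hν0), hDunit.2, ord_pow h] at h1
    push_cast at h1
    -- the first point may be deeper than the second one, so use symmetry below
    have hν'ge₁ : Ge A q ν' (2 * w + v₁) := by
      have e : ν' = -1 / y₁ - μ * (-x₁ / y₁) := by
        field_simp [hy₁.1]
        linear_combination ν' * hc.line₁ + x₁ * hμν + hν
      rw [e]
      have h1 : Is A q (-1 / y₁) (3 * v₁) := by
        have := ((is_one h).neg h).div h hy₁
        convert this using 1; ring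
      exact (h1.ge.mono (by linarith)).sub h (hμ.mul h (ge_tpar_of h hx₁ hy₁).ge)
    have hνle₁ : ord A q ν ≤ -(2 * w + v₁) := by
      have h1 := ord_mul h hν'0 hν0
      rw [hν, ord_neg h, ord_one h] at h1
      have := hν'ge₁.resolve_left hν'0
      linarith
    rcases hwmin with hle | hle <;> linarith
  have hx₃ : ¬ Ge A q x₃ 0 := fun hx => by
    linarith [(ge_y h hW he₃ hx).resolve_left hy₃0]
  obtain ⟨v₃, hv₃, hx₃', hy₃'⟩ := exists_of_not_ge h hW he₃ hx₃
  refine ⟨v₃, ?_, hx₃', hy₃', ?_⟩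
  · rw [hy₃'.2] at hy₃le; linarith
  · set G := W.a₁ * μ + W.a₃ * μ ^ 2 + (W.a₂ + 2 * W.a₄ * μ + 3 * W.a₆ * μ ^ 2) * ν' with hG
    have hsum : x₁ * y₂ * y₃ + x₂ * y₁ * y₃ + x₃ * y₁ * y₂ = G * ν ^ 3 := by
      have hG' : G * ν ^ 3 = W.a₁ * μ * ν ^ 3 + W.a₃ * μ ^ 2 * ν ^ 3
          - (W.a₂ + 2 * W.a₄ * μ + 3 * W.a₆ * μ ^ 2) * ν ^ 2 := by
        rw [hG]
        linear_combination (W.a₂ + 2 * W.a₄ * μ + 3 * W.a₆ * μ ^ 2) * ν ^ 2 * hν
      rw [hG', hc.line₁, hc.line₂, hc.line₃, hl]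
      linear_combination (ν ^ 2) * hc.e₁ + (2 * ν * (-μ * ν)) * hc.e₂
        + (3 * (-μ * ν) ^ 2) * hc.e₃
        + (ν ^ 2) * ((l + (-μ * ν)) + W.a₁) * hl
        + (2 * ν * (-μ * ν)) * (-2 * ν - W.a₃) * hl
    have e : -x₁ / y₁ + -x₂ / y₂ + -x₃ / y₃ = -(G / D) := by
      have := hy₁.1; have := hy₂.1; have := hDunit.1
      field_simp
      linear_combination (-D) * hsum + G * hDy
    rw [e]
    have hν'w : Ge A q ν' (2 * w) := hν'ge.mono (by linarith)
    have t1 : Gt A q (W.a₁ * μ) w := (hW.a₁.mul h hμ).gt (by linarith)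
    have t2 : Gt A q (W.a₃ * μ ^ 2) w := (hW.a₃.mul h (hμ.pow h 2)).gt (by push_cast; linarith)
    have hμ0 : Ge A q μ 0 := hμ.mono (by linarith)
    have c : Ge A q (W.a₂ + 2 * W.a₄ * μ + 3 * W.a₆ * μ ^ 2) 0 :=
      (hW.a₂.add h ((((ge_two h).mul h hW.a₄).mul h hμ0).mono (by simp))).add h
        ((((ge_three h).mul h hW.a₆).mul h (hμ0.pow h 2)).mono (by simp))
    have hGgt : Gt A q G w := (t1.add h t2).add h ((c.mul h hν'w).gt (by linarith))
    have := (hGgt.div h hDunit).neg h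
    simpa using this

/-- The line through two points of the kernel of reduction, rewritten in the coordinates
`t = -x / y`, `s = -1 / y` as `s = μ t + ν'`: here `μ` has positive order. -/
private lemma exists_chord_param {l ν x₁ y₁ x₂ y₂ : L} (h₁ : W.Nonsingular x₁ y₁)
    (h₂ : W.Nonsingular x₂ y₂) (hz : Point.some x₁ y₁ h₁ + Point.some x₂ y₂ h₂ ≠ 0)
    (el₁ : l * (x₁ - x₂) = y₁ - y₂)
    (el₂ : l * (y₁ - W.negY x₂ y₂) =
      x₁ ^ 2 + x₁ * x₂ + x₂ ^ 2 + W.a₂ * (x₁ + x₂) + W.a₄ - W.a₁ * y₁)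
    (hl₁ : y₁ = l * x₁ + ν)
    {v₁ v₂ w₀ : ℚ} (hw₀pos : 0 < w₀) (hv₁ : w₀ ≤ v₁) (hv₂ : w₀ ≤ v₂)
    (hx₁ : Is A q x₁ (-2 * v₁)) (hy₁ : Is A q y₁ (-3 * v₁))
    (hx₂ : Is A q x₂ (-2 * v₂)) (hy₂ : Is A q y₂ (-3 * v₂)) :
    ∃ μ ν' : L, Ge A q μ (2 * w₀) ∧ ν' * l = μ ∧ ν' * ν = -1 := by
  have ht₁ := ge_tpar_of h hx₁ hy₁
  have ht₂ := ge_tpar_of h hx₂ hy₂
  have hs : ∀ {y : L} {v : ℚ}, Is A q y (-3 * v) → w₀ ≤ v → Ge A q (-1 / y) (3 * w₀) := by
    intro y v hy hle
    have := (((is_one h).neg h).div h hy).ge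
    exact this.mono (by linarith)
  set t₁ := -x₁ / y₁ with hdt₁
  set t₂ := -x₂ / y₂ with hdt₂
  set s₁ := -1 / y₁ with hds₁
  set s₂ := -1 / y₂ with hds₂
  have gt₁ : Ge A q t₁ w₀ := ht₁.ge.mono hv₁
  have gt₂ : Ge A q t₂ w₀ := ht₂.ge.mono hv₂
  have gs₁ : Ge A q s₁ (3 * w₀) := hs hy₁ hv₁
  have gs₂ : Ge A q s₂ (3 * w₀) := hs hy₂ hv₂
  set num := t₁ ^ 2 + t₁ * t₂ + t₂ ^ 2 + W.a₁ * s₁ + W.a₂ * (t₁ + t₂) * s₁ + W.a₄ * s₁ ^ 2
    with hnum
  set den := 1 - W.a₁ * t₂ - W.a₂ * t₂ ^ 2 - W.a₃ * (s₁ + s₂) - W.a₄ * t₂ * (s₁ + s₂)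
    - W.a₆ * (s₁ ^ 2 + s₁ * s₂ + s₂ ^ 2) with hden
  -- `num / den` is the slope in the `(t, s)`-plane
  have gnum : Ge A q num (2 * w₀) := by
    refine ((((((gt₁.pow h 2).mono ?_).add h ((gt₁.mul h gt₂).mono ?_)).add h
      ((gt₂.pow h 2).mono ?_)).add h ((hW.a₁.mul h gs₁).mono ?_)).add h
      (((hW.a₂.mul h (gt₁.add h gt₂)).mul h gs₁).mono ?_)).add h
      ((hW.a₄.mul h (gs₁.pow h 2)).mono ?_) <;> push_cast <;> linarith
  have gden : Is A q den 0 := by
    refine (((((is_one h).sub h ((hW.a₁.mul h gt₂).gt ?_)).sub h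
      ((hW.a₂.mul h (gt₂.pow h 2)).gt ?_)).sub h ((hW.a₃.mul h (gs₁.add h gs₂)).gt ?_)).sub h
      (((hW.a₄.mul h gt₂).mul h (gs₁.add h gs₂)).gt ?_)).sub h ?_
    · linarith
    · push_cast; linarith
    · linarith
    · linarith
    · refine ((hW.a₆.mul h ((((gs₁.pow h 2).mono ?_).add h ((gs₁.mul h gs₂).mono le_rfl)).add h
        ((gs₂.pow h 2).mono ?_)))).gt ?_ <;> push_cast <;> linarith
  set μ := num / den with hμdef
  have gμ : Ge A q μ (2 * w₀) := by simpa using gnum.div h gden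
  have hμden : μ * den = num := div_mul_cancel₀ _ gden.1
  set ν' := s₁ - μ * t₁ with hν'
  have hy₁0 := hy₁.1
  have hy₂0 := hy₂.1
  have q₁ := (equation_iff ..).mp h₁.1
  have q₂ := (equation_iff ..).mp h₂.1
  have f₁ : ν' * y₁ = -1 + μ * x₁ := by
    simp only [hν', hdt₁, hds₁]; field_simp; ring
  have key : ν' * l = μ := by
    have hxy : ¬(x₁ = x₂ ∧ y₁ = W.negY x₂ y₂) := fun hh => hz (Point.add_of_Y_eq hh.1 hh.2)
    by_cases hx : x₁ = x₂
    · have hy : y₁ ≠ W.negY x₂ y₂ := fun e => hxy ⟨hx, e⟩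
      have hyy := Y_eq_of_Y_ne h₁.1 h₂.1 hx hy
      subst hx hyy
      have hψ : y₁ - W.negY x₁ y₁ ≠ 0 := sub_ne_zero.mpr hy
      set N := x₁ ^ 2 + x₁ * x₁ + x₁ ^ 2 + W.a₂ * (x₁ + x₁) + W.a₄ - W.a₁ * y₁ with hN
      have eN : μ * (den * y₁ ^ 2) = N := by
        rw [← mul_assoc, hμden, hnum, hN]
        simp only [hdt₁, hdt₂, hds₁]
        field_simp
        ring
      have eD : x₁ * N - (y₁ - W.negY x₁ y₁) * y₁ = den * y₁ ^ 2 := by
        rw [hden, hN]
        simp only [hdt₂, hds₁, hds₂, negY]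
        field_simp
        linear_combination (-3 : L) * q₁
      apply mul_right_cancel₀ hψ
      apply mul_right_cancel₀ hy₁0
      linear_combination (l * (y₁ - W.negY x₁ y₁)) * f₁ + (μ * x₁ - 1) * el₂ + μ * eD + eN
    · have hd := sub_ne_zero.mpr hx
      have eds : (s₁ - s₂) * den = (t₁ - t₂) * num := by
        have E₁ : s₁ = t₁ ^ 3 + W.a₁ * t₁ * s₁ + W.a₂ * t₁ ^ 2 * s₁ + W.a₃ * s₁ ^ 2
            + W.a₄ * t₁ * s₁ ^ 2 + W.a₆ * s₁ ^ 3 := by
          simp only [hdt₁, hds₁]; field_simp; linear_combination -q₁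
        have E₂ : s₂ = t₂ ^ 3 + W.a₁ * t₂ * s₂ + W.a₂ * t₂ ^ 2 * s₂ + W.a₃ * s₂ ^ 2
            + W.a₄ * t₂ * s₂ ^ 2 + W.a₆ * s₂ ^ 3 := by
          simp only [hdt₂, hds₂]; field_simp; linear_combination -q₂
        rw [hden, hnum]
        linear_combination E₁ - E₂
      have eds' : s₁ - s₂ = μ * (t₁ - t₂) := by
        apply mul_right_cancel₀ gden.1
        rw [eds, mul_comm μ, mul_assoc, hμden]
      have f₂ : ν' * y₂ = -1 + μ * x₂ := by
        have : ν' = s₂ - μ * t₂ := by rw [hν']; linear_combination eds'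
        simp only [this, hdt₂, hds₂]; field_simp; ring
      apply mul_right_cancel₀ hd
      linear_combination ν' * el₁ + f₁ - f₂
  have hνν : ν' * ν = -1 := by
    linear_combination f₁ - x₁ * key - ν' * hl₁
  exact ⟨μ, ν', gμ, key, hνν⟩

/-- The kernel of reduction is closed under addition, and the formal parameter is additive to
higher order. -/
theorem add_kernel {P Q : W.Point} (hP : InE1 A q P) (hQ : InE1 A q Q) {w : ℚ} (hw : 0 < w)
    (hPw : Ge A q (tpar P) w) (hQw : Ge A q (tpar Q) w) :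
    InE1 A q (P + Q) ∧ Gt A q (tpar (P + Q) - tpar P - tpar Q) w := by
  rcases P with _ | ⟨x₁, y₁, h₁⟩
  · rw [← Point.zero_def, zero_add]
    exact ⟨hQ, by simp [tpar, gt_zero]⟩
  rcases Q with _ | ⟨x₂, y₂, h₂⟩
  · rw [← Point.zero_def, add_zero]
    exact ⟨hP, by simp [tpar, gt_zero]⟩
  obtain ⟨v₁, hv₁, hx₁, hy₁⟩ := exists_of_not_ge h hW h₁.1 hP
  obtain ⟨v₂, hv₂, hx₂, hy₂⟩ := exists_of_not_ge h hW h₂.1 hQ
  have ht₁ := ge_tpar_of h hx₁ hy₁
  have ht₂ := ge_tpar_of h hx₂ hy₂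
  have hw₁ : w ≤ v₁ := ht₁.le_of_ge hPw
  have hw₂ : w ≤ v₂ := ht₂.le_of_ge hQw
  by_cases hz : Point.some x₁ y₁ h₁ + Point.some x₂ y₂ h₂ = 0
  · refine ⟨hz ▸ trivial, ?_⟩
    have e := eq_neg_of_add_eq_zero_left hz
    rw [Point.neg_some] at e
    obtain ⟨ex, ey⟩ := Point.some.inj e
    rw [hz]
    subst ex ey
    have := (gt_neg_add h hW hw hw₂ hx₂ hy₂).neg h
    convert this using 1
    simp only [tpar]
    ring
  obtain ⟨l, ν, x₃, y₃, h₃, hc, esum, el₁, el₂⟩ := exists_collinear3 h₁ h₂ hz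
  set w₀ := min v₁ v₂ with hw₀
  have hw₀pos : 0 < w₀ := lt_min hv₁ hv₂
  -- pass to the chord in the coordinates at the origin
  obtain ⟨μ, ν', gμ, key, hνν⟩ := exists_chord_param h hW h₁ h₂ hz el₁ el₂ hc.line₁ hw₀pos
    (min_le_left _ _) (min_le_right _ _) hx₁ hy₁ hx₂ hy₂
  obtain ⟨v₃, hv₃, hx₃, hy₃, hsum⟩ := third_in_kernel h hW hc h₃.1 key hνν hw₀pos
    (min_le_left _ _) (min_le_right _ _)
    (by rcases le_total v₁ v₂ with e | e
        · exact Or.inl (min_eq_left e)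
        · exact Or.inr (min_eq_right e)) hx₁ hy₁ hx₂ hy₂ gμ
  rw [esum, Point.neg_some]
  refine ⟨not_ge_of_neg hx₃ (by linarith), ?_⟩
  have hneg := gt_neg_add h hW hw₀pos hv₃ hx₃ hy₃
  have := (hneg.sub h hsum).mono (le_min hw₁ hw₂)
  convert this using 1
  simp only [tpar]
  ring

/-- A point of the kernel has parameter of positive order. -/
lemma InE1.exists_ge : ∀ {P : W.Point}, InE1 A q P → ∃ w : ℚ, 0 < w ∧ Ge A q (tpar P) w
  | .zero, _ => ⟨1, one_pos, Or.inl rfl⟩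
  | .some x y hns, hP => by
    obtain ⟨v, hv, hx, hy⟩ := exists_of_not_ge h hW hns.1 hP
    exact ⟨v, hv, (ge_tpar_of h hx hy).ge⟩

/-- The kernel of reduction is closed under addition. -/
theorem InE1.add {P Q : W.Point} (hP : InE1 A q P) (hQ : InE1 A q Q) : InE1 A q (P + Q) := by
  obtain ⟨a, ha, hPa⟩ := hP.exists_ge h hW
  obtain ⟨b, hb, hQb⟩ := hQ.exists_ge h hW
  exact (add_kernel h hW hP hQ (lt_min ha hb) (hPa.mono (min_le_left _ _))
    (hQb.mono (min_le_right _ _))).1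

/-- The formal parameter of a multiple is the multiple of the parameter, to higher order. -/
theorem tpar_nsmul {P : W.Point} (hP : InE1 A q P) {w : ℚ} (hw : 0 < w)
    (hPw : Ge A q (tpar P) w) : ∀ n : ℕ,
      InE1 A q (n • P) ∧ Gt A q (tpar (n • P) - (n : L) * tpar P) w := by
  intro n
  induction n with
  | zero => simp [inE1_zero, gt_zero, tpar_zero]
  | succ n ih =>
    have hge : Ge A q (tpar (n • P)) w := by
      have := ih.2.ge.add h ((ge_natCast h n).mul h hPw |>.mono (le_of_eq (zero_add w).symm))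
      rwa [sub_add_cancel] at this
    obtain ⟨h1, h2⟩ := add_kernel h hW ih.1 hP hw hge hPw
    rw [succ_nsmul]
    refine ⟨h1, ?_⟩
    have := h2.add h ih.2
    convert this using 1
    push_cast
    ring

/-- No torsion of order prime to `q` in the kernel of reduction. -/
theorem eq_zero_of_nsmul_eq_zero : ∀ {P : W.Point}, InE1 A q P → ∀ {n : ℕ}, ¬ q ∣ n →
    n • P = 0 → P = 0
  | .zero, _, _, _, _ => rfl
  | .some x y hns, hP, n, hn, he => by
    exfalso
    obtain ⟨v, hv, hx, hy⟩ := exists_of_not_ge h hW hns.1 hP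
    have ht := ge_tpar_of h hx hy
    have h2 := (tpar_nsmul h hW hP hv ht.ge n).2
    rw [he, tpar_zero, zero_sub] at h2
    have h3 := (is_natCast (A := A) h hn).mul h ht
    rw [zero_add] at h3
    exact (h3.neg h).not_gt h2

/-- The points of nonsingular reduction are closed under addition. -/
theorem InE0.add {P Q : W.Point} (hP : InE0 A q P) (hQ : InE0 A q Q) : InE0 A q (P + Q) := by
  rcases P with _ | ⟨x₁, y₁, h₁⟩
  · rwa [← Point.zero_def, zero_add]
  rcases Q with _ | ⟨x₂, y₂, h₂⟩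
  · rwa [← Point.zero_def, add_zero]
  by_cases hz : Point.some x₁ y₁ h₁ + Point.some x₂ y₂ h₂ = 0
  · rw [hz]; trivial
  by_cases hb : ¬ Ge A q x₁ 0 ∧ ¬ Ge A q x₂ 0
  · exact (InE1.add h hW (P := Point.some x₁ y₁ h₁) (Q := Point.some x₂ y₂ h₂) hb.1 hb.2).inE0
  obtain ⟨l, ν, x₃, y₃, h₃, hc, esum, el₁, el₂⟩ := exists_collinear3 h₁ h₂ hz
  rw [esum]
  suffices H : ¬ SingRed A q W x₃ y₃ from InE0.neg h hW (P := Point.some x₃ y₃ h₃) H
  intro hs
  have hP' : ¬ SingRed A q W x₁ y₁ := hP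
  have hQ' : ¬ SingRed A q W x₂ y₂ := hQ
  by_cases hl : Ge A q l 0
  · -- all three points are integral
    have hint : Ge A q x₁ 0 ∧ Ge A q x₂ 0 := by
      have : Ge A q (x₁ + x₂) 0 := by
        have := ((((hl.pow h 2).mono (by simp)).add h ((hW.a₁.mul h hl).mono (by simp))).sub h
          hW.a₂).sub h hs.1
        rw [← hc.e₁] at this
        rwa [add_sub_cancel_right] at this
      rcases not_and_or.mp hb with e | e
      · exact ⟨not_not.mp e, by simpa using this.sub h (not_not.mp e)⟩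
      · exact ⟨by simpa using this.sub h (not_not.mp e), not_not.mp e⟩
    have hprod : Gt A q ((x₃ - x₁) * (x₃ - x₂)) 0 := by
      have e := (hc.swap₂₃.swap₁₂).prod_sub
      rw [e]
      exact (hs.2.1.neg h).sub h ((hl.mul_gt h hs.2.2).mono (by simp))
    have hor : Gt A q (x₁ - x₃) 0 ∨ Gt A q (x₂ - x₃) 0 := by
      by_contra hh
      rw [not_or] at hh
      have i₁ := (hint.1.sub h hs.1).is_of_not_gt hh.1
      have i₂ := (hint.2.sub h hs.1).is_of_not_gt hh.2
      have := i₁.mul h i₂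
      rw [zero_add, show (x₁ - x₃) * (x₂ - x₃) = (x₃ - x₁) * (x₃ - x₂) by ring] at this
      exact this.not_gt hprod
    rcases hor with d | d
    · refine hP' (singRed_of_near h hW hint.1 d ?_ hs)
      rw [hc.line₁, hc.line₃, show l * x₁ + ν - (l * x₃ + ν) = l * (x₁ - x₃) by ring]
      exact (hl.mul_gt h d).mono (by simp)
    · refine hQ' (singRed_of_near h hW hint.2 d ?_ hs)
      rw [hc.line₂, hc.line₃, show l * x₂ + ν - (l * x₃ + ν) = l * (x₂ - x₃) by ring]
      exact (hl.mul_gt h d).mono (by simp)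
  · -- non-integral slope: one summand is in the kernel, the other reduces like the sum
    have main : ∀ {xa ya xb yb : L}, Collinear3 W l ν xa ya xb yb x₃ y₃ → Ge A q xb 0 →
        SingRed A q W xb yb := by
      intro xa ya xb yb hcab hxb
      rw [Ge, not_or, not_le] at hl
      set r := ord A q l with hr
      have hl' : Is A q l r := ⟨hl.1, rfl⟩
      have hxa : Is A q xa ((2 : ℕ) * r) := by
        have hneg : ((2 : ℕ) : ℚ) * r < 0 := by push_cast; linarith [hl.2]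
        have := (((hl'.pow h 2).add h ((hW.a₁.mul h hl'.ge).gt
          (by push_cast; linarith [hl.2]))).sub h (hW.a₂.gt hneg)).sub h
          ((hxb.add h hs.1).gt hneg)
        rw [← hcab.e₁] at this
        rwa [show xa + xb + x₃ - (xb + x₃) = xa by ring] at this
      have hprod : Gt A q ((x₃ - xa) * (x₃ - xb)) r := by
        rw [(hcab.swap₂₃.swap₁₂).prod_sub]
        exact ((hs.2.1.neg h).mono hl.2.le).sub h ((hl'.ge.mul_gt h hs.2.2).mono (by simp))
      have hd : Is A q (x₃ - xa) ((2 : ℕ) * r) := by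
        have := (hxa.sub h (hs.1.gt (by push_cast; linarith [hl.2]))).neg h
        rwa [neg_sub] at this
      have dx : Gt A q (xb - x₃) (-r) := by
        have := (hprod.div h hd).neg h
        rw [show -((x₃ - xa) * (x₃ - xb) / (x₃ - xa)) = xb - x₃ by
          rw [mul_comm, mul_div_assoc, div_self hd.1, mul_one, neg_sub]] at this
        exact this.mono (by push_cast; linarith)
      refine singRed_of_near h hW hxb (dx.mono (by linarith [hl.2])) ?_ hs
      rw [hcab.line₂, hcab.line₃, show l * xb + ν - (l * x₃ + ν) = l * (xb - x₃) by ring]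
      exact (hl'.ge.mul_gt h dx).mono (by simp)
    rcases not_and_or.mp hb with e | e
    · exact hP' (main hc.swap₁₂ (not_not.mp e))
    · exact hQ' (main hc (not_not.mp e))

/-- `E₀` is closed under multiples. -/
theorem InE0.nsmul {P : W.Point} (hP : InE0 A q P) : ∀ n : ℕ, InE0 A q (n • P)
  | 0 => by rw [zero_smul]; trivial
  | n + 1 => by rw [succ_nsmul]; exact (InE0.nsmul hP n).add h hW hP

/-- If a multiple prime to the order lies in `E₀` then so does the point. -/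
theorem inE0_of_nsmul {P : W.Point} {n m : ℕ} (hn : n • P = 0) (hco : m.Coprime n) (hn0 : 0 < n)
    (hm : InE0 A q (m • P)) : InE0 A q P := by
  by_cases h1 : n = 1
  · subst h1; rw [one_smul] at hn; rw [hn]; trivial
  obtain ⟨k, -, hk⟩ := Nat.exists_mul_mod_eq_one_of_coprime hco (show 1 < n by omega)
  have := hm.nsmul h hW k
  rw [← mul_nsmul] at this
  rw [← Nat.mod_add_div (m * k) n, add_smul, mul_nsmul, hn, smul_zero, add_zero, hk] at this
  rwa [one_smul] at this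

end Fermat.EC.Red
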