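import Fermat.Agent.EC.Component
import Fermat.Agent.EC.PointIso
import Fermat.Agent.EC.NodeModel
import Mathlib.FieldTheory.IsAlgClosed.AlgebraicClosure
import Fermat.Prelude.Def_FLTPrelim_GaloisRep
import Fermat.Agent.GR.RatInstances
import Mathlib.FieldTheory.Galois.Infinite

/-!
# Inertia on torsion points of a semistable curve over `ℤ`

`smul_sub_smul_sub` (unipotence) and `smul_eq_self` (unramified when `p ∣ ord Δ`, which gives S05),
from `Component` and `NodeModel`.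
-/

set_option autoImplicit false

open WeierstrassCurve WeierstrassCurve.Affine Fermat.EC.Val Fermat.EC.Red Fermat.EC.Node
open scoped WeierstrassCurve.Affine

namespace Fermat.EC

local notation "ℚbar" => AlgebraicClosure ℚ

/-- An algebraic number fixed by every automorphism is rational. -/
lemma exists_rat_of_fixed {z : ℚbar} (hz : ∀ σ : ℚbar ≃ₐ[ℚ] ℚbar, σ z = z) :
    ∃ r : ℚ, (r : ℚbar) = z := by
  obtain ⟨r, hr⟩ := IntermediateField.mem_bot.mp ((InfiniteGalois.mem_bot_iff_fixed z).mpr hz)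
  exact ⟨r, by rw [← hr, eq_ratCast]⟩

/-- `W` as a curve over `ℚ̄`. -/
noncomputable abbrev overQbar (W : WeierstrassCurve ℤ) : Affine ℚbar :=
  ((W.map (Int.castRingHom ℚ))⁄ℚbar)

variable (W : WeierstrassCurve ℤ)

/-- The coefficient `a₁` over `ℚ̄`. -/
lemma overQbar_a₁ : (overQbar W).a₁ = (W.a₁ : ℚbar) := by simp [overQbar]
/-- The coefficient `a₂` over `ℚ̄`. -/
lemma overQbar_a₂ : (overQbar W).a₂ = (W.a₂ : ℚbar) := by simp [overQbar]
/-- The coefficient `a₃` over `ℚ̄`. -/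
lemma overQbar_a₃ : (overQbar W).a₃ = (W.a₃ : ℚbar) := by simp [overQbar]
/-- The coefficient `a₄` over `ℚ̄`. -/
lemma overQbar_a₄ : (overQbar W).a₄ = (W.a₄ : ℚbar) := by simp [overQbar]
/-- The coefficient `a₆` over `ℚ̄`. -/
lemma overQbar_a₆ : (overQbar W).a₆ = (W.a₆ : ℚbar) := by simp [overQbar]

/-- The discriminant over `ℚ̄`. -/
lemma overQbar_Δ : (overQbar W).Δ = (W.Δ : ℚbar) := by
  simp [overQbar, WeierstrassCurve.baseChange, map_Δ]

variable {A : ValuationSubring ℚbar} {q : ℕ}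

/-- An integral curve is integral at every place. -/
lemma integralAt_overQbar (h : IsPlace A q) : IntegralAt A q (overQbar W) :=
  ⟨overQbar_a₁ W ▸ ge_intCast h _, overQbar_a₂ W ▸ ge_intCast h _, overQbar_a₃ W ▸ ge_intCast h _,
    overQbar_a₄ W ▸ ge_intCast h _, overQbar_a₆ W ▸ ge_intCast h _⟩

/-- `σ` on affine points. -/
lemma smul_some (σ : ℚbar ≃ₐ[ℚ] ℚbar) {x y : ℚbar}
    (hns : (overQbar W).Nonsingular x y) :
    ∃ h', σ • (Point.some x y hns : (overQbar W).Point) = Point.some (σ x) (σ y) h' := by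
  exact ⟨_, rfl⟩

/-- The Galois action fixes the origin. -/
lemma gal_smul_zero (σ : ℚbar ≃ₐ[ℚ] ℚbar) : σ • (0 : (overQbar W).Point) = 0 := rfl

/-- The Galois action respects subtraction. -/
lemma gal_smul_sub (σ : ℚbar ≃ₐ[ℚ] ℚbar) (P Q : (overQbar W).Point) :
    σ • (P - Q) = σ • P - σ • Q :=
  map_sub (Point.map σ.toAlgHom) P Q

/-- The Galois action respects multiples. -/
lemma gal_smul_nsmul (σ : ℚbar ≃ₐ[ℚ] ℚbar) (n : ℕ) (P : (overQbar W).Point) :
    σ • (n • P) = n • (σ • P) :=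
  map_nsmul (Point.map σ.toAlgHom) n P

/-- For `n • P = 0` also `n • (σ P - P) = 0`. -/
lemma nsmul_gal_sub {σ : ℚbar ≃ₐ[ℚ] ℚbar} {n : ℕ} {P : (overQbar W).Point} (hP : n • P = 0) :
    n • (σ • P - P) = 0 := by
  rw [nsmul_sub, ← gal_smul_nsmul, hP, gal_smul_zero, sub_zero]

/-- At a prime of good reduction no point has singular reduction. -/
lemma singRed_absurd_of_good (h : IsPlace A q) (hgood : ¬ (q : ℤ) ∣ W.Δ) {x y : ℚbar}
    (he : (overQbar W).Equation x y) : ¬ SingRed A q (overQbar W) x y := by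
  rintro ⟨hx, hdx, hdy⟩
  have hΔ : Is A q (overQbar W).Δ 0 := overQbar_Δ W ▸ is_intCast h hgood
  set V : WeierstrassCurve ℚbar := VariableChange.mk 1 x 0 y • (overQbar W : WeierstrassCurve ℚbar)
    with hV
  have hW := integralAt_overQbar W h
  have two : Ge A q (2 : ℚbar) 0 := ge_two h
  have three : Ge A q (3 : ℚbar) 0 := ge_three h
  have a₁ : Ge A q V.a₁ 0 := by
    rw [hV, variableChange_a₁]; simpa using hW.a₁
  have a₂ : Ge A q V.a₂ 0 := by
    rw [hV, variableChange_a₂]; simpa using hW.a₂.add h ((three.mul h hx).mono (by simp))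
  have a₃ : Gt A q V.a₃ 0 := by
    rw [hV, variableChange_a₃]
    convert hdy using 1
    simp only [inv_one, Units.val_one, dY]; ring
  have a₄ : Gt A q V.a₄ 0 := by
    rw [hV, variableChange_a₄]
    convert hdx.neg h using 1
    simp only [inv_one, Units.val_one, dX]; ring
  have a₆ : V.a₆ = 0 := by
    have := (equation_iff_variableChange _ _).mp he
    rw [equation_zero] at this
    exact this
  -- with the singular point at the origin all terms of `Δ` reduce to zero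
  have gb₄ : Gt A q V.b₄ 0 :=
    ((two.mul_gt h a₄).mono (by simp)).add h ((a₁.mul_gt h a₃).mono (by simp))
  have gb₆ : Gt A q V.b₆ 0 := by
    rw [b₆, a₆, mul_zero, add_zero, sq]
    exact (a₃.mul_ge h a₃.ge).mono (by simp)
  have gb₂ : Ge A q V.b₂ 0 :=
    ((a₁.pow h 2).mono (by simp)).add h
      (((by simpa using ge_natCast (A := A) h 4 : Ge A q (4 : ℚbar) 0).mul h a₂).mono (by simp))
  have gb₈ : Gt A q V.b₈ 0 := by
    have : V.b₈ = (-(V.a₁ * V.a₄) + V.a₂ * V.a₃) * V.a₃ - V.a₄ * V.a₄ := by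
      rw [b₈, a₆]; ring
    rw [this]
    exact (((((a₁.mul h a₄.ge).mono (by simp)).neg h).add h
      ((a₂.mul h a₃.ge).mono (by simp)) : Ge A q _ 0).mul_gt h a₃ |>.mono (by simp)).sub h
        ((a₄.mul_ge h a₄.ge).mono (by simp))
  have gΔ : Gt A q V.Δ 0 := by
    have e : V.Δ = -(V.b₂ ^ 2) * V.b₈ + (-8 * V.b₄ ^ 2) * V.b₄ + (-27 * V.b₆) * V.b₆
        + (9 * V.b₂ * V.b₄) * V.b₆ := by rw [Δ]; ring
    rw [e]
    have num : ∀ n : ℕ, Ge A q (n : ℚbar) 0 := fun n => ge_natCast h n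
    refine ((((((gb₂.pow h 2).neg h).mul_gt h gb₈).mono (by simp)).add h
      (((((num 8).neg h).mul h (gb₄.ge.pow h 2)).mul_gt h gb₄).mono (by simp))).add h
      (((((num 27).neg h).mul h gb₆.ge).mul_gt h gb₆).mono (by simp))).add h
      ((((((num 9).mul h gb₂).mul h gb₄.ge)).mul_gt h gb₆).mono (by simp))
  rw [hV, variableChange_Δ, inv_one, Units.val_one, one_pow, one_mul] at gΔ
  exact hΔ.not_gt gΔ

/-- In good reduction every point is in `E₀`. -/
lemma inE0_of_good (h : IsPlace A q) (hgood : ¬ (q : ℤ) ∣ W.Δ) :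
    ∀ P : (overQbar W).Point, InE0 A q P
  | .zero => trivial
  | .some _ _ hns => singRed_absurd_of_good W h hgood hns.1

section Inertia

variable (h : IsPlace A q) {σ : ℚbar ≃ₐ[ℚ] ℚbar} (hσ : IsInert A σ)
include h hσ

/-- For inert `σ` and `P` in `E₀` the difference `σ P - P` lies in `E₁`. -/
theorem smul_sub_inE1 : ∀ {P : (overQbar W).Point}, InE0 A q P → InE1 A q (σ • P - P)
  | .zero, _ => by
    rw [← Point.zero_def, gal_smul_zero, sub_zero]; trivial
  | .some x y hns, hP => by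
    have hW := integralAt_overQbar W h
    obtain ⟨hns', e⟩ := smul_some W σ hns
    rw [e, sub_eq_add_neg, Point.neg_some]
    by_cases hx : Ge A q x 0
    · have hy := ge_y h hW hns.1 hx
      have dx := hσ.gt_sub h hx
      have dy := hσ.gt_sub h hy
      refine inE1_add_of_opposite h hW hns' _ (hσ.ge_apply h hx) hx dx ?_ fun hs => hP ?_
      · rwa [negY_negY]
      · exact singRed_of_near h hW hx (by simpa using dx.neg h) (by simpa using dy.neg h) hs
    · have hx' : ¬ Ge A q (σ x) 0 := by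
        intro hg
        apply hx
        simpa [Ge, hσ.ord_apply h x] using hg
      exact InE1.add h hW (P := Point.some _ _ hns') (Q := Point.some _ _
        ((nonsingular_neg ..).mpr hns))
        hx' hx

omit hσ in
/-- At a prime of multiplicative reduction an integral translation gives a nodal model. -/
lemma exists_nodal (hΔ : W.Δ ≠ 0) (hbad : (q : ℤ) ∣ W.Δ) (hss : ¬ (q : ℤ) ∣ W.c₄) :
    ∃ C : VariableChange ℚbar, ∃ r t : ℤ, C = ⟨1, (r : ℚbar), 0, (t : ℚbar)⟩ ∧
      IsNodal A q (changed C (overQbar W)) (padicValInt q W.Δ) (padicValInt q W.Δ + 1) := by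
  set m := padicValInt q W.Δ with hm
  obtain ⟨r, t, h3, h4, h6, hb⟩ := exists_node_int W h.1 hbad hss (m + 1)
  refine ⟨_, r, t, rfl, ?_⟩
  set V := trans r t • W with hV
  have hVΔ : V.Δ = W.Δ := trans_Δ W r t
  obtain ⟨hva, ha0⟩ := padicValInt_a₆_eq V h.1 h3 h4 h6 hb (hVΔ ▸ hΔ)
    (by rw [hVΔ]; exact Nat.lt_succ_self m)
  have eV : changed (⟨1, (r : ℚbar), 0, (t : ℚbar)⟩ : VariableChange ℚbar) (overQbar W)
      = overQbar V := by
    ext <;>
      simp [changed, overQbar, hV, trans, variableChange_a₁, variableChange_a₂, variableChange_a₃,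
        variableChange_a₄, variableChange_a₆]
  rw [eV]
  have hmpos : 0 < m := by
    have := Fact.mk h.1
    exact (padicValInt_dvd_iff 1 W.Δ |>.mp (by simpa using hbad)).resolve_left hΔ
  refine ⟨integralAt_overQbar V h, by exact_mod_cast hmpos, lt_add_one _, ?_, ?_, ?_, ?_⟩
  · rw [overQbar_a₃]; exact_mod_cast ge_intCast_of_dvd h h3
  · rw [overQbar_a₄]; exact_mod_cast ge_intCast_of_dvd h h4
  · rw [overQbar_a₆]
    refine ⟨Int.cast_ne_zero.mpr ha0, ?_⟩
    rw [ord_intCast h ha0, hva, hVΔ]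
  · have : (overQbar V).b₂ = ((V.b₂ : ℤ) : ℚbar) := by
      simp [overQbar, WeierstrassCurve.baseChange, map_b₂]
    rw [this]; exact is_intCast h hb

omit hσ in
/-- An integral translation preserves the kernel of reduction. -/
lemma inE1_pointHom {r t : ℤ} : ∀ (P : (overQbar W).Point),
    InE1 A q (pointHom (⟨1, (r : ℚbar), 0, (t : ℚbar)⟩ : VariableChange ℚbar) _ P) ↔ InE1 A q P
  | .zero => Iff.rfl
  | .some x y hns => by
    refine not_congr ?_
    simp only [newX, Units.val_one, one_pow, div_one]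
    exact ⟨fun e => by simpa using e.add h (ge_intCast h r), fun e => e.sub h (ge_intCast h r)⟩

omit hσ in
/-- An integral translation preserves non-singular reduction. -/
lemma inE0_pointHom {r t : ℤ} : ∀ (P : (overQbar W).Point),
    InE0 A q (pointHom (⟨1, (r : ℚbar), 0, (t : ℚbar)⟩ : VariableChange ℚbar) _ P) ↔ InE0 A q P
  | .zero => Iff.rfl
  | .some x y hns => by
    refine not_congr ?_
    set C : VariableChange ℚbar := ⟨1, (r : ℚbar), 0, (t : ℚbar)⟩ with hC
    have e1 := dX_new C (overQbar W) x y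
    have e2 := dY_new C (overQbar W) x y
    simp only [hC, Units.val_one, one_pow, mul_one, zero_mul, add_zero] at e1 e2
    have ex : Ge A q (newX C x) 0 ↔ Ge A q x 0 := by
      simp only [newX, hC, Units.val_one, one_pow, div_one]
      exact ⟨fun e => by simpa using e.add h (ge_intCast h r), fun e => e.sub h (ge_intCast h r)⟩
    simp only [SingRed, dX, dY]
    rw [ex, e1, e2]

/-- At a node, for inert `σ` and `P` killed by an odd prime `p`, `σ P - P` lies in `E₀`,
and in `E₁` if `p` divides `ord Δ`. -/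
theorem node_sub (hΔ : W.Δ ≠ 0) (hbad : (q : ℤ) ∣ W.Δ) (hss : ¬ (q : ℤ) ∣ W.c₄)
    {p : ℕ} (hp : p.Prime) (hp2 : p ≠ 2) {P : (overQbar W).Point} (hP : p • P = 0) :
    InE0 A q (σ • P - P) ∧ (p ∣ padicValInt q W.Δ → InE1 A q (σ • P - P)) := by
  by_cases hP0 : InE0 A q P
  · have := smul_sub_inE1 W h hσ hP0
    exact ⟨this.inE0, fun _ => this⟩
  -- otherwise pass to the nodal model, where `P` has low abscissa
  obtain ⟨C, r, t, rfl, hN⟩ := exists_nodal W h hΔ hbad hss
  set φ := pointHom (⟨1, (r : ℚbar), 0, (t : ℚbar)⟩ : VariableChange ℚbar) (overQbar W) with hφ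
  rcases P with _ | ⟨x, y, hns⟩
  · exact absurd trivial hP0
  have hφP : p • φ (Point.some x y hns) = 0 := by rw [← map_nsmul, hP, map_zero]
  have hφ0 : ¬ InE0 A q (φ (Point.some x y hns)) := fun e => hP0 ((inE0_pointHom W h _).mp e)
  obtain ⟨x₁, y₁, hns₁, s, e₁, hlow⟩ := low_of_torsion h hN (hp.odd_of_ne_two hp2) hφP hφ0
  obtain ⟨hns', eσ⟩ := smul_some W σ hns
  rw [hφ, pointHom_some] at e₁
  obtain ⟨ex₁, ey₁⟩ := Point.some.inj e₁
  have hσx : σ x₁ = newX (⟨1, (r : ℚbar), 0, (t : ℚbar)⟩ : VariableChange ℚbar) (σ x) := by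
    rw [← ex₁]; simp [newX]
  have hσy : σ y₁ = newY (⟨1, (r : ℚbar), 0, (t : ℚbar)⟩ : VariableChange ℚbar) (σ x) (σ y) := by
    rw [← ey₁]; simp [newY]
  have hnsσ : (changed (⟨1, (r : ℚbar), 0, (t : ℚbar)⟩ : VariableChange ℚbar)
      (overQbar W)).Nonsingular (σ x₁) (σ y₁) := by
    rw [hσx, hσy]; exact nonsingular_new _ _ hns'
  have ediff : φ (σ • Point.some x y hns - Point.some x y hns) =
      Point.some (σ x₁) (σ y₁) hnsσ - Point.some x₁ y₁ hns₁ := by
    rw [map_sub, eσ, hφ, pointHom_some, pointHom_some]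
    simp only [hσx, hσy, ex₁, ey₁]
  have hIs' : Is A q (σ x₁) s := hσ.is_apply h hlow.2.2.1
  -- inertia keeps the tangent direction and, when `p ∣ ord Δ`, the leading term
  have hz : Gt A q (σ y₁ / σ x₁ - y₁ / x₁) 0 := by
    have hdiv : Ge A q (y₁ / x₁) 0 := by simpa using hlow.2.2.2.div h hlow.2.2.1
    simpa [map_div₀] using hσ.gt_sub h hdiv
  obtain ⟨H0, H1⟩ := sub_low h hN hnsσ hns₁ hlow hIs' hz
  refine ⟨(inE0_pointHom W h _).mp (ediff ▸ H0),
    fun hdvd => (inE1_pointHom W h _).mp (ediff ▸ H1 ?_)⟩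
  have hφP' : p • Point.some x₁ y₁ hns₁ = 0 := by
    rw [← e₁]; rw [hφ, pointHom_some] at hφP; exact hφP
  obtain ⟨j, hj⟩ := component h hN hp hp2 hφP' hlow
  obtain ⟨k, hk⟩ := hdvd
  rw [hk] at hj
  have hs : s = ((j * k : ℤ) : ℚ) := by
    apply mul_left_cancel₀ (show (p : ℚ) ≠ 0 by exact_mod_cast hp.ne_zero)
    rw [hj]; push_cast; ring
  rw [hs]
  exact hσ.gt_sub_of_int h (hs ▸ hlow.2.2.1.ge)

/-- Semistable: inertia moves torsion points into `E₀`. -/
theorem smul_sub_inE0 (hΔ : W.Δ ≠ 0) (hss : (q : ℤ) ∣ W.Δ → ¬ (q : ℤ) ∣ W.c₄)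
    {p : ℕ} (hp : p.Prime) (hp2 : p ≠ 2) {P : (overQbar W).Point} (hP : p • P = 0) :
    InE0 A q (σ • P - P) := by
  by_cases hbad : (q : ℤ) ∣ W.Δ
  · exact (node_sub W h hσ hΔ hbad (hss hbad) hp hp2 hP).1
  · exact inE0_of_good W h hbad _

/-- **Unramifiedness** of the `p`-torsion (`p` odd) at a semistable `q ≠ p` when `p ∣ ord_q Δ`. -/
theorem smul_eq_self (hΔ : W.Δ ≠ 0) (hss : (q : ℤ) ∣ W.Δ → ¬ (q : ℤ) ∣ W.c₄)
    {p : ℕ} (hp : p.Prime) (hp2 : p ≠ 2) (hqp : q ≠ p) (hdvd : p ∣ padicValInt q W.Δ)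
    {P : (overQbar W).Point} (hP : p • P = 0) : σ • P = P := by
  have hE1 : InE1 A q (σ • P - P) := by
    by_cases hbad : (q : ℤ) ∣ W.Δ
    · exact (node_sub W h hσ hΔ hbad (hss hbad) hp hp2 hP).2 hdvd
    · exact smul_sub_inE1 W h hσ (inE0_of_good W h hbad P)
  refine sub_eq_zero.mp (eq_zero_of_nsmul_eq_zero h (integralAt_overQbar W h) hE1 (n := p) ?_ ?_)
  · exact fun e => hqp ((Nat.prime_dvd_prime_iff_eq h.1 hp).mp e)
  · exact nsmul_gal_sub W hP

/-- Unipotence at `q ≠ p`. -/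
theorem smul_sub_smul_sub (hΔ : W.Δ ≠ 0) (hss : (q : ℤ) ∣ W.Δ → ¬ (q : ℤ) ∣ W.c₄)
    {p : ℕ} (hp : p.Prime) (hp2 : p ≠ 2) (hqp : q ≠ p)
    {P : (overQbar W).Point} (hP : p • P = 0) : σ • (σ • P - P) = σ • P - P := by
  have hR : p • (σ • P - P) = 0 := nsmul_gal_sub W hP
  refine sub_eq_zero.mp (eq_zero_of_nsmul_eq_zero h (integralAt_overQbar W h)
    (smul_sub_inE1 W h hσ (smul_sub_inE0 W h hσ hΔ hss hp hp2 hP)) (n := p) ?_ ?_)
  · exact fun e => hqp ((Nat.prime_dvd_prime_iff_eq h.1 hp).mp e)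
  · exact nsmul_gal_sub W hR

end Inertia

end Fermat.EC
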