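import Fermat.Agent.EC.DivPoly
import Fermat.Agent.EC.DivPolyModP
import Fermat.Agent.EC.EDSPattern
import Mathlib.FieldTheory.IsAlgClosed.Basic
import Mathlib.Algebra.Module.Torsion.Basic
import Mathlib.Algebra.Polynomial.Splits

/-!
# The number of `n`-torsion points is `n²`

`card_torsionBy`, by division polynomials (`DivPoly`); it makes `E[p]` two-dimensional.
-/

set_option autoImplicit false
set_option linter.unusedSectionVars false

open Polynomial WeierstrassCurve WeierstrassCurve.Affine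

namespace Fermat.EC

variable {K : Type*} [Field K] [DecidableEq K] [CharZero K] {W : Affine K}

/-- Every abscissa lies under a point of the curve. -/
lemma exists_equation [IsAlgClosed K] (W : Affine K) (x : K) : ∃ y, W.Equation x y := by
  obtain ⟨z, hz⟩ := IsAlgClosed.exists_pow_nat_eq (quadF W x) (n := 2) two_pos
  refine ⟨(z - W.a₁ * x - W.a₃) / 2, ?_⟩
  rw [equation_iff]
  simp only [quadF, b₂, b₄, b₆] at hz
  field_simp
  linear_combination hz

/-- The value of `Ψ₃` is `x` times that of `Ψ₂²` minus the numerator of the duplication formula. -/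
lemma eval_Ψ₃_eq (x : K) :
    (WeierstrassCurve.Ψ₃ W).eval x = x * quadF W x - dblNum W x := by
  simp [quadF, dblNum, WeierstrassCurve.Ψ₃]
  ring

/-- `ψ_{a+2} ψ_{a-2} = ψ₂² ψ_{a+1} ψ_{a-1} - ψ₃ ψ_a²` at a point good up to `a + 1`. -/
lemma eval_rel_of_good {x y : K} (h : W.Nonsingular x y) {a : ℕ} (ha : 2 ≤ a)
    (hg : GoodUpTo W x y (a + 1)) :
    wv W x y ((a : ℤ) + 2) * wv W x y ((a : ℤ) - 2) =
      psiY W x y ^ 2 * (wv W x y ((a : ℤ) + 1) * wv W x y ((a : ℤ) - 1))
        - wv W x y 3 * wv W x y a ^ 2 := by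
  obtain ⟨xa, ya, hqa, ea, Da⟩ := mulFormula_of_good h a (by omega) (hg.mono (by omega))
  obtain ⟨xp, yp, hp, ep, Dp⟩ := mulFormula_of_good h (a + 1) (by omega) hg
  obtain ⟨xq, yq, hq, eq_, Dq⟩ := mulFormula_of_good h (a - 1) (by omega) (hg.mono (by omega))
  have wa := hg a (by omega) (by omega)
  have wp := hg (a + 1) (by omega) le_rfl
  have wq := hg (a - 1) (by omega) (by omega)
  have c1 : ((a - 1 : ℕ) : ℤ) = (a : ℤ) - 1 := by omega
  have c2 : ((a + 1 : ℕ) : ℤ) = (a : ℤ) + 1 := by omega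
  rw [c1] at Dq wq; rw [c2] at Dp wp
  rw [show (a : ℤ) + 1 + 1 = a + 2 by ring, show (a : ℤ) + 1 - 1 = a by ring] at Dp
  rw [show (a : ℤ) - 1 + 1 = a by ring, show (a : ℤ) - 1 - 1 = a - 2 by ring] at Dq
  have hx : xa ≠ x := by
    intro e'
    rw [e', sub_self, zero_mul] at Da
    rcases mul_eq_zero.mp Da.symm with h0 | h0
    · exact wp h0
    · exact wq h0
  have hxp : xp = W.addX xa x (W.slope xa x ya y) := by
    rw [succ_nsmul, ea, Point.add_of_X_ne hx] at ep
    exact ((Point.some.inj ep).1).symm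
  have hxq : xq = W.addX xa x (W.slope xa x ya (W.negY x y)) := by
    have : (a - 1) • Point.some x y h = a • Point.some x y h + - Point.some x y h := by
      conv_rhs => rw [show a = (a - 1) + 1 by omega, succ_nsmul]
      abel
    rw [eq_, ea, Point.neg_some, Point.add_of_X_ne hx] at this
    exact (Point.some.inj this).1
  -- the product of the abscissa differences at `(a ± 1) P`
  have key := sub_addX_double hqa.1 h.1 hx
  rw [← hxp, ← hxq] at key
  have hF := psiY_sq W h.1
  have h3 : wv W x y 3 = x * quadF W x - dblNum W x := by rw [wv_three, eval_Ψ₃_eq]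
  rw [h3, hF]
  generalize wv W x y ((a : ℤ) + 2) = u2 at *
  generalize wv W x y ((a : ℤ) - 2) = v2 at *
  generalize wv W x y ((a : ℤ) + 1) = u1 at *
  generalize wv W x y ((a : ℤ) - 1) = v1 at *
  generalize wv W x y (a : ℤ) = w0 at *
  generalize quadF W x = F at *
  generalize dblNum W x = N at *
  apply mul_left_cancel₀ (mul_ne_zero (pow_ne_zero 2 wa) (mul_ne_zero (pow_ne_zero 2 wp)
    (pow_ne_zero 2 wq)))
  -- multiply through by the three squares
  calc w0 ^ 2 * (u1 ^ 2 * v1 ^ 2) * (u2 * v2)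
      = ((x - xp) * u1 ^ 2) * ((x - xq) * v1 ^ 2) * ((x - xa) * w0 ^ 2) ^ 2 := by
        rw [Dp, Dq, Da]; ring
    _ = -((xa * F - N) * (w0 ^ 2) ^ 2 * (u1 ^ 2 * v1 ^ 2)) := by rw [key]; ring
    _ = w0 ^ 2 * (u1 ^ 2 * v1 ^ 2) * (F * ((x - xa) * w0 ^ 2) - (x * F - N) * w0 ^ 2) := by ring
    _ = w0 ^ 2 * (u1 ^ 2 * v1 ^ 2) * (F * (u1 * v1) - (x * F - N) * w0 ^ 2) := by rw [Da]

/-- The reduced division polynomials of positive index are not zero. -/
lemma preΨ_natCast_ne_zero (W : Affine K) {k : ℕ} (hk : 1 ≤ k) :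
    WeierstrassCurve.preΨ W (k : ℤ) ≠ 0 :=
  WeierstrassCurve.preΨ_ne_zero W (by exact_mod_cast (show k ≠ 0 by omega))

/-- The polynomial `Ψ₂²` is not zero. -/
lemma Ψ₂Sq_ne_zero_of_charZero (W : Affine K) : WeierstrassCurve.Ψ₂Sq W ≠ 0 :=
  WeierstrassCurve.Ψ₂Sq_ne_zero W (by norm_num)

/-- Finitely many exceptional x-coordinates up to level `n`. -/
noncomputable def badX (W : Affine K) (n : ℕ) : Finset K :=
  (WeierstrassCurve.Ψ₂Sq W).roots.toFinset ∪
    (Finset.Icc 1 n).biUnion fun k => (WeierstrassCurve.preΨ W (k : ℤ)).roots.toFinset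

/-- Off the exceptional abscissae the first `n` division values do not vanish. -/
lemma good_of_notMem_badX {x y : K} (h : W.Equation x y) {n : ℕ} (hx : x ∉ badX W n) :
    GoodUpTo W x y n := by
  intro k h1 h2
  simp only [badX, Finset.mem_union, Finset.mem_biUnion, Multiset.mem_toFinset, mem_roots',
    Finset.mem_Icc, not_or, not_exists, not_and] at hx
  have hF : psiY W x y ≠ 0 := by
    intro e
    apply hx.1 (Ψ₂Sq_ne_zero_of_charZero W)
    rw [IsRoot.def, ← quadF_eq_eval, ← psiY_sq W h, e]; ring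
  simp only [wv]
  refine mul_ne_zero (fun e => hx.2 k ⟨h1, h2⟩ (preΨ_natCast_ne_zero W h1) e) ?_
  split_ifs <;> simp [hF]

/-- The recurrence of the reduced division polynomials with step two. -/
theorem preΨ_rel [IsAlgClosed K] (hΔ : W.Δ ≠ 0) {a : ℕ} (ha : 2 ≤ a) :
    WeierstrassCurve.preΨ W ((a : ℤ) + 2) * WeierstrassCurve.preΨ W ((a : ℤ) - 2) =
      WeierstrassCurve.preΨ W ((a : ℤ) + 1) * WeierstrassCurve.preΨ W ((a : ℤ) - 1)
          * (if Even a then 1 else WeierstrassCurve.Ψ₂Sq W ^ 2)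
        - WeierstrassCurve.Ψ₃ W * WeierstrassCurve.preΨ W (a : ℤ) ^ 2 := by
  apply eq_of_infinite_eval_eq
  apply Set.Infinite.mono (s := (↑(badX W (a + 1)) : Set K)ᶜ) ?_
    (Set.Finite.infinite_compl (Finset.finite_toSet _))
  -- compare values at the cofinitely many good abscissae
  intro x hx
  simp only [Set.mem_compl_iff, Finset.mem_coe] at hx
  obtain ⟨y, hy⟩ := exists_equation W x
  have h : W.Nonsingular x y := (equation_iff_nonsingular_of_Δ_ne_zero hΔ).mp hy
  have hg := good_of_notMem_badX hy hx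
  have key := eval_rel_of_good h ha hg
  have hF := psiY_sq W hy
  have hne : psiY W x y ≠ 0 := by
    have := hg 2 (by omega) (by omega); rwa [Nat.cast_ofNat, wv_two] at this
  simp only [Set.mem_ofPred_eq, eval_mul, eval_sub, eval_pow]
  rw [wv_three] at key
  by_cases he : Even a
  · have he' : Even (a : ℤ) := by exact_mod_cast he
    simp only [wv, Int.even_add, Int.even_sub, even_two, Int.not_even_one, he',
      iff_false, not_true_eq_false, if_true, if_false, mul_one] at key
    simp only [he, if_true, eval_one, mul_one]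
    apply mul_left_cancel₀ (pow_ne_zero 2 hne)
    linear_combination key
  · have he' : ¬ Even (a : ℤ) := by exact_mod_cast he
    simp only [wv, Int.even_add, Int.even_sub, even_two, Int.not_even_one, he', iff_true,
        if_true, if_false, mul_one] at key
    simp only [he, if_false, eval_pow, ← quadF_eq_eval, ← hF]
    linear_combination key

/-- `Ψ₃` does not vanish at a point of order two, for a non-singular curve. -/
lemma Ψ₃_ne_zero_of_Ψ₂Sq_eq_zero (hΔ : W.Δ ≠ 0) {x : K}
    (hF : (WeierstrassCurve.Ψ₂Sq W).eval x = 0) : (WeierstrassCurve.Ψ₃ W).eval x ≠ 0 := by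
  rw [← quadF_eq_eval] at hF
  set y := (-W.a₁ * x - W.a₃) / 2 with hy
  have hY : psiY W x y = 0 := by simp only [psiY, hy]; ring
  have hE : W.Equation x y := by
    rw [equation_iff]
    simp only [quadF, b₂, b₄, b₆] at hF
    rw [hy]
    field_simp
    linear_combination (-1 : K) * hF
  obtain ⟨-, hX | hY'⟩ := (nonsingular_iff' ..).mp
    ((equation_iff_nonsingular_of_Δ_ne_zero hΔ).mp hE)
  · intro h3
    apply hX
    simp only [psiY] at hY
    rw [equation_iff] at hE
    have e3 : W.a₃ = -2 * y - W.a₁ * x := by linear_combination hY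
    have e6 : W.a₆ = y ^ 2 + W.a₁ * x * y + W.a₃ * y - x ^ 3 - W.a₂ * x ^ 2 - W.a₄ * x := by
      linear_combination -hE
    simp only [WeierstrassCurve.Ψ₃, eval_add, eval_mul, eval_pow, eval_ofNat, eval_X, eval_C, b₂,
      b₄, b₆, b₈, e6] at h3
    rw [e3] at h3
    have : (W.a₁ * y - (3 * x ^ 2 + 2 * W.a₂ * x + W.a₄)) ^ 2 = 0 := by
      linear_combination -h3
    exact sq_eq_zero_iff.mp this
  · exact absurd hY hY'

/-- The values of the reduced division polynomials form a normalised elliptic divisibility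
sequence. -/
lemma eval_preΨ (x : K) (k : ℕ) : (WeierstrassCurve.preΨ W (k : ℤ)).eval x =
    preNormEDS' ((WeierstrassCurve.Ψ₂Sq W).eval x ^ 2) ((WeierstrassCurve.Ψ₃ W).eval x)
      ((WeierstrassCurve.preΨ₄ W).eval x) k := by
  rw [preΨ_ofNat, WeierstrassCurve.preΨ', ← coe_evalRingHom, map_preNormEDS', map_pow]

variable [IsAlgClosed K]

/-- Off the points of order two adjacent division polynomials have no common zero. -/
lemma preΨ_not_adjacent_zero (hΔ : W.Δ ≠ 0) {x : K}
    (hF : (WeierstrassCurve.Ψ₂Sq W).eval x ≠ 0) (k : ℕ) (hk : 1 ≤ k)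
    (h0 : (WeierstrassCurve.preΨ W (k : ℤ)).eval x = 0) :
    (WeierstrassCurve.preΨ W ((k + 1 : ℕ) : ℤ)).eval x ≠ 0 := by
  by_cases h3 : (WeierstrassCurve.Ψ₃ W).eval x = 0
  · intro h1
    rw [eval_preΨ, h3, ModP.preΨ₄_eval_of_Ψ₃ W h3] at h0 h1
    have hb : ((WeierstrassCurve.Ψ₂Sq W).eval x) ^ 2 ≠ 0 := pow_ne_zero _ hF
    rw [preNormEDS'_eq_zero_iff_of_c_eq_zero hb (neg_ne_zero.mpr hb)] at h0 h1
    omega
  induction k using Nat.strong_induction_on with
  | _ k ih =>
    intro h1
    rcases Nat.lt_or_ge k 3 with hk3 | hk3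
    · interval_cases k <;> simp at h0
    obtain ⟨a, rfl⟩ : ∃ a, k = a + 1 := ⟨k - 1, by omega⟩
    have key := congrArg (eval x) (preΨ_rel hΔ (a := a) (by omega))
    simp only [eval_mul, eval_sub, eval_pow] at key
    push_cast at h0 h1
    rw [show ((a : ℤ) + 1 + 1) = (a : ℤ) + 2 by ring] at h1
    rw [h0, h1] at key
    simp only [zero_mul, zero_sub] at key
    have h2 : (WeierstrassCurve.preΨ W (a : ℤ)).eval x = 0 := by
      rw [zero_eq_neg, mul_eq_zero] at key
      exact sq_eq_zero_iff.mp (key.resolve_left h3)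
    exact ih a (by omega) (by omega) h2 (by push_cast; exact h0)

/-- `Φₙ` and `ΨSqₙ` have no common root. -/
lemma Φ_ΨSq_no_common_root (hΔ : W.Δ ≠ 0) {n : ℕ} (hn : 1 ≤ n) {x : K}
    (h0 : (WeierstrassCurve.ΨSq W (n : ℤ)).eval x = 0) :
    (WeierstrassCurve.Φ W (n : ℤ)).eval x ≠ 0 := by
  rw [WeierstrassCurve.Φ, eval_sub, eval_mul, h0, mul_zero, zero_sub, neg_ne_zero, eval_mul,
    eval_mul]
  rw [WeierstrassCurve.ΨSq, eval_mul, eval_pow, mul_eq_zero, sq_eq_zero_iff] at h0
  have hsucc : ((n : ℤ) + 1) = ((n + 1 : ℕ) : ℤ) := by push_cast; ring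
  have hpred : ((n : ℤ) - 1) = ((n - 1 : ℕ) : ℤ) := by omega
  have he : Even (n : ℤ) ↔ Even n := Int.even_coe_nat n
  -- at a root of `Ψ₂Sq` odd indices do not vanish, elsewhere adjacent ones
  by_cases hF : (WeierstrassCurve.Ψ₂Sq W).eval x = 0
  · have h3 := Ψ₃_ne_zero_of_Ψ₂Sq_eq_zero hΔ hF
    have hodd : ∀ k : ℕ, Odd k → (WeierstrassCurve.preΨ W (k : ℤ)).eval x ≠ 0 := by
      intro k hk
      rw [eval_preΨ, hF, zero_pow two_ne_zero]
      exact preNormEDS'_ne_zero_of_odd_of_b_eq_zero _ h3 k hk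
    rcases Nat.even_or_odd n with h | h
    · simp only [he, h, if_true, eval_one]
      rw [hsucc, hpred]
      exact mul_ne_zero (mul_ne_zero (hodd _ h.add_one)
        (hodd _ (Nat.Even.sub_odd hn h odd_one))) one_ne_zero
    · simp only [he, Nat.not_even_iff_odd.mpr h, if_false, eval_one, one_ne_zero, or_false] at h0
      exact absurd h0 (hodd n h)
  · have h0' : (WeierstrassCurve.preΨ W (n : ℤ)).eval x = 0 := by
      rcases h0 with h | h
      · exact h
      · split_ifs at h with h'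
        · exact absurd h hF
        · simp at h
    have hn2 : 2 ≤ n := by
      by_contra hlt
      obtain rfl : n = 1 := by omega
      simp at h0'
    refine mul_ne_zero (mul_ne_zero ?_ ?_) ?_
    · rw [hsucc]; exact preΨ_not_adjacent_zero hΔ hF n hn h0'
    · rw [hpred]; intro h
      exact preΨ_not_adjacent_zero hΔ hF (n - 1) (by omega) h
        (by rw [show n - 1 + 1 = n by omega]; exact h0')
    · split_ifs <;> simp [hF]

omit [IsAlgClosed K] in
/-- The value of `ΨSqₙ` is the square of the `n`-th division value. -/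
lemma eval_ΨSq_eq_wv {x y : K} (h : W.Equation x y) (n : ℤ) :
    (WeierstrassCurve.ΨSq W n).eval x = wv W x y n ^ 2 := by
  simp only [WeierstrassCurve.ΨSq, wv, eval_mul, eval_pow]
  split_ifs
  · rw [← quadF_eq_eval, ← psiY_sq W h]; ring
  · simp

omit [IsAlgClosed K] in
/-- `Φₙ` in terms of values of `ψ`. -/
lemma eval_Φ_eq_wv {x y : K} (h : W.Equation x y) (n : ℤ) :
    (WeierstrassCurve.Φ W n).eval x =
      x * wv W x y n ^ 2 - wv W x y (n + 1) * wv W x y (n - 1) := by
  rw [← eval_ΨSq_eq_wv h, WeierstrassCurve.Φ]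
  simp only [eval_sub, eval_mul, eval_X, wv, Int.even_add, Int.even_sub, Int.not_even_one,
    iff_false]
  by_cases hn : Even n
  · simp [hn]
  · simp only [hn, if_false, not_false_eq_true, if_true, ← quadF_eq_eval, ← psiY_sq W h]
    ring

/-- The Wronskian of `Φₙ` and `ΨSqₙ` is nonzero, so multiplication by `n` is separable. -/
lemma wronskian_ne_zero (hΔ : W.Δ ≠ 0) {n : ℕ} (hn : 1 ≤ n) :
    derivative (WeierstrassCurve.Φ W (n : ℤ)) * WeierstrassCurve.ΨSq W (n : ℤ)
      - WeierstrassCurve.Φ W (n : ℤ) * derivative (WeierstrassCurve.ΨSq W (n : ℤ)) ≠ 0 := by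
  intro hw
  rw [sub_eq_zero] at hw
  set f := WeierstrassCurve.Φ W (n : ℤ) with hf
  set g := WeierstrassCurve.ΨSq W (n : ℤ) with hg
  have hn0 : ((n : ℤ) : K) ≠ 0 := by exact_mod_cast (show n ≠ 0 by omega)
  have hfd : f.natDegree = n ^ 2 := by rw [hf, WeierstrassCurve.natDegree_Φ]; simp
  have hf0 : derivative f ≠ 0 := by
    intro h
    have := derivative_eq_zero.1 h
    rw [hfd] at this
    have : n ≠ 0 := by omega
    simp_all
  have hg0 : g ≠ 0 := WeierstrassCurve.ΨSq_ne_zero W hn0
  have hfne : f ≠ 0 := WeierstrassCurve.Φ_ne_zero W _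
  -- compare multiplicities at a root of `g`, which is no root of `f`
  by_cases hd : g.natDegree = 0
  · rw [eq_C_of_natDegree_eq_zero hd, derivative_C, mul_zero] at hw
    rcases mul_eq_zero.mp hw with h | h
    · exact hf0 h
    · exact hg0 (by rw [eq_C_of_natDegree_eq_zero hd, h])
  · obtain ⟨r, hr⟩ := IsAlgClosed.exists_root g
      (fun h => hd (natDegree_eq_zero_iff_degree_le_zero.mpr h.le))
    have hfr : f.eval r ≠ 0 := Φ_ΨSq_no_common_root hΔ hn hr
    have hg'0 : derivative g ≠ 0 := fun h => hd (derivative_eq_zero.1 h)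
    have e := congrArg (rootMultiplicity r) hw
    rw [rootMultiplicity_mul (mul_ne_zero hf0 hg0), rootMultiplicity_mul (mul_ne_zero hfne hg'0),
      rootMultiplicity_eq_zero hfr, derivative_rootMultiplicity_of_root hr] at e
    have := (rootMultiplicity_pos hg0).mpr hr
    omega

omit [IsAlgClosed K] in
/-- Multiplication by `n` on the first coordinate, away from the bad abscissae. -/
private lemma nsmul_some_eq {x y : K} (h : W.Nonsingular x y) {n : ℕ} (hn : 1 ≤ n)
    (hgd : GoodUpTo W x y n) :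
    ∃ y' h', n • Point.some x y h = Point.some
      ((WeierstrassCurve.Φ W (n : ℤ)).eval x / (WeierstrassCurve.ΨSq W (n : ℤ)).eval x) y' h' := by
  obtain ⟨xn, yn, hn', en, Dn⟩ := mulFormula_of_good h n hn hgd
  have hwn := hgd n hn le_rfl
  have : (WeierstrassCurve.Φ W (n : ℤ)).eval x / (WeierstrassCurve.ΨSq W (n : ℤ)).eval x = xn := by
    rw [eval_Φ_eq_wv h.1, eval_ΨSq_eq_wv h.1, ← Dn, div_eq_iff (pow_ne_zero _ hwn)]
    ring
  subst this
  exact ⟨yn, hn', en⟩

/-- A value of `Φ_n / Ψ_n²` taken at exactly `n²` abscissae, none of them bad. -/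
private lemma exists_generic_value (hΔ : W.Δ ≠ 0) {n : ℕ} (hn : 1 ≤ n) :
    ∃ c, c ∉ badX W n ∧
      WeierstrassCurve.Φ W (n : ℤ) - C c * WeierstrassCurve.ΨSq W (n : ℤ) ≠ 0 ∧
      (WeierstrassCurve.Φ W (n : ℤ) -
        C c * WeierstrassCurve.ΨSq W (n : ℤ)).roots.toFinset.card = n ^ 2 ∧
      ∀ x, (WeierstrassCurve.Φ W (n : ℤ) - C c * WeierstrassCurve.ΨSq W (n : ℤ)).IsRoot x →
        x ∉ badX W n ∧
        (WeierstrassCurve.Φ W (n : ℤ)).eval x / (WeierstrassCurve.ΨSq W (n : ℤ)).eval x = c := by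
  classical
  set f := WeierstrassCurve.Φ W (n : ℤ) with hf
  set g := WeierstrassCurve.ΨSq W (n : ℤ) with hg
  set wr := derivative f * g - f * derivative g with hwr
  have hwr0 : wr ≠ 0 := wronskian_ne_zero hΔ hn
  set B : Finset K :=
    badX W n ∪ ((wr.roots.toFinset ∪ badX W n).image fun x => f.eval x / g.eval x) with hB
  obtain ⟨c, hc⟩ := Infinite.exists_notMem_finset B
  simp only [hB, Finset.mem_union, Finset.mem_image, not_or, not_exists, not_and,
    Multiset.mem_toFinset] at hc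
  obtain ⟨hc1, hc2⟩ := hc
  set q := f - C c * g with hq
  have hfd : f.natDegree = n ^ 2 := by rw [hf, WeierstrassCurve.natDegree_Φ]; simp
  have hgd : g.natDegree ≤ n ^ 2 - 1 := by
    rw [hg]
    simpa using WeierstrassCurve.natDegree_ΨSq_le W (n : ℤ)
  have hpos : 0 < n ^ 2 := pow_pos (by omega) 2
  have hlt : (C c * g).natDegree < f.natDegree := (natDegree_C_mul_le c g).trans_lt (by omega)
  have hqd : q.natDegree = n ^ 2 := by
    rw [hq, natDegree_sub_eq_left_of_natDegree_lt hlt, hfd]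
  have hq0 : q ≠ 0 := fun h => by rw [h, natDegree_zero] at hqd; omega
  have hroot : ∀ x, q.IsRoot x → f.eval x = c * g.eval x := fun x h => by
    simpa [hq, sub_eq_zero] using h
  have hg_ne : ∀ x, q.IsRoot x → g.eval x ≠ 0 := fun x h e => by
    have := hroot x h
    rw [e, mul_zero] at this
    exact Φ_ΨSq_no_common_root hΔ hn e this
  have hdiv : ∀ x, q.IsRoot x → f.eval x / g.eval x = c := fun x h => by
    rw [hroot x h, mul_div_assoc, div_self (hg_ne x h), mul_one]
  have hgood : ∀ x, q.IsRoot x → x ∉ badX W n := fun x h hb => hc2 x (Or.inr hb) (hdiv x h)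
  -- a repeated root would be a root of the Wronskian
  have hnodup : q.roots.Nodup := by
    rw [Multiset.nodup_iff_count_le_one]
    intro x
    rw [count_roots]
    by_contra h
    obtain ⟨h1, h2⟩ := (one_lt_rootMultiplicity_iff_isRoot hq0).mp
      (show 1 < rootMultiplicity x q by omega)
    have e2 : (derivative f).eval x = c * (derivative g).eval x := by
      simpa [hq, sub_eq_zero] using h2
    refine hc2 x (Or.inl ((mem_roots hwr0).mpr ?_)) (hdiv x h1)
    rw [IsRoot.def, hwr, eval_sub, eval_mul, eval_mul, e2, hroot x h1]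
    ring
  have hqcard : q.roots.toFinset.card = n ^ 2 := by
    rw [Multiset.toFinset_card_of_nodup hnodup, IsAlgClosed.card_roots_eq_natDegree, hqd]
  exact ⟨c, hc1, hq0, hqcard, fun x h => ⟨hgood x h, hdiv x h⟩⟩

/-- A generic point has exactly `n²` preimages under multiplication by `n`. -/
private lemma card_nsmul_eq (hΔ : W.Δ ≠ 0) {n : ℕ} (hn : 1 ≤ n) {c yc : K}
    (hR : W.Nonsingular c yc) (hc : c ∉ badX W n)
    (hq0 : WeierstrassCurve.Φ W (n : ℤ) - C c * WeierstrassCurve.ΨSq W (n : ℤ) ≠ 0)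
    (hqcard : (WeierstrassCurve.Φ W (n : ℤ) -
        C c * WeierstrassCurve.ΨSq W (n : ℤ)).roots.toFinset.card = n ^ 2)
    (hroots : ∀ x, (WeierstrassCurve.Φ W (n : ℤ) - C c * WeierstrassCurve.ΨSq W (n : ℤ)).IsRoot x →
        x ∉ badX W n ∧
        (WeierstrassCurve.Φ W (n : ℤ)).eval x / (WeierstrassCurve.ΨSq W (n : ℤ)).eval x = c) :
    Nat.card {P : W.Point // n • P = Point.some c yc hR} = n ^ 2 := by
  classical
  set f := WeierstrassCurve.Φ W (n : ℤ) with hf
  set g := WeierstrassCurve.ΨSq W (n : ℤ) with hg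
  set q := f - C c * g with hq
  set R := Point.some c yc hR with hRdef
  have hRk := (goodUpTo_iff hR n).mp (good_of_notMem_badX hR.1 hc)
  have hRneg : R ≠ -R := by
    intro e
    rw [hRdef, Point.neg_some, Point.some.injEq] at e
    have hcF : (WeierstrassCurve.Ψ₂Sq W).eval c ≠ 0 := by
      intro h
      apply hc
      simp only [badX, Finset.mem_union, Multiset.mem_toFinset]
      exact Or.inl ((mem_roots (Ψ₂Sq_ne_zero_of_charZero W)).mpr h)
    apply hcF
    rw [← quadF_eq_eval, ← psiY_sq W hR.1, psiY_eq_sub_negY, sub_eq_zero.mpr e.2]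
    ring
  have hsol : ∀ P : W.Point, n • P = R → ∃ x y h, P = Point.some x y h ∧ q.IsRoot x := by
    rintro (_ | ⟨x, y, h⟩) hP
    · rw [← Point.zero_def, smul_zero] at hP
      exact absurd hP.symm (Point.some_ne_zero hR)
    · refine ⟨x, y, h, rfl, ?_⟩
      have hgd : GoodUpTo W x y n := (goodUpTo_iff h n).mpr fun k h1 h2 e => hRk k h1 h2 (by
        change k • R = 0; rw [← hP, smul_comm, e, smul_zero])
      obtain ⟨y', h', e⟩ := nsmul_some_eq h hn hgd
      rw [hP] at e
      have e1 := (Point.some.inj e).1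
      have hgx : g.eval x ≠ 0 := by
        rw [hg, eval_ΨSq_eq_wv h.1]; exact pow_ne_zero _ (hgd n hn le_rfl)
      rw [eq_div_iff hgx] at e1
      rw [IsRoot.def, hq, eval_sub, eval_mul, eval_C, ← e1, sub_self]
  -- solutions correspond to the roots of `q` through their abscissae
  choose! sx sy sh seq sroot using hsol
  rw [← hqcard, ← Nat.card_eq_finsetCard]
  refine Nat.card_eq_of_bijective
    (fun P => ⟨sx P.1, by rw [Multiset.mem_toFinset, mem_roots hq0]; exact sroot P.1 P.2⟩)
    ⟨?_, ?_⟩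
  · rintro ⟨P, hP⟩ ⟨P', hP'⟩ e
    simp only [Subtype.mk.injEq] at e
    have h1 := seq P hP
    have h2 := seq P' hP'
    apply Subtype.ext
    rcases (Point.X_eq_iff (h₁ := sh P hP) (h₂ := sh P' hP')).mp e with h' | h'
    · exact h1.trans (h'.trans h2.symm)
    · exfalso
      apply hRneg
      calc R = n • P := hP.symm
        _ = n • (-P') := congrArg _ (h1.trans (h'.trans (congrArg Neg.neg h2.symm)))
        _ = -R := by rw [smul_neg, hP']
  · rintro ⟨x, hx⟩
    rw [Multiset.mem_toFinset, mem_roots hq0] at hx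
    obtain ⟨y, hy⟩ := exists_equation W x
    have h : W.Nonsingular x y := (equation_iff_nonsingular_of_Δ_ne_zero hΔ).mp hy
    obtain ⟨y', h', e⟩ := nsmul_some_eq h hn (good_of_notMem_badX hy (hroots x hx).1)
    have e' : Point.some _ y' h' = R ∨ Point.some _ y' h' = -R :=
      Point.X_eq_iff.mp (hroots x hx).2
    have fin : ∀ Q : W.Point, n • Q = R → (Q = Point.some x y h ∨ Q = -Point.some x y h) →
        sx Q = x := by
      intro Q hQ hor
      rcases hor with rfl | rfl
      · exact (Point.some.inj (seq _ hQ)).1.symm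
      · exact (Point.some.inj ((Point.neg_some h).symm.trans (seq _ hQ))).1.symm
    rcases e' with e' | e'
    · exact ⟨⟨_, e.trans e'⟩, Subtype.ext (fin _ (e.trans e') (Or.inl rfl))⟩
    · have : n • (-Point.some x y h) = R := by rw [smul_neg, e, e', neg_neg]
      exact ⟨⟨_, this⟩, Subtype.ext (fin _ this (Or.inr rfl))⟩

/-- **`#E[n] = n²`** over an algebraically closed field of characteristic zero. -/
theorem card_torsionBy (hΔ : W.Δ ≠ 0) {n : ℕ} (hn : 1 ≤ n) :
    Nat.card (Submodule.torsionBy ℤ W.Point (n : ℤ)) = n ^ 2 := by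
  classical
  -- the fibre of a generic point has `n²` elements and is a torsor under the torsion
  obtain ⟨c, hc, hq0, hqcard, hroots⟩ := exists_generic_value hΔ hn
  obtain ⟨yc, hyc⟩ := exists_equation W c
  have hRns : W.Nonsingular c yc := (equation_iff_nonsingular_of_Δ_ne_zero hΔ).mp hyc
  have hcard := card_nsmul_eq hΔ hn hRns hc hq0 hqcard hroots
  obtain ⟨⟨P0, hP0⟩⟩ : Nonempty {P : W.Point // n • P = Point.some c yc hRns} :=
    (Nat.card_pos_iff.mp (hcard ▸ pow_pos (by omega) 2)).1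
  rw [← hcard]
  refine Nat.card_congr
    { toFun := fun T => ⟨T.1 + P0, ?_⟩
      invFun := fun P => ⟨P.1 - P0, ?_⟩
      left_inv := fun T => by ext1; simp
      right_inv := fun P => by ext1; simp }
  · have := T.2
    rw [Submodule.mem_torsionBy_iff, natCast_zsmul] at this
    rw [smul_add, this, zero_add, hP0]
  · rw [Submodule.mem_torsionBy_iff, natCast_zsmul, smul_sub, P.2, hP0, sub_self]

end Fermat.EC
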