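import Fermat.Agent.EC.Semistable
import Fermat.Agent.EC.Torsion
import Fermat.Agent.EC.Sparse
import Fermat.Agent.EC.DivPolyModP
import Mathlib.FieldTheory.Finite.Basic

/-!
# `p`-torsion in the kernel of reduction at a place over `p`

If `W/ℤ` is semistable at `p ≥ 5` and `E[p]` has a Galois stable line, then the points of `E[p]`
in the kernel of reduction form a line whose formal parameters have order `1/(p-1)`.
-/

set_option autoImplicit false
set_option linter.unusedSectionVars false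

open Polynomial WeierstrassCurve WeierstrassCurve.Affine Fermat.EC.Val Fermat.EC.Red
open scoped WeierstrassCurve.Affine

namespace Fermat.EC.Line

local notation "ℚbar" => AlgebraicClosure ℚ

variable (W : WeierstrassCurve ℤ)

/-- Abscissa (junk value `0` at `0`). -/
noncomputable def xco : (overQbar W).Point → ℚbar
  | .zero => 0
  | .some x _ _ => x

/-- The `p`-torsion. -/
def tors (p : ℕ) : AddSubgroup (overQbar W).Point where
  carrier := {P | p • P = 0}
  add_mem' {a b} ha hb := by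
    change p • (a + b) = 0
    rw [nsmul_add, show p • a = 0 from ha, show p • b = 0 from hb, add_zero]
  zero_mem' := nsmul_zero _
  neg_mem' {a} ha := by
    change p • (-a) = 0
    rw [neg_nsmul, show p • a = 0 from ha, neg_zero]

variable {W}

/-- Membership in the `p`-torsion. -/
lemma mem_tors {p : ℕ} {P : (overQbar W).Point} : P ∈ tors W p ↔ p • P = 0 := Iff.rfl

/-- The curve over `ℚ̄` is the image of the integral one. -/
lemma overQbar_eq_map : (overQbar W : WeierstrassCurve ℚbar) = W.map (Int.castRingHom ℚbar) := by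
  ext <;> simp [overQbar]

/-- The division polynomials over `ℚ̄` are the images of the integral ones. -/
lemma preΨ'_overQbar (n : ℕ) : (overQbar W).preΨ' n = (W.preΨ' n).map (Int.castRingHom ℚbar) := by
  rw [← map_preΨ', ← overQbar_eq_map]

/-- The discriminant over `ℚ̄` is not zero. -/
lemma Δ_overQbar_ne (hΔ : W.Δ ≠ 0) : (overQbar W).Δ ≠ 0 := by
  rw [overQbar_Δ]; exact_mod_cast hΔ

section prime

variable {p : ℕ} (hp : p.Prime)
include hp

/-- A nonzero `p`-torsion point has order `p`. -/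
lemma nsmul_ne_zero_of_lt {P : (overQbar W).Point} (hP : p • P = 0) (hP0 : P ≠ 0) {k : ℕ}
    (hk0 : 0 < k) (hk : k < p) : k • P ≠ 0 := by
  intro e
  have h1 := addOrderOf_dvd_of_nsmul_eq_zero e
  have h2 := addOrderOf_dvd_of_nsmul_eq_zero hP
  rcases (Nat.dvd_prime hp).mp h2 with h | h
  · exact hP0 (AddMonoid.addOrderOf_eq_one_iff.mp h)
  · rw [h] at h1; exact absurd (Nat.le_of_dvd hk0 h1) (not_le.mpr hk)

/-- The abscissa of a nonzero `p`-torsion point is a root of the division polynomial. -/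
lemma root_of_torsion (hp2 : p ≠ 2) {P : (overQbar W).Point} (hP : p • P = 0) (hP0 : P ≠ 0) :
    ((W.preΨ' p).map (Int.castRingHom ℚbar)).IsRoot (xco W P) := by
  rcases P with _ | ⟨x, y, hns⟩
  · exact absurd rfl hP0
  have h := wv_eq_zero_of_order hns hp.one_le
    (fun k h1 h2 => nsmul_ne_zero_of_lt hp hP hP0 h1 h2) hP
  have hodd : ¬ Even (p : ℤ) := by
    rw [Int.even_coe_nat, Nat.not_even_iff_odd]; exact hp.odd_of_ne_two hp2
  rw [wv, if_neg hodd, mul_one, preΨ_ofNat, preΨ'_overQbar] at h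
  exact h

end prime

/-- There are `p ^ 2` points killed by `p`. -/
lemma natCard_tors (hΔ : W.Δ ≠ 0) {p : ℕ} (hp : 1 ≤ p) : Nat.card (tors W p) = p ^ 2 := by
  rw [← card_torsionBy (Δ_overQbar_ne hΔ) hp]
  refine Nat.card_congr (Equiv.subtypeEquivRight fun P => ?_)
  rw [Submodule.mem_torsionBy_iff, natCast_zsmul, mem_tors]

/-- Points with the same abscissa agree up to sign. -/
lemma fiber_xco {P Q : (overQbar W).Point} (hP : P ≠ 0) (hQ : Q ≠ 0)
    (e : xco W Q = xco W P) : Q = P ∨ Q = -P := by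
  rcases P with _ | ⟨x, y, hns⟩
  · exact absurd rfl hP
  rcases Q with _ | ⟨x', y', hns'⟩
  · exact absurd rfl hQ
  exact Point.X_eq_iff.mp e

open scoped Classical in
/-- The fibre of the `x`-coordinate on a symmetric set of nonzero torsion points of odd prime order
has two elements. -/
lemma card_fiber {p : ℕ} (hp : p.Prime) (hp2 : p ≠ 2) {s : Finset (overQbar W).Point}
    (hs : ∀ Q ∈ s, p • Q = 0 ∧ Q ≠ 0) (hneg : ∀ Q ∈ s, -Q ∈ s) {x : ℚbar}
    (hx : x ∈ s.image (xco W)) : (s.filter fun Q => xco W Q = x).card = 2 := by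
  obtain ⟨P, hP, rfl⟩ := Finset.mem_image.mp hx
  obtain ⟨hPp, hP0⟩ := hs P hP
  have hne : P ≠ -P := by
    intro e
    have e2 : 2 • P = 0 := by
      rw [two_nsmul]
      nth_rewrite 2 [e]
      exact add_neg_cancel P
    exact nsmul_ne_zero_of_lt hp hPp hP0 two_pos (lt_of_le_of_ne hp.two_le (Ne.symm hp2)) e2
  have : (s.filter fun Q => xco W Q = xco W P) = {P, -P} := by
    ext Q
    simp only [Finset.mem_filter, Finset.mem_insert, Finset.mem_singleton]
    constructor
    · rintro ⟨hQ, e⟩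
      exact fiber_xco hP0 (hs Q hQ).2 e
    · rintro (rfl | rfl)
      · exact ⟨hP, rfl⟩
      · refine ⟨hneg P hP, ?_⟩
        rcases P with _ | ⟨x, y, hns⟩
        · rfl
        · rw [Point.neg_some]; rfl
  rw [this, Finset.card_pair hne]

section nonzero

variable (hΔ : W.Δ ≠ 0) {p : ℕ} (hp : p.Prime)
include hΔ hp

/-- The `p`-torsion is finite. -/
lemma finite_tors : Finite (tors W p) :=
  Nat.finite_of_card_ne_zero (by rw [natCard_tors hΔ hp.one_le]; exact pow_ne_zero _ hp.ne_zero)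

/-- The nonzero `p`-torsion points. -/
noncomputable def nzTors : Finset (overQbar W).Point :=
  haveI := finite_tors hΔ hp
  ((tors W p : Set (overQbar W).Point) \ {0}).toFinite.toFinset

/-- Membership in the nonzero `p`-torsion. -/
lemma mem_nzTors {P : (overQbar W).Point} :
    P ∈ nzTors hΔ hp ↔ p • P = 0 ∧ P ≠ 0 := by
  simp [nzTors, mem_tors]

/-- There are `p² - 1` nonzero `p`-torsion points. -/
lemma card_nzTors : (nzTors hΔ hp).card = p ^ 2 - 1 := by
  have := finite_tors hΔ hp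
  rw [nzTors, ← Set.ncard_eq_toFinset_card _,
    Set.ncard_sdiff (by simp [(tors W p).zero_mem]), Set.ncard_singleton,
    ← Nat.card_coe_set_eq]
  exact congrArg (· - 1) (natCard_tors hΔ hp.one_le)

/-- Negation preserves the nonzero torsion. -/
lemma nzTors_neg {Q : (overQbar W).Point} (hQ : Q ∈ nzTors hΔ hp) :
    -Q ∈ nzTors hΔ hp := by
  rw [mem_nzTors hΔ hp] at hQ ⊢
  exact ⟨by rw [neg_nsmul, hQ.1, neg_zero], neg_ne_zero.mpr hQ.2⟩

open scoped Classical in
/-- `ψ_p = p ∏ (X - x(P))` over `P ∈ (E[p] ∖ 0)/±`. -/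
theorem preΨ'_factor (hp2 : p ≠ 2) :
    (W.preΨ' p).map (Int.castRingHom ℚbar) =
      C (p : ℚbar) * ∏ x ∈ (nzTors hΔ hp).image (xco W), (X - C x) ∧
    2 * ((nzTors hΔ hp).image (xco W)).card = p ^ 2 - 1 ∧
    ((nzTors hΔ hp).image (xco W)).card =
      ((W.preΨ' p).map (Int.castRingHom ℚbar)).natDegree := by
  set X₀ := (nzTors hΔ hp).image (xco W) with hX₀
  set f := (W.preΨ' p).map (Int.castRingHom ℚbar) with hf
  have hpK : ((p : ℕ) : ℚbar) ≠ 0 := Nat.cast_ne_zero.mpr hp.ne_zero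
  have hodd : ¬ Even p := Nat.not_even_iff_odd.mpr (hp.odd_of_ne_two hp2)
  have hd : f.natDegree = (p ^ 2 - 1) / 2 := by
    rw [hf, ← preΨ'_overQbar, natDegree_preΨ' _ hpK, if_neg hodd]
  have hl : f.leadingCoeff = p := by
    rw [hf, ← preΨ'_overQbar, leadingCoeff_preΨ' _ hpK, if_neg hodd]
  have hcard : 2 * X₀.card = p ^ 2 - 1 := by
    rw [← card_nzTors hΔ hp, Finset.card_eq_sum_card_image (xco W) (nzTors hΔ hp),
      Finset.sum_congr rfl fun x hx => card_fiber hp hp2 (fun Q hQ => (mem_nzTors hΔ hp).mp hQ)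
        (fun Q => nzTors_neg hΔ hp) hx]
    simp [mul_comm, hX₀]
  have hf0 : f ≠ 0 := fun e => by rw [e, leadingCoeff_zero] at hl; exact hpK hl.symm
  -- the abscissae are roots and are as many as the degree
  have hsub : X₀.val ≤ f.roots := by
    rw [Multiset.le_iff_subset X₀.nodup]
    intro x hx
    rw [← Finset.mem_def] at hx
    obtain ⟨P, hP, rfl⟩ := Finset.mem_image.mp hx
    obtain ⟨h1, h2⟩ := (mem_nzTors hΔ hp).mp hP
    exact (mem_roots hf0).mpr (root_of_torsion hp hp2 h1 h2)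
  have heq : f.roots = X₀.val := by
    refine (Multiset.eq_of_le_of_card_le hsub ?_).symm
    have := Polynomial.card_roots' f
    change Multiset.card f.roots ≤ X₀.card
    omega
  refine ⟨?_, hcard, by omega⟩
  conv_lhs => rw [(IsAlgClosed.splits f).eq_prod_roots, hl, heq]
  rw [Finset.prod_eq_multiset_prod]

end nonzero

variable (hΔ : W.Δ ≠ 0) {p : ℕ} (hp : p.Prime) (hp5 : 5 ≤ p)
include hΔ hp hp5

variable {A : ValuationSubring ℚbar} (h : IsPlace A p)
  (hss : (p : ℤ) ∣ W.Δ → ¬ (p : ℤ) ∣ W.c₄)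
include h hss

open scoped Classical in
/-- Orders of the nonintegral abscissae. -/
theorem sum_nonint :
    ∑ x ∈ ((nzTors hΔ hp).image (xco W)).filter (fun x => ¬ Ge A p x 0), ord A p x = -1 ∧
    ((∀ x ∈ (nzTors hΔ hp).image (xco W), ¬ Ge A p x 0) →
      ∀ x ∈ (nzTors hΔ hp).image (xco W),
        ((p ^ 2 - 1 : ℕ) : ℚ) * ord A p x = -2) := by
  obtain ⟨hfac, hcard, hdeg⟩ := preΨ'_factor hΔ hp (by omega)
  set X₀ := (nzTors hΔ hp).image (xco W) with hX₀
  have hpK : ((p : ℕ) : ℚbar) ≠ 0 := Nat.cast_ne_zero.mpr hp.ne_zero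
  obtain ⟨h1, h2⟩ := ord_nonintegral_roots h (W.preΨ' p) (ModP.preΨ'_map_ne_zero W hp hp5 hss)
    (p : ℚbar) hpK X₀ _ (fun x => Finset.mem_filter) hfac
  rw [ord_q h] at h1
  refine ⟨by linarith, fun hall x hx => ?_⟩
  have hxne : x ≠ 0 := fun e => hall x hx (Or.inl e)
  set f := (W.preΨ' p).map (Int.castRingHom ℚbar) with hf
  have hd0 : 0 < X₀.card := Finset.card_pos.mpr ⟨x, hx⟩
  have hb : Is A p (f.coeff X₀.card) 1 := by
    rw [hdeg, ← leadingCoeff, hfac, leadingCoeff_mul, leadingCoeff_C,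
      (monic_prod_of_monic _ _ fun y _ => monic_X_sub_C y).leadingCoeff, mul_one]
    exact ⟨hpK, ord_q h⟩
  have hmid : ∀ i, 0 < i → i < X₀.card → Ge A p (f.coeff i) (max 0 1) := by
    intro i hi _
    have := h2 (fun y hy => Finset.mem_filter.mpr ⟨hy, hall y hy⟩) i hi
    rw [hf, coeff_map, eq_intCast, max_eq_right (zero_le_one' ℚ)]
    exact_mod_cast ge_intCast_of_dvd h (k := 1) (by simpa using this)
  -- if no abscissa is integral the reduction is a nonzero constant
  have h0 : Is A p (f.coeff 0) 0 := by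
    rw [hf, coeff_map, eq_intCast]
    apply is_intCast h
    intro hd
    apply ModP.preΨ'_map_ne_zero W hp hp5 hss
    ext i
    rw [coeff_map, coeff_zero, eq_intCast, ZMod.intCast_zmod_eq_zero_iff_dvd]
    rcases Nat.eq_zero_or_pos i with rfl | hi
    · exact hd
    · exact h2 (fun y hy => Finset.mem_filter.mpr ⟨hy, hall y hy⟩) i hi
  have hroot : f.eval x = 0 := by
    rw [hfac, eval_mul, eval_prod, Finset.prod_eq_zero hx (by simp), mul_zero]
  have := ord_root_of_sparse h (hdeg ▸ le_rfl : f.natDegree ≤ X₀.card) hd0 h0 hb hmid hxne hroot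
  have e : ((p ^ 2 - 1 : ℕ) : ℚ) = 2 * (X₀.card : ℚ) := by
    rw [← hcard]; push_cast; rfl
  rw [e, mul_assoc, this]; norm_num

/-- With a Galois stable line, some `p`-torsion point does not reduce to `0`. -/
theorem exists_not_inE1 {P₀ : (overQbar W).Point} (hP : p • P₀ = 0) (hP0 : P₀ ≠ 0)
    (hstab : ∀ σ : ℚbar ≃ₐ[ℚ] ℚbar, ∃ k : ℕ, σ • P₀ = k • P₀) :
    ∃ Q : (overQbar W).Point, p • Q = 0 ∧ ¬ InE1 A p Q := by
  classical
  by_contra hcon
  push Not at hcon
  have := Fact.mk hp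
  obtain ⟨-, hall⟩ := sum_nonint hΔ hp hp5 h hss
  have hall' := hall fun x hx => by
    obtain ⟨P, hP', rfl⟩ := Finset.mem_image.mp hx
    obtain ⟨h1, h2⟩ := (mem_nzTors hΔ hp).mp hP'
    have := hcon P h1
    rcases P with _ | ⟨x, y, hns⟩
    · exact absurd rfl h2
    · exact this
  set g : (ZMod p)ˣ → (overQbar W).Point := fun u => (u : ZMod p).val • P₀ with hg
  have hmod : ∀ k : ℕ, k • P₀ = (k % p) • P₀ := fun k => by
    conv_lhs => rw [← Nat.mod_add_div k p]
    rw [add_nsmul, mul_comm, mul_nsmul', hP, nsmul_zero, add_zero]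
  have hg0 : ∀ u, g u ∈ nzTors hΔ hp := fun u => (mem_nzTors hΔ hp).mpr
    ⟨by simp only [hg]; rw [← mul_nsmul, mul_nsmul', hP, nsmul_zero],
      nsmul_ne_zero_of_lt hp hP hP0
        (Nat.pos_of_ne_zero (by rw [Ne, ZMod.val_eq_zero]; exact u.ne_zero)) (ZMod.val_lt _)⟩
  have hmap : ∀ (σ : ℚbar ≃ₐ[ℚ] ℚbar) (P : (overQbar W).Point),
      σ (xco W P) = xco W (σ • P) := by
    rintro σ (_ | ⟨x, y, hns⟩)
    · exact map_zero σ
    · rfl
  -- a rational product of `p - 1` abscissae would have order `-2 / (p + 1)`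
  set π := ∏ u, xco W (g u) with hπ
  have hfix : ∀ σ : ℚbar ≃ₐ[ℚ] ℚbar, σ π = π := by
    intro σ
    obtain ⟨k, hk⟩ := hstab σ
    have hk0 : (k : ZMod p) ≠ 0 := by
      intro e
      rw [ZMod.natCast_eq_zero_iff] at e
      obtain ⟨c, rfl⟩ := e
      rw [mul_comm, mul_nsmul', hP, nsmul_zero] at hk
      exact hP0 (by simpa using congrArg (σ⁻¹ • ·) hk)
    rw [hπ, map_prod]
    refine Fintype.prod_equiv (Equiv.mulLeft (Units.mk0 (k : ZMod p) hk0)) _ _ fun u => ?_
    rw [hmap]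
    congr 1
    simp only [hg, Equiv.coe_mulLeft, Units.val_mul, Units.val_mk0]
    rw [gal_smul_nsmul, hk, ← mul_nsmul', mul_comm, ZMod.val_mul, ZMod.val_natCast,
      Nat.mod_mul_mod, ← hmod]
  obtain ⟨r, hr⟩ := exists_rat_of_fixed hfix
  have hsum : Is A p π (∑ u, ord A p (xco W (g u))) := Is.prod h fun u _ => is_ord fun e => by
    have := hall' _ (Finset.mem_image_of_mem _ (hg0 u))
    rw [e] at this
    simp [ord] at this
  have hr0 : r ≠ 0 := fun e => hsum.1 (by rw [← hr, e, Rat.cast_zero])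
  have hord : ord A p π = (padicValRat p r : ℚ) := by rw [← hr, ord_ratCast h hr0]
  have hval : ∀ u, ord A p (xco W (g u)) = -2 / ((p ^ 2 - 1 : ℕ) : ℚ) := fun u => by
    rw [eq_div_iff (by have := hp.one_lt; exact_mod_cast
      (Nat.sub_pos_of_lt (Nat.one_lt_pow two_ne_zero this)).ne'), mul_comm]
    exact hall' _ (Finset.mem_image_of_mem _ (hg0 u))
  have e := hord.symm.trans hsum.2
  simp only [hval, Finset.sum_const, Finset.card_univ, ZMod.card_units p, nsmul_eq_mul] at e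
  have hp1 : ((p - 1 : ℕ) : ℚ) = (p : ℚ) - 1 := by
    rw [Nat.cast_sub hp.one_le]; simp
  have hp2 : ((p ^ 2 - 1 : ℕ) : ℚ) = ((p : ℚ) - 1) * ((p : ℚ) + 1) := by
    rw [Nat.cast_sub (Nat.one_le_pow _ _ hp.pos)]; push_cast; ring
  have h5 : (5 : ℚ) ≤ p := by exact_mod_cast hp5
  have hne1 : (p : ℚ) - 1 ≠ 0 := by linarith
  have hne2 : (p : ℚ) + 1 ≠ 0 := by linarith
  rw [hp1, hp2] at e
  have e2 : (padicValRat p r : ℚ) * ((p : ℚ) + 1) = -2 := by
    rw [e]; field_simp
  have e3 : padicValRat p r * ((p : ℤ) + 1) = -2 := by exact_mod_cast e2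
  have := Int.le_of_dvd (by norm_num) ((dvd_neg.mp ⟨padicValRat p r, by rw [← e3]; ring⟩ :
    (p : ℤ) + 1 ∣ 2))
  omega

omit hp5 hss in
open scoped Classical in
/-- A kernel of reduction neither zero nor all of `E[p]` is the line through any of its nonzero
points, so has `p - 1` of them. -/
theorem inE1_line_and_card {P₁ Q : (overQbar W).Point} (hP₁ : p • P₁ = 0) (hP₁0 : P₁ ≠ 0)
    (hP₁E : InE1 A p P₁) (hQ : p • Q = 0) (hQE : ¬ InE1 A p Q) :
    (∀ P : (overQbar W).Point, p • P = 0 → InE1 A p P → ∃ k : ℕ, P = k • P₁) ∧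
      ((nzTors hΔ hp).filter (fun P => InE1 A p P)).card = p - 1 := by
  classical
  have := Fact.mk hp
  have := finite_tors hΔ hp
  have hW := integralAt_overQbar W h
  let E1 : AddSubgroup (tors W p) :=
    { carrier := {P | InE1 A p (P : (overQbar W).Point)}
      add_mem' := fun ha hb => InE1.add h hW ha hb
      zero_mem' := inE1_zero (A := A) (q := p) (W := overQbar W)
      neg_mem' := fun {a} ha => InE1.neg (P := (a : (overQbar W).Point)) ha }
  have hne_top : E1 ≠ ⊤ := fun e => hQE (e ▸ AddSubgroup.mem_top (⟨Q, hQ⟩ : tors W p) : _ ∈ E1)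
  have hne_bot : E1 ≠ ⊥ := fun e => by
    have h1 : (⟨P₁, hP₁⟩ : tors W p) ∈ E1 := hP₁E
    rw [e, AddSubgroup.mem_bot] at h1
    exact hP₁0 (congrArg (fun z : tors W p => (z : (overQbar W).Point)) h1)
  -- so the kernel of reduction on `E[p]` is a line
  have hcard : Nat.card E1 = p := by
    have hd := AddSubgroup.card_addSubgroup_dvd_card E1
    rw [natCard_tors hΔ hp.one_le, Nat.dvd_prime_pow hp] at hd
    obtain ⟨i, hi, e⟩ := hd
    interval_cases i
    · exact absurd (AddSubgroup.card_eq_one.mp (by simpa using e)) hne_bot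
    · simpa using e
    · exact absurd (AddSubgroup.eq_top_of_card_eq E1
        (by rw [e, natCard_tors hΔ hp.one_le])) hne_top
  have hgen : ∀ P : (overQbar W).Point, p • P = 0 → InE1 A p P → ∃ k : ℕ, P = k • P₁ := by
    intro P h1 h2
    let g : E1 := ⟨⟨P₁, hP₁⟩, hP₁E⟩
    have hg : g ≠ 0 := fun e => hP₁0
      (congrArg (fun z : E1 => ((z : tors W p) : (overQbar W).Point)) e)
    have := mem_multiples_of_prime_card hcard hg (g' := ⟨⟨P, h1⟩, h2⟩)
    obtain ⟨k, hk⟩ := this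
    exact ⟨k, (congrArg (fun z : E1 => ((z : tors W p) : (overQbar W).Point)) hk).symm.trans
      (by simp [g])⟩
  refine ⟨hgen, ?_⟩
  set T1 := (nzTors hΔ hp).filter (fun P => InE1 A p P) with hT1
  rw [← hcard]
  have : Nat.card E1 = (insert (0 : (overQbar W).Point) T1).card := by
    rw [← Nat.card_eq_finsetCard]
    refine Nat.card_congr ((Equiv.subtypeSubtypeEquivSubtypeInter (· ∈ tors W p)
      (fun P => InE1 A p P)).trans (Equiv.subtypeEquivRight fun P => ?_))
    simp only [Finset.mem_insert, hT1, Finset.mem_filter, mem_nzTors hΔ hp, mem_tors]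
    constructor
    · rintro ⟨h1, h2⟩
      by_cases h3 : P = 0
      · exact Or.inl h3
      · exact Or.inr ⟨⟨h1, h3⟩, h2⟩
    · rintro (rfl | ⟨⟨h1, -⟩, h2⟩)
      · exact ⟨nsmul_zero _, inE1_zero⟩
      · exact ⟨h1, h2⟩
  rw [this, Finset.card_insert_of_notMem (fun e =>
    ((mem_nzTors hΔ hp).mp (Finset.mem_filter.mp e).1).2 rfl)]
  exact (Nat.add_sub_cancel _ 1).symm

/-- **The kernel line**: the `p`-torsion points reducing to `0` are the multiples of a point `P₁`
whose formal parameter has order `1/(p-1)`. -/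
theorem exists_line {P₀ : (overQbar W).Point} (hP : p • P₀ = 0) (hP0 : P₀ ≠ 0)
    (hstab : ∀ σ : ℚbar ≃ₐ[ℚ] ℚbar, ∃ k : ℕ, σ • P₀ = k • P₀) :
    ∃ P₁ : (overQbar W).Point, p • P₁ = 0 ∧ P₁ ≠ 0 ∧ InE1 A p P₁ ∧
      (∀ P : (overQbar W).Point, p • P = 0 → InE1 A p P → ∃ k : ℕ, P = k • P₁) ∧
      Is A p (tpar P₁) (1 / ((p : ℚ) - 1)) := by
  classical
  have := Fact.mk hp
  have := finite_tors hΔ hp
  have hW := integralAt_overQbar W h
  obtain ⟨hsum, -⟩ := sum_nonint hΔ hp hp5 h hss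
  obtain ⟨x, hx⟩ : ∃ x, x ∈ ((nzTors hΔ hp).image (xco W)).filter
      (fun x => ¬ Ge A p x 0) := by
    by_contra hc
    push Not at hc
    rw [Finset.eq_empty_of_forall_notMem hc, Finset.sum_empty] at hsum
    norm_num at hsum
  rw [Finset.mem_filter, Finset.mem_image] at hx
  obtain ⟨⟨P₁, hP₁', rfl⟩, hx1⟩ := hx
  obtain ⟨hP₁, hP₁0⟩ := (mem_nzTors hΔ hp).mp hP₁'
  obtain ⟨x, y, hns, rfl⟩ : ∃ x y hns, P₁ = Point.some x y hns := by
    rcases P₁ with _ | ⟨x, y, hns⟩
    · exact absurd rfl hP₁0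
    · exact ⟨x, y, hns, rfl⟩
  set P₁ := Point.some x y hns
  have hP₁E : InE1 A p P₁ := hx1
  obtain ⟨Q, hQ, hQE⟩ := exists_not_inE1 hΔ hp hp5 h hss hP hP0 hstab
  -- so the kernel of reduction on `E[p]` is a line
  obtain ⟨hgen, hcardT⟩ := inE1_line_and_card hΔ hp h hP₁ hP₁0 hP₁E hQ hQE
  refine ⟨P₁, hP₁, hP₁0, hP₁E, hgen, ?_⟩
  obtain ⟨w, hw, hxw, hyw⟩ := exists_of_not_ge h hW hns.1 hx1
  have ht : Is A p (tpar P₁) w := ge_tpar_of h hxw hyw
  suffices w = 1 / ((p : ℚ) - 1) by rwa [← this]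
  set T1 := (nzTors hΔ hp).filter (fun P => InE1 A p P) with hT1
  -- all points of the line have abscissa of order `-2w`; their total is `-1`
  have hval : ∀ P ∈ T1, ord A p (xco W P) = -2 * w := by
    intro P hP'
    obtain ⟨h1, h2⟩ := Finset.mem_filter.mp hP'
    obtain ⟨h3, h4⟩ := (mem_nzTors hΔ hp).mp h1
    obtain ⟨k, rfl⟩ := hgen P h3 h2
    have hpk : ¬ p ∣ k := by
      rintro ⟨c, rfl⟩
      exact h4 (by rw [mul_comm, mul_nsmul', hP₁, nsmul_zero])
    have hkis := (is_natCast (A := A) h hpk).mul h ht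
    rw [zero_add] at hkis
    have htk := hkis.add h (tpar_nsmul h hW hP₁E hw ht.ge k).2
    rw [add_sub_cancel] at htk
    generalize hR : k • P₁ = R at htk h2 h4
    rcases R with _ | ⟨x', y', hns'⟩
    · exact absurd rfl h4
    obtain ⟨v, hv, hxv, hyv⟩ := exists_of_not_ge h hW hns'.1 h2
    rw [show xco W (Point.some x' y' hns') = x' from rfl, hxv.2,
      (ge_tpar_of h hxv hyv).unique htk]
  have hT1neg : ∀ R ∈ T1, -R ∈ T1 := fun R hR => by
    obtain ⟨h1, h2⟩ := Finset.mem_filter.mp hR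
    exact Finset.mem_filter.mpr ⟨nzTors_neg hΔ hp h1, InE1.neg h2⟩
  have himg : T1.image (xco W) =
      ((nzTors hΔ hp).image (xco W)).filter (fun x => ¬ Ge A p x 0) := by
    rw [Finset.filter_image, hT1]
    congr 1
    refine Finset.filter_congr fun P hP' => ?_
    rcases P with _ | ⟨x', y', hns'⟩
    · exact absurd rfl ((mem_nzTors hΔ hp).mp hP').2
    · exact Iff.rfl
  have h2s : ∑ P ∈ T1, ord A p (xco W P) = 2 * -1 := by
    rw [Finset.sum_comp (fun x => ord A p x) (xco W), ← hsum, ← himg, Finset.mul_sum]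
    exact Finset.sum_congr rfl fun z hz => by
      rw [card_fiber hp (by omega)
        (fun Q hQ => (mem_nzTors hΔ hp).mp (Finset.filter_subset _ _ hQ)) hT1neg hz]
      simp
  rw [Finset.sum_congr rfl hval, Finset.sum_const, hcardT, nsmul_eq_mul,
    Nat.cast_sub hp.one_le, Nat.cast_one] at h2s
  have h5 : (5 : ℚ) ≤ p := by exact_mod_cast hp5
  rw [eq_div_iff (by linarith)]
  linarith

end Fermat.EC.Line
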