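import Fermat.Agent.EC.Descent15
import Mathlib.Tactic.Positivity

/-!
# The simultaneous `3`- and `5`-level parameters: rational solutions

`j = 27 (t+1) (t+9)³ / t³ = (s² + 10 s + 5)³ / s` has only four rational solutions `s`
(`s_cases`, by the descent of `Descent15`), and `absurd_at_five` is what excludes each of them for a
semistable model. Together with `Level35` this is S51.
-/

set_option autoImplicit false

namespace Fermat.EC.X015

/-- An integer strictly between consecutive squares is not a rational square. -/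
lemma not_isSquare_rat {d : ℤ} {r : ℤ} (h0 : 0 ≤ r) (h1 : r ^ 2 < d) (h2 : d < (r + 1) ^ 2) :
    ¬ IsSquare (d : ℚ) := by
  rw [Rat.isSquare_intCast_iff]
  rintro ⟨z, hz⟩
  have hz' : d = |z| ^ 2 := by rw [sq_abs, sq]; exact hz
  rcases le_or_gt |z| r with h | h
  · nlinarith [abs_nonneg z]
  · nlinarith [abs_nonneg z, show r + 1 ≤ |z| by omega]

/-- A quadratic whose discriminant lies strictly between consecutive squares has no rational
root. -/
lemma quad_ne {p q : ℚ} {d r : ℤ} (hd : p ^ 2 - 4 * q = d) (h0 : 0 ≤ r) (h1 : r ^ 2 < d)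
    (h2 : d < (r + 1) ^ 2) (x : ℚ) : x ^ 2 + p * x + q ≠ 0 := fun e =>
  not_isSquare_rat h0 h1 h2 ⟨2 * x + p, by rw [← hd]; linear_combination -4 * e⟩

/-- If `(s, w)` lies on the plane quartic below, then `η = N / D` satisfies a quadratic
equation in `s`: a single large polynomial identity. -/
lemma big_identity {s w : ℚ}
    (hK : -3 * w ^ 4 + (s ^ 2 + 10 * s + 5) * w ^ 3 - 24 * (s * w) - (s ^ 2 + 10 * s + 5) * s = 0) :
    let N := -(5 + 12 * w - 9 * w ^ 2 + 10 * s - 3 * (s * w ^ 2) + s ^ 2)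
    let D := w * (s ^ 2 + 4 * s - 1)
    N ^ 3 * D * s ^ 2 + (D ^ 4 + 9 * N * D ^ 3 + 9 * N ^ 3 * D - N ^ 4) * s
      + 125 * N * D ^ 3 = 0 := by
  intro N D
  simp only [N, D]
  linear_combination (((125) * s ^ 0 + (750) * s ^ 1 + (1575) * s ^ 2 + (1300) * s ^ 3 +
    (315) * s ^ 4 + (30) * s ^ 5 + (1) * s ^ 6) * w ^ 0 + ((375) * s ^ 0 + (2375) * s ^ 1 +
    (5475) * s ^ 2 + (5475) * s ^ 3 + (2245) * s ^ 4 + (405) * s ^ 5 + (33) * s ^ 6 +
    (1) * s ^ 7) * w ^ 1 + ((-5832) * s ^ 1 + (-5832) * s ^ 2 + (-1944) * s ^ 3 +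
    (-216) * s ^ 4) * w ^ 3 + ((2187) * s ^ 1 + (2916) * s ^ 2 + (1458) * s ^ 3 + (324) * s ^ 4 +
    (27) * s ^ 5) * w ^ 4) * hK

/-- The four rational parameters common to the two levels. -/
theorem s_cases {s t : ℚ} (hs : s ≠ 0) (ht : t ≠ 0)
    (h : 27 * (t + 1) * (t + 9) ^ 3 * s = t ^ 3 * (s ^ 2 + 10 * s + 5) ^ 3) :
    s = -25 / 8 ∨ s = -10 ∨ s = -25 / 2 ∨ s = -40 := by
  set F := s ^ 2 + 10 * s + 5 with hF
  have hF0 : F ≠ 0 := quad_ne (d := 80) (r := 8) (by norm_num) (by norm_num) (by norm_num)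
    (by norm_num) s
  have ht9 : t + 9 ≠ 0 := fun e => by
    rw [e] at h
    exact mul_ne_zero (pow_ne_zero 3 ht) (pow_ne_zero 3 hF0) (by linear_combination -h)
  set w := F * t / (3 * (t + 9)) with hw
  have hw' : w * (3 * (t + 9)) = F * t := by
    rw [hw, div_mul_cancel₀ _ (mul_ne_zero three_ne_zero ht9)]
  have hw0 : w ≠ 0 := by
    rw [hw]; exact div_ne_zero (mul_ne_zero hF0 ht) (mul_ne_zero three_ne_zero ht9)
  have hw3 : w ^ 3 = s * (t + 1) := by
    apply mul_left_cancel₀ (pow_ne_zero 3 (mul_ne_zero (three_ne_zero' ℚ) ht9))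
    linear_combination ((w * (3 * (t + 9))) ^ 2 + (w * (3 * (t + 9))) * (F * t) + (F * t) ^ 2) * hw'
      - h
  have hK : -3 * w ^ 4 + F * w ^ 3 - 24 * (s * w) - F * s = 0 := by
    linear_combination (F - 3 * w) * hw3 - s * hw'
  set N := -(5 + 12 * w - 9 * w ^ 2 + 10 * s - 3 * (s * w ^ 2) + s ^ 2) with hN
  set D := w * (s ^ 2 + 4 * s - 1) with hD
  have hD0 : D ≠ 0 := mul_ne_zero hw0
    (quad_ne (p := 4) (q := -1) (d := 20) (r := 4) (by norm_num) (by norm_num) (by norm_num)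
      (by norm_num) s ∘ fun e => by linear_combination e)
  have hG : N ^ 3 * D * s ^ 2 + (D ^ 4 + 9 * N * D ^ 3 + 9 * N ^ 3 * D - N ^ 4) * s
      + 125 * N * D ^ 3 = 0 := by
    rw [hN, hD]
    exact big_identity hK
  set η := N / D with hη
  have hNη : N = η * D := by rw [hη, div_mul_cancel₀ _ hD0]
  clear_value η
  have hrel : η ^ 3 * s ^ 2 + (1 + 9 * η + 9 * η ^ 3 - η ^ 4) * s + 125 * η = 0 := by
    apply mul_left_cancel₀ (pow_ne_zero 4 hD0)
    rw [hNη] at hG
    linear_combination hG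
  have hden : η ^ 2 - 4 * η - 1 ≠ 0 := fun e =>
    quad_ne (p := -4) (q := -1) (d := 20) (r := 4) (by norm_num) (by norm_num) (by norm_num)
      (by norm_num) η (by linear_combination e)
  -- the discriminant gives a rational point on the quartic model of `X₀(15)`
  have hsq : (η ^ 2 + η - 1) * (η ^ 2 - 11 * η - 1) =
      ((2 * η ^ 3 * s + (1 + 9 * η + 9 * η ^ 3 - η ^ 4)) / (η ^ 2 - 4 * η - 1)) ^ 2 := by
    rw [div_pow, eq_div_iff (pow_ne_zero 2 hden)]
    linear_combination (-4 * η ^ 3) * hrel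
  rcases Descent15.rat_solutions hsq with e | e | e
  · rw [e] at hrel
    exact absurd (by linear_combination hrel : s = 0) hs
  · rw [e] at hrel
    have : (8 * s + 25) * (s + 10) = 0 := by linear_combination -hrel
    rcases mul_eq_zero.mp this with e' | e'
    · left; linarith
    · right; left; linarith
  · rw [e] at hrel
    have : (2 * s + 25) * (s + 40) = 0 := by linear_combination 16 * hrel
    rcases mul_eq_zero.mp this with e' | e'
    · right; right; left; linarith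
    · right; right; right; linarith

/-- `e c₄³ = 5^i f Δ` with `e, f` prime to `5` and `0 < i < 3` contradicts semistability at `5`. -/
lemma absurd_at_five {c D e f : ℤ} {i : ℕ} (hi0 : 1 ≤ i) (hi : i ≤ 2)
    (hss : (5 : ℤ) ∣ D → ¬ (5 : ℤ) ∣ c) (he : ¬ (5 : ℤ) ∣ e) (hf : ¬ (5 : ℤ) ∣ f)
    (h : e * c ^ 3 = 5 ^ i * f * D) : False := by
  have h5 : Prime (5 : ℤ) := Nat.prime_iff_prime_int.mp Nat.prime_five
  have hc : (5 : ℤ) ∣ c := by
    refine h5.dvd_of_dvd_pow ((h5.dvd_or_dvd (a := e) (b := c ^ 3) ?_).resolve_left he)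
    rw [h]
    exact ((dvd_pow_self (5 : ℤ) (by omega : i ≠ 0)).mul_right f).mul_right D
  obtain ⟨k, rfl⟩ := hc
  refine (h5.dvd_or_dvd (a := f) (b := D) ⟨5 ^ (2 - i) * (e * k ^ 3), ?_⟩).elim hf
    fun hd => hss hd (dvd_mul_right 5 k)
  apply mul_left_cancel₀ (pow_ne_zero i h5.ne_zero)
  have : (5 : ℤ) ^ i * 5 ^ (2 - i) = 5 ^ 2 := by rw [← pow_add]; congr 1; omega
  linear_combination -h - 5 * e * k ^ 3 * this

end Fermat.EC.X015
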